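/-
S28, chunk CA (helper4), part 4: the generic core.  `E ⊆ F` fields, `V` a valuation subring of
`F` with a "reduction" ring hom `r : V →+* Ω` whose non-vanishing detects units, and elements
`θ i ∈ V` whose reductions are linearly independent over the reduction of `V ∩ E` and which
span `F` over `E`.  Then `V = ⊕ (V ∩ E) θ i`, every element of `V` is integral over `V ∩ E`,
and its minimal polynomial over `E` has coefficients in `V ∩ E`.
-/
import Mathlib

set_option autoImplicit false

namespace Fermat.Agent.S28Lib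

section Core

variable {E F Ω : Type*} [Field E] [Field F] [Field Ω] [Algebra E F]
  (V : ValuationSubring F) (r : V →+* Ω)

/-- Independence of the reductions gives linear independence over `E`. -/
theorem ca_core_linearIndependent {n : ℕ} (θ : Fin n → V)
    (hθ : ∀ (a : Fin n → E) (ha : ∀ i, algebraMap E F (a i) ∈ V),
      ∑ i, r ⟨algebraMap E F (a i), ha i⟩ * r (θ i) = 0 →
        ∀ i, r ⟨algebraMap E F (a i), ha i⟩ = 0) :
    LinearIndependent E (fun i => (θ i : F)) := by
  rw [Fintype.linearIndependent_iff]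
  intro g hg
  by_contra hne
  push Not at hne
  obtain ⟨i₀, hi₀⟩ := hne
  obtain ⟨k, -, hk⟩ := Finset.exists_max_image Finset.univ
    (fun i => V.valuation (algebraMap E F (g i))) ⟨i₀, Finset.mem_univ _⟩
  have hgk : g k ≠ 0 := by
    intro h0
    have h1 := hk i₀ (Finset.mem_univ _)
    simp only [h0, map_zero] at h1
    exact hi₀ ((map_eq_zero (algebraMap E F)).mp
      ((map_eq_zero V.valuation).mp (le_zero_iff.mp h1)))
  have hvk : 0 < V.valuation (algebraMap E F (g k)) :=
    zero_lt_iff.mpr (fun h => hgk ((map_eq_zero (algebraMap E F)).mp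
      ((map_eq_zero V.valuation).mp h)))
  have hb : ∀ i, algebraMap E F (g i / g k) ∈ V := by
    intro i
    rw [← V.valuation_le_one_iff, map_div₀, map_div₀]
    exact (div_le_one₀ hvk).mpr (hk i (Finset.mem_univ _))
  have hsum : ∑ i, (⟨algebraMap E F (g i / g k), hb i⟩ : V) * θ i = 0 := by
    apply Subtype.ext
    rw [ZeroMemClass.coe_zero]
    have : ((∑ i, (⟨algebraMap E F (g i / g k), hb i⟩ : V) * θ i : V) : F) =
        ∑ i, algebraMap E F (g i / g k) * (θ i : F) := by
      simp
    rw [this]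
    have h2 : ∑ i, algebraMap E F (g i / g k) * (θ i : F) =
        algebraMap E F (g k)⁻¹ * ∑ i, g i • (θ i : F) := by
      rw [Finset.mul_sum]
      refine Finset.sum_congr rfl fun i _ => ?_
      rw [Algebra.smul_def, ← mul_assoc, ← map_mul, div_eq_inv_mul]
    rw [h2, hg, mul_zero]
  have h3 := hθ (fun i => g i / g k) hb
    (by rw [← map_zero r, ← hsum, map_sum]; simp only [map_mul]) k
  have h4 : (⟨algebraMap E F (g k / g k), hb k⟩ : V) = 1 :=
    Subtype.ext (by
      show algebraMap E F (g k / g k) = 1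
      rw [div_self hgk, map_one])
  rw [h4, map_one] at h3
  exact one_ne_zero h3

/-- Every element of `V` is a combination of the `θ i` with coefficients in `V ∩ E`. -/
theorem ca_core_coeff_mem (hr : ∀ x : V, r x ≠ 0 → (x : F)⁻¹ ∈ V) {n : ℕ} (θ : Fin n → V)
    (hθ : ∀ (a : Fin n → E) (ha : ∀ i, algebraMap E F (a i) ∈ V),
      ∑ i, r ⟨algebraMap E F (a i), ha i⟩ * r (θ i) = 0 →
        ∀ i, r ⟨algebraMap E F (a i), ha i⟩ = 0)
    (hspan : ⊤ ≤ Submodule.span E (Set.range fun i => (θ i : F))) (x : V) :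
    ∃ a : Fin n → E, (∀ i, algebraMap E F (a i) ∈ V) ∧ (x : F) = ∑ i, a i • (θ i : F) := by
  obtain ⟨g, hg⟩ := (Submodule.mem_span_range_iff_exists_fun E).mp (hspan (Submodule.mem_top :
    (x : F) ∈ ⊤))
  rcases isEmpty_or_nonempty (Fin n) with hemp | ⟨⟨i₀⟩⟩
  · exact ⟨g, fun i => isEmptyElim i, hg.symm⟩
  obtain ⟨k, -, hk⟩ := Finset.exists_max_image Finset.univ
    (fun i => V.valuation (algebraMap E F (g i))) ⟨i₀, Finset.mem_univ _⟩
  by_cases hle : V.valuation (algebraMap E F (g k)) ≤ 1
  · exact ⟨g, fun i => (V.valuation_le_one_iff _).mp ((hk i (Finset.mem_univ _)).trans hle),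
      hg.symm⟩
  exfalso
  push Not at hle
  have hvk : 0 < V.valuation (algebraMap E F (g k)) := zero_lt_one.trans hle
  have hgk : g k ≠ 0 := by
    intro h0
    rw [h0, map_zero, map_zero] at hvk
    exact lt_irrefl _ hvk
  have hb : ∀ i, algebraMap E F (g i / g k) ∈ V := by
    intro i
    rw [← V.valuation_le_one_iff, map_div₀, map_div₀]
    exact (div_le_one₀ hvk).mpr (hk i (Finset.mem_univ _))
  have hc : algebraMap E F (g k)⁻¹ ∈ V := by
    rw [← V.valuation_le_one_iff, map_inv₀, map_inv₀]
    exact (inv_le_one₀ hvk).mpr hle.le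
  have hrc : r ⟨algebraMap E F (g k)⁻¹, hc⟩ = 0 := by
    by_contra hne
    have h1 := hr _ hne
    simp only [map_inv₀, inv_inv] at h1
    exact absurd ((V.valuation_le_one_iff _).mpr h1) (not_le.mpr hle)
  have hsum : (⟨algebraMap E F (g k)⁻¹, hc⟩ : V) * x =
      ∑ i, (⟨algebraMap E F (g i / g k), hb i⟩ : V) * θ i := by
    apply Subtype.ext
    have : ((∑ i, (⟨algebraMap E F (g i / g k), hb i⟩ : V) * θ i : V) : F) =
        ∑ i, algebraMap E F (g i / g k) * (θ i : F) := by
      simp
    rw [this]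
    have h2 : ∑ i, algebraMap E F (g i / g k) * (θ i : F) =
        algebraMap E F (g k)⁻¹ * ∑ i, g i • (θ i : F) := by
      rw [Finset.mul_sum]
      refine Finset.sum_congr rfl fun i _ => ?_
      rw [Algebra.smul_def, ← mul_assoc, ← map_mul, div_eq_inv_mul]
    rw [h2, hg]
    rfl
  have h3 := hθ (fun i => g i / g k) hb
    (by
      have := congrArg r hsum
      rw [map_mul, hrc, zero_mul, map_sum] at this
      rw [this]; simp only [map_mul]) k
  have h4 : (⟨algebraMap E F (g k / g k), hb k⟩ : V) = 1 :=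
    Subtype.ext (by
      show algebraMap E F (g k / g k) = 1
      rw [div_self hgk, map_one])
  rw [h4, map_one] at h3
  exact one_ne_zero h3

/-- Every element of `V` is integral over `V ∩ E`. -/
theorem ca_core_isIntegral (hr : ∀ x : V, r x ≠ 0 → (x : F)⁻¹ ∈ V) {n : ℕ} (θ : Fin n → V)
    (hθ : ∀ (a : Fin n → E) (ha : ∀ i, algebraMap E F (a i) ∈ V),
      ∑ i, r ⟨algebraMap E F (a i), ha i⟩ * r (θ i) = 0 →
        ∀ i, r ⟨algebraMap E F (a i), ha i⟩ = 0)
    (hspan : ⊤ ≤ Submodule.span E (Set.range fun i => (θ i : F))) (x : V) :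
    IsIntegral (V.comap (algebraMap E F)) (x : F) := by
  set V₀ : ValuationSubring E := V.comap (algebraMap E F) with hV₀
  set Nm : Submodule V₀ F := Submodule.span V₀ (Set.range fun i => (θ i : F)) with hNm
  have hsmul : ∀ (v : V₀) (y : F), v • y = algebraMap E F (v : E) * y := fun v y => by
    rw [Algebra.smul_def, IsScalarTower.algebraMap_apply V₀ E F]
    rfl
  have hmemV : ∀ y ∈ Nm, y ∈ V := by
    intro y hy
    induction hy using Submodule.span_induction with
    | mem y hy =>
      obtain ⟨i, rfl⟩ := hy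
      exact (θ i).2
    | zero => exact zero_mem _
    | add y z _ _ hy hz => exact add_mem hy hz
    | smul v y _ hy =>
      rw [hsmul]
      exact mul_mem v.2 hy
  have hcomb : ∀ y : V, (y : F) ∈ Nm := by
    intro y
    obtain ⟨a, ha, hy⟩ := ca_core_coeff_mem V r hr θ hθ hspan y
    rw [hy]
    refine Submodule.sum_mem _ fun i _ => ?_
    have h1 : a i • (θ i : F) = (⟨a i, ha i⟩ : V₀) • (θ i : F) := by
      rw [hsmul, Algebra.smul_def]
    rw [h1]
    exact Submodule.smul_mem _ _ (Submodule.subset_span ⟨i, rfl⟩)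
  refine isIntegral_of_smul_mem_submodule Nm ?_ (Submodule.fg_span (Set.finite_range _)) (x : F)
    ?_
  · intro hbot
    have h1 : (1 : F) ∈ Nm := by
      have := hcomb 1
      rwa [OneMemClass.coe_one] at this
    rw [hbot, Submodule.mem_bot] at h1
    exact one_ne_zero h1
  · intro y hy
    have := hcomb (x * ⟨y, hmemV y hy⟩)
    rwa [MulMemClass.coe_mul] at this

end Core

/-- Coefficients of the minimal polynomial of an integral element over an integrally closed
domain lie in that domain. -/
theorem ca_minpoly_coeff_mem {R E F : Type*} [CommRing R] [IsDomain R] [Field E] [Field F]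
    [Algebra R E] [IsFractionRing R E] [IsIntegrallyClosed R] [Algebra E F] [Algebra R F]
    [IsScalarTower R E F] {c : F} (hc : IsIntegral R c) (i : ℕ) :
    (minpoly E c).coeff i ∈ Set.range (algebraMap R E) := by
  rw [minpoly.isIntegrallyClosed_eq_field_fractions' E hc, Polynomial.coeff_map]
  exact ⟨_, rfl⟩

/-- In the situation of the core lemmas, the minimal polynomial over `E` of an element of `V`
has coefficients in `V`. -/
theorem ca_core_minpoly_coeff_mem {E F Ω : Type*} [Field E] [Field F] [Field Ω] [Algebra E F]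
    (V : ValuationSubring F) (r : V →+* Ω)
    (hr : ∀ x : V, r x ≠ 0 → (x : F)⁻¹ ∈ V) {n : ℕ} (θ : Fin n → V)
    (hθ : ∀ (a : Fin n → E) (ha : ∀ i, algebraMap E F (a i) ∈ V),
      ∑ i, r ⟨algebraMap E F (a i), ha i⟩ * r (θ i) = 0 →
        ∀ i, r ⟨algebraMap E F (a i), ha i⟩ = 0)
    (hspan : ⊤ ≤ Submodule.span E (Set.range fun i => (θ i : F))) (x : V) (i : ℕ) :
    algebraMap E F ((minpoly E (x : F)).coeff i) ∈ V := by
  obtain ⟨y, hy⟩ := ca_minpoly_coeff_mem (E := E)
    (ca_core_isIntegral V r hr θ hθ hspan x) i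
  rw [← hy]
  exact y.2

end Fermat.Agent.S28Lib
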