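/-
S28, chunk CA (helper4), part 1: integer Laurent series, their embedding into `ℚ((q))`,
their reduction modulo `ℓ`, and the `ℓ`-adic factorisation `a = ℓ^m * a'` with `a'` primitive.
-/
import Mathlib
import Fermat.Prelude.Def_ModularCurve_X0ModL

set_option autoImplicit false

noncomputable section

namespace Fermat.Agent.S28Lib

open ModularCurve

/-- The embedding `ℤ((q)) → ℚ((q))`. -/
def ca_emb : LaurentSeries ℤ →+* LaurentSeries ℚ := coeffMap (Int.castRingHom ℚ)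

/-- Reduction `ℤ((q)) → k((q))`. -/
def ca_red (k : Type*) [CommRing k] : LaurentSeries ℤ →+* LaurentSeries k :=
  coeffMap (Int.castRingHom k)

@[simp] theorem ca_emb_coeff (a : LaurentSeries ℤ) (n : ℤ) :
    (ca_emb a).coeff n = ((a.coeff n : ℤ) : ℚ) := rfl

@[simp] theorem ca_red_coeff (k : Type*) [CommRing k] (a : LaurentSeries ℤ) (n : ℤ) :
    (ca_red k a).coeff n = ((a.coeff n : ℤ) : k) := rfl

theorem ca_emb_injective : Function.Injective ca_emb := by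
  intro a b h
  ext n
  have := congrArg (fun x => x.coeff n) h
  simpa using this

theorem ca_emb_eq_zero_iff {a : LaurentSeries ℤ} : ca_emb a = 0 ↔ a = 0 :=
  ⟨fun h => ca_emb_injective (by rw [h, map_zero]), fun h => by rw [h, map_zero]⟩

theorem ca_coeff_natCast_mul (ℓ : ℕ) (a : LaurentSeries ℤ) (n : ℤ) :
    ((ℓ : LaurentSeries ℤ) * a).coeff n = (ℓ : ℤ) * a.coeff n := by
  have h : (ℓ : LaurentSeries ℤ) = HahnSeries.C (ℓ : ℤ) := (map_natCast HahnSeries.C ℓ).symm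
  rw [h, HahnSeries.C_mul_eq_smul, HahnSeries.coeff_smul, smul_eq_mul]

/-- Divisibility by `ℓ` in `ℤ((q))` is coefficientwise. -/
theorem ca_dvd_iff (ℓ : ℕ) (a : LaurentSeries ℤ) :
    (ℓ : LaurentSeries ℤ) ∣ a ↔ ∀ n, (ℓ : ℤ) ∣ a.coeff n := by
  constructor
  · rintro ⟨b, rfl⟩ n
    rw [ca_coeff_natCast_mul]
    exact dvd_mul_right _ _
  · intro h
    refine ⟨a.map (⟨fun n : ℤ => n / (ℓ : ℤ), by simp⟩ : ZeroHom ℤ ℤ), ?_⟩
    ext n
    rw [ca_coeff_natCast_mul]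
    simp only [HahnSeries.map_coeff, ZeroHom.coe_mk]
    exact (Int.mul_ediv_cancel' (h n)).symm

/-- The kernel of reduction to a ring of characteristic `ℓ` is `ℓ·ℤ((q))`. -/
theorem ca_red_eq_zero_iff (ℓ : ℕ) (k : Type*) [CommRing k] [CharP k ℓ] (a : LaurentSeries ℤ) :
    ca_red k a = 0 ↔ (ℓ : LaurentSeries ℤ) ∣ a := by
  rw [ca_dvd_iff]
  constructor
  · intro h n
    have := congrArg (fun x => x.coeff n) h
    simp only [ca_red_coeff, HahnSeries.coeff_zero] at this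
    exact (CharP.intCast_eq_zero_iff k ℓ _).mp this
  · intro h
    ext n
    simp only [ca_red_coeff, HahnSeries.coeff_zero]
    exact (CharP.intCast_eq_zero_iff k ℓ _).mpr (h n)

theorem ca_red_natCast (ℓ : ℕ) (k : Type*) [CommRing k] [CharP k ℓ] :
    ca_red k (ℓ : LaurentSeries ℤ) = 0 := by
  rw [ca_red_eq_zero_iff ℓ]

/-- A product of primitive series is primitive. -/
theorem ca_not_dvd_mul (ℓ : ℕ) [Fact ℓ.Prime] {a b : LaurentSeries ℤ}
    (ha : ¬ (ℓ : LaurentSeries ℤ) ∣ a) (hb : ¬ (ℓ : LaurentSeries ℤ) ∣ b) :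
    ¬ (ℓ : LaurentSeries ℤ) ∣ a * b := by
  rw [← ca_red_eq_zero_iff ℓ (ZMod ℓ)] at ha hb ⊢
  rw [map_mul]
  exact mul_ne_zero ha hb

theorem ca_not_dvd_one (ℓ : ℕ) [Fact ℓ.Prime] : ¬ (ℓ : LaurentSeries ℤ) ∣ 1 := by
  rw [← ca_red_eq_zero_iff ℓ (ZMod ℓ), map_one]
  exact one_ne_zero

/-- `ℓ`-adic factorisation of a nonzero integer Laurent series. -/
theorem ca_exists_pow_mul (ℓ : ℕ) [Fact ℓ.Prime] {a : LaurentSeries ℤ} (ha : a ≠ 0) :
    ∃ (m : ℕ) (a' : LaurentSeries ℤ), a = (ℓ : LaurentSeries ℤ) ^ m * a' ∧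
      ¬ (ℓ : LaurentSeries ℤ) ∣ a' := by
  obtain ⟨g, hg⟩ : ∃ g, a.coeff g ≠ 0 := by
    by_contra h
    push Not at h
    exact ha (HahnSeries.ext (funext h))
  have key : ∀ (c : ℕ) (a : LaurentSeries ℤ), (a.coeff g).natAbs = c → a.coeff g ≠ 0 →
      ∃ (m : ℕ) (a' : LaurentSeries ℤ), a = (ℓ : LaurentSeries ℤ) ^ m * a' ∧
        ¬ (ℓ : LaurentSeries ℤ) ∣ a' := by
    intro c
    induction c using Nat.strong_induction_on with
    | _ c ih =>
      intro a hc hne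
      by_cases hdvd : (ℓ : LaurentSeries ℤ) ∣ a
      · obtain ⟨a₁, rfl⟩ := hdvd
        rw [ca_coeff_natCast_mul] at hc hne
        have hne₁ : a₁.coeff g ≠ 0 := fun h => hne (by rw [h, mul_zero])
        have hlt : (a₁.coeff g).natAbs < c := by
          rw [← hc, Int.natAbs_mul, Int.natAbs_natCast]
          have h2 : 2 ≤ ℓ := (Fact.out : ℓ.Prime).two_le
          have hpos : 0 < (a₁.coeff g).natAbs := Int.natAbs_pos.mpr hne₁
          nlinarith
        obtain ⟨m, a', rfl, ha'⟩ := ih _ hlt a₁ rfl hne₁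
        exact ⟨m + 1, a', by rw [pow_succ]; ring, ha'⟩
      · exact ⟨0, a, by rw [pow_zero, one_mul], hdvd⟩
  exact key _ a rfl hg

theorem ca_emb_natCast (n : ℕ) : ca_emb (n : LaurentSeries ℤ) = (n : LaurentSeries ℚ) :=
  map_natCast ca_emb n

theorem ca_natCast_ne_zero {n : ℕ} (hn : n ≠ 0) : (n : LaurentSeries ℚ) ≠ 0 := by
  have h : (n : LaurentSeries ℚ) = HahnSeries.C (n : ℚ) := (map_natCast HahnSeries.C n).symm
  rw [h]
  intro h0
  rw [← map_zero (HahnSeries.C : ℚ →+* LaurentSeries ℚ)] at h0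
  exact hn (by exact_mod_cast HahnSeries.C_injective h0)

end Fermat.Agent.S28Lib
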