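/-
S28, chunk CA (helper4), part 2: the Gauss valuation ring `{a/b : a, b ∈ ℤ((q)), b primitive}`
inside `ℚ((q))`, its reduction map to `k((q))` (`k` any field of characteristic `ℓ`), and its
restriction to an intermediate field `F ≤ Frac ℤ((q))` as a `ValuationSubring F`.
-/
import Fermat.Agent.Lib.S28.CAInt

set_option autoImplicit false

noncomputable section

namespace Fermat.Agent.S28Lib

open ModularCurve

variable (ℓ : ℕ) [Fact ℓ.Prime]

/-- The Gauss valuation ring inside `ℚ((q))`. -/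
def ca_VL : Subring (LaurentSeries ℚ) where
  carrier := {x | ∃ a b : LaurentSeries ℤ, ¬ (ℓ : LaurentSeries ℤ) ∣ b ∧ x * ca_emb b = ca_emb a}
  mul_mem' := by
    rintro x y ⟨a, b, hb, h⟩ ⟨a', b', hb', h'⟩
    refine ⟨a * a', b * b', ca_not_dvd_mul ℓ hb hb', ?_⟩
    rw [map_mul, map_mul, ← h, ← h']; ring
  one_mem' := ⟨1, 1, ca_not_dvd_one ℓ, by simp⟩
  add_mem' := by
    rintro x y ⟨a, b, hb, h⟩ ⟨a', b', hb', h'⟩
    refine ⟨a * b' + a' * b, b * b', ca_not_dvd_mul ℓ hb hb', ?_⟩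
    rw [map_add, map_mul, map_mul, map_mul, ← h, ← h']; ring
  zero_mem' := ⟨0, 1, ca_not_dvd_one ℓ, by simp⟩
  neg_mem' := by
    rintro x ⟨a, b, hb, h⟩
    exact ⟨-a, b, hb, by rw [map_neg, ← h]; ring⟩

theorem ca_mem_VL_iff {x : LaurentSeries ℚ} :
    x ∈ ca_VL ℓ ↔
      ∃ a b : LaurentSeries ℤ, ¬ (ℓ : LaurentSeries ℤ) ∣ b ∧ x * ca_emb b = ca_emb a :=
  Iff.rfl

theorem ca_emb_mem_VL (a : LaurentSeries ℤ) : ca_emb a ∈ ca_VL ℓ :=
  ⟨a, 1, ca_not_dvd_one ℓ, by simp⟩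

section Red

variable (k : Type*) [Field k] [CharP k ℓ]

omit [Fact ℓ.Prime] in
theorem ca_red_ne_zero {b : LaurentSeries ℤ} (hb : ¬ (ℓ : LaurentSeries ℤ) ∣ b) :
    ca_red k b ≠ 0 := fun h => hb ((ca_red_eq_zero_iff ℓ k b).mp h)

theorem ca_exists_pair (x : ca_VL ℓ) :
    ∃ p : LaurentSeries ℤ × LaurentSeries ℤ, ¬ (ℓ : LaurentSeries ℤ) ∣ p.2 ∧
      (x : LaurentSeries ℚ) * ca_emb p.2 = ca_emb p.1 := by
  obtain ⟨a, b, hb, h⟩ := x.2
  exact ⟨(a, b), hb, h⟩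

/-- The reduction map on the Gauss valuation ring (as a function). -/
def ca_redFun (x : ca_VL ℓ) : LaurentSeries k :=
  ca_red k (ca_exists_pair ℓ x).choose.1 / ca_red k (ca_exists_pair ℓ x).choose.2

theorem ca_redFun_eq (x : ca_VL ℓ) {a b : LaurentSeries ℤ} (hb : ¬ (ℓ : LaurentSeries ℤ) ∣ b)
    (h : (x : LaurentSeries ℚ) * ca_emb b = ca_emb a) :
    ca_redFun ℓ k x = ca_red k a / ca_red k b := by
  obtain ⟨hb', h'⟩ := (ca_exists_pair ℓ x).choose_spec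
  rw [ca_redFun, div_eq_div_iff (ca_red_ne_zero ℓ k hb') (ca_red_ne_zero ℓ k hb), ← map_mul,
    ← map_mul]
  congr 1
  apply ca_emb_injective
  rw [map_mul, map_mul, ← h, ← h']; ring

/-- The reduction map on the Gauss valuation ring. -/
def ca_redVL : ca_VL ℓ →+* LaurentSeries k where
  toFun := ca_redFun ℓ k
  map_one' := by
    rw [ca_redFun_eq ℓ k 1 (ca_not_dvd_one ℓ) (a := 1) (by simp), map_one, div_one]
  map_mul' x y := by
    obtain ⟨a, b, hb, h⟩ := x.2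
    obtain ⟨a', b', hb', h'⟩ := y.2
    rw [ca_redFun_eq ℓ k x hb h, ca_redFun_eq ℓ k y hb' h',
      ca_redFun_eq ℓ k (x * y) (ca_not_dvd_mul ℓ hb hb') (a := a * a')
        (by rw [map_mul, map_mul, ← h, ← h', Subring.coe_mul]; ring),
      map_mul, map_mul, div_mul_div_comm]
  map_zero' := by
    rw [ca_redFun_eq ℓ k 0 (ca_not_dvd_one ℓ) (a := 0) (by simp), map_zero, zero_div]
  map_add' x y := by
    obtain ⟨a, b, hb, h⟩ := x.2
    obtain ⟨a', b', hb', h'⟩ := y.2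
    rw [ca_redFun_eq ℓ k x hb h, ca_redFun_eq ℓ k y hb' h',
      ca_redFun_eq ℓ k (x + y) (ca_not_dvd_mul ℓ hb hb') (a := a * b' + a' * b)
        (by rw [map_add, map_mul, map_mul, map_mul, ← h, ← h', Subring.coe_add]; ring),
      map_add, map_mul, map_mul, map_mul,
      div_add_div _ _ (ca_red_ne_zero ℓ k hb) (ca_red_ne_zero ℓ k hb')]
    congr 1
    ring

theorem ca_redVL_eq (x : ca_VL ℓ) {a b : LaurentSeries ℤ} (hb : ¬ (ℓ : LaurentSeries ℤ) ∣ b)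
    (h : (x : LaurentSeries ℚ) * ca_emb b = ca_emb a) :
    ca_redVL ℓ k x = ca_red k a / ca_red k b :=
  ca_redFun_eq ℓ k x hb h

theorem ca_redVL_emb (a : LaurentSeries ℤ) :
    ca_redVL ℓ k ⟨ca_emb a, ca_emb_mem_VL ℓ a⟩ = ca_red k a := by
  rw [ca_redVL_eq ℓ k _ (ca_not_dvd_one ℓ) (a := a) (by simp), map_one, div_one]

omit [Fact ℓ.Prime] in
theorem ca_natCast_laurent_eq_zero : ((ℓ : ℕ) : LaurentSeries k) = 0 := by
  have h : ((ℓ : ℕ) : LaurentSeries k) = HahnSeries.C ((ℓ : ℕ) : k) :=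
    (map_natCast HahnSeries.C ℓ).symm
  rw [h, CharP.cast_eq_zero k ℓ, map_zero]

/-- The kernel of the reduction map is `ℓ · V`. -/
theorem ca_redVL_eq_zero_iff (x : ca_VL ℓ) :
    ca_redVL ℓ k x = 0 ↔ ∃ y : ca_VL ℓ, (x : LaurentSeries ℚ) = (ℓ : LaurentSeries ℚ) * y := by
  have hℓ0 : (ℓ : LaurentSeries ℚ) ≠ 0 := ca_natCast_ne_zero (Fact.out : ℓ.Prime).ne_zero
  constructor
  · intro hx
    obtain ⟨a, b, hb, h⟩ := x.2
    rw [ca_redVL_eq ℓ k x hb h, div_eq_zero_iff] at hx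
    rcases hx with hx | hx
    · obtain ⟨a₁, rfl⟩ := (ca_red_eq_zero_iff ℓ k a).mp hx
      refine ⟨⟨(x : LaurentSeries ℚ) * (ℓ : LaurentSeries ℚ)⁻¹, a₁, b, hb, ?_⟩, ?_⟩
      · rw [map_mul, ca_emb_natCast] at h
        rw [mul_right_comm, h, mul_right_comm, mul_inv_cancel₀ hℓ0, one_mul]
      · show (x : LaurentSeries ℚ) = (ℓ : LaurentSeries ℚ) * ((x : LaurentSeries ℚ) * _)
        rw [mul_left_comm, mul_inv_cancel₀ hℓ0, mul_one]
    · exact absurd hx (ca_red_ne_zero ℓ k hb)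
  · rintro ⟨y, hy⟩
    have hxy : x = (ℓ : ca_VL ℓ) * y := Subtype.ext (by rw [hy]; simp)
    rw [hxy, map_mul, map_natCast, ca_natCast_laurent_eq_zero, zero_mul]

/-- Elements with nonzero reduction are units of the Gauss valuation ring. -/
theorem ca_inv_mem_VL (x : ca_VL ℓ) (hx : ca_redVL ℓ k x ≠ 0) :
    (x : LaurentSeries ℚ)⁻¹ ∈ ca_VL ℓ := by
  obtain ⟨a, b, hb, h⟩ := x.2
  rw [ca_redVL_eq ℓ k x hb h] at hx
  have ha : ca_red k a ≠ 0 := fun h0 => hx (by rw [h0, zero_div])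
  have ha' : ¬ (ℓ : LaurentSeries ℤ) ∣ a := fun hd => ha ((ca_red_eq_zero_iff ℓ k a).mpr hd)
  have hx0 : (x : LaurentSeries ℚ) ≠ 0 := by
    intro h0
    rw [h0, zero_mul] at h
    exact ha (by rw [ca_emb_eq_zero_iff.mp h.symm, map_zero])
  exact ⟨b, a, ha', by rw [← h, ← mul_assoc, inv_mul_cancel₀ hx0, one_mul]⟩

end Red

/-- Quotients of integer series lie in the Gauss valuation ring, or their inverse does. -/
theorem ca_mem_or_inv_mem (x : LaurentSeries ℚ)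
    (hx : ∃ a b : LaurentSeries ℤ, b ≠ 0 ∧ x * ca_emb b = ca_emb a) :
    x ∈ ca_VL ℓ ∨ x⁻¹ ∈ ca_VL ℓ := by
  have hℓ0 : (ℓ : LaurentSeries ℚ) ≠ 0 := ca_natCast_ne_zero (Fact.out : ℓ.Prime).ne_zero
  obtain ⟨a, b, hb, h⟩ := hx
  have hb0 : ca_emb b ≠ 0 := fun h0 => hb (ca_emb_eq_zero_iff.mp h0)
  by_cases ha : a = 0
  · left
    rw [ha, map_zero] at h
    rcases mul_eq_zero.mp h with h | h
    · rw [h]; exact zero_mem _
    · exact absurd h hb0
  · obtain ⟨m, a', rfl, ha'⟩ := ca_exists_pow_mul ℓ ha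
    obtain ⟨e, b', rfl, hb'⟩ := ca_exists_pow_mul ℓ hb
    rw [map_mul, map_mul, map_pow, map_pow, ca_emb_natCast] at h
    rcases le_total e m with hem | hme
    · left
      obtain ⟨d, rfl⟩ := Nat.exists_eq_add_of_le hem
      refine ⟨(ℓ : LaurentSeries ℤ) ^ d * a', b', hb', ?_⟩
      rw [map_mul, map_pow, ca_emb_natCast]
      apply mul_left_cancel₀ (pow_ne_zero e hℓ0)
      rw [← mul_assoc, ← mul_assoc, ← pow_add, ← h]; ring
    · right
      obtain ⟨d, rfl⟩ := Nat.exists_eq_add_of_le hme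
      have hx0 : x ≠ 0 := by
        intro h0
        rw [h0, zero_mul] at h
        have h1 := (mul_eq_zero.mp h.symm).resolve_left (pow_ne_zero m hℓ0)
        exact ha (by rw [ca_emb_eq_zero_iff.mp h1, mul_zero])
      refine ⟨(ℓ : LaurentSeries ℤ) ^ d * b', a', ha', ?_⟩
      rw [map_mul, map_pow, ca_emb_natCast]
      apply mul_left_cancel₀ (pow_ne_zero m hℓ0)
      apply mul_left_cancel₀ hx0
      rw [show x * ((ℓ : LaurentSeries ℚ) ^ m * (x⁻¹ * ca_emb a')) =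
        (ℓ : LaurentSeries ℚ) ^ m * ca_emb a' by field_simp, ← h, pow_add]
      ring

/-- The fraction field of `ℤ((q))` inside `ℚ((q))`. -/
def ca_QZ : IntermediateField ℚ (LaurentSeries ℚ) where
  carrier := {x | ∃ a b : LaurentSeries ℤ, b ≠ 0 ∧ x * ca_emb b = ca_emb a}
  mul_mem' := by
    rintro x y ⟨a, b, hb, h⟩ ⟨a', b', hb', h'⟩
    refine ⟨a * a', b * b', mul_ne_zero hb hb', ?_⟩
    rw [map_mul, map_mul, ← h, ← h']; ring
  one_mem' := ⟨1, 1, one_ne_zero, by simp⟩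
  add_mem' := by
    rintro x y ⟨a, b, hb, h⟩ ⟨a', b', hb', h'⟩
    refine ⟨a * b' + a' * b, b * b', mul_ne_zero hb hb', ?_⟩
    rw [map_add, map_mul, map_mul, map_mul, ← h, ← h']; ring
  zero_mem' := ⟨0, 1, one_ne_zero, by simp⟩
  algebraMap_mem' c := by
    refine ⟨(c.num : LaurentSeries ℤ), (c.den : LaurentSeries ℤ), ?_, ?_⟩
    · intro h0
      have h1 := congrArg ca_emb h0
      rw [ca_emb_natCast, map_zero] at h1
      exact ca_natCast_ne_zero c.den_ne_zero h1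
    · rw [ca_emb_natCast, map_intCast, ← map_natCast (algebraMap ℚ (LaurentSeries ℚ)),
        ← map_intCast (algebraMap ℚ (LaurentSeries ℚ)), ← map_mul, Rat.mul_den_eq_num]
  inv_mem' := by
    rintro x ⟨a, b, hb, h⟩
    by_cases ha : a = 0
    · have hb0 : ca_emb b ≠ 0 := fun h0 => hb (ca_emb_eq_zero_iff.mp h0)
      rw [ha, map_zero] at h
      have hx : x = 0 := (mul_eq_zero.mp h).resolve_right hb0
      exact ⟨0, 1, one_ne_zero, by rw [hx]; simp⟩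
    · have hx0 : x ≠ 0 := by
        intro h0
        rw [h0, zero_mul] at h
        exact ha (ca_emb_eq_zero_iff.mp h.symm)
      exact ⟨b, a, ha, by rw [← h, ← mul_assoc, inv_mul_cancel₀ hx0, one_mul]⟩

theorem ca_mem_QZ_iff {x : LaurentSeries ℚ} :
    x ∈ ca_QZ ↔ ∃ a b : LaurentSeries ℤ, b ≠ 0 ∧ x * ca_emb b = ca_emb a :=
  Iff.rfl

theorem ca_emb_mem_QZ (a : LaurentSeries ℤ) : ca_emb a ∈ ca_QZ :=
  ⟨a, 1, one_ne_zero, by simp⟩

end Fermat.Agent.S28Lib
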