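/-
S28, chunk CA (helper4), part 3: the Gauss valuation ring of an intermediate field
`F ≤ Frac ℤ((q))` of `ℚ((q))` as a `ValuationSubring F`, with its reduction map.
-/
import Fermat.Agent.Lib.S28.CAVal
import Fermat.Prelude.Def_ModularCurve_IgusaScheme

set_option autoImplicit false

noncomputable section

namespace Fermat.Agent.S28Lib

open ModularCurve

variable (ℓ : ℕ) [Fact ℓ.Prime] (F : IntermediateField ℚ (LaurentSeries ℚ)) (hF : F ≤ ca_QZ)

/-- The Gauss valuation ring of `F`. -/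
def ca_V : ValuationSubring F where
  toSubring := (ca_VL ℓ).comap (algebraMap F (LaurentSeries ℚ))
  mem_or_inv_mem' x := by
    rcases ca_mem_or_inv_mem ℓ (x : LaurentSeries ℚ) (hF x.2) with h | h
    · exact Or.inl h
    · exact Or.inr (by
        show ((x⁻¹ : F) : LaurentSeries ℚ) ∈ ca_VL ℓ
        rwa [IntermediateField.coe_inv])

theorem ca_mem_V_iff {x : F} : x ∈ ca_V ℓ F hF ↔ (x : LaurentSeries ℚ) ∈ ca_VL ℓ := Iff.rfl

/-- The inclusion of the Gauss valuation ring of `F` into that of `ℚ((q))`. -/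
def ca_toVL : ca_V ℓ F hF →+* ca_VL ℓ where
  toFun x := ⟨((x : F) : LaurentSeries ℚ), x.2⟩
  map_one' := rfl
  map_mul' _ _ := rfl
  map_zero' := rfl
  map_add' _ _ := rfl

variable (k : Type*) [Field k] [CharP k ℓ]

/-- The reduction map on the Gauss valuation ring of `F`. -/
def ca_redV : ca_V ℓ F hF →+* LaurentSeries k := (ca_redVL ℓ k).comp (ca_toVL ℓ F hF)

theorem ca_redV_eq (x : ca_V ℓ F hF) {a b : LaurentSeries ℤ} (hb : ¬ (ℓ : LaurentSeries ℤ) ∣ b)
    (h : ((x : F) : LaurentSeries ℚ) * ca_emb b = ca_emb a) :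
    ca_redV ℓ F hF k x = ca_red k a / ca_red k b :=
  ca_redVL_eq ℓ k (ca_toVL ℓ F hF x) hb h

theorem ca_mem_V_of_emb {x : F} (a : LaurentSeries ℤ) (h : (x : LaurentSeries ℚ) = ca_emb a) :
    x ∈ ca_V ℓ F hF := by
  rw [ca_mem_V_iff, h]
  exact ca_emb_mem_VL ℓ a

theorem ca_redV_of_emb (x : ca_V ℓ F hF) (a : LaurentSeries ℤ)
    (h : ((x : F) : LaurentSeries ℚ) = ca_emb a) : ca_redV ℓ F hF k x = ca_red k a := by
  rw [ca_redV_eq ℓ F hF k x (ca_not_dvd_one ℓ) (a := a) (by rw [h]; simp), map_one, div_one]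

/-- The kernel of the reduction map is `ℓ · V`. -/
theorem ca_redV_eq_zero_iff (x : ca_V ℓ F hF) :
    ca_redV ℓ F hF k x = 0 ↔ ∃ y : ca_V ℓ F hF, (x : F) = (ℓ : F) * y := by
  have hℓ0 : (ℓ : F) ≠ 0 := Nat.cast_ne_zero.mpr (Fact.out : ℓ.Prime).ne_zero
  constructor
  · intro hx
    obtain ⟨y, hy⟩ := (ca_redVL_eq_zero_iff ℓ k (ca_toVL ℓ F hF x)).mp hx
    have hy' : ((x : F) : LaurentSeries ℚ) = (ℓ : LaurentSeries ℚ) * y := hy
    have hmem : (x : F) * (ℓ : F)⁻¹ ∈ ca_V ℓ F hF := by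
      rw [ca_mem_V_iff]
      have : (((x : F) * (ℓ : F)⁻¹ : F) : LaurentSeries ℚ) = y := by
        have hℓL : (ℓ : LaurentSeries ℚ) ≠ 0 :=
          ca_natCast_ne_zero (Fact.out : ℓ.Prime).ne_zero
        push_cast
        rw [hy', mul_comm, ← mul_assoc, inv_mul_cancel₀ hℓL, one_mul]
      rw [this]
      exact y.2
    refine ⟨⟨_, hmem⟩, ?_⟩
    show (x : F) = (ℓ : F) * ((x : F) * (ℓ : F)⁻¹)
    rw [mul_left_comm, mul_inv_cancel₀ hℓ0, mul_one]
  · rintro ⟨y, hy⟩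
    have hxy : x = (ℓ : ca_V ℓ F hF) * y := Subtype.ext (by rw [hy]; simp)
    rw [hxy, map_mul, map_natCast, ca_natCast_laurent_eq_zero, zero_mul]

/-- Elements with nonzero reduction are units. -/
theorem ca_inv_mem_V (x : ca_V ℓ F hF) (hx : ca_redV ℓ F hF k x ≠ 0) :
    (x : F)⁻¹ ∈ ca_V ℓ F hF := by
  rw [ca_mem_V_iff, IntermediateField.coe_inv]
  exact ca_inv_mem_VL ℓ k (ca_toVL ℓ F hF x) hx

theorem ca_coeff_natCast_zero (n : ℕ) : ((n : LaurentSeries ℤ)).coeff 0 = (n : ℤ) := by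
  have h : (n : LaurentSeries ℤ) = HahnSeries.C (n : ℤ) := (map_natCast HahnSeries.C n).symm
  rw [h, HahnSeries.C_apply, HahnSeries.coeff_single_same]

/-- `ℓ`-integral rational constants lie in the Gauss valuation ring. -/
theorem ca_ratCast_mem_V (c : ℚ) (hc : c ∈ GaloisRep.ratLocalizedAt ℓ) :
    (c : F) ∈ ca_V ℓ F hF := by
  rw [ca_mem_V_iff]
  refine ⟨(c.num : LaurentSeries ℤ), (c.den : LaurentSeries ℤ), ?_, ?_⟩
  · intro hd
    have h0 := (ca_dvd_iff ℓ _).mp hd 0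
    rw [ca_coeff_natCast_zero] at h0
    have h1 : ℓ ∣ c.den := by exact_mod_cast h0
    have hcop : c.den.Coprime ℓ := hc
    have := Nat.eq_one_of_dvd_coprimes hcop h1 dvd_rfl
    exact (Fact.out : ℓ.Prime).one_lt.ne' this
  · have hcoe : (((c : F) : F) : LaurentSeries ℚ) = (c : LaurentSeries ℚ) := by
      norm_cast
    rw [hcoe, ← eq_ratCast (algebraMap ℚ (LaurentSeries ℚ)) c, ca_emb_natCast, map_intCast,
      ← map_natCast (algebraMap ℚ (LaurentSeries ℚ)),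
      ← map_intCast (algebraMap ℚ (LaurentSeries ℚ)), ← map_mul, Rat.mul_den_eq_num]

end Fermat.Agent.S28Lib
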