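/-
S28, chunk CA (helper4), part 5: integer polynomials evaluated at an element `t` of the Gauss
valuation ring with transcendental reduction; reductions of `V ∩ ℚ(t)` lie in `k(t̄)`, and
`V ∩ ℚ[t] = ℤ_(ℓ)[t]`.
-/
import Fermat.Agent.Lib.S28.CAField

set_option autoImplicit false

noncomputable section

namespace Fermat.Agent.S28Lib

open ModularCurve Polynomial

/-- `ℓ`-adic factorisation of a nonzero integer polynomial. -/
theorem ca_poly_exists_pow_mul (ℓ : ℕ) [Fact ℓ.Prime] (k : Type*) [Field k] [CharP k ℓ]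
    {P : ℤ[X]} (hP : P ≠ 0) :
    ∃ (e : ℕ) (P₁ : ℤ[X]), P = C ((ℓ : ℤ) ^ e) * P₁ ∧ P₁.map (Int.castRingHom k) ≠ 0 := by
  have key : ∀ (c : ℕ) (P : ℤ[X]), P.leadingCoeff.natAbs = c → P ≠ 0 →
      ∃ (e : ℕ) (P₁ : ℤ[X]), P = C ((ℓ : ℤ) ^ e) * P₁ ∧ P₁.map (Int.castRingHom k) ≠ 0 := by
    intro c
    induction c using Nat.strong_induction_on with
    | _ c ih =>
      intro P hc hne
      by_cases hmap : P.map (Int.castRingHom k) = 0
      · have hdvd : C (ℓ : ℤ) ∣ P := by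
          rw [Polynomial.C_dvd_iff_dvd_coeff]
          intro i
          have := congrArg (fun q => q.coeff i) hmap
          simp only [coeff_map, coeff_zero, eq_intCast] at this
          exact (CharP.intCast_eq_zero_iff k ℓ _).mp this
        obtain ⟨P', rfl⟩ := hdvd
        have hne' : P' ≠ 0 := fun h => hne (by rw [h, mul_zero])
        have hlt : P'.leadingCoeff.natAbs < c := by
          rw [← hc, leadingCoeff_mul, leadingCoeff_C, Int.natAbs_mul, Int.natAbs_natCast]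
          have h2 : 2 ≤ ℓ := (Fact.out : ℓ.Prime).two_le
          have hpos : 0 < P'.leadingCoeff.natAbs :=
            Int.natAbs_pos.mpr (leadingCoeff_ne_zero.mpr hne')
          nlinarith
        obtain ⟨e, P₁, rfl, hP₁⟩ := ih _ hlt P' rfl hne'
        exact ⟨e + 1, P₁, by rw [pow_succ, C_mul]; ring, hP₁⟩
      · exact ⟨0, P, by rw [pow_zero, C_1, one_mul], hmap⟩
  exact key _ P rfl hP

/-- Clearing denominators of a rational polynomial. -/
theorem ca_exists_int_poly (P : ℚ[X]) :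
    ∃ (d : ℤ) (P₀ : ℤ[X]), d ≠ 0 ∧ P₀.map (Int.castRingHom ℚ) = C (d : ℚ) * P := by
  obtain ⟨b, hb, h⟩ := IsLocalization.integerNormalization_spec (nonZeroDivisors ℤ) P
  refine ⟨b, IsLocalization.integerNormalization (nonZeroDivisors ℤ) P,
    nonZeroDivisors.ne_zero hb, ?_⟩
  rw [← algebraMap_int_eq, h, zsmul_eq_mul, ← map_intCast (C : ℚ →+* ℚ[X])]

/-- A rational number with an `ℓ`-prime integer multiple that is an integer is `ℓ`-integral. -/
theorem ca_mem_ratLoc_of_mul_int (ℓ : ℕ) [Fact ℓ.Prime] (c : ℚ) (u : ℤ) (hu : ¬ (ℓ : ℤ) ∣ u)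
    (m : ℤ) (h : (u : ℚ) * c = m) : c ∈ GaloisRep.ratLocalizedAt ℓ := by
  have hu0 : (u : ℚ) ≠ 0 := by
    intro h0
    have : u = 0 := by exact_mod_cast h0
    exact hu (by rw [this]; exact dvd_zero _)
  have hc : c = Rat.divInt m u := by
    rw [Rat.divInt_eq_div]
    field_simp
    rw [← h]; ring
  have hden : (c.den : ℤ) ∣ u := by
    rw [hc]; exact Rat.den_dvd m u
  show c.den.Coprime ℓ
  refine Nat.Coprime.symm
    ((Nat.Prime.coprime_iff_not_dvd (Fact.out : ℓ.Prime)).mpr fun hd => hu ?_)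
  exact (Int.natCast_dvd_natCast.mpr hd).trans hden

theorem ca_int_exists_pow_mul (ℓ : ℕ) [Fact ℓ.Prime] {d : ℤ} (hd : d ≠ 0) :
    ∃ (f : ℕ) (d' : ℤ), d = (ℓ : ℤ) ^ f * d' ∧ ¬ (ℓ : ℤ) ∣ d' := by
  have hfin : FiniteMultiplicity (ℓ : ℤ) d := by
    rw [Int.finiteMultiplicity_iff]
    exact ⟨by simpa using (Fact.out : ℓ.Prime).ne_one, hd⟩
  obtain ⟨c, hc, hnd⟩ := hfin.exists_eq_pow_mul_and_not_dvd
  exact ⟨_, c, hc, hnd⟩

section Eval

variable (ℓ : ℕ) [Fact ℓ.Prime] (F : IntermediateField ℚ (LaurentSeries ℚ)) (hF : F ≤ ca_QZ)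
  (k : Type*) [Field k] [CharP k ℓ] (t : ca_V ℓ F hF)

/-- Evaluation of integer polynomials at `t`, with values in the Gauss valuation ring. -/
def ca_evV : ℤ[X] →+* ca_V ℓ F hF := Polynomial.eval₂RingHom (Int.castRingHom _) t

theorem ca_evV_coe (P : ℤ[X]) :
    ((ca_evV ℓ F hF t P : ca_V ℓ F hF) : F) = Polynomial.aeval (t : F) P := by
  have h : ((ca_V ℓ F hF).subtype).comp (ca_evV ℓ F hF t) =
      (Polynomial.aeval (t : F) : ℤ[X] →ₐ[ℤ] F).toRingHom := by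
    apply Polynomial.ringHom_ext
    · intro a
      simp [ca_evV]
    · simp [ca_evV]
  exact DFunLike.congr_fun h P

theorem ca_redV_evV (P : ℤ[X]) :
    ca_redV ℓ F hF k (ca_evV ℓ F hF t P) =
      Polynomial.aeval (ca_redV ℓ F hF k t) (P.map (Int.castRingHom k)) := by
  have h : (ca_redV ℓ F hF k).comp (ca_evV ℓ F hF t) =
      ((Polynomial.aeval (ca_redV ℓ F hF k t) : k[X] →ₐ[k] LaurentSeries k).toRingHom).comp
        (Polynomial.mapRingHom (Int.castRingHom k)) := by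
    apply Polynomial.ringHom_ext
    · intro a
      simp [ca_evV]
    · simp [ca_evV]
  exact DFunLike.congr_fun h P

variable (htr : Transcendental k (ca_redV ℓ F hF k t))

include htr in
theorem ca_redV_evV_ne_zero {P : ℤ[X]} (hP : P.map (Int.castRingHom k) ≠ 0) :
    ca_redV ℓ F hF k (ca_evV ℓ F hF t P) ≠ 0 := by
  rw [ca_redV_evV]
  exact fun h => hP ((transcendental_iff.mp htr) _ h)

theorem ca_redV_evV_mem (P : ℤ[X]) :
    ca_redV ℓ F hF k (ca_evV ℓ F hF t P) ∈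
      IntermediateField.adjoin k {ca_redV ℓ F hF k t} := by
  rw [ca_redV_evV]
  exact IntermediateField.algebra_adjoin_le_adjoin k _
    (Polynomial.aeval_mem_adjoin_singleton k _)

theorem ca_evV_C (m : ℤ) : ca_evV ℓ F hF t (C m) = (m : ca_V ℓ F hF) := by
  show Polynomial.eval₂ (Int.castRingHom _) t (C m) = _
  rw [Polynomial.eval₂_C]
  rfl

theorem ca_evV_C_mul (n : ℕ) (e : ℕ) (P : ℤ[X]) :
    ca_evV ℓ F hF t (C ((n : ℤ) ^ e) * P) = (n : ca_V ℓ F hF) ^ e * ca_evV ℓ F hF t P := by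
  rw [map_mul, ca_evV_C]
  push_cast
  rfl

theorem ca_natCast_V_ne_zero : ((ℓ : ℕ) : ca_V ℓ F hF) ≠ 0 :=
  Nat.cast_ne_zero.mpr (Fact.out : ℓ.Prime).ne_zero

theorem ca_redV_natCast : ca_redV ℓ F hF k ((ℓ : ℕ) : ca_V ℓ F hF) = 0 := by
  rw [map_natCast, ca_natCast_laurent_eq_zero]

theorem ca_aeval_int_poly (x : F) {P : ℚ[X]} {d : ℤ} {P₀ : ℤ[X]}
    (h : P₀.map (Int.castRingHom ℚ) = C (d : ℚ) * P) :
    Polynomial.aeval x P₀ = (d : F) * Polynomial.aeval x P := by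
  have h1 := congrArg (Polynomial.aeval x) h
  rw [← algebraMap_int_eq, Polynomial.aeval_map_algebraMap, map_mul, Polynomial.aeval_C,
    map_intCast] at h1
  exact h1

include htr in
/-- Reductions of elements of `V ∩ ℚ(t)` lie in `k(t̄)`. -/
theorem ca_redV_mem_adjoin (a : ca_V ℓ F hF)
    (ha : (a : F) ∈ IntermediateField.adjoin ℚ {(t : F)}) :
    ca_redV ℓ F hF k a ∈ IntermediateField.adjoin k {ca_redV ℓ F hF k t} := by
  obtain ⟨r, s, hrs⟩ := (IntermediateField.mem_adjoin_simple_iff ℚ _).mp ha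
  by_cases hs : Polynomial.aeval (t : F) s = 0
  · have ha0 : a = 0 := Subtype.ext (by rw [hrs, hs, div_zero]; rfl)
    rw [ha0, map_zero]
    exact zero_mem _
  obtain ⟨dr, R₀, hdr, hR₀⟩ := ca_exists_int_poly r
  obtain ⟨ds, S₀, hds, hS₀⟩ := ca_exists_int_poly s
  have hR := ca_aeval_int_poly F (t : F) hR₀
  have hS := ca_aeval_int_poly F (t : F) hS₀
  have hdrF : (dr : F) ≠ 0 := Int.cast_ne_zero.mpr hdr
  have hdsF : (ds : F) ≠ 0 := Int.cast_ne_zero.mpr hds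
  have has : (a : F) * Polynomial.aeval (t : F) s = Polynomial.aeval (t : F) r := by
    rw [hrs, div_mul_cancel₀ _ hs]
  -- `a * Q(t) = P(t)` with integer polynomials
  have hQP : a * ca_evV ℓ F hF t (C dr * S₀) = ca_evV ℓ F hF t (C ds * R₀) := by
    apply Subtype.ext
    rw [MulMemClass.coe_mul, ca_evV_coe, ca_evV_coe, map_mul, map_mul, Polynomial.aeval_C,
      Polynomial.aeval_C, hR, hS, ← has]
    simp only [eq_intCast]
    ring
  have hQ0 : ca_evV ℓ F hF t (C dr * S₀) ≠ 0 := by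
    intro h0
    have h1 : ((ca_evV ℓ F hF t (C dr * S₀) : ca_V ℓ F hF) : F) = 0 := by rw [h0]; rfl
    rw [ca_evV_coe, map_mul, Polynomial.aeval_C, hS] at h1
    simp only [eq_intCast] at h1
    rcases mul_eq_zero.mp h1 with h1 | h1
    · exact hdrF h1
    · rcases mul_eq_zero.mp h1 with h1 | h1
      · exact hdsF h1
      · exact hs h1
  have hQne : C dr * S₀ ≠ 0 := fun h => hQ0 (by rw [h, map_zero])
  obtain ⟨e, Q₁, hQ₁, hQ₁'⟩ := ca_poly_exists_pow_mul ℓ k hQne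
  by_cases hP0 : C ds * R₀ = 0
  · rw [hP0, map_zero] at hQP
    have ha0 : a = 0 := (mul_eq_zero.mp hQP).resolve_right hQ0
    rw [ha0, map_zero]
    exact zero_mem _
  obtain ⟨f, P₁, hP₁, hP₁'⟩ := ca_poly_exists_pow_mul ℓ k hP0
  rw [hQ₁, hP₁, ca_evV_C_mul, ca_evV_C_mul] at hQP
  have hℓV := ca_natCast_V_ne_zero ℓ F hF
  rcases le_or_gt e f with hef | hfe
  · obtain ⟨d, rfl⟩ := Nat.exists_eq_add_of_le hef
    have h1 : a * ca_evV ℓ F hF t Q₁ = (ℓ : ca_V ℓ F hF) ^ d * ca_evV ℓ F hF t P₁ := by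
      apply mul_left_cancel₀ (pow_ne_zero e hℓV)
      rw [← mul_assoc ((ℓ : ca_V ℓ F hF) ^ e) ((ℓ : ca_V ℓ F hF) ^ d), ← pow_add, ← hQP]
      ring
    have h2 := congrArg (ca_redV ℓ F hF k) h1
    rw [map_mul] at h2
    rw [eq_div_of_mul_eq (ca_redV_evV_ne_zero ℓ F hF k t htr hQ₁') h2]
    refine div_mem ?_ (ca_redV_evV_mem ℓ F hF k t Q₁)
    rw [map_mul, map_pow, map_natCast]
    exact mul_mem (pow_mem (natCast_mem _ _) _) (ca_redV_evV_mem ℓ F hF k t P₁)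
  · exfalso
    obtain ⟨d, rfl⟩ := Nat.exists_eq_add_of_lt hfe
    have h1 : a * ((ℓ : ca_V ℓ F hF) ^ (d + 1) * ca_evV ℓ F hF t Q₁) = ca_evV ℓ F hF t P₁ := by
      apply mul_left_cancel₀ (pow_ne_zero f hℓV)
      rw [← hQP, show f + d + 1 = f + (d + 1) by ring, pow_add]
      ring
    have h2 := congrArg (ca_redV ℓ F hF k) h1
    rw [map_mul, map_mul, map_pow, ca_redV_natCast, zero_pow (Nat.succ_ne_zero d), zero_mul,
      mul_zero] at h2
    exact ca_redV_evV_ne_zero ℓ F hF k t htr hP₁' h2.symm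

include htr in
/-- `V ∩ ℚ[t] = ℤ_(ℓ)[t]`. -/
theorem ca_mem_int_adjoin (a : ca_V ℓ F hF) (ha : (a : F) ∈ Algebra.adjoin ℚ {(t : F)}) :
    ∃ (c : ℚ) (P₁ : ℤ[X]), c ∈ GaloisRep.ratLocalizedAt ℓ ∧
      (a : F) = (c : F) * Polynomial.aeval (t : F) P₁ := by
  rw [Algebra.adjoin_singleton_eq_range_aeval] at ha
  obtain ⟨P, hP⟩ := ha
  have hP' : Polynomial.aeval (t : F) P = (a : F) := hP
  obtain ⟨d, P₀, hd, hP₀⟩ := ca_exists_int_poly P
  have h0 := ca_aeval_int_poly F (t : F) hP₀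
  rw [hP'] at h0
  have hdF : (d : F) ≠ 0 := Int.cast_ne_zero.mpr hd
  by_cases hP₀0 : P₀ = 0
  · rw [hP₀0, map_zero] at h0
    have ha0 : (a : F) = 0 := (mul_eq_zero.mp h0.symm).resolve_left hdF
    exact ⟨0, 0, zero_mem _, by rw [ha0]; simp⟩
  obtain ⟨e, P₁, hP₁, hP₁'⟩ := ca_poly_exists_pow_mul ℓ k hP₀0
  obtain ⟨f, d', hd', hnd⟩ := ca_int_exists_pow_mul ℓ hd
  have hℓF : (ℓ : F) ≠ 0 := Nat.cast_ne_zero.mpr (Fact.out : ℓ.Prime).ne_zero
  have hd'0 : d' ≠ 0 := by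
    rintro rfl
    exact hnd (dvd_zero _)
  have hd'F : (d' : F) ≠ 0 := Int.cast_ne_zero.mpr hd'0
  have h1 : (ℓ : F) ^ e * Polynomial.aeval (t : F) P₁ = (ℓ : F) ^ f * ((d' : F) * (a : F)) := by
    rw [hP₁, hd'] at h0
    rw [map_mul, Polynomial.aeval_C] at h0
    simp only [eq_intCast, Int.cast_pow, Int.cast_natCast, Int.cast_mul] at h0
    rw [h0]; ring
  rcases le_or_gt f e with hfe | hef
  · obtain ⟨g, rfl⟩ := Nat.exists_eq_add_of_le hfe
    have h2 : (ℓ : F) ^ g * Polynomial.aeval (t : F) P₁ = (d' : F) * (a : F) := by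
      apply mul_left_cancel₀ (pow_ne_zero f hℓF)
      rw [← h1, pow_add]; ring
    refine ⟨(ℓ : ℚ) ^ g * (d' : ℚ)⁻¹, P₁, ?_, ?_⟩
    · refine Subring.mul_mem _ (Subring.pow_mem _ (natCast_mem _ _) _) ?_
      refine ca_mem_ratLoc_of_mul_int ℓ _ d' hnd 1 ?_
      have : (d' : ℚ) ≠ 0 := Int.cast_ne_zero.mpr hd'0
      rw [mul_inv_cancel₀ this, Int.cast_one]
    · push_cast
      rw [mul_right_comm, h2, mul_right_comm, mul_inv_cancel₀ hd'F, one_mul]
  · exfalso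
    obtain ⟨g, rfl⟩ := Nat.exists_eq_add_of_lt hef
    have h2 : (ℓ : F) ^ (g + 1) * ((d' : F) * (a : F)) = Polynomial.aeval (t : F) P₁ := by
      apply mul_left_cancel₀ (pow_ne_zero e hℓF)
      rw [h1, show e + g + 1 = e + (g + 1) by ring, pow_add]
      ring
    have h3 : (ℓ : ca_V ℓ F hF) ^ (g + 1) * ((d' : ca_V ℓ F hF) * a) = ca_evV ℓ F hF t P₁ := by
      apply Subtype.ext
      rw [ca_evV_coe, ← h2]
      push_cast
      rfl
    have h4 := congrArg (ca_redV ℓ F hF k) h3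
    rw [map_mul, map_pow, ca_redV_natCast, zero_pow (Nat.succ_ne_zero g), zero_mul] at h4
    exact ca_redV_evV_ne_zero ℓ F hF k t htr hP₁' h4.symm

include htr in
/-- An element with transcendental reduction is transcendental over `ℚ`. -/
theorem ca_transcendental : Transcendental ℚ (t : F) := by
  rw [transcendental_iff]
  intro P hP
  by_contra hP0
  obtain ⟨d, P₀, hd, hP₀⟩ := ca_exists_int_poly P
  have h0 := ca_aeval_int_poly F (t : F) hP₀
  rw [hP, mul_zero] at h0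
  have hP₀0 : P₀ ≠ 0 := by
    rintro rfl
    rw [Polynomial.map_zero] at hP₀
    rcases mul_eq_zero.mp hP₀.symm with h | h
    · exact hd (by exact_mod_cast (Polynomial.C_eq_zero.mp h))
    · exact hP0 h
  obtain ⟨e, P₁, hP₁, hP₁'⟩ := ca_poly_exists_pow_mul ℓ k hP₀0
  have h1 : ca_evV ℓ F hF t P₀ = 0 := Subtype.ext (by rw [ca_evV_coe, h0]; rfl)
  rw [hP₁, ca_evV_C_mul] at h1
  have h2 := (mul_eq_zero.mp h1).resolve_left (pow_ne_zero e (ca_natCast_V_ne_zero ℓ F hF))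
  exact ca_redV_evV_ne_zero ℓ F hF k t htr hP₁' (by rw [h2, map_zero])

end Eval

end Fermat.Agent.S28Lib
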