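/-
S28, chunk CA (helper4), part 6: the kernel computation, generic in the parameter `t`
(`t = j` for the finite chart, `t = j⁻¹` for the chart at infinity).  If `c ∈ V` is integral
over `ℚ[t]`, then it is a root of a monic polynomial with coefficients in `ℤ_(ℓ)[t]`.
-/
import Fermat.Agent.Lib.S28.CAPoly
import Fermat.Agent.Lib.S28.CACore

set_option autoImplicit false

noncomputable section

namespace Fermat.Agent.S28Lib

open ModularCurve Polynomial IntermediateField

open scoped IntermediateField.algebraAdjoinAdjoin in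
/-- Coefficients of the minimal polynomial over `K(t)` of an element integral over `K[t]` lie
in `K[t]` (`t` transcendental). -/
theorem ca_minpoly_coeff_mem_adjoin {K F₁ : Type*} [Field K] [Field F₁] [Algebra K F₁] {t : F₁}
    (ht : Transcendental K t) {c : F₁} (hc : IsIntegral (Algebra.adjoin K {t}) c) (i : ℕ) :
    algebraMap K⟮t⟯ F₁ ((minpoly K⟮t⟯ c).coeff i) ∈ Algebra.adjoin K {t} := by
  have : IsIntegrallyClosed (Algebra.adjoin K {t}) :=
    IsIntegrallyClosed.of_equiv (Polynomial.algEquivOfTranscendental K t ht).toRingEquiv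
  obtain ⟨y, hy⟩ := ca_minpoly_coeff_mem (R := Algebra.adjoin K {t}) (E := K⟮t⟯) hc i
  rw [← hy]
  exact y.2

variable (ℓ : ℕ) [Fact ℓ.Prime] (F : IntermediateField ℚ (LaurentSeries ℚ)) (hF : F ≤ ca_QZ)
  (k : Type*) [Field k] [CharP k ℓ] (t : ca_V ℓ F hF)

/-- The kernel computation, generic in `t`. -/
theorem ca_kernel_generic (htr : Transcendental k (ca_redV ℓ F hF k t))
    {n : ℕ} (θ : Fin n → ca_V ℓ F hF)
    (hli : LinearIndependent ↥(IntermediateField.adjoin k {ca_redV ℓ F hF k t})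
      (fun i => ca_redV ℓ F hF k (θ i)))
    (hfin : Module.Finite ↥(IntermediateField.adjoin ℚ {(t : F)}) F)
    (hn : Module.finrank ↥(IntermediateField.adjoin ℚ {(t : F)}) F ≤ n)
    (c : ca_V ℓ F hF) (hc : IsIntegral (Algebra.adjoin ℚ {(t : F)}) (c : F)) :
    ∃ p : Polynomial F, p.Monic ∧ p.eval (c : F) = 0 ∧
      ∀ i, ∃ (q : ℚ) (P₁ : ℤ[X]), q ∈ GaloisRep.ratLocalizedAt ℓ ∧
        p.coeff i = (q : F) * Polynomial.aeval (t : F) P₁ := by
  have hr : ∀ x : ca_V ℓ F hF, ca_redV ℓ F hF k x ≠ 0 → (x : F)⁻¹ ∈ ca_V ℓ F hF :=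
    ca_inv_mem_V ℓ F hF k
  have hθ : ∀ (a : Fin n → ↥(IntermediateField.adjoin ℚ {(t : F)}))
      (ha : ∀ i, algebraMap ↥(IntermediateField.adjoin ℚ {(t : F)}) F (a i) ∈ ca_V ℓ F hF),
      ∑ i, ca_redV ℓ F hF k ⟨algebraMap ↥(IntermediateField.adjoin ℚ {(t : F)}) F (a i), ha i⟩ *
        ca_redV ℓ F hF k (θ i) = 0 →
      ∀ i, ca_redV ℓ F hF k
        ⟨algebraMap ↥(IntermediateField.adjoin ℚ {(t : F)}) F (a i), ha i⟩ = 0 := by
    intro a ha hsum i
    have hmem : ∀ i, ca_redV ℓ F hF k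
        ⟨algebraMap ↥(IntermediateField.adjoin ℚ {(t : F)}) F (a i), ha i⟩ ∈
        IntermediateField.adjoin k {ca_redV ℓ F hF k t} :=
      fun i => ca_redV_mem_adjoin ℓ F hF k t htr _ (a i).2
    have h1 := Fintype.linearIndependent_iff.mp hli (fun i => ⟨_, hmem i⟩) hsum
    exact congrArg Subtype.val (h1 i)
  have hLI := ca_core_linearIndependent (ca_V ℓ F hF) (ca_redV ℓ F hF k) θ hθ
  have hcard : Fintype.card (Fin n) =
      Module.finrank ↥(IntermediateField.adjoin ℚ {(t : F)}) F := by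
    have := hLI.fintype_card_le_finrank
    rw [Fintype.card_fin] at this ⊢
    omega
  have hspan : ⊤ ≤ Submodule.span ↥(IntermediateField.adjoin ℚ {(t : F)})
      (Set.range fun i => ((θ i : ca_V ℓ F hF) : F)) :=
    (hLI.span_eq_top_of_card_eq_finrank' hcard).ge
  have hV := ca_core_minpoly_coeff_mem (ca_V ℓ F hF) (ca_redV ℓ F hF k) hr θ hθ hspan c
  have hTr : Transcendental ℚ (t : F) := ca_transcendental ℓ F hF k t htr
  refine ⟨(minpoly ↥(IntermediateField.adjoin ℚ {(t : F)}) (c : F)).map (algebraMap _ F),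
    (minpoly.monic (IsIntegral.of_finite _ _)).map _, ?_, ?_⟩
  · rw [Polynomial.eval_map_algebraMap, minpoly.aeval]
  · intro i
    rw [Polynomial.coeff_map]
    exact ca_mem_int_adjoin ℓ F hF k t htr ⟨_, hV i⟩ (ca_minpoly_coeff_mem_adjoin hTr hc i)

end Fermat.Agent.S28Lib
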