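/-
S28, chunk CA (helper4), part 7: instantiation for the modular function field
`F = modularFunctionFieldFull N`: the Gauss valuation ring of `F`, the elements `j`, `j⁻¹`,
the charts are contained in it.
-/
import Fermat.Agent.Lib.S28.CAKernel

set_option autoImplicit false

noncomputable section

namespace Fermat.Agent.S28Lib

open ModularCurve ModularCurve.IgusaScheme Polynomial IntermediateField

/-! ### transcendence of `j` over any field -/

theorem ca_coeff_algebraMap_mul (k : Type*) [Field k] (c : k) (x : LaurentSeries k) (m : ℤ) :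
    (algebraMap k (LaurentSeries k) c * x).coeff m = c * x.coeff m := by
  rw [algebraMap_laurentSeries_eq_single, ← HahnSeries.C_apply, HahnSeries.C_mul_eq_smul,
    HahnSeries.coeff_smul, smul_eq_mul]

theorem ca_transcendental_jqModC (k : Type*) [Field k] : Transcendental k (jqModC k) := by
  rw [transcendental_iff]
  intro P hP
  by_contra hP0
  have h := congrArg (fun x : LaurentSeries k => x.coeff (-(P.natDegree : ℤ))) hP
  simp only [HahnSeries.coeff_zero] at h
  rw [Polynomial.aeval_def, Polynomial.eval₂_eq_sum_range] at h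
  have hsum : (∑ i ∈ Finset.range (P.natDegree + 1),
      algebraMap k (LaurentSeries k) (P.coeff i) * jqModC k ^ i).coeff (-(P.natDegree : ℤ)) =
      ∑ i ∈ Finset.range (P.natDegree + 1),
        P.coeff i * (jqModC k ^ i).coeff (-(P.natDegree : ℤ)) := by
    rw [← HahnSeries.coeff.addMonoidHom_apply, map_sum]
    refine Finset.sum_congr rfl fun i _ => ?_
    rw [HahnSeries.coeff.addMonoidHom_apply, ca_coeff_algebraMap_mul]
  have hzero : ∑ i ∈ Finset.range P.natDegree,
      P.coeff i * (jqModC k ^ i).coeff (-(P.natDegree : ℤ)) = 0 := by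
    refine Finset.sum_eq_zero fun i hi => ?_
    rw [coeff_jqModC_pow_of_lt k (by
      have := Finset.mem_range.mp hi
      omega), mul_zero]
  rw [hsum, Finset.sum_range_succ, coeff_jqModC_pow_self, mul_one, hzero, zero_add] at h
  exact hP0 (Polynomial.leadingCoeff_eq_zero.mp h)

theorem ca_transcendental_jqModC_inv (k : Type*) [Field k] :
    Transcendental k (jqModC k)⁻¹ := by
  intro h
  have h2 := h.inv
  rw [inv_inv] at h2
  exact ca_transcendental_jqModC k h2

/-! ### the modular function field lies in `Frac ℤ((q))` -/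

theorem ca_emb_qExpand_jqModC (d : ℕ) [NeZero d] :
    ca_emb (qExpand ℤ d (jqModC ℤ)) = qExpand ℚ d jq := by
  rw [ca_emb, coeffMap_qExpand, coeffMap_jqModC]
  rfl

theorem ca_emb_jqModC : ca_emb (jqModC ℤ) = jq := by
  rw [ca_emb, coeffMap_jqModC]
  rfl

theorem ca_full_le_QZ (N : ℕ) : modularFunctionFieldFull N ≤ ca_QZ := by
  rw [modularFunctionFieldFull, IntermediateField.adjoin_le_iff]
  rintro x ⟨d, hd, -, rfl⟩
  rw [← ca_emb_qExpand_jqModC]
  exact ca_emb_mem_QZ _

section Level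

variable (N : ℕ) [NeZero N] (ℓ : ℕ) [Fact ℓ.Prime]

/-- The Gauss valuation ring of the modular function field. -/
abbrev ca_VN : ValuationSubring ↥(modularFunctionFieldFull N) :=
  ca_V ℓ (modularFunctionFieldFull N) (ca_full_le_QZ N)

/-- The reduction map on the Gauss valuation ring of the modular function field. -/
abbrev ca_redN (k : Type*) [Field k] [CharP k ℓ] : ca_VN N ℓ →+* LaurentSeries k :=
  ca_redV ℓ (modularFunctionFieldFull N) (ca_full_le_QZ N) k

theorem ca_jFull_mem : jFull N ∈ ca_VN N ℓ :=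
  ca_mem_V_of_emb ℓ _ _ (jqModC ℤ) (by rw [ca_emb_jqModC]; rfl)

/-- `j` as an element of the Gauss valuation ring. -/
def ca_jV : ca_VN N ℓ := ⟨jFull N, ca_jFull_mem N ℓ⟩

theorem ca_redN_jV (k : Type*) [Field k] [CharP k ℓ] : ca_redN N ℓ k (ca_jV N ℓ) = jqModC k := by
  rw [ca_redN, ca_redV_of_emb ℓ _ _ k (ca_jV N ℓ) (jqModC ℤ) (by rw [ca_emb_jqModC]; rfl),
    ca_red, coeffMap_jqModC]

theorem ca_jFull_inv_mem : (jFull N)⁻¹ ∈ ca_VN N ℓ := by
  refine ca_inv_mem_V ℓ _ _ (ZMod ℓ) (ca_jV N ℓ) ?_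
  rw [ca_redN_jV]
  exact jqModC_ne_zero_of_nontrivial _

/-- `j⁻¹` as an element of the Gauss valuation ring. -/
def ca_jInvV : ca_VN N ℓ := ⟨(jFull N)⁻¹, ca_jFull_inv_mem N ℓ⟩

theorem ca_redN_jInvV (k : Type*) [Field k] [CharP k ℓ] :
    ca_redN N ℓ k (ca_jInvV N ℓ) = (jqModC k)⁻¹ := by
  have h1 : ca_jInvV N ℓ * ca_jV N ℓ = 1 :=
    Subtype.ext (inv_mul_cancel₀ (jFull_ne_zero N))
  have h2 := congrArg (ca_redN N ℓ k) h1
  rw [map_mul, map_one, ca_redN_jV] at h2
  exact eq_inv_of_mul_eq_one_left h2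

omit [NeZero N] [Fact ℓ.Prime] in
/-- The structure map `ℤ_(ℓ) → F` in terms of rational casts. -/
theorem ca_algebraMap_eq (c : ↥(GaloisRep.ratLocalizedAt ℓ)) :
    algebraMap ↥(GaloisRep.ratLocalizedAt ℓ) ↥(modularFunctionFieldFull N) c =
      (((c : ℚ) : ℚ) : ↥(modularFunctionFieldFull N)) :=
  eq_ratCast (algebraMap ℚ ↥(modularFunctionFieldFull N)) (c : ℚ)

omit [NeZero N] in
theorem ca_algebraMap_mem (c : ↥(GaloisRep.ratLocalizedAt ℓ)) :
    algebraMap ↥(GaloisRep.ratLocalizedAt ℓ) ↥(modularFunctionFieldFull N) c ∈ ca_VN N ℓ := by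
  rw [ca_algebraMap_eq]
  exact ca_ratCast_mem_V ℓ _ _ _ c.2

/-- Charts generated by elements of the Gauss valuation ring are contained in it. -/
theorem ca_chart_le (S : Set ↥(modularFunctionFieldFull N)) (hS : ∀ s ∈ S, s ∈ ca_VN N ℓ)
    {x : ↥(modularFunctionFieldFull N)} (hx : x ∈ chartAlg N ℓ S) : x ∈ ca_VN N ℓ := by
  have hle : ∀ y ∈ Algebra.adjoin ↥(GaloisRep.ratLocalizedAt ℓ) S, y ∈ ca_VN N ℓ := by
    intro y hy
    induction hy using Algebra.adjoin_induction with
    | mem y hy => exact hS y hy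
    | algebraMap c => exact ca_algebraMap_mem N ℓ c
    | add y z _ _ hy hz => exact add_mem hy hz
    | mul y z _ _ hy hz => exact mul_mem hy hz
  let φ : ↥(Algebra.adjoin ↥(GaloisRep.ratLocalizedAt ℓ) S) →+* ↥(ca_VN N ℓ) :=
    { toFun := fun y => ⟨(y : ↥(modularFunctionFieldFull N)), hle y y.2⟩
      map_one' := rfl
      map_mul' := fun _ _ => rfl
      map_zero' := rfl
      map_add' := fun _ _ => rfl }
  have hint : IsIntegral ↥(ca_VN N ℓ) x :=
    ((mem_chartAlg_iff N ℓ).mp hx).map_of_comp_eq φ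
      (RingHom.id ↥(modularFunctionFieldFull N)) (by ext; rfl)
  obtain ⟨y, hy⟩ := IsIntegrallyClosed.isIntegral_iff.mp hint
  rw [← hy]
  exact y.2

end Level

end Fermat.Agent.S28Lib
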