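/-
S28 (Igusa), shared base (helper2).

* `Vq R n` : the substitution `q ↦ q ^ n` on `R((q))`, total in `n` (`= qExpand R n` for `n ≠ 0`,
  identity for `n = 0`), so that no `NeZero` instance has to be carried around;
* `tw c`  : the twist `q ↦ c q` for a unit `c`;
* `evY y` : evaluation `R[Y] → R((q))`, `Y ↦ y`;
* `PhiData k p` : the modular polynomial of prime level `p` over a field `k`, given by its
  roots in `k((q))`, together with the two multiplicity facts at `0` and `1728`.
-/
import Mathlib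
import Fermat.Prelude.Def_ModularCurve_X0ModL

set_option autoImplicit false

namespace Fermat.Agent.S28Lib

open HahnSeries ModularCurve Polynomial

noncomputable section

/-! ### `Vq` -/

section Vq

variable (R : Type*) [CommRing R]

/-- `q ↦ q ^ n` on Laurent series (identity for `n = 0`). -/
def Vq (n : ℕ) : LaurentSeries R →+* LaurentSeries R :=
  if h : n = 0 then RingHom.id _ else @qExpand R _ n ⟨h⟩

variable {R}

theorem Vq_eq (n : ℕ) [NeZero n] : Vq R n = qExpand R n := by
  unfold Vq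
  rw [dif_neg (NeZero.ne n)]

theorem Vq_apply (n : ℕ) [NeZero n] (f : LaurentSeries R) : Vq R n f = qExpand R n f := by
  rw [Vq_eq]

@[simp]
theorem Vq_zero (f : LaurentSeries R) : Vq R 0 f = f := by
  unfold Vq
  rw [dif_pos rfl]
  rfl

@[simp]
theorem Vq_one (f : LaurentSeries R) : Vq R 1 f = f := by
  rw [Vq_apply, qExpand_one_apply]

theorem Vq_coeff_mul {n : ℕ} (hn : n ≠ 0) (f : LaurentSeries R) (k : ℤ) :
    (Vq R n f).coeff ((n : ℤ) * k) = f.coeff k := by
  have : NeZero n := ⟨hn⟩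
  rw [Vq_apply, qExpand_coeff_mul]

theorem Vq_coeff_of_not_dvd {n : ℕ} (hn : n ≠ 0) (f : LaurentSeries R) {k : ℤ}
    (hk : ¬ (n : ℤ) ∣ k) : (Vq R n f).coeff k = 0 := by
  have : NeZero n := ⟨hn⟩
  rw [Vq_apply, qExpand_coeff_of_not_dvd n f hk]

theorem Vq_injective {n : ℕ} (hn : n ≠ 0) : Function.Injective (Vq R n) := by
  have : NeZero n := ⟨hn⟩
  rw [Vq_eq]
  exact qExpand_injective n

theorem Vq_Vq {m n : ℕ} (hm : m ≠ 0) (hn : n ≠ 0) (f : LaurentSeries R) :
    Vq R m (Vq R n f) = Vq R (m * n) f := by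
  have : NeZero n := ⟨hn⟩
  have : NeZero m := ⟨hm⟩
  have : NeZero (m * n) := ⟨Nat.mul_ne_zero hm hn⟩
  rw [Vq_apply, Vq_apply, Vq_apply, qExpand_qExpand]

theorem Vq_single {n : ℕ} (hn : n ≠ 0) (k : ℤ) (r : R) :
    Vq R n (HahnSeries.single k r) = HahnSeries.single ((n : ℤ) * k) r := by
  have : NeZero n := ⟨hn⟩
  rw [Vq_apply, qExpand_single]

theorem Vq_C (n : ℕ) (r : R) : Vq R n (HahnSeries.C r) = HahnSeries.C r := by
  rcases eq_or_ne n 0 with rfl | hn
  · simp
  · have : NeZero n := ⟨hn⟩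
    rw [Vq_apply, qExpand_C]

theorem coeffMap_Vq {S : Type*} [CommRing S] (f : R →+* S) (n : ℕ) (x : LaurentSeries R) :
    coeffMap f (Vq R n x) = Vq S n (coeffMap f x) := by
  rcases eq_or_ne n 0 with rfl | hn
  · simp
  · have : NeZero n := ⟨hn⟩
    rw [Vq_apply, Vq_apply, coeffMap_qExpand]

/-- an element of the range of `Vq R n` has support in `n ℤ`. -/
theorem coeff_eq_zero_of_mem_range_Vq {n : ℕ} (hn : n ≠ 0) {x : LaurentSeries R}
    (hx : x ∈ Set.range (Vq R n)) {k : ℤ} (hk : ¬ (n : ℤ) ∣ k) : x.coeff k = 0 := by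
  obtain ⟨f, rfl⟩ := hx
  exact Vq_coeff_of_not_dvd hn f hk

end Vq

/-! ### the twist -/

section twist

variable {R : Type*} [CommRing R]

/-- coefficientwise twist `a_n ↦ c^n a_n`. -/
def twFun (c : Rˣ) (a : LaurentSeries R) : LaurentSeries R where
  coeff n := ((c ^ n : Rˣ) : R) * a.coeff n
  isPWO_support' := a.isPWO_support.mono (fun n hn => by
    simp only [Function.mem_support, ne_eq] at hn
    exact fun h0 => hn (by rw [h0, mul_zero]))

@[simp]
theorem twFun_coeff (c : Rˣ) (a : LaurentSeries R) (n : ℤ) :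
    (twFun c a).coeff n = ((c ^ n : Rˣ) : R) * a.coeff n := rfl

theorem twFun_support (c : Rˣ) (a : LaurentSeries R) : (twFun c a).support ⊆ a.support := by
  intro n hn
  simp only [mem_support, twFun_coeff, ne_eq] at hn ⊢
  exact fun h0 => hn (by rw [h0, mul_zero])

theorem coeff_mul_of_support {x y : LaurentSeries R} {s t : Set ℤ} (hs : s.IsPWO) (ht : t.IsPWO)
    (hxs : x.support ⊆ s) (hyt : y.support ⊆ t) (n : ℤ) :
    (x * y).coeff n = ∑ ij ∈ Finset.antidiagonal hs ht n, x.coeff ij.1 * y.coeff ij.2 := by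
  rw [HahnSeries.coeff_mul_left' hs hxs]
  apply Finset.sum_subset
  · intro ij hij
    rw [Finset.mem_antidiagonal] at hij ⊢
    exact ⟨hij.1, hyt hij.2.1, hij.2.2⟩
  · intro ij hij hnot
    rw [Finset.mem_antidiagonal] at hij hnot
    have : y.coeff ij.2 = 0 := by
      by_contra h
      exact hnot ⟨hij.1, h, hij.2.2⟩
    rw [this, mul_zero]

/-- the ring endomorphism `q ↦ c q` of `R((q))`, `c` a unit. -/
def tw (c : Rˣ) : LaurentSeries R →+* LaurentSeries R where
  toFun := twFun c
  map_one' := by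
    ext n
    rw [twFun_coeff, HahnSeries.coeff_one]
    split_ifs with h
    · subst h; simp
    · simp
  map_mul' a b := by
    ext n
    rw [coeff_mul_of_support a.isPWO_support b.isPWO_support (twFun_support c a)
      (twFun_support c b), twFun_coeff, HahnSeries.coeff_mul, Finset.mul_sum]
    refine Finset.sum_congr rfl fun ij hij => ?_
    rw [Finset.mem_antidiagonal] at hij
    simp only [twFun_coeff]
    rw [← hij.2.2, zpow_add, Units.val_mul]
    ring
  map_zero' := by ext n; simp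
  map_add' a b := by ext n; simp [mul_add]

@[simp]
theorem tw_coeff (c : Rˣ) (a : LaurentSeries R) (n : ℤ) :
    (tw c a).coeff n = ((c ^ n : Rˣ) : R) * a.coeff n := rfl

@[simp]
theorem tw_one (a : LaurentSeries R) : tw (1 : Rˣ) a = a := by
  ext n; simp

theorem tw_tw (c d : Rˣ) (a : LaurentSeries R) : tw c (tw d a) = tw (c * d) a := by
  ext n
  simp only [tw_coeff, mul_zpow, Units.val_mul]
  ring

theorem tw_pow (c : Rˣ) (b : ℕ) (a : LaurentSeries R) : (tw c)^[b] a = tw (c ^ b) a := by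
  induction b with
  | zero => simp
  | succ b ih => rw [Function.iterate_succ_apply', ih, tw_tw, pow_succ']

theorem tw_injective (c : Rˣ) : Function.Injective (tw c : LaurentSeries R → LaurentSeries R) := by
  intro a b h
  have := congrArg (tw c⁻¹) h
  simpa [tw_tw] using this

theorem tw_single (c : Rˣ) (k : ℤ) (r : R) :
    tw c (HahnSeries.single k r) = HahnSeries.single k (((c ^ k : Rˣ) : R) * r) := by
  ext n
  rw [tw_coeff]
  rcases eq_or_ne n k with rfl | h
  · simp
  · simp [HahnSeries.coeff_single_of_ne h]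

theorem tw_C (c : Rˣ) (r : R) : tw c (HahnSeries.C r) = HahnSeries.C r := by
  rw [HahnSeries.C_apply, tw_single]
  simp

/-- `(V_n f)(c q) = V_n (f(c^n q))`. -/
theorem tw_Vq (c : Rˣ) {n : ℕ} (hn : n ≠ 0) (a : LaurentSeries R) :
    tw c (Vq R n a) = Vq R n (tw (c ^ n) a) := by
  ext k
  by_cases hk : (n : ℤ) ∣ k
  · obtain ⟨m, rfl⟩ := hk
    rw [tw_coeff, Vq_coeff_mul hn, Vq_coeff_mul hn, tw_coeff]
    congr 2
    rw [zpow_mul, zpow_natCast]
  · rw [tw_coeff, Vq_coeff_of_not_dvd hn _ hk, Vq_coeff_of_not_dvd hn _ hk, mul_zero]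

/-- a twist by an `n`-th root of unity fixes the range of `V_n`. -/
theorem tw_Vq_of_pow_eq_one {c : Rˣ} {n : ℕ} (hn : n ≠ 0) (h : c ^ n = 1) (a : LaurentSeries R) :
    tw c (Vq R n a) = Vq R n a := by
  rw [tw_Vq c hn, h, tw_one]

theorem coeffMap_tw {S : Type*} [CommRing S] (f : R →+* S) (c : Rˣ) (a : LaurentSeries R) :
    coeffMap f (tw c a) = tw (Units.map (f : R →* S) c) (coeffMap f a) := by
  ext n
  simp only [coeffMap_coeff, tw_coeff, map_mul]
  congr 1
  rw [← map_zpow]
  rfl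

end twist

/-! ### evaluation of the inner variable -/

section evY

variable {R : Type*} [CommRing R]

/-- `R[Y] → R((q))`, `Y ↦ y`. -/
def evY (y : LaurentSeries R) : Polynomial R →+* LaurentSeries R :=
  (Polynomial.aeval y).toRingHom

@[simp]
theorem evY_X (y : LaurentSeries R) : evY y X = y := by
  simp [evY]

theorem evY_apply (y : LaurentSeries R) (P : Polynomial R) : evY y P = Polynomial.aeval y P := rfl

theorem evY_C (y : LaurentSeries R) (r : R) :
    evY y (Polynomial.C r) = algebraMap R (LaurentSeries R) r := by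
  simp [evY]

end evY

/-! ### the fields `K0 = k(J)` and `F̄_M = k(J(q^d) : d ∣ M)` inside `k((q))` -/

theorem algebraMap_eq_C {R : Type*} [CommRing R] (c : R) :
    algebraMap R (LaurentSeries R) c = HahnSeries.C c := by
  have h1 : algebraMap R (PowerSeries R) c = PowerSeries.C c := by simp
  rw [HahnSeries.algebraMap_apply', h1, HahnSeries.ofPowerSeries_C]

section fields

variable (k : Type*) [Field k]

/-- `V_n` as a `k`-algebra endomorphism of `k((q))`. -/
def VqAlg (n : ℕ) : LaurentSeries k →ₐ[k] LaurentSeries k where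
  __ := Vq k n
  commutes' c := by
    show Vq k n (algebraMap k (LaurentSeries k) c) = algebraMap k (LaurentSeries k) c
    rw [algebraMap_eq_C, Vq_C]

@[simp]
theorem VqAlg_apply (n : ℕ) (f : LaurentSeries k) : VqAlg k n f = Vq k n f := rfl

variable {k} in
/-- `tw c` as a `k`-algebra endomorphism of `k((q))`. -/
def twAlg (c : kˣ) : LaurentSeries k →ₐ[k] LaurentSeries k where
  __ := tw c
  commutes' r := by
    show tw c (algebraMap k (LaurentSeries k) r) = algebraMap k (LaurentSeries k) r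
    rw [algebraMap_eq_C, tw_C]

variable {k} in
@[simp]
theorem twAlg_apply (c : kˣ) (f : LaurentSeries k) : twAlg c f = tw c f := rfl

/-- `K0 = k(J)`. -/
abbrev K0 : IntermediateField k (LaurentSeries k) := IntermediateField.adjoin k {jqModC k}

/-- the generators `J(q^d)`, `d ∣ M`. -/
def FbarGens (M : ℕ) : Set (LaurentSeries k) := {x | ∃ d, d ∣ M ∧ x = Vq k d (jqModC k)}

/-- `F̄_M = k(J(q^d) : d ∣ M)`. -/
def Fbar (M : ℕ) : IntermediateField k (LaurentSeries k) :=
  IntermediateField.adjoin k (FbarGens k M)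

variable {k}

theorem Vq_mem_Fbar {d M : ℕ} (h : d ∣ M) : Vq k d (jqModC k) ∈ Fbar k M :=
  IntermediateField.subset_adjoin k _ ⟨d, h, rfl⟩

theorem J_mem_Fbar (M : ℕ) : jqModC k ∈ Fbar k M := by
  have := Vq_mem_Fbar (k := k) (one_dvd M)
  rwa [Vq_one] at this

theorem K0_le_Fbar (M : ℕ) : K0 k ≤ Fbar k M := by
  rw [IntermediateField.adjoin_le_iff]
  exact Set.singleton_subset_iff.mpr (J_mem_Fbar M)

theorem Fbar_mono {M M' : ℕ} (h : M ∣ M') : Fbar k M ≤ Fbar k M' := by
  rw [Fbar, IntermediateField.adjoin_le_iff]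
  rintro x ⟨d, hd, rfl⟩
  exact Vq_mem_Fbar (hd.trans h)

theorem Fbar_one : Fbar k 1 = K0 k := by
  apply le_antisymm
  · rw [Fbar, IntermediateField.adjoin_le_iff]
    rintro x ⟨d, hd, rfl⟩
    rw [Nat.dvd_one] at hd
    subst hd
    rw [Vq_one]
    exact IntermediateField.mem_adjoin_simple_self k _
  · exact K0_le_Fbar 1

/-- `V_p(F̄_M) ⊆ F̄_{M p}`. -/
theorem Fbar_map_Vq_le (M : ℕ) {p : ℕ} (hp : p ≠ 0) :
    (Fbar k M).map (VqAlg k p) ≤ Fbar k (M * p) := by
  rw [Fbar, IntermediateField.adjoin_map, IntermediateField.adjoin_le_iff]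
  rintro x ⟨y, ⟨d, hd, rfl⟩, rfl⟩
  rcases eq_or_ne d 0 with rfl | hd0
  · have hM : M = 0 := by simpa using hd
    subst hM
    simp only [Vq_zero, VqAlg_apply]
    exact Vq_mem_Fbar (by simp)
  · rw [VqAlg_apply, Vq_Vq hp hd0]
    exact Vq_mem_Fbar (by rw [mul_comm]; exact Nat.mul_dvd_mul_right hd p)

/-- bridge to the Prelude field. -/
theorem Fbar_eq_full (M : ℕ) [NeZero M] : Fbar k M = modularFunctionFieldFullC k M := by
  unfold Fbar modularFunctionFieldFullC
  congr 1
  ext x
  constructor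
  · rintro ⟨d, hd, rfl⟩
    have hd0 : d ≠ 0 := fun h => NeZero.ne M (by simpa [h] using hd)
    have : NeZero d := ⟨hd0⟩
    exact ⟨d, inferInstance, hd, Vq_apply d _⟩
  · rintro ⟨d, hne, hd, rfl⟩
    have := hne
    exact ⟨d, hd, (Vq_apply d _).symm⟩

end fields

/-! ### the interface structure -/

/-- The modular polynomial of prime level `p` over the field `k`:
`Φ ∈ k[Y][X]`, monic of degree `p + 1` in `X`, with
`Φ(X, J(q^p)) = (X - J(q^{p²})) ∏_{b<p} (X - J(ζ^b q))`,
and the multiplicity facts: every root `y ≠ 0` of `Φ(0, Y)` has multiplicity divisible by `3`,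
every root `y ≠ 1728` of `Φ(1728, Y)` has even multiplicity. -/
structure PhiData (k : Type) [Field k] (p : ℕ) where
  Φ : Polynomial (Polynomial k)
  monic : Φ.Monic
  natDegree_eq : Φ.natDegree = p + 1
  ζ : kˣ
  prim : IsPrimitiveRoot ζ p
  roots : Φ.map (evY (Vq k p (jqModC k))) =
    (X - Polynomial.C (Vq k (p * p) (jqModC k))) *
      ∏ b ∈ Finset.range p, (X - Polynomial.C (tw (ζ ^ b) (jqModC k)))
  mult0 : ∀ y : k, y ≠ 0 → 3 ∣ (Φ.eval 0).rootMultiplicity y
  mult1728 : ∀ y : k, y ≠ 1728 → 2 ∣ (Φ.eval (Polynomial.C 1728)).rootMultiplicity y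

end

end Fermat.Agent.S28Lib
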