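/-
S28, chunk DQ (helper7): the degree of the function field of `X₀(N)` over `ℚ(j)` is at most
`ψ(N)`.  Descent of `finrank_JF` (over `ℚ̄`) to `ℚ` by linear disjointness of `ℚ((q))` and `ℚ̄`.
-/
import Fermat.Agent.Lib.S24.DegJF
import Fermat.Agent.Lib.S20.ProjLineCoset
import Fermat.Prelude.Def_ModularCurve_IgusaScheme

set_option autoImplicit false

namespace Fermat.Agent.S28Lib

open ModularCurve IntermediateField Polynomial
open Fermat.Agent.S24Lib Fermat.Agent.S20Lib Fermat.Agent.LibS23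

/-- coefficientwise application of a `ℚ`-linear functional `ℚ̄ → ℚ`. -/
noncomputable def dq_lin (lam : Kb →ₗ[ℚ] ℚ) (x : LaurentSeries Kb) : LaurentSeries ℚ :=
  x.map lam

theorem dq_lin_coeff (lam : Kb →ₗ[ℚ] ℚ) (x : LaurentSeries Kb) (m : ℤ) :
    (dq_lin lam x).coeff m = lam (x.coeff m) := rfl

theorem dq_lin_zero (lam : Kb →ₗ[ℚ] ℚ) : dq_lin lam 0 = 0 := by
  ext m
  rw [dq_lin_coeff, HahnSeries.coeff_zero, HahnSeries.coeff_zero, map_zero]

theorem dq_lin_add (lam : Kb →ₗ[ℚ] ℚ) (x y : LaurentSeries Kb) :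
    dq_lin lam (x + y) = dq_lin lam x + dq_lin lam y := by
  ext m
  rw [dq_lin_coeff, HahnSeries.coeff_add, HahnSeries.coeff_add, map_add, dq_lin_coeff,
    dq_lin_coeff]

theorem dq_lin_sum (lam : Kb →ₗ[ℚ] ℚ) {ι : Type*} (s : Finset ι) (f : ι → LaurentSeries Kb) :
    dq_lin lam (∑ i ∈ s, f i) = ∑ i ∈ s, dq_lin lam (f i) := by
  classical
  induction s using Finset.induction_on with
  | empty => simp [dq_lin_zero]
  | insert a s ha ih => rw [Finset.sum_insert ha, Finset.sum_insert ha, dq_lin_add, ih]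

theorem dq_coeff_algebraMap_mul {L : Type*} [Field L] (c : L) (x : LaurentSeries L) (m : ℤ) :
    (algebraMap L (LaurentSeries L) c * x).coeff m = c * x.coeff m := by
  rw [algebraMap_laurentSeries_eq_single, HahnSeries.coeff_single_mul, sub_zero]

theorem dq_lin_algebraMap_mul_emb (lam : Kb →ₗ[ℚ] ℚ) (c : Kb) (y : LaurentSeries ℚ) :
    dq_lin lam (algebraMap Kb (LaurentSeries Kb) c * coeffEmb Kb y)
      = algebraMap ℚ (LaurentSeries ℚ) (lam c) * y := by
  ext m
  rw [dq_lin_coeff, dq_coeff_algebraMap_mul, dq_coeff_algebraMap_mul, coeffEmb_coeff]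
  have h : c * algebraMap ℚ Kb (y.coeff m) = y.coeff m • c := by
    rw [Algebra.smul_def, mul_comm]
  rw [h, map_smul, smul_eq_mul, mul_comm]

/-- `P(j) · emb y`, expanded. -/
theorem dq_aeval_mul_emb (P : Polynomial Kb) (y : LaurentSeries ℚ) :
    aeval Jser P * coeffEmb Kb y
      = ∑ k ∈ Finset.range (P.natDegree + 1),
          algebraMap Kb (LaurentSeries Kb) (P.coeff k) * coeffEmb Kb (jq ^ k * y) := by
  rw [aeval_eq_sum_range, Finset.sum_mul]
  refine Finset.sum_congr rfl fun k _ => ?_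
  rw [Algebra.smul_def, mul_assoc, degB_Jser_pow, ← map_mul]

/-- the polynomial obtained by applying `lam` to the coefficients. -/
noncomputable def dq_polyLin (lam : Kb →ₗ[ℚ] ℚ) (P : Polynomial Kb) : Polynomial ℚ :=
  ∑ k ∈ Finset.range (P.natDegree + 1), monomial k (lam (P.coeff k))

theorem dq_polyLin_coeff (lam : Kb →ₗ[ℚ] ℚ) (P : Polynomial Kb) (k : ℕ) :
    (dq_polyLin lam P).coeff k = lam (P.coeff k) := by
  rw [dq_polyLin, finsetSum_coeff]
  simp only [coeff_monomial]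
  rw [Finset.sum_ite_eq' (Finset.range (P.natDegree + 1)) k]
  split_ifs with h
  · rfl
  · rw [Finset.mem_range, not_lt] at h
    rw [coeff_eq_zero_of_natDegree_lt (by omega), map_zero]

theorem dq_lin_aeval_mul_emb (lam : Kb →ₗ[ℚ] ℚ) (P : Polynomial Kb) (y : LaurentSeries ℚ) :
    dq_lin lam (aeval Jser P * coeffEmb Kb y) = aeval jq (dq_polyLin lam P) * y := by
  rw [dq_aeval_mul_emb, dq_lin_sum, dq_polyLin, map_sum, Finset.sum_mul]
  refine Finset.sum_congr rfl fun k _ => ?_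
  rw [dq_lin_algebraMap_mul_emb, aeval_monomial, mul_assoc]

/-- **descent of relations**: a nontrivial `ℚ̄[j]`-linear relation between elements of `ℚ((q))`
gives a nontrivial `ℚ[j]`-linear relation. -/
theorem dq_rel_descent {ι : Type*} [Fintype ι] (y : ι → LaurentSeries ℚ) (P : ι → Polynomial Kb)
    (i₀ : ι) (hP : P i₀ ≠ 0) (h : ∑ i, aeval Jser (P i) * coeffEmb Kb (y i) = 0) :
    ∃ R : ι → Polynomial ℚ, R i₀ ≠ 0 ∧ ∑ i, aeval jq (R i) * y i = 0 := by
  obtain ⟨k₀, hk₀⟩ : ∃ k₀, (P i₀).coeff k₀ ≠ 0 := by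
    by_contra hcon
    push Not at hcon
    exact hP (Polynomial.ext fun k => by rw [hcon k, coeff_zero])
  obtain ⟨lam, hlam⟩ : ∃ lam : Kb →ₗ[ℚ] ℚ, lam ((P i₀).coeff k₀) ≠ 0 := by
    by_contra hcon
    push Not at hcon
    exact hk₀ ((Module.forall_dual_apply_eq_zero_iff ℚ ((P i₀).coeff k₀)).mp hcon)
  refine ⟨fun i => dq_polyLin lam (P i), fun h0 => hlam ?_, ?_⟩
  · have h1 : dq_polyLin lam (P i₀) = 0 := h0
    rw [← dq_polyLin_coeff, h1, coeff_zero]
  · have h2 := congrArg (dq_lin lam) h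
    rw [dq_lin_sum, dq_lin_zero] at h2
    rw [← h2]
    exact Finset.sum_congr rfl fun i _ => (dq_lin_aeval_mul_emb lam (P i) (y i)).symm

/-- the embedding of `F_ℚ` into `F_{ℚ̄}`. -/
noncomputable def dq_emb (N : ℕ) (x : ↥(modularFunctionFieldFull N)) : FN N :=
  ⟨coeffEmb Kb x.1, coeffEmb_mem_laurentBaseChange Kb x.2⟩

theorem dq_coe_aeval_JF (N : ℕ) (P : Polynomial Kb) :
    ((aeval (JF N) P : FN N) : LaurentSeries Kb) = aeval Jser P := by
  have h := Polynomial.aeval_algebraMap_apply (A := FN N) (LaurentSeries Kb) (JF N) P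
  exact h.symm

/-- more than `ψ(N)` elements of `F_{ℚ̄}` satisfy a nontrivial `ℚ̄[j]`-linear relation. -/
theorem dq_exists_rel_bar (N : ℕ) [NeZero N] {ι : Type*} [Fintype ι]
    (hι : dedekindPsi N < Fintype.card ι) (z : ι → FN N) :
    ∃ P : ι → Polynomial Kb, (∃ i, P i ≠ 0) ∧ ∑ i, aeval (JF N) (P i) * z i = 0 := by
  classical
  have hfin := finite_JF N
  have hdep : ¬ LinearIndependent Kb⟮JF N⟯ z := fun hli => by
    have h1 := hli.fintype_card_le_finrank
    rw [finrank_JF, Nat.card_eq_fintype_card, card_Q] at h1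
    omega
  obtain ⟨g, hg, i₀, hi₀⟩ := Fintype.not_linearIndependent_iff.mp hdep
  -- write the coefficients as fractions
  have hfrac : ∀ i, ∃ r s : Polynomial Kb, aeval (JF N) s ≠ 0 ∧
      ((g i : Kb⟮JF N⟯) : FN N) = aeval (JF N) r / aeval (JF N) s := by
    intro i
    obtain ⟨r, s, hrs⟩ := (mem_adjoin_simple_iff Kb _).mp (g i).2
    by_cases hs : aeval (JF N) s = 0
    · refine ⟨0, 1, by simp, ?_⟩
      rw [hrs, hs, div_zero, map_zero, zero_div]
    · exact ⟨r, s, hs, hrs⟩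
  choose r s hs hrs using hfrac
  refine ⟨fun i => r i * ∏ j ∈ Finset.univ.erase i, s j, ⟨i₀, ?_⟩, ?_⟩
  · intro h0
    rcases mul_eq_zero.mp h0 with h1 | h1
    · apply hi₀
      have : ((g i₀ : Kb⟮JF N⟯) : FN N) = 0 := by rw [hrs, h1, map_zero, zero_div]
      exact Subtype.ext this
    · rw [Finset.prod_eq_zero_iff] at h1
      obtain ⟨j, -, hj⟩ := h1
      exact hs j (by rw [hj, map_zero])
  · have hD : ∀ i, aeval (JF N) (r i * ∏ j ∈ Finset.univ.erase i, s j)
        = (∏ j, aeval (JF N) (s j)) * ((g i : Kb⟮JF N⟯) : FN N) := by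
      intro i
      rw [hrs, map_mul, map_prod, ← Finset.mul_prod_erase Finset.univ _ (Finset.mem_univ i)]
      field_simp [hs i]
    have hg' : ∑ i, ((g i : Kb⟮JF N⟯) : FN N) * z i = 0 := by
      rw [← hg]
      exact Finset.sum_congr rfl fun i _ => rfl
    calc ∑ i, aeval (JF N) (r i * ∏ j ∈ Finset.univ.erase i, s j) * z i
        = (∏ j, aeval (JF N) (s j)) * ∑ i, ((g i : Kb⟮JF N⟯) : FN N) * z i := by
          rw [Finset.mul_sum]
          exact Finset.sum_congr rfl fun i _ => by rw [hD, mul_assoc]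
      _ = 0 := by rw [hg', mul_zero]

/-- **(DQ), relation form**: more than `ψ(N)` elements of the function field of `X₀(N)` over `ℚ`
satisfy a nontrivial linear relation with coefficients in `ℚ[j]`. -/
theorem dq_exists_rel (N : ℕ) [NeZero N] {ι : Type*} [Fintype ι]
    (hι : dedekindPsi N < Fintype.card ι) (y : ι → LaurentSeries ℚ)
    (hy : ∀ i, y i ∈ modularFunctionFieldFull N) :
    ∃ R : ι → Polynomial ℚ, (∃ i, R i ≠ 0) ∧ ∑ i, aeval jq (R i) * y i = 0 := by
  obtain ⟨P, ⟨i₀, hi₀⟩, hP⟩ := dq_exists_rel_bar N hι fun i => dq_emb N ⟨y i, hy i⟩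
  have h2 : ∑ i, aeval Jser (P i) * coeffEmb Kb (y i) = 0 := by
    have h3 := congrArg (fun x : FN N => (x : LaurentSeries Kb)) hP
    simp only [ZeroMemClass.coe_zero] at h3
    rw [← h3, AddSubmonoidClass.coe_finsetSum]
    refine Finset.sum_congr rfl fun i _ => ?_
    rw [MulMemClass.coe_mul, dq_coe_aeval_JF]
    rfl
  obtain ⟨R, hR, hsum⟩ := dq_rel_descent y P i₀ hi₀ h2
  exact ⟨R, ⟨i₀, hR⟩, hsum⟩

/-! ### integral, `ℓ`-primitive relations -/

/-- clearing denominators: a nontrivial relation over `ℤ[j]`. -/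
theorem dq_exists_rel_int0 (N : ℕ) [NeZero N] {ι : Type*} [Fintype ι]
    (hι : dedekindPsi N < Fintype.card ι) (y : ι → LaurentSeries ℚ)
    (hy : ∀ i, y i ∈ modularFunctionFieldFull N) :
    ∃ R : ι → Polynomial ℤ, (∃ i, R i ≠ 0) ∧ ∑ i, evalAtJ (R i) * y i = 0 := by
  classical
  obtain ⟨R, ⟨i₀, hi₀⟩, hR⟩ := dq_exists_rel N hι y hy
  have hb : ∀ i, ∃ b : nonZeroDivisors ℤ,
      (IsLocalization.integerNormalization (nonZeroDivisors ℤ) (R i)).map (algebraMap ℤ ℚ)
        = (b : ℤ) • R i := fun i =>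
    let ⟨b, hbM, hb⟩ := IsLocalization.integerNormalization_spec (nonZeroDivisors ℤ) (R i)
    ⟨⟨b, hbM⟩, hb⟩
  choose b hb using hb
  have hb0 : ∀ i, ((b i : ℤ) : ℚ) ≠ 0 := fun i =>
    Int.cast_ne_zero.mpr (nonZeroDivisors.coe_ne_zero (b i))
  set Z : ι → Polynomial ℤ := fun i =>
    C (∏ j ∈ Finset.univ.erase i, (b j : ℤ)) *
      IsLocalization.integerNormalization (nonZeroDivisors ℤ) (R i) with hZ
  set d : ℚ := ∏ j, ((b j : ℤ) : ℚ) with hd
  have hd0 : d ≠ 0 := Finset.prod_ne_zero_iff.mpr fun j _ => hb0 j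
  have hmap : ∀ i, (Z i).map (algebraMap ℤ ℚ) = C d * R i := by
    intro i
    rw [hZ]
    simp only [Polynomial.map_mul, Polynomial.map_C, hb i]
    rw [hd, ← Finset.mul_prod_erase Finset.univ _ (Finset.mem_univ i), zsmul_eq_mul]
    simp only [eq_intCast, map_mul, map_prod]
    have hc : ((b i : ℤ) : Polynomial ℚ) = C (((b i : ℤ) : ℚ)) := by simp
    rw [hc]
    ring
  have hev : ∀ i, evalAtJ (Z i) = algebraMap ℚ (LaurentSeries ℚ) d * aeval jq (R i) := by
    intro i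
    have h1 : evalAtJ (Z i) = aeval jq ((Z i).map (algebraMap ℤ ℚ)) := by
      rw [aeval_def, eval₂_map]
      show eval₂ (algebraMap ℤ (LaurentSeries ℚ)) jq (Z i) = _
      congr 1
      exact RingHom.ext_int _ _
    rw [h1, hmap, map_mul, aeval_C]
  refine ⟨Z, ⟨i₀, fun h0 => ?_⟩, ?_⟩
  · have h1 := hmap i₀
    rw [h0, Polynomial.map_zero] at h1
    rcases mul_eq_zero.mp h1.symm with h2 | h2
    · exact hd0 (C_eq_zero.mp h2)
    · exact hi₀ h2
  · calc ∑ i, evalAtJ (Z i) * y i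
        = algebraMap ℚ (LaurentSeries ℚ) d * ∑ i, aeval jq (R i) * y i := by
          rw [Finset.mul_sum]
          exact Finset.sum_congr rfl fun i _ => by rw [hev, mul_assoc]
      _ = 0 := by rw [hR, mul_zero]

/-- **(DQ), integral primitive form**: more than `ψ(N)` elements of the function field of
`X₀(N)` over `ℚ` satisfy a linear relation with coefficients in `ℤ[j]`, not all divisible
by `ℓ`. -/
theorem dq_exists_rel_int (N : ℕ) [NeZero N] (ℓ : ℕ) (hℓ : ℓ.Prime) {ι : Type*} [Fintype ι]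
    (hι : dedekindPsi N < Fintype.card ι) (y : ι → LaurentSeries ℚ)
    (hy : ∀ i, y i ∈ modularFunctionFieldFull N) :
    ∃ R : ι → Polynomial ℤ, (∃ i, ¬ (C (ℓ : ℤ) ∣ R i)) ∧ ∑ i, evalAtJ (R i) * y i = 0 := by
  classical
  obtain ⟨R, ⟨i₀, hi₀⟩, hR⟩ := dq_exists_rel_int0 N hι y hy
  obtain ⟨k₀, hk₀⟩ : ∃ k₀, (R i₀).coeff k₀ ≠ 0 := by
    by_contra hcon
    push Not at hcon
    exact hi₀ (Polynomial.ext fun k => by rw [hcon k, coeff_zero])
  have hℓ0 : (ℓ : ℤ) ≠ 0 := Int.natCast_ne_zero.mpr hℓ.ne_zero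
  have hℓ1 : ((ℓ : ℤ)).natAbs ≠ 1 := by
    rw [Int.natAbs_natCast]
    exact hℓ.one_lt.ne'
  -- induction on a bound for the `ℓ`-adic valuation of a fixed nonzero coefficient
  have key : ∀ n : ℕ, ∀ R : ι → Polynomial ℤ, ¬ ((ℓ : ℤ) ^ (n + 1) ∣ (R i₀).coeff k₀) →
      ∑ i, evalAtJ (R i) * y i = 0 →
      ∃ R' : ι → Polynomial ℤ, (∃ i, ¬ (C (ℓ : ℤ) ∣ R' i)) ∧ ∑ i, evalAtJ (R' i) * y i = 0 := by
    intro n
    induction n with
    | zero =>
      intro R hn hR
      refine ⟨R, ⟨i₀, fun hdvd => hn ?_⟩, hR⟩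
      rw [zero_add, pow_one]
      exact (C_dvd_iff_dvd_coeff _ _).mp hdvd k₀
    | succ n ih =>
      intro R hn hR
      by_cases hall : ∀ i, C (ℓ : ℤ) ∣ R i
      · choose R' hR' using hall
        refine ih R' (fun hdvd => hn ?_) ?_
        · rw [hR' i₀, coeff_C_mul, pow_succ']
          exact mul_dvd_mul_left _ hdvd
        · have h2 : evalAtJ (C (ℓ : ℤ)) * ∑ i, evalAtJ (R' i) * y i = 0 := by
            rw [Finset.mul_sum, ← hR]
            exact Finset.sum_congr rfl fun i _ => by rw [hR' i, map_mul, mul_assoc]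
          rcases mul_eq_zero.mp h2 with h3 | h3
          · exfalso
            have h4 : evalAtJ (C (ℓ : ℤ)) = algebraMap ℚ (LaurentSeries ℚ) (ℓ : ℚ) := by
              simp [evalAtJ]
            rw [h4] at h3
            have h5 : (ℓ : ℚ) = 0 :=
              (map_eq_zero_iff _ (algebraMap ℚ (LaurentSeries ℚ)).injective).mp h3
            exact hℓ.ne_zero (by exact_mod_cast h5)
          · exact h3
      · push Not at hall
        exact ⟨R, hall, hR⟩
  obtain ⟨n, hn⟩ : ∃ n : ℕ, ¬ ((ℓ : ℤ) ^ (n + 1) ∣ (R i₀).coeff k₀) := by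
    have hfin := Int.finiteMultiplicity_iff.mpr ⟨hℓ1, hk₀⟩
    obtain ⟨n, hn⟩ := hfin
    exact ⟨n, hn⟩
  exact key n R hn hR

/-! ### the degree over `ℚ(j)` -/

theorem dq_aeval_jq_ne_zero {p : Polynomial ℚ} (hp : p ≠ 0) : aeval jq p ≠ 0 := by
  intro h
  have h1 := congrArg (fun x : LaurentSeries ℚ => x.coeff (-(p.natDegree : ℤ))) h
  simp only [HahnSeries.coeff_zero] at h1
  rw [aeval_eq_sum_range, HahnSeries.coeff_sum] at h1
  rw [Finset.sum_eq_single_of_mem p.natDegree (Finset.self_mem_range_succ _)] at h1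
  · rw [Algebra.smul_def, dq_coeff_algebraMap_mul, coeff_jq_pow_self, mul_one] at h1
    exact hp (leadingCoeff_eq_zero.mp h1)
  · intro k hk hkn
    have hlt : k < p.natDegree := lt_of_le_of_ne (Nat.lt_succ_iff.mp (Finset.mem_range.mp hk)) hkn
    rw [Algebra.smul_def, dq_coeff_algebraMap_mul, coeff_jq_pow_of_lt (by omega), mul_zero]

/-- ring homomorphisms commute with `aeval` of rational polynomials (whatever the `ℚ`-algebra
instances are). -/
theorem dq_map_aeval {A B : Type*} [CommRing A] [CommRing B] [Algebra ℚ A] [Algebra ℚ B]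
    (φ : A →+* B) (x : A) (R : Polynomial ℚ) : φ (aeval x R) = aeval (φ x) R := by
  rw [aeval_def, aeval_def, hom_eval₂]
  congr 1
  exact RingHom.ext_rat _ _

open ModularCurve.IgusaScheme in
/-- **(DQ), rank form**: `[F : ℚ(j)] ≤ ψ(N)` as a cardinal inequality. -/
theorem dq_rank_le (N : ℕ) [NeZero N] :
    Module.rank ℚ⟮jFull N⟯ ↥(modularFunctionFieldFull N) ≤ (dedekindPsi N : ℕ) := by
  classical
  refine rank_le fun s hli => ?_
  by_contra hcard
  rw [not_le] at hcard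
  have hι : dedekindPsi N < Fintype.card ↥s := by rwa [Fintype.card_coe]
  obtain ⟨R, ⟨i₀, hi₀⟩, hR⟩ := dq_exists_rel N hι
    (fun i : ↥s => ((i : ↥(modularFunctionFieldFull N)) : LaurentSeries ℚ)) (fun i => i.1.2)
  set g : ↥s → ℚ⟮jFull N⟯ := fun i => aeval (AdjoinSimple.gen ℚ (jFull N)) (R i) with hg
  have hgcoe : ∀ i, (((g i : ℚ⟮jFull N⟯) : ↥(modularFunctionFieldFull N)) : LaurentSeries ℚ)
      = aeval jq (R i) := by
    intro i
    have h1 : ((g i : ℚ⟮jFull N⟯) : ↥(modularFunctionFieldFull N)) = aeval (jFull N) (R i) :=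
      dq_map_aeval (algebraMap ↥(ℚ⟮jFull N⟯) ↥(modularFunctionFieldFull N))
        (AdjoinSimple.gen ℚ (jFull N)) (R i)
    rw [h1]
    exact dq_map_aeval (algebraMap ↥(modularFunctionFieldFull N) (LaurentSeries ℚ))
      (jFull N) (R i)
  have hsum : ∑ i, g i • ((i : ↥(modularFunctionFieldFull N))) = 0 := by
    apply Subtype.ext
    rw [AddSubmonoidClass.coe_finsetSum, ZeroMemClass.coe_zero, ← hR]
    refine Finset.sum_congr rfl fun i _ => ?_
    rw [← hgcoe i]
    rfl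
  have hzero := Fintype.linearIndependent_iff.mp hli g hsum i₀
  apply dq_aeval_jq_ne_zero hi₀
  rw [← hgcoe i₀, hzero]
  rfl

open ModularCurve.IgusaScheme in
/-- the function field of `X₀(N)` over `ℚ` is finite over `ℚ(j)`. -/
theorem dq_finite (N : ℕ) [NeZero N] :
    Module.Finite ℚ⟮jFull N⟯ ↥(modularFunctionFieldFull N) :=
  Module.rank_lt_aleph0_iff.mp (lt_of_le_of_lt (dq_rank_le N) Cardinal.natCast_lt_aleph0)

open ModularCurve.IgusaScheme in
/-- **(DQ), finrank form**: `[F : ℚ(j)] ≤ ψ(N)`. -/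
theorem dq_finrank_le (N : ℕ) [NeZero N] :
    Module.finrank ℚ⟮jFull N⟯ ↥(modularFunctionFieldFull N) ≤ dedekindPsi N :=
  Module.finrank_le_of_rank_le (dq_rank_le N)

end Fermat.Agent.S28Lib
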