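import Fermat.Prelude.Def_ModularCurve_IgusaScheme
import Mathlib.AlgebraicGeometry.Pullbacks
import Mathlib.AlgebraicGeometry.Properties

set_option autoImplicit false

namespace Fermat.Agent.Lib.S28.Glue

open AlgebraicGeometry CategoryTheory CategoryTheory.Limits ModularCurve ModularCurve.IgusaScheme
open scoped TensorProduct

universe u

/-- A space covered by two irreducible subsets, one of them open, with nonempty intersection,
is irreducible. -/
theorem irreducibleSpace_of_two_opens {T : Type*} [TopologicalSpace T] {U V : Set T}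
    (hU : IsOpen U) (hUi : IsIrreducible U) (hVi : IsIrreducible V)
    (hUV : (U ∩ V).Nonempty) (hcov : U ∪ V = Set.univ) : IrreducibleSpace T := by
  have hne : Nonempty T := hUi.1.to_subtype.map Subtype.val
  refine { toNonempty := hne, toPreirreducibleSpace := ⟨?_⟩ }
  have key : ∀ W : Set T, IsOpen W → W.Nonempty → (U ∩ W).Nonempty := by
    intro W hW ⟨x, hx⟩
    have hxUV : x ∈ U ∪ V := by rw [hcov]; trivial
    rcases hxUV with hxU | hxV
    · exact ⟨x, hxU, hx⟩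
    · obtain ⟨y, hyV, hyW, hyU⟩ := hVi.2 W U hW hU ⟨x, hxV, hx⟩ (by rwa [Set.inter_comm])
      exact ⟨y, hyU, hyW⟩
  intro W₁ W₂ hW₁ hW₂ h₁ h₂
  obtain ⟨x, -, hx⟩ := h₁
  obtain ⟨y, -, hy⟩ := h₂
  obtain ⟨z, -, hz⟩ := hUi.2 W₁ W₂ hW₁ hW₂ (key W₁ hW₁ ⟨x, hx⟩) (key W₂ hW₂ ⟨y, hy⟩)
  exact ⟨z, trivial, hz⟩

section Abstract

variable {X S Y : Scheme.{u}} (f : X ⟶ S) (g : Y ⟶ S)

theorem pullback_map_fac {X₀ X₁ : Scheme.{u}} (c₀ : X₀ ⟶ X) (c₁ : X₁ ⟶ X) (a : X₀ ⟶ X₁)
    (h : a ≫ c₁ = c₀) :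
    pullback.map (c₀ ≫ f) g f g c₀ (𝟙 Y) (𝟙 S)
        (by rw [Category.comp_id]) (by rw [Category.comp_id, Category.id_comp]) =
      pullback.map (c₀ ≫ f) g (c₁ ≫ f) g a (𝟙 Y) (𝟙 S)
        (by rw [Category.comp_id, ← Category.assoc, h])
        (by rw [Category.comp_id, Category.id_comp]) ≫
      pullback.map (c₁ ≫ f) g f g c₁ (𝟙 Y) (𝟙 S)
        (by rw [Category.comp_id]) (by rw [Category.comp_id, Category.id_comp]) := by
  apply pullback.hom_ext
  · simp only [pullback.map, Category.assoc, pullback.lift_fst, pullback.lift_fst_assoc, h]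
  · simp only [pullback.map, Category.assoc, pullback.lift_snd, Category.comp_id]

/-- If `X` has an open cover by three pieces `i₀, i₁, i₂` where
the `i₀` piece factors through both others, and the three base-changed pieces are integral,
then the base change of `X` is integral. -/
theorem isIntegral_pullback_of_cover (𝒰 : X.OpenCover) (i₀ i₁ i₂ : 𝒰.I₀)
    (hI : ∀ i, i = i₀ ∨ i = i₁ ∨ i = i₂)
    (a₁ : 𝒰.X i₀ ⟶ 𝒰.X i₁) (h₁ : a₁ ≫ 𝒰.f i₁ = 𝒰.f i₀)
    (a₂ : 𝒰.X i₀ ⟶ 𝒰.X i₂) (h₂ : a₂ ≫ 𝒰.f i₂ = 𝒰.f i₀)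
    (hint : ∀ i, AlgebraicGeometry.IsIntegral (pullback (𝒰.f i ≫ f) g : Scheme.{u})) :
    AlgebraicGeometry.IsIntegral (pullback f g : Scheme.{u}) := by
  have hint' : ∀ i, AlgebraicGeometry.IsIntegral
      ((Scheme.Pullback.openCoverOfLeft 𝒰 f g).X i) := hint
  have hred : IsReduced (pullback f g : Scheme.{u}) :=
    IsReduced.of_openCover _ (Scheme.Pullback.openCoverOfLeft 𝒰 f g)
  have hirr : ∀ i, IsIrreducible
      (Set.range ((Scheme.Pullback.openCoverOfLeft 𝒰 f g).f i).base) := fun i => by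
    have := (IrreducibleSpace.isIrreducible_univ
      ((Scheme.Pullback.openCoverOfLeft 𝒰 f g).X i)).image
        ((Scheme.Pullback.openCoverOfLeft 𝒰 f g).f i).base
        ((Scheme.Pullback.openCoverOfLeft 𝒰 f g).f i).continuous.continuousOn
    rwa [Set.image_univ] at this
  have hopen : ∀ i, IsOpen (Set.range ((Scheme.Pullback.openCoverOfLeft 𝒰 f g).f i).base) :=
    fun i => ((Scheme.Pullback.openCoverOfLeft 𝒰 f g).f i).isOpenEmbedding.isOpen_range
  have hsub : ∀ (i : 𝒰.I₀) (a : 𝒰.X i₀ ⟶ 𝒰.X i) (_ : a ≫ 𝒰.f i = 𝒰.f i₀),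
      Set.range ((Scheme.Pullback.openCoverOfLeft 𝒰 f g).f i₀).base ⊆
        Set.range ((Scheme.Pullback.openCoverOfLeft 𝒰 f g).f i).base := by
    intro i a h
    have hfac := pullback_map_fac f g (𝒰.f i₀) (𝒰.f i) a h
    rintro _ ⟨x, rfl⟩
    refine ⟨(pullback.map (𝒰.f i₀ ≫ f) g (𝒰.f i ≫ f) g a (𝟙 Y) (𝟙 S)
        (by rw [Category.comp_id, ← Category.assoc, h])
        (by rw [Category.comp_id, Category.id_comp])).base x, ?_⟩
    have := congrArg (fun φ => φ.base x) hfac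
    exact this.symm
  have hirrS : IrreducibleSpace (pullback f g : Scheme.{u}) := by
    refine irreducibleSpace_of_two_opens (hopen i₁) (hirr i₁) (hirr i₂) ?_ ?_
    · obtain ⟨x, hx⟩ := (hirr i₀).1
      exact ⟨x, hsub i₁ a₁ h₁ hx, hsub i₂ a₂ h₂ hx⟩
    · rw [Set.eq_univ_iff_forall]
      intro x
      obtain ⟨i, y, hy⟩ := (Scheme.Pullback.openCoverOfLeft 𝒰 f g).exists_eq x
      rcases hI i with rfl | rfl | rfl
      · exact Or.inl (hsub _ a₁ h₁ ⟨y, hy⟩)
      · exact Or.inl ⟨y, hy⟩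
      · exact Or.inr ⟨y, hy⟩
  exact isIntegral_of_irreducibleSpace_of_isReduced _

end Abstract

section Igusa

variable (N : ℕ) [NeZero N] (ℓ : ℕ) [Fact ℓ.Prime]

theorem isIntegral_pullback_spec (R A K : Type) [CommRing R] [CommRing A] [CommRing K]
    [Algebra R A] [Algebra R K] [IsDomain (A ⊗[R] K)] :
    AlgebraicGeometry.IsIntegral
      (pullback (Spec.map (CommRingCat.ofHom (algebraMap R A)))
        (Spec.map (CommRingCat.ofHom (algebraMap R K))) : Scheme) := by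
  have : IsDomain ↑(CommRingCat.of (A ⊗[R] K)) := ‹_›
  exact IsIntegral.of_isIso (pullbackSpecIso R A K).inv

theorem isIntegral_pullback_of_eq {X S Y : Scheme} {f f' : X ⟶ S} (g : Y ⟶ S) (h : f = f')
    (hint : AlgebraicGeometry.IsIntegral (pullback f' g : Scheme)) :
    AlgebraicGeometry.IsIntegral (pullback f g : Scheme) := by
  subst h; exact hint

/-- **Scheme glue for S28.** If the three chart algebras stay domains after tensoring with `K`,
the base change of the Igusa scheme to `K` is integral. -/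
theorem isIntegral_pullback_igusaTo (K : Type) [Field K]
    [Algebra ↥(GaloisRep.ratLocalizedAt ℓ) K]
    (hFin : IsDomain (↥(chartAlgFin N ℓ) ⊗[↥(GaloisRep.ratLocalizedAt ℓ)] K))
    (hInf : IsDomain (↥(chartAlgInf N ℓ) ⊗[↥(GaloisRep.ratLocalizedAt ℓ)] K))
    (hMid : IsDomain (↥(chartAlgMid N ℓ) ⊗[↥(GaloisRep.ratLocalizedAt ℓ)] K)) :
    AlgebraicGeometry.IsIntegral
      (pullback (igusaTo N ℓ)
        (Spec.map (CommRingCat.ofHom (algebraMap ↥(GaloisRep.ratLocalizedAt ℓ) K))) : Scheme) := by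
  have hwF : (Scheme.IsLocallyDirected.openCover (span (fFin N ℓ) (fInf N ℓ))).f none =
      fFin N ℓ ≫ ιFin N ℓ :=
    (colimit.w (span (fFin N ℓ) (fInf N ℓ)) WalkingSpan.Hom.fst).symm
  have hwI : (Scheme.IsLocallyDirected.openCover (span (fFin N ℓ) (fInf N ℓ))).f none =
      fInf N ℓ ≫ ιInf N ℓ :=
    (colimit.w (span (fFin N ℓ) (fInf N ℓ)) WalkingSpan.Hom.snd).symm
  refine isIntegral_pullback_of_cover (igusaTo N ℓ) _
    (Scheme.IsLocallyDirected.openCover (span (fFin N ℓ) (fInf N ℓ)))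
    none (some WalkingPair.left) (some WalkingPair.right) ?_ (fFin N ℓ) hwF.symm (fInf N ℓ)
    hwI.symm ?_
  · rintro (_ | _ | _)
    · exact Or.inl rfl
    · exact Or.inr (Or.inl rfl)
    · exact Or.inr (Or.inr rfl)
  · rintro (_ | _ | _)
    · refine isIntegral_pullback_of_eq _ (f' := Spec.map (CommRingCat.ofHom
        (algebraMap ↥(GaloisRep.ratLocalizedAt ℓ) ↥(chartAlgMid N ℓ)))) ?_ ?_
      · have e0 : (fFin N ℓ ≫ ιFin N ℓ) ≫ igusaTo N ℓ = Spec.map (CommRingCat.ofHom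
            (algebraMap ↥(GaloisRep.ratLocalizedAt ℓ) ↥(chartAlgMid N ℓ))) := by
          rw [Category.assoc, ιFin_igusaTo, ← Spec.map_comp, ← CommRingCat.ofHom_comp]
          rfl
        exact (congrArg (fun φ => φ ≫ igusaTo N ℓ) hwF).trans e0
      · exact isIntegral_pullback_spec _ _ _
    · refine isIntegral_pullback_of_eq _ (f' := Spec.map (CommRingCat.ofHom
        (algebraMap ↥(GaloisRep.ratLocalizedAt ℓ) ↥(chartAlgFin N ℓ)))) ?_ ?_
      · exact ιFin_igusaTo N ℓ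
      · exact isIntegral_pullback_spec _ _ _
    · refine isIntegral_pullback_of_eq _ (f' := Spec.map (CommRingCat.ofHom
        (algebraMap ↥(GaloisRep.ratLocalizedAt ℓ) ↥(chartAlgInf N ℓ)))) ?_ ?_
      · exact ιInf_igusaTo N ℓ
      · exact isIntegral_pullback_spec _ _ _

end Igusa

end Fermat.Agent.Lib.S28.Glue
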