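/-
S28 (Igusa), chunk C3 (lead): the induction (IG) and the extraction (IG').

* `c3_psi_mul_prime` : `ψ(M p) = p ψ(M)` if `p ∣ M`, `(p+1) ψ(M)` otherwise;
* `c3_IG` : from the two prime-step inequalities, `ψ(N) ≤ [F̄_N : K0]` (cardinal rank);
* `c3_IG'` : `ψ(N)` monomials in the `V_d J` (over `ℤ`) whose reductions to `k` are
  linearly independent over `K0 = k(J)`.
-/
import Fermat.Agent.Lib.S28.Base
import Fermat.Agent.Lib.S20.ProjLineCard

set_option autoImplicit false

namespace Fermat.Agent.S28Lib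

open HahnSeries ModularCurve Polynomial IntermediateField

noncomputable section

/-! ### the recursion for `ψ` -/

theorem c3_psi_one : ModularCurve.dedekindPsi 1 = 1 := ModularCurve.dedekindPsi_one

theorem c3_psi_prime_pow_succ {p : ℕ} (hp : p.Prime) (a : ℕ) :
    ModularCurve.dedekindPsi (p ^ (a + 1)) =
      (if a = 0 then p + 1 else p) * ModularCurve.dedekindPsi (p ^ a) := by
  rcases Nat.eq_zero_or_pos a with rfl | ha
  · rw [if_pos rfl, pow_zero, c3_psi_one, mul_one, zero_add,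
      Fermat.Agent.S20Lib.dedekindPsi_prime_pow (n := 0) hp]
    simp
  · obtain ⟨b, rfl⟩ : ∃ b, a = b + 1 := ⟨a - 1, by omega⟩
    rw [if_neg (by omega), Fermat.Agent.S20Lib.dedekindPsi_prime_pow hp,
      Fermat.Agent.S20Lib.dedekindPsi_prime_pow hp]
    ring

theorem c3_psi_mul_prime {p : ℕ} (hp : p.Prime) {M : ℕ} (hM : M ≠ 0) :
    ModularCurve.dedekindPsi (M * p) =
      (if p ∣ M then p else p + 1) * ModularCurve.dedekindPsi M := by
  obtain ⟨a, M', hM', rfl⟩ := Nat.exists_eq_pow_mul_and_not_dvd hM p hp.ne_one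
  have hcop : Nat.Coprime (p ^ a) M' := Nat.Coprime.pow_left a ((Nat.Prime.coprime_iff_not_dvd hp).2 hM')
  have hcop' : Nat.Coprime (p ^ (a + 1)) M' :=
    Nat.Coprime.pow_left (a + 1) ((Nat.Prime.coprime_iff_not_dvd hp).2 hM')
  have e : p ^ a * M' * p = p ^ (a + 1) * M' := by ring
  rw [e, Fermat.Agent.S20Lib.dedekindPsi_mul_of_coprime hcop',
    Fermat.Agent.S20Lib.dedekindPsi_mul_of_coprime hcop, c3_psi_prime_pow_succ hp, ← mul_assoc]
  congr 2
  have hiff : p ∣ p ^ a * M' ↔ a ≠ 0 := by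
    constructor
    · rintro h rfl
      rw [pow_zero, one_mul] at h
      exact hM' h
    · intro ha
      exact Dvd.dvd.mul_right (dvd_pow_self p ha) M'
  by_cases ha : a = 0
  · rw [if_pos ha, if_neg (by rw [hiff]; exact not_not.2 ha)]
  · rw [if_neg ha, if_pos (hiff.2 ha)]

/-! ### the induction (IG) -/

/-- **(IG)**: the rank of `F̄_N` over `K0` is at least `ψ(N)`, given the two prime steps. -/
theorem c3_IG (k : Type) [Field k] (N : ℕ) (hN : N ≠ 0)
    (hC1 : ∀ p M : ℕ, p.Prime → p ∣ M → M * p ∣ N →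
      (p : Cardinal) * relrank (K0 k) (Fbar k M) ≤ relrank (K0 k) (Fbar k (M * p)))
    (hC2 : ∀ p M : ℕ, p.Prime → ¬ p ∣ M → M * p ∣ N →
      ((p + 1 : ℕ) : Cardinal) * relrank (K0 k) (Fbar k M) ≤ relrank (K0 k) (Fbar k (M * p))) :
    (ModularCurve.dedekindPsi N : Cardinal) ≤ relrank (K0 k) (Fbar k N) := by
  suffices H : ∀ M : ℕ, M ∣ N →
      (ModularCurve.dedekindPsi M : Cardinal) ≤ relrank (K0 k) (Fbar k M) from H N dvd_rfl
  intro M
  induction M using Nat.strong_induction_on with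
  | _ M ih =>
    intro hMN
    have hM0 : M ≠ 0 := fun h => hN (by rw [h] at hMN; exact Nat.eq_zero_of_zero_dvd hMN)
    rcases eq_or_ne M 1 with rfl | hM1
    · rw [c3_psi_one, Fbar_one, relrank_self]
      simp
    · set p := M.minFac with hp
      have hpp : p.Prime := Nat.minFac_prime hM1
      obtain ⟨M', hM'⟩ : p ∣ M := Nat.minFac_dvd M
      have hM'eq : M = M' * p := by rw [hM', mul_comm]
      have hM'0 : M' ≠ 0 := fun h => hM0 (by rw [hM'eq, h, zero_mul])
      have hlt : M' < M := by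
        rw [hM'eq]
        exact lt_mul_of_one_lt_right (Nat.pos_of_ne_zero hM'0) hpp.one_lt
      have hM'N : M' ∣ N := (Dvd.intro _ hM'eq.symm).trans hMN
      have hih := ih M' hlt hM'N
      have hMpN : M' * p ∣ N := hM'eq ▸ hMN
      rw [hM'eq, c3_psi_mul_prime hpp hM'0]
      by_cases hpM : p ∣ M'
      · rw [if_pos hpM]
        refine le_trans ?_ (hC1 p M' hpp hpM hMpN)
        rw [Nat.cast_mul]
        exact mul_le_mul_right hih _
      · rw [if_neg hpM]
        refine le_trans ?_ (hC2 p M' hpp hpM hMpN)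
        rw [Nat.cast_mul]
        exact mul_le_mul_right hih _

/-! ### integrality of the `V_d J` over `K0` -/

section integrality

variable {k : Type} [Field k]

theorem c3_Vq_comp_evY (n : ℕ) (y : LaurentSeries k) :
    (Vq k n).comp (evY y) = evY (Vq k n y) := by
  refine Polynomial.ringHom_ext (fun a => ?_) ?_
  · rw [RingHom.comp_apply, evY_C, evY_C, algebraMap_eq_C, Vq_C]
  · rw [RingHom.comp_apply, evY_X, evY_X]

theorem c3_map_eval (f : LaurentSeries k →+* LaurentSeries k) (Q : Polynomial (LaurentSeries k))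
    (x : LaurentSeries k) : f (Q.eval x) = (Q.map f).eval (f x) := by
  rw [Polynomial.eval_map, Polynomial.eval₂_at_apply]

/-- `Φ_p(V_p J, J) = 0`. -/
theorem c3_phi_root {p : ℕ} (D : PhiData k p) (hp0 : p ≠ 0) :
    (D.Φ.map (evY (jqModC k))).eval (Vq k p (jqModC k)) = 0 := by
  apply Vq_injective hp0
  rw [map_zero, c3_map_eval, Polynomial.map_map, c3_Vq_comp_evY, Vq_Vq hp0 hp0, D.roots,
    Polynomial.eval_mul, Polynomial.eval_sub, Polynomial.eval_X, Polynomial.eval_C, sub_self,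
    zero_mul]

/-- `Φ_p(V_{np} J, V_n J) = 0`. -/
theorem c3_phi_root_V {p : ℕ} (D : PhiData k p) (hp0 : p ≠ 0) {n : ℕ} (hn : n ≠ 0) :
    (D.Φ.map (evY (Vq k n (jqModC k)))).eval (Vq k (n * p) (jqModC k)) = 0 := by
  have h := congrArg (Vq k n) (c3_phi_root D hp0)
  rwa [map_zero, c3_map_eval, Polynomial.map_map, c3_Vq_comp_evY, Vq_Vq hn hp0] at h

theorem c3_evY_mem_integralClosure {y : LaurentSeries k}
    (hy : IsIntegral ↥(K0 k) y) (c : Polynomial k) :
    evY y c ∈ integralClosure ↥(K0 k) (LaurentSeries k) := by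
  rw [evY_apply, Polynomial.aeval_def, Polynomial.eval₂_eq_sum]
  refine Subalgebra.sum_mem _ fun i _ => ?_
  refine Subalgebra.mul_mem _ ?_ (Subalgebra.pow_mem _ hy i)
  rw [IsScalarTower.algebraMap_apply k ↥(K0 k) (LaurentSeries k)]
  exact Subalgebra.algebraMap_mem _ _

/-- a root of a monic polynomial with `K0`-integral coefficients is `K0`-integral. -/
theorem c3_isIntegral_of_root {Q : Polynomial (LaurentSeries k)} (hQ : Q.Monic)
    (hcoeff : ∀ i, Q.coeff i ∈ integralClosure ↥(K0 k) (LaurentSeries k))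
    {x : LaurentSeries k} (hx : Q.eval x = 0) : IsIntegral ↥(K0 k) x := by
  have hlifts : Q ∈ Polynomial.lifts
      (algebraMap ↥(integralClosure ↥(K0 k) (LaurentSeries k)) (LaurentSeries k)) :=
    (Polynomial.lifts_iff_coeff_lifts Q).mpr fun i => ⟨⟨Q.coeff i, hcoeff i⟩, rfl⟩
  obtain ⟨q', hq'Q, -, hq'monic⟩ := Polynomial.lifts_and_natDegree_eq_and_monic hlifts hQ
  have hint : IsIntegral ↥(integralClosure ↥(K0 k) (LaurentSeries k)) x :=
    ⟨q', hq'monic, by rw [Polynomial.eval₂_eq_eval_map, hq'Q, hx]⟩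
  exact isIntegral_trans x hint

/-- every `V_d J`, `d ∣ N`, is integral over `K0 = k(J)`. -/
theorem c3_isIntegral_Vq (N : ℕ) (hN : N ≠ 0)
    (hΦ : ∀ p : ℕ, p.Prime → p ∣ N → Nonempty (PhiData k p)) :
    ∀ d : ℕ, d ∣ N → IsIntegral ↥(K0 k) (Vq k d (jqModC k)) := by
  intro d
  induction d using Nat.strong_induction_on with
  | _ d ih =>
    intro hdN
    have hd0 : d ≠ 0 := fun h => hN (by rw [h] at hdN; exact Nat.eq_zero_of_zero_dvd hdN)
    rcases eq_or_ne d 1 with rfl | hd1
    · rw [Vq_one]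
      exact isIntegral_algebraMap
        (x := (⟨jqModC k, IntermediateField.mem_adjoin_simple_self k _⟩ : ↥(K0 k)))
    · have hpp : d.minFac.Prime := Nat.minFac_prime hd1
      obtain ⟨n, hn⟩ : d.minFac ∣ d := Nat.minFac_dvd d
      have hdeq : d = n * d.minFac := by rw [mul_comm]; exact hn
      have hn0 : n ≠ 0 := fun h => hd0 (by rw [hdeq, h, zero_mul])
      have hlt : n < d := by
        conv_rhs => rw [hdeq]
        exact lt_mul_of_one_lt_right (Nat.pos_of_ne_zero hn0) hpp.one_lt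
      have hnN : n ∣ N := (Dvd.intro _ hdeq.symm).trans hdN
      have hpN : d.minFac ∣ N := (Nat.minFac_dvd d).trans hdN
      obtain ⟨D⟩ := hΦ d.minFac hpp hpN
      have hint := ih n hlt hnN
      have hroot := c3_phi_root_V D hpp.ne_zero hn0
      rw [← hdeq] at hroot
      refine c3_isIntegral_of_root (D.monic.map _) (fun i => ?_) hroot
      rw [Polynomial.coeff_map]
      exact c3_evY_mem_integralClosure hint _

end integrality

/-! ### extraction (IG') -/

section extraction

variable (k : Type) [Field k]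

/-- the integral generators `V_d J_ℤ`, `d ∣ N`. -/
def c3_gensZ (N : ℕ) : Set (LaurentSeries ℤ) := {x | ∃ d, d ∣ N ∧ x = Vq ℤ d (jqModC ℤ)}

variable {k}

theorem c3_exists_lift {N : ℕ} {x : LaurentSeries k}
    (hx : x ∈ Submonoid.closure (FbarGens k N)) :
    ∃ m : LaurentSeries ℤ, m ∈ Submonoid.closure (c3_gensZ N) ∧
      coeffMap (Int.castRingHom k) m = x := by
  induction hx using Submonoid.closure_induction with
  | mem x hx =>
    obtain ⟨d, hd, rfl⟩ := hx
    exact ⟨Vq ℤ d (jqModC ℤ), Submonoid.subset_closure ⟨d, hd, rfl⟩, by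
      rw [coeffMap_Vq, coeffMap_jqModC]⟩
  | one => exact ⟨1, one_mem _, map_one _⟩
  | mul x y _ _ hx hy =>
    obtain ⟨m, hm, rfl⟩ := hx
    obtain ⟨m', hm', rfl⟩ := hy
    exact ⟨m * m', mul_mem hm hm', map_mul _ _ _⟩

theorem c3_mem_full_of_mem_closure {N : ℕ} [NeZero N] {m : LaurentSeries ℤ}
    (hm : m ∈ Submonoid.closure (c3_gensZ N)) :
    coeffMap (Int.castRingHom ℚ) m ∈ modularFunctionFieldFull N := by
  induction hm using Submonoid.closure_induction with
  | mem x hx =>
    obtain ⟨d, hd, rfl⟩ := hx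
    have hd0 : d ≠ 0 := fun h => NeZero.ne N (by rw [h] at hd; exact Nat.eq_zero_of_zero_dvd hd)
    have : NeZero d := ⟨hd0⟩
    rw [coeffMap_Vq, coeffMap_jqModC, Vq_apply, jqModC_rat]
    exact jqd_mem_full N hd
  | one => rw [map_one]; exact one_mem _
  | mul x y _ _ hx hy => rw [map_mul]; exact mul_mem hx hy

theorem c3_closure_le_subring (N : ℕ) :
    Submonoid.closure (c3_gensZ N) ≤ (Subring.closure (c3_gensZ N)).toSubmonoid :=
  Submonoid.closure_le.2 Subring.subset_closure

/-- `F̄_N` is spanned over `K0` by the monomials in the `V_d J`. -/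
theorem c3_Fbar_le_span (N : ℕ)
    (hint : ∀ d : ℕ, d ∣ N → IsIntegral ↥(K0 k) (Vq k d (jqModC k)))
    {x : LaurentSeries k} (hx : x ∈ Fbar k N) :
    x ∈ Submodule.span ↥(K0 k) (Submonoid.closure (FbarGens k N) : Set (LaurentSeries k)) := by
  have hle : Fbar k N ≤
      (IntermediateField.adjoin ↥(K0 k) (FbarGens k N)).restrictScalars k := by
    rw [Fbar, IntermediateField.adjoin_le_iff]
    intro y hy
    exact IntermediateField.subset_adjoin ↥(K0 k) (FbarGens k N) hy
  have hx' : x ∈ IntermediateField.adjoin ↥(K0 k) (FbarGens k N) := hle hx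
  have halg : ∀ y ∈ FbarGens k N, IsAlgebraic ↥(K0 k) y := by
    rintro y ⟨d, hd, rfl⟩
    exact (hint d hd).isAlgebraic
  have hx'' : x ∈ (IntermediateField.adjoin ↥(K0 k) (FbarGens k N)).toSubalgebra := hx'
  rw [IntermediateField.adjoin_toSubalgebra_of_isAlgebraic halg] at hx''
  have := Algebra.adjoin_eq_span (R := ↥(K0 k)) (s := FbarGens k N)
  rw [← this]
  exact hx''

/-- from a lower bound for the rank, linearly independent monomials. -/
theorem c3_exists_indep (N n : ℕ)
    (hint : ∀ d : ℕ, d ∣ N → IsIntegral ↥(K0 k) (Vq k d (jqModC k)))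
    (hrank : (n : Cardinal) ≤ relrank (K0 k) (Fbar k N)) :
    ∃ v : Fin n → LaurentSeries k, (∀ i, v i ∈ Submonoid.closure (FbarGens k N)) ∧
      LinearIndependent ↥(K0 k) v := by
  obtain ⟨b, hbs, hspan, hli⟩ := exists_linearIndependent ↥(K0 k)
    (Submonoid.closure (FbarGens k N) : Set (LaurentSeries k))
  have hrankW : Module.rank ↥(K0 k) ↥(Submodule.span ↥(K0 k) b) = Cardinal.mk ↥b :=
    rank_span_set hli
  -- the inclusion of `F̄_N` into the span
  let f : ↥(IntermediateField.extendScalars (K0_le_Fbar (k := k) N)) →ₗ[↥(K0 k)]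
      ↥(Submodule.span ↥(K0 k) b) :=
    { toFun := fun x => ⟨x.1, by
        rw [hspan]
        exact c3_Fbar_le_span N hint ((IntermediateField.mem_extendScalars _).1 x.2)⟩
      map_add' := fun _ _ => rfl
      map_smul' := fun _ _ => rfl }
  have hf : Function.Injective f := by
    intro x y hxy
    have h := congrArg (fun z : ↥(Submodule.span ↥(K0 k) b) => (z : LaurentSeries k)) hxy
    exact Subtype.ext h
  have hle : relrank (K0 k) (Fbar k N) ≤ Cardinal.mk ↥b := by
    rw [relrank_eq_rank_of_le (K0_le_Fbar N), ← hrankW]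
    exact LinearMap.rank_le_of_injective f hf
  have hn : Cardinal.mk (Fin n) ≤ Cardinal.mk ↥b := by
    rw [Cardinal.mk_fin]
    exact hrank.trans hle
  obtain ⟨g⟩ := (Cardinal.le_def _ _).1 hn
  exact ⟨fun i => (g i : LaurentSeries k), fun i => hbs (g i).2, hli.comp g g.injective⟩

/-- **(IG')**: `ψ(N)` monomials in the `V_d J_ℤ` whose reductions are linearly independent
over `K0 = k(J)`. -/
theorem c3_IG' (k : Type) [Field k] (N : ℕ) [NeZero N]
    (hΦ : ∀ p : ℕ, p.Prime → p ∣ N → Nonempty (PhiData k p))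
    (hC1 : ∀ p M : ℕ, p.Prime → p ∣ M → M * p ∣ N →
      (p : Cardinal) * relrank (K0 k) (Fbar k M) ≤ relrank (K0 k) (Fbar k (M * p)))
    (hC2 : ∀ p M : ℕ, p.Prime → ¬ p ∣ M → M * p ∣ N →
      ((p + 1 : ℕ) : Cardinal) * relrank (K0 k) (Fbar k M) ≤ relrank (K0 k) (Fbar k (M * p))) :
    ∃ m : Fin (ModularCurve.dedekindPsi N) → LaurentSeries ℤ,
      (∀ i, m i ∈ Subring.closure {x | ∃ d, d ∣ N ∧ x = Vq ℤ d (jqModC ℤ)}) ∧
      (∀ i, coeffMap (Int.castRingHom ℚ) (m i) ∈ modularFunctionFieldFull N) ∧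
      LinearIndependent ↥(K0 k) (fun i => coeffMap (Int.castRingHom k) (m i)) := by
  have hint := c3_isIntegral_Vq (k := k) N (NeZero.ne N) hΦ
  obtain ⟨v, hv, hli⟩ := c3_exists_indep N _ hint (c3_IG k N (NeZero.ne N) hC1 hC2)
  choose m hm hmv using fun i => c3_exists_lift (hv i)
  refine ⟨m, fun i => c3_closure_le_subring N (hm i), fun i => c3_mem_full_of_mem_closure (hm i),
    ?_⟩
  have : (fun i => coeffMap (Int.castRingHom k) (m i)) = v := funext hmv
  rw [this]
  exact hli

end extraction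

end

end Fermat.Agent.S28Lib
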