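import Mathlib

/-!
# S28, step (1), polynomial core: no self-map of the `j`-line compatible with the orbifold
structure at `0` and `1728`

* `pc_no_poly_of_mult` : over an algebraically closed field `k` with `1728 ≠ 0`, there is no monic
  polynomial `P` of degree `p ≥ 2`, `(p : k) ≠ 0`, such that every root `y ≠ 0` of
  `P * (X - C (P 0))` has multiplicity divisible by `3` and every root `y ≠ 1728` of
  `(P - 1728) * (X - C (P 1728))` has even multiplicity.
* `pc_no_poly` : the same with the hypotheses in factorised form.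
* `pc_eq_X_pow` : if `P * (X - C (P 0)) = u X ^ (p + 1)` then `P = X ^ p`.
-/

set_option autoImplicit false

namespace Fermat.Agent.S28Lib

open Polynomial

section

variable {k : Type*} [Field k]

/-- sum of root multiplicities over a finite set of points is at most the degree -/
theorem pc_sum_rootMultiplicity_le (D : k[X]) (S : Finset k) :
    ∑ r ∈ S, D.rootMultiplicity r ≤ D.natDegree := by
  classical
  calc ∑ r ∈ S, D.rootMultiplicity r
      = ∑ r ∈ S, D.roots.count r := by
        refine Finset.sum_congr rfl fun r _ => ?_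
        rw [count_roots]
    _ ≤ ∑ r ∈ S ∪ D.roots.toFinset, D.roots.count r :=
        Finset.sum_le_sum_of_subset Finset.subset_union_left
    _ = ∑ r ∈ D.roots.toFinset, D.roots.count r := by
        refine (Finset.sum_subset Finset.subset_union_right fun r _ hr => ?_).symm
        rw [Multiset.mem_toFinset] at hr
        exact Multiset.count_eq_zero.mpr hr
    _ = D.roots.card := Multiset.toFinset_sum_count_eq _
    _ ≤ D.natDegree := card_roots' D

/-- if all but at most one of the distinct roots of a split polynomial of degree `p` have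
multiplicity at least `m`, then `m * (#roots) ≤ p + (m - 1)`. -/
theorem pc_card_roots_bound [IsAlgClosed k] [DecidableEq k] (Q : k[X]) (hQ : Q ≠ 0) (m : ℕ) (hm : 1 ≤ m) (e : k)
    (h : ∀ r ∈ Q.roots.toFinset, r ≠ e → m ≤ Q.rootMultiplicity r) :
    m * Q.roots.toFinset.card ≤ Q.natDegree + (m - 1) := by
  classical
  have hsum : ∑ r ∈ Q.roots.toFinset, Q.rootMultiplicity r = Q.natDegree := by
    rw [(IsAlgClosed.splits Q).natDegree_eq_card_roots, ← Multiset.toFinset_sum_count_eq]
    refine Finset.sum_congr rfl fun r _ => ?_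
    rw [count_roots]
  have hpos : ∀ r ∈ Q.roots.toFinset, 1 ≤ Q.rootMultiplicity r := by
    intro r hr
    rw [Multiset.mem_toFinset, mem_roots hQ] at hr
    exact (rootMultiplicity_pos hQ).mpr hr
  by_cases he : e ∈ Q.roots.toFinset
  · have h1 : ∑ r ∈ Q.roots.toFinset.erase e, m ≤
        ∑ r ∈ Q.roots.toFinset.erase e, Q.rootMultiplicity r :=
      Finset.sum_le_sum fun r hr =>
        h r (Finset.mem_of_mem_erase hr) (Finset.ne_of_mem_erase hr)
    rw [Finset.sum_const, smul_eq_mul, Finset.card_erase_of_mem he] at h1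
    have h2 := Finset.add_sum_erase Q.roots.toFinset (fun r => Q.rootMultiplicity r) he
    have h3 := hpos e he
    have hc : 1 ≤ Q.roots.toFinset.card := Finset.card_pos.mpr ⟨e, he⟩
    obtain ⟨c, hc'⟩ : ∃ c, Q.roots.toFinset.card = c + 1 := ⟨_, (Nat.sub_add_cancel hc).symm⟩
    rw [hc'] at h1 ⊢
    simp only [Nat.add_sub_cancel] at h1
    have : m * (c + 1) = c * m + m := by ring
    omega
  · have h1 : ∑ r ∈ Q.roots.toFinset, m ≤ ∑ r ∈ Q.roots.toFinset, Q.rootMultiplicity r :=
      Finset.sum_le_sum fun r hr => h r hr (fun hre => he (hre ▸ hr))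
    rw [Finset.sum_const, smul_eq_mul, hsum] at h1
    have : m * Q.roots.toFinset.card = Q.roots.toFinset.card * m := by ring
    omega

/-- the number of distinct roots is `natDegree` minus the total excess multiplicity -/
theorem pc_sum_pred_rootMultiplicity [IsAlgClosed k] [DecidableEq k] (Q : k[X]) (hQ : Q ≠ 0) :
    ∑ r ∈ Q.roots.toFinset, (Q.rootMultiplicity r - 1) + Q.roots.toFinset.card = Q.natDegree := by
  classical
  have hsum : ∑ r ∈ Q.roots.toFinset, Q.rootMultiplicity r = Q.natDegree := by
    rw [(IsAlgClosed.splits Q).natDegree_eq_card_roots, ← Multiset.toFinset_sum_count_eq]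
    refine Finset.sum_congr rfl fun r _ => ?_
    rw [count_roots]
  have hpos : ∀ r ∈ Q.roots.toFinset, 1 ≤ Q.rootMultiplicity r := by
    intro r hr
    rw [Multiset.mem_toFinset, mem_roots hQ] at hr
    exact (rootMultiplicity_pos hQ).mpr hr
  rw [← hsum, Finset.card_eq_sum_ones, ← Finset.sum_add_distrib]
  exact Finset.sum_congr rfl fun r hr => Nat.sub_add_cancel (hpos r hr)

/-- **Polynomial core of step (1), multiplicity form.** -/
theorem pc_no_poly_of_mult [IsAlgClosed k] (h1728 : (1728 : k) ≠ 0) (p : ℕ) (hp : 2 ≤ p)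
    (hpk : (p : k) ≠ 0) (P : k[X]) (hP : P.Monic) (hdeg : P.natDegree = p)
    (h0 : ∀ y : k, y ≠ 0 → 3 ∣ (P * (X - C (P.eval 0))).rootMultiplicity y)
    (h1 : ∀ y : k, y ≠ 1728 →
      2 ∣ ((P - C 1728) * (X - C (P.eval 1728))).rootMultiplicity y) : False := by
  classical
  have hP0 : P ≠ 0 := hP.ne_zero
  set P1 : k[X] := P - C 1728 with hP1def
  have hdeg1 : P1.natDegree = p := by
    rw [hP1def, natDegree_sub_C, hdeg]
  have hP10 : P1 ≠ 0 := by
    intro h
    rw [h, natDegree_zero] at hdeg1
    omega
  have hder1 : derivative P1 = derivative P := by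
    rw [hP1def, derivative_sub, derivative_C, sub_zero]
  -- the derivative is nonzero of degree `p - 1`
  have hDcoeff : (derivative P).coeff (p - 1) = (p : k) := by
    rw [coeff_derivative, Nat.sub_add_cancel (by omega : 1 ≤ p), ← hdeg, hP.coeff_natDegree,
      one_mul]
    have : ((p - 1 : ℕ) : k) + 1 = (p : k) := by
      have h : ((p - 1 + 1 : ℕ) : k) = (p : k) := by
        rw [Nat.sub_add_cancel (by omega : 1 ≤ p)]
      rw [← h, Nat.cast_add, Nat.cast_one]
    rw [hdeg, this]
  have hD0 : derivative P ≠ 0 := by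
    intro h
    rw [h, coeff_zero] at hDcoeff
    exact hpk hDcoeff.symm
  have hDdeg : (derivative P).natDegree ≤ p - 1 := by
    have := natDegree_derivative_lt (p := P) (by rw [hdeg]; omega)
    rw [hdeg] at this
    omega
  -- the two linear factors are nonzero
  have hlin0 : (X - C (P.eval 0) : k[X]) ≠ 0 := X_sub_C_ne_zero _
  have hlin1 : (X - C (P.eval 1728) : k[X]) ≠ 0 := X_sub_C_ne_zero _
  have hQ0 : P * (X - C (P.eval 0)) ≠ 0 := mul_ne_zero hP0 hlin0
  have hQ1 : P1 * (X - C (P.eval 1728)) ≠ 0 := mul_ne_zero hP10 hlin1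
  -- (i) at most `(p + 2) / 3` distinct roots of `P`
  have hn0 : 3 * P.roots.toFinset.card ≤ p + 2 := by
    have := pc_card_roots_bound P hP0 3 (by norm_num) (P.eval 0) (by
      intro r hr hre
      rw [Multiset.mem_toFinset, mem_roots hP0] at hr
      have hr0 : r ≠ 0 := by
        rintro rfl
        exact hre hr.symm
      have h3 := h0 r hr0
      rw [rootMultiplicity_mul hQ0, rootMultiplicity_X_sub_C, if_neg hre, add_zero] at h3
      have hpos : 0 < P.rootMultiplicity r := (rootMultiplicity_pos hP0).mpr hr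
      exact Nat.le_of_dvd hpos h3)
    rw [hdeg] at this
    exact this
  -- (ii) at most `(p + 1) / 2` distinct roots of `P - 1728`
  have hn1 : 2 * P1.roots.toFinset.card ≤ p + 1 := by
    have := pc_card_roots_bound P1 hP10 2 (by norm_num) (P.eval 1728) (by
      intro r hr hre
      rw [Multiset.mem_toFinset, mem_roots hP10] at hr
      have hr0 : r ≠ 1728 := by
        rintro rfl
        apply hre
        have : P1.eval 1728 = 0 := hr
        rw [hP1def, eval_sub, eval_C, sub_eq_zero] at this
        exact this.symm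
      have h2 := h1 r hr0
      rw [rootMultiplicity_mul hQ1, rootMultiplicity_X_sub_C, if_neg hre, add_zero] at h2
      have hpos : 0 < P1.rootMultiplicity r := (rootMultiplicity_pos hP10).mpr hr
      exact Nat.le_of_dvd hpos h2)
    rw [hdeg1] at this
    exact this
  -- (iii) the derivative has too many roots
  have hdisj : Disjoint P.roots.toFinset P1.roots.toFinset := by
    rw [Finset.disjoint_left]
    intro r hr hr1
    rw [Multiset.mem_toFinset, mem_roots hP0] at hr
    rw [Multiset.mem_toFinset, mem_roots hP10] at hr1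
    have h : P1.eval r = 0 := hr1
    have h' : P.eval r = 0 := hr
    rw [hP1def, eval_sub, eval_C, h', zero_sub, neg_eq_zero] at h
    exact h1728 h
  have hex0 : ∑ r ∈ P.roots.toFinset, (P.rootMultiplicity r - 1) ≤
      ∑ r ∈ P.roots.toFinset, (derivative P).rootMultiplicity r :=
    Finset.sum_le_sum fun r _ =>
      rootMultiplicity_sub_one_le_derivative_rootMultiplicity_of_ne_zero P r hD0
  have hex1 : ∑ r ∈ P1.roots.toFinset, (P1.rootMultiplicity r - 1) ≤
      ∑ r ∈ P1.roots.toFinset, (derivative P).rootMultiplicity r :=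
    Finset.sum_le_sum fun r _ => by
      have := rootMultiplicity_sub_one_le_derivative_rootMultiplicity_of_ne_zero P1 r
        (by rw [hder1]; exact hD0)
      rwa [hder1] at this
  have htot := pc_sum_rootMultiplicity_le (derivative P) (P.roots.toFinset ∪ P1.roots.toFinset)
  rw [Finset.sum_union hdisj] at htot
  have e0 := pc_sum_pred_rootMultiplicity P hP0
  have e1 := pc_sum_pred_rootMultiplicity P1 hP10
  rw [hdeg] at e0
  rw [hdeg1] at e1
  omega

/-- **Polynomial core of step (1), factorised form.** -/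
theorem pc_no_poly [IsAlgClosed k] (h1728 : (1728 : k) ≠ 0) (p : ℕ) (hp : 2 ≤ p)
    (hpk : (p : k) ≠ 0) (P : k[X]) (hP : P.Monic) (hdeg : P.natDegree = p)
    (a : ℕ) (A : k[X]) (u : k) (h0 : P * (X - C (P.eval 0)) = C u * X ^ a * A ^ 3)
    (b : ℕ) (B : k[X]) (v : k)
    (h1 : (P - C 1728) * (X - C (P.eval 1728)) = C v * (X - C 1728) ^ b * B ^ 2) : False := by
  classical
  have hP0 : P ≠ 0 := hP.ne_zero
  have hP10 : P - C 1728 ≠ 0 := by
    intro h
    have : (P - C 1728).natDegree = p := by rw [natDegree_sub_C, hdeg]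
    rw [h, natDegree_zero] at this
    omega
  have hQ0 : C u * X ^ a * A ^ 3 ≠ 0 := by
    rw [← h0]
    exact mul_ne_zero hP0 (X_sub_C_ne_zero _)
  have hQ1 : C v * (X - C 1728) ^ b * B ^ 2 ≠ 0 := by
    rw [← h1]
    exact mul_ne_zero hP10 (X_sub_C_ne_zero _)
  refine pc_no_poly_of_mult h1728 p hp hpk P hP hdeg (fun y hy => ?_) (fun y hy => ?_)
  · rw [h0, rootMultiplicity_mul hQ0, rootMultiplicity_mul (left_ne_zero_of_mul hQ0),
      rootMultiplicity_C, zero_add]
    have hX : (X ^ a : k[X]).rootMultiplicity y = 0 := by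
      apply rootMultiplicity_eq_zero
      simp [IsRoot, hy]
    have hA0 : A ≠ 0 := by
      rintro rfl
      simp at hQ0
    have hA : (A ^ 3).rootMultiplicity y = 3 * A.rootMultiplicity y := by
      have h3 : (A ^ 3 : k[X]) = A * A * A := by ring
      have hne : A * A * A ≠ 0 := mul_ne_zero (mul_ne_zero hA0 hA0) hA0
      rw [h3, rootMultiplicity_mul hne, rootMultiplicity_mul (left_ne_zero_of_mul hne)]
      ring
    rw [hX, hA, zero_add]
    exact dvd_mul_right 3 _
  · rw [h1, rootMultiplicity_mul hQ1, rootMultiplicity_mul (left_ne_zero_of_mul hQ1),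
      rootMultiplicity_C, zero_add]
    have hX : ((X - C 1728 : k[X]) ^ b).rootMultiplicity y = 0 := by
      apply rootMultiplicity_eq_zero
      simp [IsRoot, sub_eq_zero, hy]
    have hB0 : B ≠ 0 := by
      rintro rfl
      simp at hQ1
    have hB : (B ^ 2).rootMultiplicity y = 2 * B.rootMultiplicity y := by
      have h2 : (B ^ 2 : k[X]) = B * B := by ring
      have hne : B * B ≠ 0 := mul_ne_zero hB0 hB0
      rw [h2, rootMultiplicity_mul hne]
      ring
    rw [hX, hB, zero_add]
    exact dvd_mul_right 2 _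

/-- the companion for characteristic `2`, `3`: if `P * (X - C (P 0))` is a monomial then
`P = X ^ p`. -/
theorem pc_eq_X_pow (p : ℕ) (P : k[X]) (hP : P.Monic) (hdeg : P.natDegree = p) (u : k) (n : ℕ)
    (h0 : P * (X - C (P.eval 0)) = C u * X ^ n) : P = X ^ p := by
  have hP0 : P ≠ 0 := hP.ne_zero
  have hu : u ≠ 0 := by
    rintro rfl
    rw [C_0, zero_mul] at h0
    exact mul_ne_zero hP0 (X_sub_C_ne_zero _) h0
  have hdvd : P ∣ X ^ n := by
    have h1 : P ∣ C u * X ^ n := ⟨_, h0.symm⟩
    have hunit : IsUnit (C u : k[X]) := isUnit_C.mpr (isUnit_iff_ne_zero.mpr hu)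
    exact (hunit.dvd_mul_left).mp h1
  obtain ⟨i, -, hi⟩ := (dvd_prime_pow (prime_X (R := k)) n).mp hdvd
  have hmon : (X ^ i : k[X]).Monic := monic_X_pow i
  have heq : P = X ^ i := eq_of_monic_of_associated hP hmon hi
  have : i = p := by
    rw [← hdeg, heq, natDegree_X_pow]
  rw [heq, this]

end

end Fermat.Agent.S28Lib
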