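/-
S28 (Igusa), chunk B (helper2): the prime-level step.

* `ps_eval_Vq`            : `J(q^p)` is a root of `Φ_p(X, J)` (no symmetry of `Φ_p` needed);
* `ps_isIntegral_Vq`      : `J(q^d)` is integral over `K0 = k(J)` when `Φ_r` exists for all `r ∣ d`;
* `ps_exists_poly_of_mem` : `J(q^p) ∈ k(J)` forces `J(q^p) = P(J)` for a polynomial `P`;
* `ps_phi_eq`             : then `Φ_p = (X - P(Y)) (P(X) - Y)`;
* `ps_not_mem_of_six_ne_zero` : contradiction when `6 p` is invertible in `k`.
-/
import Mathlib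
import Fermat.Prelude.Thm_ModularCurve_coeff_jqModC_pow_self
import Fermat.Prelude.Thm_ModularCurve_coeff_jqModC_pow_of_lt
import Fermat.Agent.Lib.S28.Base
import Fermat.Agent.Lib.S28.PolyCount

set_option autoImplicit false

namespace Fermat.Agent.S28Lib

open HahnSeries ModularCurve Polynomial

noncomputable section

/-! ### coefficients of `P(J)` -/

section coeff

variable {k : Type*} [Field k]

theorem ps_coeff_aeval_J (P : Polynomial k) :
    (Polynomial.aeval (jqModC k) P).coeff (-(P.natDegree : ℤ)) = P.leadingCoeff := by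
  rw [Polynomial.aeval_def, Polynomial.eval₂_eq_sum_range, HahnSeries.coeff_sum,
    Finset.sum_eq_single P.natDegree]
  · rw [algebraMap_eq_C, HahnSeries.C_apply, HahnSeries.coeff_single_zero_mul,
      coeff_jqModC_pow_self, mul_one]
    rfl
  · intro i hi hin
    have hilt : i < P.natDegree :=
      lt_of_le_of_ne (Nat.lt_succ_iff.mp (Finset.mem_range.mp hi)) hin
    rw [algebraMap_eq_C, HahnSeries.C_apply, HahnSeries.coeff_single_zero_mul,
      coeff_jqModC_pow_of_lt, mul_zero]
    omega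
  · intro hn'
    exact absurd (Finset.self_mem_range_succ _) hn'

theorem ps_coeff_aeval_J_of_lt (P : Polynomial k) {m : ℤ} (hm : m < -(P.natDegree : ℤ)) :
    (Polynomial.aeval (jqModC k) P).coeff m = 0 := by
  rw [Polynomial.aeval_def, Polynomial.eval₂_eq_sum_range, HahnSeries.coeff_sum]
  refine Finset.sum_eq_zero fun i hi => ?_
  have hile : i ≤ P.natDegree := Nat.lt_succ_iff.mp (Finset.mem_range.mp hi)
  rw [algebraMap_eq_C, HahnSeries.C_apply, HahnSeries.coeff_single_zero_mul,
    coeff_jqModC_pow_of_lt, mul_zero]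
  omega

theorem ps_aeval_J_eq_zero {P : Polynomial k} (h : Polynomial.aeval (jqModC k) P = 0) :
    P = 0 := by
  have := ps_coeff_aeval_J P
  rw [h, HahnSeries.coeff_zero] at this
  exact Polynomial.leadingCoeff_eq_zero.mp this.symm

theorem ps_transcendental_J : Transcendental k (jqModC k) :=
  transcendental_iff.mpr fun _ hp => ps_aeval_J_eq_zero hp

theorem ps_evY_J_injective : Function.Injective (evY (jqModC k)) := by
  rw [injective_iff_map_eq_zero]
  intro P hP
  exact ps_aeval_J_eq_zero hP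

theorem ps_Vq_comp_evY (n : ℕ) (y : LaurentSeries k) :
    (Vq k n).comp (evY y) = evY (Vq k n y) := by
  apply Polynomial.ringHom_ext
  · intro a
    rw [RingHom.comp_apply, evY_C, evY_C, algebraMap_eq_C, Vq_C]
  · rw [RingHom.comp_apply, evY_X, evY_X]

theorem ps_tw_comp_evY (c : kˣ) (y : LaurentSeries k) :
    (tw c).comp (evY y) = evY (tw c y) := by
  apply Polynomial.ringHom_ext
  · intro a
    rw [RingHom.comp_apply, evY_C, evY_C, algebraMap_eq_C, tw_C]
  · rw [RingHom.comp_apply, evY_X, evY_X]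

theorem ps_evY_Vq_injective {n : ℕ} (hn : n ≠ 0) :
    Function.Injective (evY (Vq k n (jqModC k))) := by
  rw [← ps_Vq_comp_evY]
  exact (Vq_injective hn).comp ps_evY_J_injective

theorem ps_J_coeff_neg_one : (jqModC k).coeff (-1) = 1 := by
  have := coeff_jqModC_pow_self k 1
  simpa using this

theorem ps_J_coeff_of_lt {m : ℤ} (hm : m < -1) : (jqModC k).coeff m = 0 := by
  have h1 : m < -((1 : ℕ) : ℤ) := by simpa using hm
  have := coeff_jqModC_pow_of_lt k h1
  simpa using this

theorem ps_Vq_J_coeff {p : ℕ} (hp : p ≠ 0) : (Vq k p (jqModC k)).coeff (-(p : ℤ)) = 1 := by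
  have := Vq_coeff_mul hp (jqModC k) (-1)
  rw [mul_neg_one] at this
  rw [this, ps_J_coeff_neg_one]

theorem ps_Vq_J_coeff_of_lt {p : ℕ} (hp : p ≠ 0) {m : ℤ} (hm : m < -(p : ℤ)) :
    (Vq k p (jqModC k)).coeff m = 0 := by
  by_cases hd : (p : ℤ) ∣ m
  · obtain ⟨j, rfl⟩ := hd
    rw [Vq_coeff_mul hp]
    apply ps_J_coeff_of_lt
    have hp' : (0 : ℤ) < p := by exact_mod_cast Nat.pos_of_ne_zero hp
    nlinarith
  · exact Vq_coeff_of_not_dvd hp _ hd

theorem ps_Vq_J_ne_zero {p : ℕ} (hp : p ≠ 0) : Vq k p (jqModC k) ≠ 0 := by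
  intro h
  have := ps_Vq_J_coeff (k := k) hp
  rw [h, HahnSeries.coeff_zero] at this
  exact zero_ne_one this

/-- a polynomial `P` with `P(J) = J(q^p)` is monic of degree `p`. -/
theorem ps_monic_natDegree {p : ℕ} (hp : p ≠ 0) {P : Polynomial k}
    (hP : Polynomial.aeval (jqModC k) P = Vq k p (jqModC k)) :
    P.Monic ∧ P.natDegree = p := by
  have hP0 : P ≠ 0 := by
    rintro rfl
    rw [map_zero] at hP
    exact ps_Vq_J_ne_zero hp hP.symm
  have hdeg : P.natDegree = p := by
    rcases lt_trichotomy P.natDegree p with h | h | h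
    · exfalso
      have h1 := ps_coeff_aeval_J_of_lt P (m := -(p : ℤ)) (by omega)
      rw [hP, ps_Vq_J_coeff hp] at h1
      exact one_ne_zero h1
    · exact h
    · exfalso
      have h1 := ps_coeff_aeval_J P
      rw [hP, ps_Vq_J_coeff_of_lt hp (by omega)] at h1
      exact hP0 (Polynomial.leadingCoeff_eq_zero.mp h1.symm)
  refine ⟨?_, hdeg⟩
  have h1 := ps_coeff_aeval_J P
  rw [hP, hdeg, ps_Vq_J_coeff hp] at h1
  exact h1.symm

end coeff

/-! ### integrality of `J(q^p)` over `k[J]` -/

section integral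

variable {k : Type} [Field k]

/-- `J(q^p)` is a root of `Φ_p(X, J)`. -/
theorem ps_eval_Vq {p : ℕ} (hp : p ≠ 0) (D : PhiData k p) :
    (D.Φ.map (evY (jqModC k))).eval (Vq k p (jqModC k)) = 0 := by
  have h1 : (D.Φ.map (evY (Vq k p (jqModC k)))).eval (Vq k (p * p) (jqModC k)) = 0 := by
    rw [D.roots, Polynomial.eval_mul, Polynomial.eval_sub, Polynomial.eval_X, Polynomial.eval_C,
      sub_self, zero_mul]
  rw [← ps_Vq_comp_evY, ← Vq_Vq hp hp, Polynomial.eval_map, ← Polynomial.hom_eval₂,
    ← Polynomial.eval_map] at h1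
  exact (map_eq_zero_iff _ (Vq_injective hp)).mp h1

/-- `J(q^{n p})` is a root of `Φ_p(X, J(q^n))`. -/
theorem ps_eval_Vq_mul {p : ℕ} (hp : p ≠ 0) (D : PhiData k p) {n : ℕ} (hn : n ≠ 0) :
    (D.Φ.map (evY (Vq k n (jqModC k)))).eval (Vq k (n * p) (jqModC k)) = 0 := by
  have h1 := congrArg (Vq k n) (ps_eval_Vq hp D)
  rw [map_zero, Polynomial.eval_map, Polynomial.hom_eval₂, ps_Vq_comp_evY, Vq_Vq hn hp,
    ← Polynomial.eval_map] at h1
  exact h1


/-- transitivity step: if `y` is integral over `K0` and `x` is a root of a monic polynomial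
whose coefficients are polynomials in `y` over `k`, then `x` is integral over `K0`. -/
theorem ps_isIntegral_of_eval {y x : LaurentSeries k} (hy : IsIntegral ↥(K0 k) y)
    {Q : Polynomial (Polynomial k)} (hQ : Q.Monic) (h : (Q.map (evY y)).eval x = 0) :
    IsIntegral ↥(K0 k) x := by
  have hmem : ∀ c : Polynomial k, evY y c ∈ integralClosure ↥(K0 k) (LaurentSeries k) := by
    intro c
    rw [evY_apply, ← Polynomial.aeval_map_algebraMap ↥(K0 k)]
    have h1 := Polynomial.aeval_mem_adjoin_singleton ↥(K0 k) y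
      (p := c.map (algebraMap k ↥(K0 k)))
    have h2 : Algebra.adjoin ↥(K0 k) {y} ≤ integralClosure ↥(K0 k) (LaurentSeries k) :=
      Algebra.adjoin_le (Set.singleton_subset_iff.mpr hy)
    exact h2 h1
  have hx : IsIntegral ↥(integralClosure ↥(K0 k) (LaurentSeries k)) x := by
    refine ⟨Q.map ((evY y).codRestrict (integralClosure ↥(K0 k) (LaurentSeries k)) hmem),
      hQ.map _, ?_⟩
    rw [Polynomial.eval₂_map]
    have hcomp : (algebraMap ↥(integralClosure ↥(K0 k) (LaurentSeries k))
        (LaurentSeries k)).comp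
          ((evY y).codRestrict (integralClosure ↥(K0 k) (LaurentSeries k)) hmem) = evY y := by
      apply RingHom.ext
      intro c
      rfl
    rw [hcomp, ← Polynomial.eval_map]
    exact h
  exact isIntegral_trans (A := ↥(integralClosure ↥(K0 k) (LaurentSeries k))) x hx

/-- `J(q^d)` is integral over `K0 = k(J)` as soon as `Φ_r` is available for the primes `r ∣ d`. -/
theorem ps_isIntegral_Vq {d : ℕ} (hd : d ≠ 0)
    (hΦ : ∀ r : ℕ, r.Prime → r ∣ d → Nonempty (PhiData k r)) :
    IsIntegral ↥(K0 k) (Vq k d (jqModC k)) := by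
  induction d using Nat.strong_induction_on with
  | _ d ih =>
    rcases eq_or_ne d 1 with rfl | h1
    · rw [Vq_one]
      exact isIntegral_algebraMap
        (x := (⟨jqModC k, IntermediateField.mem_adjoin_simple_self k _⟩ : ↥(K0 k)))
    · have hr : d.minFac.Prime := Nat.minFac_prime h1
      obtain ⟨n, hn⟩ := Nat.minFac_dvd d
      have hn0 : n ≠ 0 := by
        rintro rfl
        rw [mul_zero] at hn
        exact hd hn
      obtain ⟨D⟩ := hΦ d.minFac hr (Nat.minFac_dvd d)
      have hlt : n < d := by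
        have h2 := hr.two_le
        have hnpos := Nat.pos_of_ne_zero hn0
        nlinarith
      have hy := ih n hlt hn0 (fun s hs hsn => hΦ s hs (hsn.trans ⟨d.minFac, by rw [mul_comm]; exact hn⟩))
      have h3 := ps_eval_Vq_mul hr.ne_zero D hn0
      have hd' : d = n * d.minFac := by rw [mul_comm]; exact hn
      rw [hd']
      exact ps_isIntegral_of_eval hy D.monic h3

theorem ps_isAlgebraic_Vq {d : ℕ} (hd : d ≠ 0)
    (hΦ : ∀ r : ℕ, r.Prime → r ∣ d → Nonempty (PhiData k r)) :
    IsAlgebraic ↥(K0 k) (Vq k d (jqModC k)) :=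
  (ps_isIntegral_Vq hd hΦ).isAlgebraic

/-- rational-root argument over an arbitrary fraction field `K` of `k[Y]`. -/
theorem ps_exists_poly_aux {K : Type*} [Field K] [Algebra (Polynomial k) K]
    [IsFractionRing (Polynomial k) K] (g : Polynomial k →+* LaurentSeries k)
    (hg : Function.Injective g) {Q : Polynomial (Polynomial k)} (hQ : Q.Monic)
    {x : LaurentSeries k} (hx : (Q.map g).eval x = 0)
    (r s : Polynomial k) (hrs : x = g r / g s) :
    ∃ P : Polynomial k, g P = x := by
  have hφρ : IsFractionRing.lift (K := K) hg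
      (algebraMap (Polynomial k) K r / algebraMap (Polynomial k) K s) = x := by
    rw [hrs, map_div₀, IsFractionRing.lift_algebraMap, IsFractionRing.lift_algebraMap]
  have hcomp : (IsFractionRing.lift (K := K) hg).comp
      (algebraMap (Polynomial k) K) = g := by
    apply RingHom.ext
    intro y
    rw [RingHom.comp_apply]
    exact IsFractionRing.lift_algebraMap hg y
  have hroot : Polynomial.aeval
      (algebraMap (Polynomial k) K r / algebraMap (Polynomial k) K s) Q = 0 := by
    apply (IsFractionRing.lift (K := K) hg).injective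
    rw [map_zero, Polynomial.aeval_def, Polynomial.hom_eval₂, hφρ, hcomp, ← Polynomial.eval_map]
    exact hx
  obtain ⟨P, hP⟩ := isInteger_of_is_root_of_monic hQ hroot
  refine ⟨P, ?_⟩
  rw [← hφρ, ← hP]
  exact (IsFractionRing.lift_algebraMap hg P).symm

/-- if `J(q^p) ∈ k(J)` then `J(q^p)` is a polynomial in `J`. -/
theorem ps_exists_poly_of_mem {p : ℕ} (hp : p.Prime) (D : PhiData k p)
    (h : Vq k p (jqModC k) ∈ K0 k) :
    ∃ P : Polynomial k, Polynomial.aeval (jqModC k) P = Vq k p (jqModC k) := by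
  obtain ⟨r, s, hrs⟩ := (IntermediateField.mem_adjoin_simple_iff k _).mp h
  exact ps_exists_poly_aux (K := RatFunc k) (evY (jqModC k)) ps_evY_J_injective D.monic
    (ps_eval_Vq hp.ne_zero D) r s hrs

/-! ### the conjugates `J(ζ^b q)` -/

theorem ps_tw_J_coeff (c : kˣ) : (tw c (jqModC k)).coeff (-1) = ((c⁻¹ : kˣ) : k) := by
  rw [tw_coeff, ps_J_coeff_neg_one, mul_one, zpow_neg_one]

theorem ps_tw_pow_injOn {p : ℕ} (ζ : kˣ) (hζ : IsPrimitiveRoot ζ p) :
    Set.InjOn (fun b : ℕ => tw (ζ ^ b) (jqModC k)) (Finset.range p) := by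
  intro a ha b hb hab
  have h1 := congrArg (fun x : LaurentSeries k => x.coeff (-1)) hab
  simp only [ps_tw_J_coeff] at h1
  have h2 : (ζ ^ a)⁻¹ = (ζ ^ b)⁻¹ := Units.ext h1
  rw [inv_inj] at h2
  exact hζ.pow_inj (Finset.mem_range.mp ha) (Finset.mem_range.mp hb) h2

theorem ps_aeval_tw (c : kˣ) (y : LaurentSeries k) (P : Polynomial k) :
    Polynomial.aeval (tw c y) P = tw c (Polynomial.aeval y P) := by
  have := Polynomial.aeval_algHom_apply (twAlg c) y P
  simpa using this

theorem ps_aeval_Vq (n : ℕ) (y : LaurentSeries k) (P : Polynomial k) :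
    Polynomial.aeval (Vq k n y) P = Vq k n (Polynomial.aeval y P) := by
  have := Polynomial.aeval_algHom_apply (VqAlg k n) y P
  simpa using this

/-- if `J(q^p) = P(J)` then the roots of `P(X) = J(q^p)` are exactly the `J(ζ^b q)`. -/
theorem ps_prod_eq {p : ℕ} (hp : p ≠ 0) (ζ : kˣ) (hζ : IsPrimitiveRoot ζ p) {P : Polynomial k}
    (hP : Polynomial.aeval (jqModC k) P = Vq k p (jqModC k)) :
    P.map (algebraMap k (LaurentSeries k)) - Polynomial.C (Vq k p (jqModC k)) =
      ∏ b ∈ Finset.range p, (X - Polynomial.C (tw (ζ ^ b) (jqModC k))) := by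
  obtain ⟨hmonic, hdeg⟩ := ps_monic_natDegree hp hP
  have hQdeg : (P.map (algebraMap k (LaurentSeries k)) -
      Polynomial.C (Vq k p (jqModC k))).natDegree = p := by
    rw [Polynomial.natDegree_sub_C, Polynomial.natDegree_map, hdeg]
  have hQmonic : (P.map (algebraMap k (LaurentSeries k)) -
      Polynomial.C (Vq k p (jqModC k))).Monic := by
    apply Polynomial.Monic.sub_of_left (hmonic.map _)
    rw [Polynomial.degree_eq_natDegree (hmonic.map _).ne_zero, Polynomial.natDegree_map, hdeg]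
    refine lt_of_le_of_lt Polynomial.degree_C_le ?_
    exact_mod_cast Nat.pos_of_ne_zero hp
  have hroot : ∀ b : ℕ, (P.map (algebraMap k (LaurentSeries k)) -
      Polynomial.C (Vq k p (jqModC k))).IsRoot (tw (ζ ^ b) (jqModC k)) := by
    intro b
    rw [Polynomial.IsRoot, Polynomial.eval_sub, Polynomial.eval_C, Polynomial.eval_map,
      ← Polynomial.aeval_def, sub_eq_zero, ps_aeval_tw, hP, tw_Vq_of_pow_eq_one hp]
    rw [← pow_mul, mul_comm, pow_mul, hζ.pow_eq_one, one_pow]
  have hdvd : ∏ b ∈ Finset.range p, (X - Polynomial.C (tw (ζ ^ b) (jqModC k))) ∣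
      (P.map (algebraMap k (LaurentSeries k)) - Polynomial.C (Vq k p (jqModC k))) := by
    apply Finset.prod_dvd_of_coprime
    · intro a ha b hb hab
      exact Polynomial.isCoprime_X_sub_C_of_isUnit_sub
        (sub_ne_zero.mpr (fun h => hab (ps_tw_pow_injOn ζ hζ ha hb h))).isUnit
    · intro b _
      exact Polynomial.dvd_iff_isRoot.mpr (hroot b)
  have hprodmonic : (∏ b ∈ Finset.range p,
      (X - Polynomial.C (tw (ζ ^ b) (jqModC k)))).Monic :=
    Polynomial.monic_prod_of_monic _ _ (fun b _ => Polynomial.monic_X_sub_C _)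
  apply Polynomial.eq_of_monic_of_dvd_of_natDegree_le hprodmonic hQmonic hdvd
  rw [hQdeg, Polynomial.natDegree_prod_of_monic _ _ (fun b _ => Polynomial.monic_X_sub_C _)]
  simp

/-- if `J(q^p) = P(J)` then `Φ_p(X, Y) = (X - P(Y)) (P(X) - Y)`. -/
theorem ps_phi_eq {p : ℕ} (hp : p ≠ 0) (D : PhiData k p) {P : Polynomial k}
    (hP : Polynomial.aeval (jqModC k) P = Vq k p (jqModC k)) :
    D.Φ = (X - Polynomial.C P) * (P.map Polynomial.C - Polynomial.C X) := by
  apply Polynomial.map_injective _ (ps_evY_Vq_injective (k := k) hp)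
  have h1 : evY (Vq k p (jqModC k)) P = Vq k (p * p) (jqModC k) := by
    rw [evY_apply, ps_aeval_Vq, hP, Vq_Vq hp hp]
  have h2 : (evY (Vq k p (jqModC k))).comp Polynomial.C = algebraMap k (LaurentSeries k) := by
    apply RingHom.ext
    intro a
    rw [RingHom.comp_apply, evY_C]
  rw [D.roots, Polynomial.map_mul, Polynomial.map_sub, Polynomial.map_sub, Polynomial.map_X,
    Polynomial.map_C, Polynomial.map_C, Polynomial.map_map, evY_X, h1, h2,
    ← ps_prod_eq hp D.ζ D.prim hP]

theorem ps_phi_eval {p : ℕ} (hp : p ≠ 0) (D : PhiData k p) {P : Polynomial k}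
    (hP : Polynomial.aeval (jqModC k) P = Vq k p (jqModC k)) (a : k) :
    D.Φ.eval (Polynomial.C a) = (P - Polynomial.C a) * (X - Polynomial.C (P.eval a)) := by
  have h1 : (P.map Polynomial.C).eval (Polynomial.C a) = Polynomial.C (P.eval a) := by
    rw [Polynomial.eval_map, ← Polynomial.eval₂_id (p := P) (x := a)]
    exact (Polynomial.hom_eval₂ P (RingHom.id k) Polynomial.C a).symm
  rw [ps_phi_eq hp D hP, Polynomial.eval_mul, Polynomial.eval_sub, Polynomial.eval_sub,
    Polynomial.eval_X, Polynomial.eval_C, Polynomial.eval_C, h1]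
  ring

/-- **(P1), characteristic `≠ 2, 3`**: `J(q^p) ∉ k(J)`. -/
theorem ps_not_mem_of_six_ne_zero [IsAlgClosed k] {p : ℕ} (hp : p.Prime)
    (hpk : (p : k) ≠ 0) (h2 : (2 : k) ≠ 0) (h3 : (3 : k) ≠ 0) (D : PhiData k p) :
    Vq k p (jqModC k) ∉ K0 k := by
  intro hmem
  obtain ⟨P, hP⟩ := ps_exists_poly_of_mem hp D hmem
  obtain ⟨hmonic, hdeg⟩ := ps_monic_natDegree hp.ne_zero hP
  have h1728 : (1728 : k) ≠ 0 := by
    have : (1728 : k) = 2 ^ 6 * 3 ^ 3 := by norm_num
    rw [this]
    exact mul_ne_zero (pow_ne_zero _ h2) (pow_ne_zero _ h3)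
  refine pc_no_poly_of_mult h1728 p hp.two_le hpk P hmonic hdeg ?_ ?_
  · intro y hy
    have := D.mult0 y hy
    rw [← Polynomial.C_0, ps_phi_eval hp.ne_zero D hP 0, Polynomial.C_0, sub_zero] at this
    exact this
  · intro y hy
    have := D.mult1728 y hy
    rwa [ps_phi_eval hp.ne_zero D hP 1728] at this

end integral

end

end Fermat.Agent.S28Lib
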