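/-
S28 (Igusa), chunk C1 (helper6): the step `(S×p)`.

For a prime `p` (invertible in `k`, via the primitive root in `PhiData`) and every `M ≠ 0`:
`p * [F̄_M : K0] ≤ [F̄_{M p} : K0]`, given `[K0(J(q^p)) : K0] ≥ p + 1` (S1).
Degrees are `IntermediateField.relrank` (cardinals) inside `k((q))`.
-/
import Mathlib
import Fermat.Agent.Lib.S28.Base

set_option autoImplicit false

namespace Fermat.Agent.S28Lib

open HahnSeries ModularCurve Polynomial IntermediateField

noncomputable section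

section general

variable {k L : Type*} [Field k] [Field L] [Algebra k L]

/-- `[A(x) : A] = deg minpoly` in terms of `relrank`. -/
theorem c1_relrank_sup_simple (A : IntermediateField k L) (x : L) (hx : IsIntegral A x) :
    relrank A (A ⊔ k⟮x⟯) = ((minpoly A x).natDegree : Cardinal) := by
  have hle : A ≤ A ⊔ k⟮x⟯ := le_sup_left
  have hext : extendScalars hle = A⟮x⟯ := by
    apply restrictScalars_injective k
    rw [extendScalars_restrictScalars, restrictScalars_adjoin_eq_sup]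
  rw [relrank_eq_rank_of_le hle, hext]
  have := adjoin.finiteDimensional hx
  rw [← Module.finrank_eq_rank, adjoin.finrank hx]

/-- `n` ring endomorphisms fixing `A` pointwise and separating `x` force `[A(x) : A] ≥ n`. -/
theorem c1_le_natDegree_minpoly (A : IntermediateField k L) (x : L) (hx : IsIntegral A x)
    (n : ℕ) (σ : Fin n → (L →+* L)) (hfix : ∀ i, ∀ a ∈ A, σ i a = a)
    (hinj : Function.Injective (fun i => σ i x)) : n ≤ (minpoly A x).natDegree := by
  classical
  set μ := minpoly A x with hμ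
  have hμ0 : μ.map (algebraMap A L) ≠ 0 :=
    (Polynomial.map_ne_zero_iff (algebraMap A L).injective).mpr (minpoly.ne_zero hx)
  have hroot : ∀ i, (μ.map (algebraMap A L)).IsRoot (σ i x) := by
    intro i
    have h0 : Polynomial.eval₂ (algebraMap A L) x μ = 0 := minpoly.aeval A x
    have h1 := congrArg (σ i) h0
    rw [Polynomial.hom_eval₂, map_zero] at h1
    have hcomp : (σ i).comp (algebraMap A L) = algebraMap A L := by
      ext a
      exact hfix i _ a.2
    rw [hcomp] at h1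
    rw [Polynomial.IsRoot, Polynomial.eval_map]
    exact h1
  let Z : Finset L := Finset.univ.image (fun i => σ i x)
  have hZ : Z.val ⊆ (μ.map (algebraMap A L)).roots := by
    intro y hy
    rw [Finset.mem_val, Finset.mem_image] at hy
    obtain ⟨i, -, rfl⟩ := hy
    exact (Polynomial.mem_roots hμ0).mpr (hroot i)
  have hcard : Z.card = n := by
    rw [Finset.card_image_of_injective _ hinj, Finset.card_univ, Fintype.card_fin]
  have := Polynomial.card_le_degree_of_subset_roots hZ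
  rw [hcard, Polynomial.natDegree_map] at this
  exact this

/-- `relrank` is monotone in the second argument (above the first). -/
theorem c1_relrank_le_of_le {A B C : IntermediateField k L} (h1 : A ≤ B) (h2 : B ≤ C) :
    relrank A B ≤ relrank A C := by
  rw [← relrank_mul_relrank h1 h2]
  have h : (1 : Cardinal) ≤ relrank B C := by
    rw [Cardinal.one_le_iff_ne_zero, relrank_eq_rank_of_le h2]
    exact rank_pos.ne'
  calc relrank A B = relrank A B * 1 := (mul_one _).symm
    _ ≤ relrank A B * relrank B C := mul_le_mul_right h _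

end general

section step

variable {k : Type} [Field k] {p : ℕ}

/-- `J` is a root of a monic polynomial of degree `p + 1` over any intermediate field containing
`J(q^p)` (the `b = 0` factor of the root factorisation). -/
theorem c1_exists_monic (D : PhiData k p) (hp : p ≠ 0)
    (A : IntermediateField k (LaurentSeries k)) (hA : Vq k p (jqModC k) ∈ A) :
    ∃ Q : Polynomial ↥A, Q.Monic ∧ Q.natDegree = p + 1 ∧ Polynomial.aeval (jqModC k) Q = 0 := by
  let e : Polynomial k →+* ↥A :=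
    (Polynomial.aeval (⟨Vq k p (jqModC k), hA⟩ : ↥A) : Polynomial k →ₐ[k] ↥A).toRingHom
  have hcomp : (algebraMap ↥A (LaurentSeries k)).comp e = evY (Vq k p (jqModC k)) := by
    apply Polynomial.ringHom_ext
    · intro a
      simp [e, evY]
    · simp [e, evY]
  refine ⟨D.Φ.map e, D.monic.map e, by rw [(D.monic).natDegree_map e, D.natDegree_eq], ?_⟩
  rw [Polynomial.aeval_def, Polynomial.eval₂_eq_eval_map, Polynomial.map_map, hcomp, D.roots,
    Polynomial.eval_mul, Polynomial.eval_prod]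
  have h0 : 0 ∈ Finset.range p := Finset.mem_range.mpr (Nat.pos_of_ne_zero hp)
  rw [Finset.prod_eq_zero h0 (by simp), mul_zero]

/-- the twists `J(ζ^b q)`, `b < p`, are pairwise distinct. -/
theorem c1_tw_injective (ζ : kˣ) (hζ : IsPrimitiveRoot ζ p) :
    Function.Injective (fun b : Fin p => tw (ζ ^ (b : ℕ)) (jqModC k)) := by
  intro a b hab
  have h := congrArg (fun f : LaurentSeries k => f.coeff (-1)) hab
  simp only [tw_coeff, coeff_jqModC_neg_one, mul_one] at h
  have h2 : ((ζ ^ (a : ℕ)) ^ (-1 : ℤ) : kˣ) = (ζ ^ (b : ℕ)) ^ (-1 : ℤ) := Units.ext h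
  rw [zpow_neg_one, zpow_neg_one, inv_inj] at h2
  exact Fin.ext (hζ.pow_inj a.2 b.2 h2)

theorem c1_Vq_comp_evY (n : ℕ) (y : LaurentSeries k) :
    (Vq k n).comp (evY y) = evY (Vq k n y) := by
  apply Polynomial.ringHom_ext
  · intro a
    simp only [RingHom.coe_comp, Function.comp_apply, evY_C, algebraMap_eq_C]
    exact Vq_C n a
  · simp [evY]

/-- `Φ(J(q^p), J) = 0`. -/
theorem c1_eval_Vq (D : PhiData k p) (hp : p ≠ 0) :
    (D.Φ.map (evY (jqModC k))).eval (Vq k p (jqModC k)) = 0 := by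
  apply Vq_injective hp
  rw [map_zero, ← Polynomial.eval₂_at_apply, ← Polynomial.eval_map, Polynomial.map_map,
    c1_Vq_comp_evY, D.roots, Vq_Vq hp hp, Polynomial.eval_mul]
  simp

/-- `J(q^p)` is a root of a monic polynomial of degree `p + 1` over any intermediate field
containing `J`. -/
theorem c1_exists_monic' (D : PhiData k p) (hp : p ≠ 0)
    (A : IntermediateField k (LaurentSeries k)) (hA : jqModC k ∈ A) :
    ∃ Q : Polynomial ↥A, Q.Monic ∧ Q.natDegree = p + 1 ∧
      Q.map (algebraMap ↥A (LaurentSeries k)) = D.Φ.map (evY (jqModC k)) ∧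
      Polynomial.aeval (Vq k p (jqModC k)) Q = 0 := by
  let e : Polynomial k →+* ↥A :=
    (Polynomial.aeval (⟨jqModC k, hA⟩ : ↥A) : Polynomial k →ₐ[k] ↥A).toRingHom
  have hcomp : (algebraMap ↥A (LaurentSeries k)).comp e = evY (jqModC k) := by
    apply Polynomial.ringHom_ext
    · intro a
      simp [e, evY]
    · simp [e, evY]
  have hmap : (D.Φ.map e).map (algebraMap ↥A (LaurentSeries k)) = D.Φ.map (evY (jqModC k)) := by
    rw [Polynomial.map_map, hcomp]
  refine ⟨D.Φ.map e, D.monic.map e, by rw [(D.monic).natDegree_map e, D.natDegree_eq], hmap, ?_⟩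
  rw [Polynomial.aeval_def, Polynomial.eval₂_eq_eval_map, hmap, c1_eval_Vq D hp]

/-- **(S1), general form**: over an intermediate field `E ∋ J` not containing `J(q^p)`,
the minimal polynomial of `J(q^p)` has degree at least `p + 1`. -/
theorem c1_natDegree_minpoly_ge (D : PhiData k p) (hp : 2 ≤ p)
    (E : IntermediateField k (LaurentSeries k)) (hJ : jqModC k ∈ E)
    (hV : Vq k p (jqModC k) ∉ E) :
    IsIntegral ↥E (Vq k p (jqModC k)) ∧
      p + 1 ≤ (minpoly ↥E (Vq k p (jqModC k))).natDegree := by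
  classical
  have hp0 : p ≠ 0 := by omega
  set J := jqModC k with hJdef
  set VJ := Vq k p J with hVJ
  obtain ⟨Q, hQm, hQd, hQmap, hQ0⟩ := c1_exists_monic' D hp0 E hJ
  have hint : IsIntegral ↥E VJ := ⟨Q, hQm, hQ0⟩
  refine ⟨hint, ?_⟩
  set μ := minpoly ↥E VJ with hμ
  have hμm : μ.Monic := minpoly.monic hint
  -- `μ' = V_p(μ)`
  set μ' : Polynomial (LaurentSeries k) := (μ.map (algebraMap ↥E (LaurentSeries k))).map (Vq k p)
    with hμ'
  have hμ'm : μ'.Monic := (hμm.map _).map _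
  have hμ'd : μ'.natDegree = μ.natDegree := by
    rw [hμ', ((hμm.map _)).natDegree_map, hμm.natDegree_map]
  have hdvd : μ' ∣ (X - Polynomial.C (Vq k (p * p) J)) *
      ∏ b ∈ Finset.range p, (X - Polynomial.C (tw (D.ζ ^ b) J)) := by
    rw [← D.roots, ← c1_Vq_comp_evY, ← Polynomial.map_map, ← hQmap, hμ']
    exact Polynomial.map_dvd _ (Polynomial.map_dvd _ (minpoly.dvd _ _ hQ0))
  -- the roots of `μ'` are stable under the twists
  have hstab : ∀ (c : kˣ), c ^ p = 1 → ∀ r : LaurentSeries k, μ'.IsRoot r → μ'.IsRoot (tw c r) := by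
    intro c hc r hr
    have hfix : μ'.map (tw c) = μ' := by
      rw [hμ', Polynomial.map_map]
      congr 1
      ext x : 1
      exact tw_Vq_of_pow_eq_one hp0 hc x
    rw [Polynomial.IsRoot, ← hfix, Polynomial.eval_map, Polynomial.eval₂_at_apply, hr.eq_zero,
      map_zero]
  -- `V_{p²} J` is a root
  have hroot0 : μ'.IsRoot (Vq k (p * p) J) := by
    have h0 : Polynomial.eval VJ (μ.map (algebraMap ↥E (LaurentSeries k))) = 0 := by
      rw [Polynomial.eval_map, ← Polynomial.aeval_def]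
      exact minpoly.aeval _ _
    rw [Polynomial.IsRoot, hμ', Polynomial.eval_map, ← Vq_Vq hp0 hp0, ← hVJ,
      Polynomial.eval₂_at_apply, h0, map_zero]
  -- some twist is a root
  have h2 : 2 ≤ μ'.natDegree := by
    rw [hμ'd]
    refine (minpoly.two_le_natDegree_iff hint).mpr ?_
    rintro ⟨x, hx⟩
    exact hV (hx ▸ x.2)
  have hex : ∃ b ∈ Finset.range p, μ'.IsRoot (tw (D.ζ ^ b) J) := by
    by_contra hcon
    push Not at hcon
    have hcop : IsCoprime μ' (∏ b ∈ Finset.range p, (X - Polynomial.C (tw (D.ζ ^ b) J))) := by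
      refine IsCoprime.prod_right fun b hb => ?_
      refine IsCoprime.symm ?_
      refine (Polynomial.irreducible_X_sub_C _).coprime_iff_not_dvd.mpr ?_
      rw [Polynomial.dvd_iff_isRoot]
      exact hcon b hb
    have hd1 : μ' ∣ X - Polynomial.C (Vq k (p * p) J) := hcop.dvd_of_dvd_mul_right hdvd
    have := Polynomial.natDegree_le_of_dvd hd1 (Polynomial.X_sub_C_ne_zero _)
    rw [Polynomial.natDegree_X_sub_C] at this
    omega
  obtain ⟨b0, -, hb0⟩ := hex
  have hall : ∀ b : Fin p, μ'.IsRoot (tw (D.ζ ^ (b : ℕ)) J) := by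
    intro b
    -- `ζ^b = ζ^(b + (p - b0 % p)) * ...`: use `tw (ζ^c) (tw (ζ^b0) J)` with `c + b0 ≡ b`
    obtain ⟨c, hc⟩ : ∃ c : ℕ, D.ζ ^ c * D.ζ ^ b0 = D.ζ ^ (b : ℕ) := by
      refine ⟨(b : ℕ) + (p - 1) * b0, ?_⟩
      rw [← _root_.pow_add]
      have : (b : ℕ) + (p - 1) * b0 + b0 = (b : ℕ) + p * b0 := by
        have : (p - 1) * b0 + b0 = p * b0 := by
          conv_rhs => rw [show p = (p - 1) + 1 by omega]
          ring
        omega
      rw [this, _root_.pow_add, pow_mul, D.prim.pow_eq_one, one_pow, mul_one]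
    have := hstab (D.ζ ^ c) (by rw [← pow_mul, mul_comm, pow_mul, D.prim.pow_eq_one, one_pow])
      _ hb0
    rwa [tw_tw, hc] at this
  -- count
  let Z : Finset (LaurentSeries k) :=
    insert (Vq k (p * p) J) (Finset.univ.image (fun b : Fin p => tw (D.ζ ^ (b : ℕ)) J))
  have hnot : Vq k (p * p) J ∉ Finset.univ.image (fun b : Fin p => tw (D.ζ ^ (b : ℕ)) J) := by
    rw [Finset.mem_image]
    rintro ⟨b, -, hb⟩
    have h := congrArg (fun f : LaurentSeries k => f.coeff (-1)) hb
    simp only [tw_coeff, coeff_jqModC_neg_one, mul_one, hJdef] at h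
    rw [Vq_coeff_of_not_dvd (Nat.mul_ne_zero hp0 hp0)] at h
    · exact (Units.ne_zero _) h
    · intro h1
      have h2 := Int.natAbs_dvd_natAbs.mpr h1
      simp only [Int.natAbs_natCast, Int.natAbs_neg, Int.natAbs_one, Nat.dvd_one] at h2
      nlinarith
  have hZcard : Z.card = p + 1 := by
    rw [Finset.card_insert_of_notMem hnot,
      Finset.card_image_of_injective _ (c1_tw_injective D.ζ D.prim), Finset.card_univ,
      Fintype.card_fin]
  have hZ : Z.val ⊆ μ'.roots := by
    intro y hy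
    rw [Finset.mem_val, Finset.mem_insert, Finset.mem_image] at hy
    refine (Polynomial.mem_roots hμ'm.ne_zero).mpr ?_
    rcases hy with rfl | ⟨b, -, rfl⟩
    · exact hroot0
    · exact hall b
  have := Polynomial.card_le_degree_of_subset_roots hZ
  rw [hZcard, hμ'd] at this
  exact this

/-- **(S1)** in `relrank` form: `[K0(J(q^p)) : K0] ≥ p + 1` as soon as `J(q^p) ∉ K0`. -/
theorem c1_S1 (D : PhiData k p) (hp : 2 ≤ p) (hP1 : Vq k p (jqModC k) ∉ K0 k) :
    ((p + 1 : ℕ) : Cardinal) ≤ relrank (K0 k) (K0 k ⊔ k⟮Vq k p (jqModC k)⟯) := by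
  obtain ⟨hint, hdeg⟩ := c1_natDegree_minpoly_ge D hp (K0 k)
    (mem_adjoin_simple_self k _) hP1
  rw [c1_relrank_sup_simple (K0 k) _ hint, Nat.cast_le]
  exact hdeg

/-- **(S×p)**: `p * [F̄_M : K0] ≤ [F̄_{M p} : K0]`, for every `M`. -/
theorem c1_step_mul (D : PhiData k p) (hp : p ≠ 0)
    (hS1 : ((p + 1 : ℕ) : Cardinal) ≤
      relrank (K0 k) (K0 k ⊔ k⟮Vq k p (jqModC k)⟯))
    (M : ℕ) :
    (p : Cardinal) * relrank (K0 k) (Fbar k M) ≤ relrank (K0 k) (Fbar k (M * p)) := by
  set J := jqModC k with hJ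
  set VJ := Vq k p J with hVJ
  set K1 : IntermediateField k (LaurentSeries k) := k⟮VJ⟯ with hK1def
  set M2 := K0 k ⊔ K1 with hM2
  set E1 := (Fbar k M).map (VqAlg k p) with hE1
  set G := Fbar k (M * p) with hG
  have hK1 : K1 = (K0 k).map (VqAlg k p) := by
    rw [hK1def, K0, adjoin_map, Set.image_singleton]
    rfl
  have hK1E1 : K1 ≤ E1 := by
    rw [hK1]
    exact IntermediateField.map_mono _ (K0_le_Fbar M)
  have hE1G : E1 ≤ G := Fbar_map_Vq_le M hp
  have hK0G : K0 k ≤ G := K0_le_Fbar _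
  have hM2G : M2 ≤ G := sup_le hK0G (hK1E1.trans hE1G)
  have hJG : J ∈ G := J_mem_Fbar _
  have hVJK1 : VJ ∈ K1 := mem_adjoin_simple_self k VJ
  -- (a)
  have h1 : relrank (K0 k) G = relrank (K0 k) M2 * relrank M2 G :=
    (relrank_mul_relrank le_sup_left hM2G).symm
  -- (b)
  have h2 : relrank K1 G = relrank K1 M2 * relrank M2 G :=
    (relrank_mul_relrank le_sup_right hM2G).symm
  have h3 : relrank K1 M2 ≤ ((p + 1 : ℕ) : Cardinal) := by
    obtain ⟨Q, hQm, hQd, hQ0⟩ := c1_exists_monic D hp K1 hVJK1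
    have hint : IsIntegral ↥K1 J := ⟨Q, hQm, hQ0⟩
    have hM2' : M2 = K1 ⊔ k⟮J⟯ := by rw [hM2, sup_comm]
    rw [hM2', c1_relrank_sup_simple K1 J hint, Nat.cast_le, ← hQd]
    exact Polynomial.natDegree_le_of_dvd (minpoly.dvd _ _ hQ0) hQm.ne_zero
  -- (c)
  have h4 : relrank K1 G = relrank K1 E1 * relrank E1 G :=
    (relrank_mul_relrank hK1E1 hE1G).symm
  have h5 : relrank K1 E1 = relrank (K0 k) (Fbar k M) := by
    rw [hK1, hE1]
    exact relrank_map_map _ _ _
  have h6 : (p : Cardinal) ≤ relrank E1 G := by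
    obtain ⟨Q, hQm, hQd, hQ0⟩ := c1_exists_monic D hp E1 (hK1E1 hVJK1)
    have hint : IsIntegral ↥E1 J := ⟨Q, hQm, hQ0⟩
    have hle : E1 ⊔ k⟮J⟯ ≤ G := sup_le hE1G (adjoin_simple_le_iff.mpr hJG)
    refine le_trans ?_ (c1_relrank_le_of_le le_sup_left hle)
    rw [c1_relrank_sup_simple E1 J hint, Nat.cast_le]
    refine c1_le_natDegree_minpoly E1 J hint p (fun b => tw (D.ζ ^ (b : ℕ))) ?_
      (c1_tw_injective D.ζ D.prim)
    intro b a ha
    rw [hE1, IntermediateField.mem_map] at ha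
    obtain ⟨y, -, rfl⟩ := ha
    rw [VqAlg_apply]
    refine tw_Vq_of_pow_eq_one hp ?_ y
    rw [← pow_mul, mul_comm, pow_mul, D.prim.pow_eq_one, one_pow]
  calc (p : Cardinal) * relrank (K0 k) (Fbar k M)
      = (p : Cardinal) * relrank K1 E1 := by rw [h5]
    _ ≤ relrank E1 G * relrank K1 E1 := mul_le_mul_left h6 _
    _ = relrank K1 G := by rw [h4, mul_comm]
    _ = relrank K1 M2 * relrank M2 G := h2
    _ ≤ ((p + 1 : ℕ) : Cardinal) * relrank M2 G := mul_le_mul_left h3 _
    _ ≤ relrank (K0 k) M2 * relrank M2 G := mul_le_mul_left hS1 _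
    _ = relrank (K0 k) G := h1.symm

/-- **(S×p)** from **(P1)**: if `J(q^p) ∉ k(J)` then `p * [F̄_M : K0] ≤ [F̄_{M p} : K0]`
for every `M`. -/
theorem c1_step (D : PhiData k p) (hp : 2 ≤ p) (hP1 : Vq k p (jqModC k) ∉ K0 k) (M : ℕ) :
    (p : Cardinal) * relrank (K0 k) (Fbar k M) ≤ relrank (K0 k) (Fbar k (M * p)) :=
  c1_step_mul D (by omega) (c1_S1 D hp hP1) M

/-- **(S×(p+1))**, bookkeeping part: if `J(q^p) ∉ F̄_M` then
`(p + 1) * [F̄_M : K0] ≤ [F̄_{M p} : K0]`. -/
theorem c1_step_succ (D : PhiData k p) (hp : 2 ≤ p) (M : ℕ)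
    (hV : Vq k p (jqModC k) ∉ Fbar k M) :
    ((p + 1 : ℕ) : Cardinal) * relrank (K0 k) (Fbar k M) ≤ relrank (K0 k) (Fbar k (M * p)) := by
  obtain ⟨hint, hdeg⟩ := c1_natDegree_minpoly_ge D hp (Fbar k M) (J_mem_Fbar M) hV
  have hVG : Vq k p (jqModC k) ∈ Fbar k (M * p) := Vq_mem_Fbar (Dvd.intro_left M rfl)
  have hle : Fbar k M ⊔ k⟮Vq k p (jqModC k)⟯ ≤ Fbar k (M * p) :=
    sup_le (Fbar_mono (Dvd.intro p rfl)) (adjoin_simple_le_iff.mpr hVG)
  have h1 : ((p + 1 : ℕ) : Cardinal) ≤ relrank (Fbar k M) (Fbar k (M * p)) := by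
    refine le_trans ?_ (c1_relrank_le_of_le le_sup_left hle)
    rw [c1_relrank_sup_simple (Fbar k M) _ hint, Nat.cast_le]
    exact hdeg
  rw [← relrank_mul_relrank (K0_le_Fbar M) (Fbar_mono (Dvd.intro p rfl) : Fbar k M ≤ Fbar k (M * p)),
    mul_comm]
  exact mul_le_mul_right h1 _

end step

end

end Fermat.Agent.S28Lib
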