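/-
S28 (Igusa), chunk C1 (helper6): the frozen `S28_iface` shape of `(S×p)`.

`StepP.lean` proves `c1_step_mul` with the weaker hypothesis `p + 1 ≤ relrank …`; this file
restates it with the exact binders of `S28_iface` (hypothesis `hS1` as an equality).
-/
import Mathlib
import Fermat.Agent.Lib.S28.StepP

set_option autoImplicit false

namespace Fermat.Agent.S28Lib

open HahnSeries ModularCurve Polynomial IntermediateField

/-- `S28_iface` form of `(S×p)` (statement verbatim, name primed because `c1_step_mul` is the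
more general lemma of `StepP.lean`). -/
theorem c1_step_mul' {k : Type} [Field k] {p : ℕ} (hp : p.Prime) (D : PhiData k p)
    (hS1 : (K0 k).relrank (K0 k ⊔ k⟮Vq k p (jqModC k)⟯) = p + 1)
    (M : ℕ) (hM : M ≠ 0) :
    (p : Cardinal) * (K0 k).relrank (Fbar k M) ≤ (K0 k).relrank (Fbar k (M * p)) :=
  c1_step_mul D hp.ne_zero (by rw [hS1]; push_cast; exact le_rfl) M

/-- `(S×p)` directly from `(P1)`, with the `S28_iface` binders. -/
theorem c1_step_of_P1 {k : Type} [Field k] {p : ℕ} (hp : p.Prime) (D : PhiData k p)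
    (hP1 : Vq k p (jqModC k) ∉ K0 k) (M : ℕ) :
    (p : Cardinal) * (K0 k).relrank (Fbar k M) ≤ (K0 k).relrank (Fbar k (M * p)) :=
  c1_step D hp.two_le hP1 M

/-- `(S1)` as an equality, the `S28_iface` shape of `c2_relrank_K0` (proved here independently of
chunk C2, from the general dichotomy `c1_natDegree_minpoly_ge`). -/
theorem c1_relrank_K0 {k : Type} [Field k] {p : ℕ} (hp : p.Prime) (D : PhiData k p)
    (hP1 : Vq k p (jqModC k) ∉ K0 k) :
    (K0 k).relrank (K0 k ⊔ k⟮Vq k p (jqModC k)⟯) = p + 1 := by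
  obtain ⟨hint, hdeg⟩ := c1_natDegree_minpoly_ge D hp.two_le (K0 k)
    (mem_adjoin_simple_self k _) hP1
  obtain ⟨Q, hQm, hQd, -, hQ0⟩ := c1_exists_monic' D hp.ne_zero (K0 k) (mem_adjoin_simple_self k _)
  have hle : (minpoly ↥(K0 k) (Vq k p (jqModC k))).natDegree ≤ p + 1 := by
    rw [← hQd]
    exact Polynomial.natDegree_le_of_dvd (minpoly.dvd _ _ hQ0) hQm.ne_zero
  rw [c1_relrank_sup_simple (K0 k) _ hint, le_antisymm hle hdeg]
  push_cast
  rfl

end Fermat.Agent.S28Lib
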