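/-
S28 (Igusa), final assembly (helper2).

`asm_of_chunks` : the S28 statement, from the landed chunks (Base, PrimeStep, StepP, IG, DegQ, Glue)
and the four remaining chunk statements taken as explicit hypotheses, verbatim in their
`S28_iface` shapes:
* `hA4` = `exists_field_phiData ℓ`       (the field `k = 𝓞/𝔪` and the modular polynomials over it),
* `hSM` = `sm_not_poly`                  ((P1) for `ℓ ∈ {2, 3}`),
* `hC2` = `c2_step_coprime`              (the step `M ↦ M p`, `p ∤ M`),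
* `hCA` = `ca_isDomain_charts`           (charts `⊗ K` are domains).
-/
import Fermat.Agent.Lib.S28.Base
import Fermat.Agent.Lib.S28.PrimeStep
import Fermat.Agent.Lib.S28.StepPIface
import Fermat.Agent.Lib.S28.IG
import Fermat.Agent.Lib.S28.DegQ
import Fermat.Agent.Lib.S28.Glue

set_option autoImplicit false

namespace Fermat.Agent.S28Lib

open HahnSeries ModularCurve Polynomial IntermediateField
open AlgebraicGeometry CategoryTheory CategoryTheory.Limits ModularCurve.IgusaScheme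

noncomputable section

/-- a prime different from the characteristic is nonzero in `k`. -/
theorem asm_cast_ne_zero (k : Type) [Field k] (ℓ : ℕ) [Fact ℓ.Prime] [CharP k ℓ] {p : ℕ}
    (hp : p.Prime) (hpl : p ≠ ℓ) : (p : k) ≠ 0 := by
  intro h0
  have h1 := (CharP.cast_eq_zero_iff k ℓ p).mp h0
  exact hpl ((Nat.prime_dvd_prime_iff_eq Fact.out hp).mp h1).symm

/-- **(P1)** for every prime `p ≠ ℓ`, from `ps_not_mem_of_six_ne_zero` (`ℓ ≥ 5`) and the
small-characteristic statement `hSM` (`ℓ ∈ {2, 3}`). -/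
theorem asm_P1 (k : Type) [Field k] [IsAlgClosed k] (ℓ : ℕ) [Fact ℓ.Prime] [CharP k ℓ]
    (hSM : ℓ = 2 ∨ ℓ = 3 → ∀ p : ℕ, p.Prime → p ≠ ℓ → ∀ P : Polynomial k,
      Vq k p (jqModC k) ≠ Polynomial.aeval (jqModC k) P)
    {p : ℕ} (hp : p.Prime) (hpl : p ≠ ℓ) (D : PhiData k p) :
    Vq k p (jqModC k) ∉ K0 k := by
  by_cases h6 : ℓ = 2 ∨ ℓ = 3
  · intro hmem
    obtain ⟨P, hP⟩ := ps_exists_poly_of_mem hp D hmem
    exact hSM h6 p hp hpl P hP.symm
  · have h2 : ℓ ≠ 2 := fun h => h6 (Or.inl h)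
    have h3 : ℓ ≠ 3 := fun h => h6 (Or.inr h)
    refine ps_not_mem_of_six_ne_zero hp (asm_cast_ne_zero k ℓ hp hpl) ?_ ?_ D
    · have := asm_cast_ne_zero k ℓ Nat.prime_two (Ne.symm h2)
      exact_mod_cast this
    · have := asm_cast_ne_zero k ℓ Nat.prime_three (Ne.symm h3)
      exact_mod_cast this

set_option maxHeartbeats 4000000 in
set_option synthInstance.maxHeartbeats 400000 in
/-- **S28 from the chunks.** -/
theorem asm_of_chunks
    (N : ℕ) [NeZero N] (ℓ : ℕ) [Fact ℓ.Prime] (hℓN : ¬ ℓ ∣ N)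
    (K : Type) [Field K] [CharP K ℓ] [Algebra ↥(GaloisRep.ratLocalizedAt ℓ) K]
    (hA4 : ∃ (k : Type) (_ : Field k) (_ : CharP k ℓ) (_ : IsAlgClosed k),
      ∀ p : ℕ, p.Prime → p ≠ ℓ → Nonempty (PhiData k p))
    (hSM : ∀ (k : Type) [Field k] [IsAlgClosed k] (l : ℕ) [CharP k l], l = 2 ∨ l = 3 →
      ∀ p : ℕ, p.Prime → p ≠ l → ∀ P : Polynomial k,
        Vq k p (jqModC k) ≠ Polynomial.aeval (jqModC k) P)
    (hC2 : ∀ {k : Type} [Field k] [IsAlgClosed k] {p : ℕ}, p.Prime → ∀ _ : PhiData k p,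
      Vq k p (jqModC k) ∉ K0 k → ∀ M : ℕ, M ≠ 0 → ¬ p ∣ M →
      (∀ r : ℕ, r.Prime → r ∣ M → Nonempty (PhiData k r)) →
      ((p + 1 : ℕ) : Cardinal) * (K0 k).relrank (Fbar k M) ≤ (K0 k).relrank (Fbar k (M * p)))
    (hCA : ∀ (k : Type) [Field k] [CharP k ℓ]
      (n : ℕ) (m : Fin n → LaurentSeries ℤ),
      (∀ i, coeffMap (Int.castRingHom ℚ) (m i) ∈ modularFunctionFieldFull N) →
      LinearIndependent ↥(IntermediateField.adjoin k {jqModC k})
        (fun i => coeffMap (Int.castRingHom k) (m i)) →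
      Module.Finite ↥(IntermediateField.adjoin ℚ {jFull N}) ↥(modularFunctionFieldFull N) →
      Module.finrank ↥(IntermediateField.adjoin ℚ {jFull N})
        ↥(modularFunctionFieldFull N) ≤ n →
      IsDomain (TensorProduct ↥(GaloisRep.ratLocalizedAt ℓ) ↥(chartAlgFin N ℓ) K) ∧
      IsDomain (TensorProduct ↥(GaloisRep.ratLocalizedAt ℓ) ↥(chartAlgInf N ℓ) K) ∧
      IsDomain (TensorProduct ↥(GaloisRep.ratLocalizedAt ℓ) ↥(chartAlgMid N ℓ) K)) :
    AlgebraicGeometry.IsIntegral (pullback (igusaTo N ℓ)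
      (Spec.map (CommRingCat.ofHom (algebraMap ↥(GaloisRep.ratLocalizedAt ℓ) K)))) := by
  obtain ⟨k, _, _, _, hΦ⟩ := hA4
  have hne : ∀ p : ℕ, p.Prime → p ∣ N → p ≠ ℓ := by
    rintro p _ hpN rfl
    exact hℓN hpN
  have hΦN : ∀ p : ℕ, p.Prime → p ∣ N → Nonempty (PhiData k p) :=
    fun p hp hpN => hΦ p hp (hne p hp hpN)
  have hP1 : ∀ p : ℕ, p.Prime → p ∣ N → ∀ D : PhiData k p, Vq k p (jqModC k) ∉ K0 k :=
    fun p hp hpN D => asm_P1 k ℓ (fun h6 => hSM k ℓ h6) hp (hne p hp hpN) D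
  have hdvd : ∀ p M : ℕ, M * p ∣ N → p ∣ N := fun p M h => (Dvd.intro_left M rfl).trans h
  obtain ⟨m, -, hmF, hli⟩ := c3_IG' k N hΦN
    (fun p M hp _ hMN => by
      obtain ⟨D⟩ := hΦN p hp (hdvd p M hMN)
      exact c1_step_of_P1 hp D (hP1 p hp (hdvd p M hMN) D) M)
    (fun p M hp hpM hMN => by
      obtain ⟨D⟩ := hΦN p hp (hdvd p M hMN)
      have hM0 : M ≠ 0 := by
        rintro rfl
        rw [zero_mul] at hMN
        exact NeZero.ne N (Nat.eq_zero_of_zero_dvd hMN)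
      exact hC2 hp D (hP1 p hp (hdvd p M hMN) D) M hM0 hpM
        (fun r hr hrM => hΦN r hr ((hrM.trans (Dvd.intro p rfl)).trans hMN)))
  obtain ⟨h1, h2, h3⟩ := hCA k (dedekindPsi N) m hmF hli (dq_finite N) (dq_finrank_le N)
  exact Fermat.Agent.Lib.S28.Glue.isIntegral_pullback_igusaTo N ℓ K h1 h2 h3

end

end Fermat.Agent.S28Lib
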