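/-
S28, chunk T (helper7): the tensor step.  If a `ℤ_(ℓ)`-algebra `B` has a ring homomorphism
`r : B → 𝔽_ℓ((q))` whose kernel is `ℓ B`, then `B ⊗[ℤ_(ℓ)] K` is a domain for every field `K` of
characteristic `ℓ`: `b ⊗ c ↦ c · r(b)` embeds it into `K((q))`.
-/
import Mathlib
import Fermat.Prelude.Def_GaloisRep_Flat
import Fermat.Prelude.Def_ModularCurve_LaurentCoeff

set_option autoImplicit false

namespace Fermat.Agent.S28Lib

open ModularCurve TensorProduct

/-- the denominator of an element of `ℤ_(ℓ)` is a unit of `ℤ_(ℓ)`. -/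
theorem tp_exists_den_inv (ℓ : ℕ) (x : ↥(GaloisRep.ratLocalizedAt ℓ)) :
    ∃ u : ↥(GaloisRep.ratLocalizedAt ℓ), u * (((x : ℚ).den : ℕ) : ↥(GaloisRep.ratLocalizedAt ℓ)) = 1 := by
  have hd0 : ((x : ℚ).den : ℚ) ≠ 0 := Nat.cast_ne_zero.mpr (x : ℚ).den_ne_zero
  have hmem : (((x : ℚ).den : ℚ))⁻¹ ∈ GaloisRep.ratLocalizedAt ℓ := by
    show ((((x : ℚ).den : ℚ))⁻¹).den.Coprime ℓ
    rw [Rat.inv_natCast_den_of_pos (Nat.pos_of_ne_zero (x : ℚ).den_ne_zero)]
    exact x.2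
  refine ⟨⟨_, hmem⟩, Subtype.ext ?_⟩
  show (((x : ℚ).den : ℚ))⁻¹ * ((((x : ℚ).den : ℕ) : ↥(GaloisRep.ratLocalizedAt ℓ)) : ℚ) = 1
  rw [show ((((x : ℚ).den : ℕ) : ↥(GaloisRep.ratLocalizedAt ℓ)) : ℚ) = ((x : ℚ).den : ℚ) from
    by norm_cast]
  exact inv_mul_cancel₀ hd0

theorem tp_den_mul (ℓ : ℕ) (x : ↥(GaloisRep.ratLocalizedAt ℓ)) :
    (((x : ℚ).den : ℕ) : ↥(GaloisRep.ratLocalizedAt ℓ)) * x
      = (((x : ℚ).num : ℤ) : ↥(GaloisRep.ratLocalizedAt ℓ)) := by
  apply Subtype.ext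
  show ((((x : ℚ).den : ℕ) : ↥(GaloisRep.ratLocalizedAt ℓ)) : ℚ) * (x : ℚ)
    = ((((x : ℚ).num : ℤ) : ↥(GaloisRep.ratLocalizedAt ℓ)) : ℚ)
  rw [show ((((x : ℚ).den : ℕ) : ↥(GaloisRep.ratLocalizedAt ℓ)) : ℚ) = ((x : ℚ).den : ℚ) from
    by norm_cast,
    show ((((x : ℚ).num : ℤ) : ↥(GaloisRep.ratLocalizedAt ℓ)) : ℚ) = ((x : ℚ).num : ℚ) from
    by norm_cast]
  rw [mul_comm]
  exact Rat.mul_den_eq_num (x : ℚ)

/-- any two ring homomorphisms out of `ℤ_(ℓ)` agree. -/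
theorem tp_ringHom_ext (ℓ : ℕ) {T : Type*} [CommRing T]
    (f g : ↥(GaloisRep.ratLocalizedAt ℓ) →+* T) : f = g := by
  refine RingHom.ext fun x => ?_
  obtain ⟨u, hu⟩ := tp_exists_den_inv ℓ x
  have h1 := congrArg f (tp_den_mul ℓ x)
  have h2 := congrArg g (tp_den_mul ℓ x)
  rw [map_mul, map_natCast, map_intCast] at h1 h2
  have hfu : f u * (((x : ℚ).den : ℕ) : T) = 1 := by
    have := congrArg f hu
    rwa [map_mul, map_natCast, map_one] at this
  calc f x = f u * ((((x : ℚ).den : ℕ) : T) * f x) := by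
        rw [← mul_assoc, hfu, one_mul]
    _ = f u * ((((x : ℚ).den : ℕ) : T) * g x) := by rw [h1, h2]
    _ = g x := by rw [← mul_assoc, hfu, one_mul]

theorem tp_coeff_C_mul {K : Type*} [Field K] (c : K) (x : LaurentSeries K) (n : ℤ) :
    (HahnSeries.C c * x).coeff n = c * x.coeff n := by
  rw [HahnSeries.C_mul_eq_smul, HahnSeries.coeff_smul, smul_eq_mul]

/-- **chunk T**: `B ⊗[ℤ_(ℓ)] K` is a domain. -/
theorem tp_isDomain_tensor (ℓ : ℕ) [Fact ℓ.Prime] {B : Type*} [CommRing B]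
    [Algebra ↥(GaloisRep.ratLocalizedAt ℓ) B]
    (r : B →+* LaurentSeries (ZMod ℓ))
    (hr : ∀ b : B, r b = 0 → ∃ b' : B, b = (ℓ : B) * b')
    (K : Type) [Field K] [CharP K ℓ] [Algebra ↥(GaloisRep.ratLocalizedAt ℓ) K] :
    IsDomain (TensorProduct ↥(GaloisRep.ratLocalizedAt ℓ) B K) := by
  classical
  -- the coefficient embedding `𝔽_ℓ → K`
  let ι₀ : ZMod ℓ →+* K := ZMod.castHom (dvd_refl ℓ) K
  -- `Φ : B → K((q))`
  let Φ₀ : B →+* LaurentSeries K := (coeffMap ι₀).comp r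
  let cK : K →+* LaurentSeries K := HahnSeries.C
  let Φ : B →ₐ[↥(GaloisRep.ratLocalizedAt ℓ)] LaurentSeries K :=
    { Φ₀ with
      commutes' := fun a => RingHom.congr_fun (tp_ringHom_ext ℓ
        (Φ₀.comp (algebraMap ↥(GaloisRep.ratLocalizedAt ℓ) B))
        (algebraMap ↥(GaloisRep.ratLocalizedAt ℓ) (LaurentSeries K))) a }
  let cA : K →ₐ[↥(GaloisRep.ratLocalizedAt ℓ)] LaurentSeries K :=
    { cK with
      commutes' := fun a => RingHom.congr_fun (tp_ringHom_ext ℓ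
        (cK.comp (algebraMap ↥(GaloisRep.ratLocalizedAt ℓ) K))
        (algebraMap ↥(GaloisRep.ratLocalizedAt ℓ) (LaurentSeries K))) a }
  let Ψ : TensorProduct ↥(GaloisRep.ratLocalizedAt ℓ) B K →ₐ[↥(GaloisRep.ratLocalizedAt ℓ)]
      LaurentSeries K := Algebra.TensorProduct.productMap Φ cA
  have hΨ : ∀ (b : B) (c : K), Ψ (b ⊗ₜ c) = Φ₀ b * HahnSeries.C c := fun b c =>
    Algebra.TensorProduct.productMap_apply_tmul Φ cA b c
  have hΨcoeff : ∀ (b : B) (c : K) (n : ℤ),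
      (Ψ (b ⊗ₜ c)).coeff n = c * ι₀ ((r b).coeff n) := by
    intro b c n
    rw [hΨ, mul_comm, tp_coeff_C_mul]
    rfl
  -- `K` as an `𝔽_ℓ`-vector space, with a basis
  let _ : Algebra (ZMod ℓ) K := ι₀.toAlgebra
  let e := Module.Basis.ofVectorSpace (ZMod ℓ) K
  have hsmul : ∀ (a : ZMod ℓ) (c : K), a • c = ι₀ a * c := fun a c => by
    rw [Algebra.smul_def]
    rfl
  -- scalars: natural numbers act compatibly
  have hnat : ∀ (n : ℕ) (c : K), ((n : ↥(GaloisRep.ratLocalizedAt ℓ)) • c) = (n : K) * c := by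
    intro n c
    rw [Algebra.smul_def, map_natCast]
  have hnatB : ∀ (n : ℕ) (b : B), ((n : ↥(GaloisRep.ratLocalizedAt ℓ)) • b) = (n : B) * b := by
    intro n b
    rw [Algebra.smul_def, map_natCast]
  -- every tensor is a finite sum `∑ b_s ⊗ e_s`
  have hrep : ∀ z : TensorProduct ↥(GaloisRep.ratLocalizedAt ℓ) B K,
      ∃ f : (Module.Basis.ofVectorSpaceIndex (ZMod ℓ) K) →₀ B,
        z = f.sum fun s b => b ⊗ₜ[↥(GaloisRep.ratLocalizedAt ℓ)] (e s) := by
    intro z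
    induction z using TensorProduct.induction_on with
    | zero => exact ⟨0, by simp⟩
    | tmul b c =>
      refine ⟨(e.repr c).mapRange (fun a => ((a.val : ℕ) : B) * b) (by simp), ?_⟩
      rw [Finsupp.sum_mapRange_index (by intro s; simp)]
      have hc : c = (e.repr c).sum fun s a => a • e s := (e.linearCombination_repr c).symm
      conv_lhs => rw [hc]
      rw [Finsupp.sum, tmul_sum, Finsupp.sum]
      refine Finset.sum_congr rfl fun s _ => ?_
      have h1 : (e.repr c s) • e s = ((((e.repr c s).val : ℕ) : ↥(GaloisRep.ratLocalizedAt ℓ))) • e s := by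
        rw [hsmul, hnat]
        congr 1
        show ι₀ (e.repr c s) = _
        conv_lhs => rw [← ZMod.natCast_zmod_val (e.repr c s)]
        rw [map_natCast]
      rw [h1, tmul_smul, smul_tmul', hnatB]
    | add x y hx hy =>
      obtain ⟨f, hf⟩ := hx
      obtain ⟨g, hg⟩ := hy
      refine ⟨f + g, ?_⟩
      rw [hf, hg, Finsupp.sum_add_index']
      · intro s; simp
      · intro s b₁ b₂; exact add_tmul _ _ _
  have hinj : Function.Injective Ψ := by
    rw [injective_iff_map_eq_zero]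
    intro z hz
    obtain ⟨f, rfl⟩ := hrep z
    -- every `r (f s)` vanishes
    have hrf : ∀ s ∈ f.support, r (f s) = 0 := by
      intro s hs
      ext n
      have h1 : (Ψ (f.sum fun s b => b ⊗ₜ[↥(GaloisRep.ratLocalizedAt ℓ)] (e s))).coeff n = 0 := by
        rw [hz, HahnSeries.coeff_zero]
      rw [Finsupp.sum, map_sum, HahnSeries.coeff_sum] at h1
      have h2 : ∑ t ∈ f.support, ((r (f t)).coeff n) • e t = 0 := by
        rw [← h1]
        refine Finset.sum_congr rfl fun t _ => ?_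
        rw [hΨcoeff, hsmul, mul_comm]
      have h3 := linearIndependent_iff'.mp e.linearIndependent f.support
        (fun t => (r (f t)).coeff n) h2 s hs
      rw [HahnSeries.coeff_zero]
      exact h3
    rw [Finsupp.sum]
    refine Finset.sum_eq_zero fun s hs => ?_
    obtain ⟨b', hb'⟩ := hr (f s) (hrf s hs)
    have hℓK : ((ℓ : ℕ) : K) = 0 := CharP.cast_eq_zero K ℓ
    rw [hb', ← hnatB, smul_tmul, hnat, hℓK, zero_mul, tmul_zero]
  exact Function.Injective.isDomain Ψ.toRingHom hinj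

end Fermat.Agent.S28Lib
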