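/-
S28, chunk CA (helper4), part 8: the kernel of the reduction map on the three charts is `ℓ B`,
hence (tensor step of helper7) `B ⊗[ℤ_(ℓ)] K` is a domain for every field `K` of
characteristic `ℓ`.  Main result: `ca_isDomain_charts`.
-/
import Fermat.Agent.Lib.S28.CAChart
import Fermat.Agent.Lib.S28.CATensor

set_option autoImplicit false

noncomputable section

namespace Fermat.Agent.S28Lib

open ModularCurve ModularCurve.IgusaScheme Polynomial IntermediateField

theorem ca_adjoin_inv {K L : Type*} [Field K] [Field L] [Algebra K L] (x : L) :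
    IntermediateField.adjoin K {x⁻¹} = IntermediateField.adjoin K {x} := by
  apply le_antisymm
  · rw [IntermediateField.adjoin_simple_le_iff]
    exact inv_mem (IntermediateField.mem_adjoin_simple_self K x)
  · rw [IntermediateField.adjoin_simple_le_iff]
    have := inv_mem (IntermediateField.mem_adjoin_simple_self K x⁻¹)
    rwa [inv_inv] at this

section Level

variable (N : ℕ) [NeZero N] (ℓ : ℕ) [Fact ℓ.Prime]

omit [NeZero N] [Fact ℓ.Prime] in
/-- `ℤ_(ℓ)[t] ⊆ ℚ[t]`. -/
theorem ca_adjoin_le (t : ↥(modularFunctionFieldFull N)) :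
    ∀ y ∈ Algebra.adjoin ↥(GaloisRep.ratLocalizedAt ℓ) {t}, y ∈ Algebra.adjoin ℚ {t} := by
  intro y hy
  induction hy using Algebra.adjoin_induction with
  | mem y hy => exact Algebra.subset_adjoin hy
  | algebraMap c => exact Subalgebra.algebraMap_mem _ (c : ℚ)
  | add y z _ _ hy hz => exact add_mem hy hz
  | mul y z _ _ hy hz => exact mul_mem hy hz

omit [NeZero N] [Fact ℓ.Prime] in
/-- Values of integer polynomials lie in `ℤ_(ℓ)[t]`. -/
theorem ca_aeval_int_mem (t : ↥(modularFunctionFieldFull N)) (P : ℤ[X]) :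
    Polynomial.aeval t P ∈ Algebra.adjoin ↥(GaloisRep.ratLocalizedAt ℓ) {t} := by
  induction P using Polynomial.induction_on' with
  | add p q hp hq =>
    rw [map_add]
    exact add_mem hp hq
  | monomial n a =>
    rw [Polynomial.aeval_monomial]
    have h : algebraMap ℤ ↥(modularFunctionFieldFull N) a =
        (a : ↥(modularFunctionFieldFull N)) := eq_intCast _ a
    rw [h]
    exact mul_mem (intCast_mem _ a) (pow_mem (Algebra.self_mem_adjoin_singleton _ t) n)

variable (k : Type*) [Field k] [CharP k ℓ]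

/-- Division by `ℓ` inside a chart `chartAlg N ℓ {t}`. -/
theorem ca_chart_div (t : ca_VN N ℓ) (htr : Transcendental k (ca_redN N ℓ k t))
    {n : ℕ} (θ : Fin n → ca_VN N ℓ)
    (hli : LinearIndependent ↥(IntermediateField.adjoin k {ca_redN N ℓ k t})
      (fun i => ca_redN N ℓ k (θ i)))
    (hfin : Module.Finite ↥(IntermediateField.adjoin ℚ {(t : ↥(modularFunctionFieldFull N))})
      ↥(modularFunctionFieldFull N))
    (hn : Module.finrank ↥(IntermediateField.adjoin ℚ {(t : ↥(modularFunctionFieldFull N))})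
      ↥(modularFunctionFieldFull N) ≤ n)
    (c : ca_VN N ℓ)
    (hx : (ℓ : ↥(modularFunctionFieldFull N)) * (c : ↥(modularFunctionFieldFull N)) ∈
      chartAlg N ℓ {(t : ↥(modularFunctionFieldFull N))}) :
    (c : ↥(modularFunctionFieldFull N)) ∈ chartAlg N ℓ {(t : ↥(modularFunctionFieldFull N))} := by
  have hℓ0 : (ℓ : ↥(modularFunctionFieldFull N)) ≠ 0 :=
    Nat.cast_ne_zero.mpr (Fact.out : ℓ.Prime).ne_zero
  let φ : ↥(Algebra.adjoin ↥(GaloisRep.ratLocalizedAt ℓ) {(t : ↥(modularFunctionFieldFull N))}) →+*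
      ↥(Algebra.adjoin ℚ {(t : ↥(modularFunctionFieldFull N))}) :=
    { toFun := fun y => ⟨(y : ↥(modularFunctionFieldFull N)), ca_adjoin_le N ℓ _ y y.2⟩
      map_one' := rfl
      map_mul' := fun _ _ => rfl
      map_zero' := rfl
      map_add' := fun _ _ => rfl }
  have h1 : IsIntegral ↥(Algebra.adjoin ℚ {(t : ↥(modularFunctionFieldFull N))})
      ((ℓ : ↥(modularFunctionFieldFull N)) * (c : ↥(modularFunctionFieldFull N))) :=
    ((mem_chartAlg_iff N ℓ).mp hx).map_of_comp_eq φ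
      (RingHom.id ↥(modularFunctionFieldFull N)) (by ext; rfl)
  have h2 : IsIntegral ↥(Algebra.adjoin ℚ {(t : ↥(modularFunctionFieldFull N))})
      (c : ↥(modularFunctionFieldFull N)) := by
    have hmem : ((ℓ : ↥(modularFunctionFieldFull N)))⁻¹ ∈
        Algebra.adjoin ℚ {(t : ↥(modularFunctionFieldFull N))} := by
      have h : ((ℓ : ↥(modularFunctionFieldFull N)))⁻¹ =
          algebraMap ℚ ↥(modularFunctionFieldFull N) ((ℓ : ℚ)⁻¹) := by
        rw [map_inv₀, map_natCast]
      rw [h]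
      exact Subalgebra.algebraMap_mem _ _
    have h3 : IsIntegral ↥(Algebra.adjoin ℚ {(t : ↥(modularFunctionFieldFull N))})
        ((ℓ : ↥(modularFunctionFieldFull N)))⁻¹ :=
      isIntegral_algebraMap
        (x := (⟨_, hmem⟩ : ↥(Algebra.adjoin ℚ {(t : ↥(modularFunctionFieldFull N))})))
    have h4 := h3.mul h1
    rwa [inv_mul_cancel_left₀ hℓ0] at h4
  obtain ⟨p, hmonic, hroot, hcoeff⟩ :=
    ca_kernel_generic ℓ _ (ca_full_le_QZ N) k t htr θ hli hfin hn c h2
  have hmem : ∀ i, p.coeff i ∈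
      Algebra.adjoin ↥(GaloisRep.ratLocalizedAt ℓ) {(t : ↥(modularFunctionFieldFull N))} := by
    intro i
    obtain ⟨q, P₁, hq, h⟩ := hcoeff i
    rw [h, ← ca_algebraMap_eq N ℓ ⟨q, hq⟩]
    exact mul_mem (Subalgebra.algebraMap_mem _ _) (ca_aeval_int_mem N ℓ _ P₁)
  have hlifts : p ∈ Polynomial.lifts (algebraMap
      ↥(Algebra.adjoin ↥(GaloisRep.ratLocalizedAt ℓ) {(t : ↥(modularFunctionFieldFull N))})
      ↥(modularFunctionFieldFull N)) :=
    (Polynomial.lifts_iff_coeff_lifts p).mpr fun i => ⟨⟨p.coeff i, hmem i⟩, rfl⟩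
  obtain ⟨q', hq'q, -, hq'monic⟩ := Polynomial.lifts_and_natDegree_eq_and_monic hlifts hmonic
  exact (mem_chartAlg_iff N ℓ).mpr
    ⟨q', hq'monic, by rw [Polynomial.eval₂_eq_eval_map, hq'q, hroot]⟩

/-- The kernel of reduction on a chart `chartAlg N ℓ {t}` is `ℓ` times the chart. -/
theorem ca_chart_kernel (t : ca_VN N ℓ) (htr : Transcendental k (ca_redN N ℓ k t))
    {n : ℕ} (θ : Fin n → ca_VN N ℓ)
    (hli : LinearIndependent ↥(IntermediateField.adjoin k {ca_redN N ℓ k t})
      (fun i => ca_redN N ℓ k (θ i)))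
    (hfin : Module.Finite ↥(IntermediateField.adjoin ℚ {(t : ↥(modularFunctionFieldFull N))})
      ↥(modularFunctionFieldFull N))
    (hn : Module.finrank ↥(IntermediateField.adjoin ℚ {(t : ↥(modularFunctionFieldFull N))})
      ↥(modularFunctionFieldFull N) ≤ n)
    (x : ca_VN N ℓ)
    (hx : (x : ↥(modularFunctionFieldFull N)) ∈
      chartAlg N ℓ {(t : ↥(modularFunctionFieldFull N))})
    (hred : ca_redN N ℓ (ZMod ℓ) x = 0) :
    ∃ y ∈ chartAlg N ℓ {(t : ↥(modularFunctionFieldFull N))},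
      (x : ↥(modularFunctionFieldFull N)) = (ℓ : ↥(modularFunctionFieldFull N)) * y := by
  obtain ⟨c, hc⟩ := (ca_redV_eq_zero_iff ℓ _ (ca_full_le_QZ N) (ZMod ℓ) x).mp hred
  refine ⟨c, ?_, hc⟩
  refine ca_chart_div N ℓ k t htr θ hli hfin hn c ?_
  rw [← hc]
  exact hx

section Charts

variable {n : ℕ} (m : Fin n → LaurentSeries ℤ)
  (hmF : ∀ i, coeffMap (Int.castRingHom ℚ) (m i) ∈ modularFunctionFieldFull N)

/-- The integer series `m i`, viewed in the Gauss valuation ring of the function field. -/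
def ca_theta (i : Fin n) : ca_VN N ℓ :=
  ⟨⟨coeffMap (Int.castRingHom ℚ) (m i), hmF i⟩, ca_mem_V_of_emb ℓ _ _ (m i) rfl⟩

omit [NeZero N] in
theorem ca_redN_theta (i : Fin n) :
    ca_redN N ℓ k (ca_theta N ℓ m hmF i) = coeffMap (Int.castRingHom k) (m i) :=
  ca_redV_of_emb ℓ _ _ k _ (m i) rfl

variable (hli : LinearIndependent ↥(IntermediateField.adjoin k {jqModC k})
    (fun i => coeffMap (Int.castRingHom k) (m i)))
  (hfin : Module.Finite ↥(IntermediateField.adjoin ℚ {jFull N}) ↥(modularFunctionFieldFull N))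
  (hn : Module.finrank ↥(IntermediateField.adjoin ℚ {jFull N})
    ↥(modularFunctionFieldFull N) ≤ n)

include hmF hli hfin hn in
/-- The kernel of reduction on the finite chart. -/
theorem ca_fin_kernel (x : ca_VN N ℓ)
    (hx : (x : ↥(modularFunctionFieldFull N)) ∈ chartAlgFin N ℓ)
    (hred : ca_redN N ℓ (ZMod ℓ) x = 0) :
    ∃ y ∈ chartAlgFin N ℓ,
      (x : ↥(modularFunctionFieldFull N)) = (ℓ : ↥(modularFunctionFieldFull N)) * y := by
  have htr : Transcendental k (ca_redN N ℓ k (ca_jV N ℓ)) := by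
    rw [ca_redN_jV]
    exact ca_transcendental_jqModC k
  have hli' : LinearIndependent ↥(IntermediateField.adjoin k {ca_redN N ℓ k (ca_jV N ℓ)})
      (fun i => ca_redN N ℓ k (ca_theta N ℓ m hmF i)) := by
    rw [ca_redN_jV]
    simp only [ca_redN_theta]
    exact hli
  exact ca_chart_kernel N ℓ k (ca_jV N ℓ) htr (ca_theta N ℓ m hmF) hli' hfin hn x hx hred

include hmF hli hfin hn in
/-- The kernel of reduction on the chart at infinity. -/
theorem ca_inf_kernel (x : ca_VN N ℓ)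
    (hx : (x : ↥(modularFunctionFieldFull N)) ∈ chartAlgInf N ℓ)
    (hred : ca_redN N ℓ (ZMod ℓ) x = 0) :
    ∃ y ∈ chartAlgInf N ℓ,
      (x : ↥(modularFunctionFieldFull N)) = (ℓ : ↥(modularFunctionFieldFull N)) * y := by
  have htr : Transcendental k (ca_redN N ℓ k (ca_jInvV N ℓ)) := by
    rw [ca_redN_jInvV]
    exact ca_transcendental_jqModC_inv k
  have hli' : LinearIndependent ↥(IntermediateField.adjoin k {ca_redN N ℓ k (ca_jInvV N ℓ)})
      (fun i => ca_redN N ℓ k (ca_theta N ℓ m hmF i)) := by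
    rw [ca_redN_jInvV, ca_adjoin_inv]
    simp only [ca_redN_theta]
    exact hli
  have hfin' : Module.Finite ↥(IntermediateField.adjoin ℚ {(jFull N)⁻¹})
      ↥(modularFunctionFieldFull N) := by
    rw [ca_adjoin_inv]
    exact hfin
  have hn' : Module.finrank ↥(IntermediateField.adjoin ℚ {(jFull N)⁻¹})
      ↥(modularFunctionFieldFull N) ≤ n := by
    rw [ca_adjoin_inv]
    exact hn
  exact ca_chart_kernel N ℓ k (ca_jInvV N ℓ) htr (ca_theta N ℓ m hmF) hli' hfin' hn' x hx hred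

include hmF hli hfin hn in
/-- The kernel of reduction on the middle chart. -/
theorem ca_mid_kernel (x : ca_VN N ℓ)
    (hx : (x : ↥(modularFunctionFieldFull N)) ∈ chartAlgMid N ℓ)
    (hred : ca_redN N ℓ (ZMod ℓ) x = 0) :
    ∃ y ∈ chartAlgMid N ℓ,
      (x : ↥(modularFunctionFieldFull N)) = (ℓ : ↥(modularFunctionFieldFull N)) * y := by
  have hx' : (x : ↥(modularFunctionFieldFull N)) ∈
      chartAlg N ℓ (insert (jFull N)⁻¹ {jFull N}) := by
    rw [show insert (jFull N)⁻¹ ({jFull N} : Set ↥(modularFunctionFieldFull N)) =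
      {jFull N, (jFull N)⁻¹} from Set.pair_comm _ _]
    exact hx
  obtain ⟨e, he⟩ := exists_pow_mul_mem_chartAlg (Set.mem_singleton _) (jFull_ne_zero N) hx'
  have hred' : ca_redN N ℓ (ZMod ℓ) (ca_jV N ℓ ^ e * x) = 0 := by
    rw [map_mul, hred, mul_zero]
  obtain ⟨y, hy, hxy⟩ := ca_fin_kernel N ℓ k m hmF hli hfin hn (ca_jV N ℓ ^ e * x) he hred'
  have hj0 : jFull N ≠ 0 := jFull_ne_zero N
  refine ⟨(jFull N)⁻¹ ^ e * y, ?_, ?_⟩
  · exact mul_mem (pow_mem (subset_chartAlg N ℓ _ (by simp)) e)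
      (chartAlg_mono N ℓ (sFin_subset N) hy)
  · have hxy' : jFull N ^ e * (x : ↥(modularFunctionFieldFull N)) =
        (ℓ : ↥(modularFunctionFieldFull N)) * y := hxy
    rw [mul_left_comm, ← hxy', ← mul_assoc, ← mul_pow, inv_mul_cancel₀ hj0, one_pow, one_mul]

end Charts

omit [NeZero N] in
/-- From the kernel statement to the domain statement (via helper7's tensor step). -/
theorem ca_isDomain_of_kernel
    (B : Subalgebra ↥(GaloisRep.ratLocalizedAt ℓ) ↥(modularFunctionFieldFull N))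
    (hBV : ∀ x ∈ B, x ∈ ca_VN N ℓ)
    (hker : ∀ x : ca_VN N ℓ, (x : ↥(modularFunctionFieldFull N)) ∈ B →
      ca_redN N ℓ (ZMod ℓ) x = 0 →
      ∃ y ∈ B, (x : ↥(modularFunctionFieldFull N)) = (ℓ : ↥(modularFunctionFieldFull N)) * y)
    (K : Type) [Field K] [CharP K ℓ] [Algebra ↥(GaloisRep.ratLocalizedAt ℓ) K] :
    IsDomain (TensorProduct ↥(GaloisRep.ratLocalizedAt ℓ) ↥B K) := by
  let ι : ↥B →+* ↥(ca_VN N ℓ) :=
    { toFun := fun b => ⟨(b : ↥(modularFunctionFieldFull N)), hBV b b.2⟩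
      map_one' := rfl
      map_mul' := fun _ _ => rfl
      map_zero' := rfl
      map_add' := fun _ _ => rfl }
  refine tp_isDomain_tensor ℓ ((ca_redN N ℓ (ZMod ℓ)).comp ι) ?_ K
  intro b hb
  obtain ⟨y, hy, hxy⟩ := hker (ι b) b.2 hb
  refine ⟨⟨y, hy⟩, Subtype.ext ?_⟩
  have hcoe : (((ℓ : ↥B) * ⟨y, hy⟩ : ↥B) : ↥(modularFunctionFieldFull N)) =
      (ℓ : ↥(modularFunctionFieldFull N)) * y := by
    rw [MulMemClass.coe_mul]
    congr 1
  rw [hcoe]
  exact hxy

end Level

/-- **Chunk CA.**  The three chart algebras of the Igusa model stay domains after base change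
to any field of characteristic `ℓ`, given the independence statement (IG') and the degree
bound (G). -/
theorem ca_isDomain_charts (N : ℕ) [NeZero N] (ℓ : ℕ) [Fact ℓ.Prime]
    (k : Type) [Field k] [CharP k ℓ]
    (n : ℕ) (m : Fin n → LaurentSeries ℤ)
    (hmF : ∀ i, coeffMap (Int.castRingHom ℚ) (m i) ∈ modularFunctionFieldFull N)
    (hli : LinearIndependent ↥(IntermediateField.adjoin k {jqModC k})
      (fun i => coeffMap (Int.castRingHom k) (m i)))
    (hfin : Module.Finite ↥(IntermediateField.adjoin ℚ {jFull N}) ↥(modularFunctionFieldFull N))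
    (hn : Module.finrank ↥(IntermediateField.adjoin ℚ {jFull N})
      ↥(modularFunctionFieldFull N) ≤ n)
    (K : Type) [Field K] [CharP K ℓ] [Algebra ↥(GaloisRep.ratLocalizedAt ℓ) K] :
    IsDomain (TensorProduct ↥(GaloisRep.ratLocalizedAt ℓ) ↥(chartAlgFin N ℓ) K) ∧
    IsDomain (TensorProduct ↥(GaloisRep.ratLocalizedAt ℓ) ↥(chartAlgInf N ℓ) K) ∧
    IsDomain (TensorProduct ↥(GaloisRep.ratLocalizedAt ℓ) ↥(chartAlgMid N ℓ) K) := by
  have hj := ca_jFull_mem N ℓ
  have hji := ca_jFull_inv_mem N ℓ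
  refine ⟨?_, ?_, ?_⟩
  · refine ca_isDomain_of_kernel N ℓ (chartAlgFin N ℓ) (fun x hx => ca_chart_le N ℓ _ ?_ hx)
      (fun x hx hred => ca_fin_kernel N ℓ k m hmF hli hfin hn x hx hred) K
    rintro s rfl
    exact hj
  · refine ca_isDomain_of_kernel N ℓ (chartAlgInf N ℓ) (fun x hx => ca_chart_le N ℓ _ ?_ hx)
      (fun x hx hred => ca_inf_kernel N ℓ k m hmF hli hfin hn x hx hred) K
    rintro s rfl
    exact hji
  · refine ca_isDomain_of_kernel N ℓ (chartAlgMid N ℓ) (fun x hx => ca_chart_le N ℓ _ ?_ hx)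
      (fun x hx hred => ca_mid_kernel N ℓ k m hmF hli hfin hn x hx hred) K
    rintro s (rfl | rfl)
    · exact hj
    · exact hji

end Fermat.Agent.S28Lib
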