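/-
S28 (Igusa), chunk C2 (helper9): the step `(S×(p+1))`.

For an algebraically closed field `k`, `J = jqModC k ∈ k((q))`, `V n = qExpand k n` and the twist
`tw c : q ↦ c q`, we assume for the primes `r` in play the root factorisation
`Φ_r(X, V_r J) = (X - V_{r²} J) ∏_{b<r} (X - tw(ζ^b) J)` and prove:

* `c2_dichotomy`: for every intermediate field `E ∋ J` of `k((q))/k`, either `V_p J ∈ E` or the
  minimal polynomial of `V_p J` over `E` has degree `p + 1`;
* `c2_chain`: an embedding `ψ` of a field generated by the `V_d J`, `d ∣ M`, with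
  `ψ J = V_{pM} J`, sends every `V_d J` to some `tw c (V_n J)` with `p * (M / d) ∣ n`;
* `c2_not_mem`: if `p ∤ M` then `V_p J ∉ k(V_d J : d ∣ M)`.
-/
import Mathlib
import Fermat.Prelude.Def_ModularCurve_X0ModL
import Fermat.Agent.Lib.S28.Base

set_option autoImplicit false

noncomputable section

namespace Fermat.Agent.S28Lib

open Polynomial ModularCurve

/-! ### the twist `q ↦ c q` -/

section Twist

variable {k : Type*} [Field k]

/-- coefficientwise twist `a_n ↦ c^n a_n` of a Laurent series by a unit `c` -/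
def c2_twFun (c : kˣ) (a : LaurentSeries k) : LaurentSeries k where
  coeff n := ((c ^ n : kˣ) : k) * a.coeff n
  isPWO_support' := a.isPWO_support.mono (fun n hn => by
    simp only [Function.mem_support, ne_eq] at hn
    exact fun h0 => hn (by rw [h0, mul_zero]))

@[simp]
theorem c2_twFun_coeff (c : kˣ) (a : LaurentSeries k) (n : ℤ) :
    (c2_twFun c a).coeff n = ((c ^ n : kˣ) : k) * a.coeff n := rfl

theorem c2_twFun_support (c : kˣ) (a : LaurentSeries k) :
    (c2_twFun c a).support ⊆ a.support := by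
  intro n hn
  simp only [HahnSeries.mem_support, c2_twFun_coeff, ne_eq] at hn ⊢
  exact fun h0 => hn (by rw [h0, mul_zero])

theorem c2_coeff_mul {x y : LaurentSeries k} {s t : Set ℤ} (hs : s.IsPWO) (ht : t.IsPWO)
    (hxs : x.support ⊆ s) (hyt : y.support ⊆ t) (n : ℤ) :
    (x * y).coeff n = ∑ ij ∈ Finset.antidiagonal hs ht n, x.coeff ij.1 * y.coeff ij.2 := by
  rw [HahnSeries.coeff_mul_left' hs hxs]
  apply Finset.sum_subset
  · intro ij hij
    rw [Finset.mem_antidiagonal] at hij ⊢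
    exact ⟨hij.1, hyt hij.2.1, hij.2.2⟩
  · intro ij hij hnot
    rw [Finset.mem_antidiagonal] at hij hnot
    have : y.coeff ij.2 = 0 := by
      by_contra h
      exact hnot ⟨hij.1, h, hij.2.2⟩
    rw [this, mul_zero]

theorem c2_twFun_mul (c : kˣ) (a b : LaurentSeries k) :
    c2_twFun c (a * b) = c2_twFun c a * c2_twFun c b := by
  ext n
  rw [c2_coeff_mul a.isPWO_support b.isPWO_support (c2_twFun_support c a)
    (c2_twFun_support c b), c2_twFun_coeff, HahnSeries.coeff_mul, Finset.mul_sum]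
  refine Finset.sum_congr rfl fun ij hij => ?_
  rw [Finset.mem_antidiagonal] at hij
  simp only [c2_twFun_coeff]
  rw [← hij.2.2, zpow_add, Units.val_mul]
  ring

/-- the `k`-algebra endomorphism `q ↦ c q` of `k((q))` -/
def c2_tw (c : kˣ) : LaurentSeries k →ₐ[k] LaurentSeries k where
  toFun := c2_twFun c
  map_one' := by
    ext n
    rw [c2_twFun_coeff, HahnSeries.coeff_one]
    split_ifs with h
    · subst h; simp
    · simp
  map_mul' := c2_twFun_mul c
  map_zero' := by ext n; simp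
  map_add' a b := by ext n; simp [mul_add]
  commutes' r := by
    ext n
    rw [c2_twFun_coeff, algebraMap_laurentSeries_eq_single, HahnSeries.coeff_single]
    split_ifs with h
    · subst h; simp
    · simp

@[simp]
theorem c2_tw_coeff (c : kˣ) (a : LaurentSeries k) (n : ℤ) :
    (c2_tw c a).coeff n = ((c ^ n : kˣ) : k) * a.coeff n := rfl

theorem c2_tw_one (a : LaurentSeries k) : c2_tw (1 : kˣ) a = a := by
  ext n; simp

theorem c2_tw_tw (c d : kˣ) (a : LaurentSeries k) : c2_tw c (c2_tw d a) = c2_tw (c * d) a := by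
  ext n
  simp only [c2_tw_coeff, mul_zpow, Units.val_mul]
  ring

theorem c2_tw_qExpand {n : ℕ} [NeZero n] {c : kˣ} (hc : c ^ n = 1) (a : LaurentSeries k) :
    c2_tw c (qExpand k n a) = qExpand k n a := by
  ext m
  rw [c2_tw_coeff]
  by_cases hm : (n : ℤ) ∣ m
  · obtain ⟨m', rfl⟩ := hm
    rw [zpow_mul, zpow_natCast, hc, one_zpow, Units.val_one, one_mul]
  · rw [qExpand_coeff_of_not_dvd n a hm, mul_zero]

theorem c2_qExpand_tw {n : ℕ} [NeZero n] {c e : kˣ} (he : e ^ n = c) (a : LaurentSeries k) :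
    qExpand k n (c2_tw c a) = c2_tw e (qExpand k n a) := by
  ext m
  rw [c2_tw_coeff]
  by_cases hm : (n : ℤ) ∣ m
  · obtain ⟨m', rfl⟩ := hm
    rw [qExpand_coeff_mul, qExpand_coeff_mul, c2_tw_coeff, zpow_mul, zpow_natCast, he]
  · rw [qExpand_coeff_of_not_dvd n _ hm, qExpand_coeff_of_not_dvd n _ hm, mul_zero]

end Twist

/-! ### the total version of `qExpand` -/

section V

variable (k : Type*) [Field k]

/-- `q ↦ q^n` as a `k`-algebra endomorphism of `k((q))`, with the junk value `id` at `n = 0` -/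
def c2_V (n : ℕ) : LaurentSeries k →ₐ[k] LaurentSeries k :=
  if h : n = 0 then AlgHom.id k _ else haveI : NeZero n := ⟨h⟩; qExpandAlgHomC k n

variable {k}

theorem c2_V_eq (n : ℕ) [NeZero n] (a : LaurentSeries k) : c2_V k n a = qExpand k n a := by
  rw [c2_V, dif_neg (NeZero.ne n)]
  rfl

theorem c2_V_one (a : LaurentSeries k) : c2_V k 1 a = a := by
  rw [c2_V_eq, qExpand_one_apply]

theorem c2_V_V {m n : ℕ} (hm : m ≠ 0) (hn : n ≠ 0) (a : LaurentSeries k) :
    c2_V k m (c2_V k n a) = c2_V k (m * n) a := by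
  haveI : NeZero m := ⟨hm⟩
  haveI : NeZero n := ⟨hn⟩
  haveI : NeZero (m * n) := ⟨Nat.mul_ne_zero hm hn⟩
  rw [c2_V_eq, c2_V_eq, c2_V_eq, qExpand_qExpand]

theorem c2_V_injective (n : ℕ) : Function.Injective (c2_V k n) :=
  (c2_V k n).toRingHom.injective

theorem c2_V_coeff_mul {n : ℕ} (hn : n ≠ 0) (a : LaurentSeries k) (m : ℤ) :
    (c2_V k n a).coeff ((n : ℤ) * m) = a.coeff m := by
  haveI : NeZero n := ⟨hn⟩
  rw [c2_V_eq, qExpand_coeff_mul]

theorem c2_V_coeff_of_not_dvd {n : ℕ} (hn : n ≠ 0) (a : LaurentSeries k) {m : ℤ}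
    (hm : ¬ (n : ℤ) ∣ m) : (c2_V k n a).coeff m = 0 := by
  haveI : NeZero n := ⟨hn⟩
  rw [c2_V_eq, qExpand_coeff_of_not_dvd n a hm]

theorem c2_tw_V {n : ℕ} (hn : n ≠ 0) {c : kˣ} (hc : c ^ n = 1) (a : LaurentSeries k) :
    c2_tw c (c2_V k n a) = c2_V k n a := by
  haveI : NeZero n := ⟨hn⟩
  rw [c2_V_eq, c2_tw_qExpand hc]

theorem c2_V_tw {n : ℕ} (hn : n ≠ 0) {c e : kˣ} (he : e ^ n = c) (a : LaurentSeries k) :
    c2_V k n (c2_tw c a) = c2_tw e (c2_V k n a) := by
  haveI : NeZero n := ⟨hn⟩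
  rw [c2_V_eq, c2_V_eq, c2_qExpand_tw he]

theorem c2_V_J_coeff {n : ℕ} (hn : n ≠ 0) : (c2_V k n (jqModC k)).coeff (-(n : ℤ)) = 1 := by
  have h := c2_V_coeff_mul hn (jqModC k) (-1)
  rw [mul_neg, mul_one] at h
  rw [h, coeff_jqModC_neg_one]

end V

/-! ### two-variable evaluation -/

section Ev2

variable {k : Type*} [Field k]

/-- `Φ(x, y)` for `Φ ∈ k[Y][X]` and `x y` in a `k`-algebra -/
def c2_ev2 {R : Type*} [CommRing R] [Algebra k R] (Φ : Polynomial (Polynomial k)) (x y : R) : R :=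
  (Φ.map (Polynomial.aeval y : Polynomial k →ₐ[k] R).toRingHom).eval x

theorem c2_map_map {R R' : Type*} [CommRing R] [Algebra k R] [CommRing R'] [Algebra k R']
    (θ : R →ₐ[k] R') (Φ : Polynomial (Polynomial k)) (y : R) :
    (Φ.map (Polynomial.aeval y : Polynomial k →ₐ[k] R).toRingHom).map θ.toRingHom =
      Φ.map (Polynomial.aeval (θ y) : Polynomial k →ₐ[k] R').toRingHom := by
  rw [Polynomial.map_map]
  congr 1
  rw [Polynomial.aeval_algHom]
  rfl

theorem c2_ev2_map {R R' : Type*} [CommRing R] [Algebra k R] [CommRing R'] [Algebra k R']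
    (θ : R →ₐ[k] R') (Φ : Polynomial (Polynomial k)) (x y : R) :
    θ (c2_ev2 Φ x y) = c2_ev2 Φ (θ x) (θ y) := by
  rw [c2_ev2, c2_ev2, ← c2_map_map θ Φ y, Polynomial.eval_map (f := θ.toRingHom)]
  exact (Polynomial.eval₂_at_apply (p := Φ.map _) θ.toRingHom x).symm

end Ev2

/-! ### the root factorisation `(R_k)` and its transports -/

section Rk

variable (k : Type*) [Field k]

/-- the root factorisation `(R_k)` at `r`:
`Φ(X, V_r J) = (X - V_{r²} J) ∏_{b<r} (X - tw(ζ^b) J)` in `k((q))[X]` -/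
structure C2Rk (r : ℕ) where
  /-- the modular polynomial, outer variable `X`, inner variable `Y = j` -/
  Φ : Polynomial (Polynomial k)
  monic : Φ.Monic
  natDegree_eq : Φ.natDegree = r + 1
  /-- a primitive `r`-th root of unity -/
  ζ : kˣ
  prim : IsPrimitiveRoot ζ r
  fac : Φ.map (Polynomial.aeval (c2_V k r (jqModC k)) :
        Polynomial k →ₐ[k] LaurentSeries k).toRingHom =
      (X - C (c2_V k (r * r) (jqModC k))) *
        ∏ b ∈ Finset.range r, (X - C (c2_tw (ζ ^ b) (jqModC k)))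

variable {k}

theorem c2_fac_map {r : ℕ} (D : C2Rk k r) {R : Type*} [CommRing R] [Algebra k R]
    (θ : LaurentSeries k →ₐ[k] R) :
    D.Φ.map (Polynomial.aeval (θ (c2_V k r (jqModC k))) : Polynomial k →ₐ[k] R).toRingHom =
      (X - C (θ (c2_V k (r * r) (jqModC k)))) *
        ∏ b ∈ Finset.range r, (X - C (θ (c2_tw (D.ζ ^ b) (jqModC k)))) := by
  rw [← c2_map_map θ, D.fac, Polynomial.map_mul, Polynomial.map_sub, Polynomial.map_X,
    Polynomial.map_C, Polynomial.map_prod]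
  congr 1
  refine Finset.prod_congr rfl fun b _ => ?_
  rw [Polynomial.map_sub, Polynomial.map_X, Polynomial.map_C]
  rfl

theorem c2_ev2_eq_zero_iff {r : ℕ} (D : C2Rk k r) {R : Type*} [CommRing R] [IsDomain R]
    [Algebra k R] (θ : LaurentSeries k →ₐ[k] R) (x : R) :
    c2_ev2 D.Φ x (θ (c2_V k r (jqModC k))) = 0 ↔
      x = θ (c2_V k (r * r) (jqModC k)) ∨
        ∃ b ∈ Finset.range r, x = θ (c2_tw (D.ζ ^ b) (jqModC k)) := by
  rw [c2_ev2, c2_fac_map D θ, Polynomial.eval_mul, Polynomial.eval_prod, mul_eq_zero,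
    Finset.prod_eq_zero_iff]
  simp only [Polynomial.eval_sub, Polynomial.eval_X, Polynomial.eval_C, sub_eq_zero]

theorem c2_ev2_J_VJ {r : ℕ} (hr : r ≠ 0) (D : C2Rk k r) :
    c2_ev2 D.Φ (jqModC k) (c2_V k r (jqModC k)) = 0 := by
  have h := (c2_ev2_eq_zero_iff D (AlgHom.id k (LaurentSeries k)) (jqModC k)).mpr
    (Or.inr ⟨0, Finset.mem_range.mpr (Nat.pos_of_ne_zero hr), by
      rw [pow_zero, AlgHom.id_apply, c2_tw_one]⟩)
  simpa using h

theorem c2_ev2_VJ_J {r : ℕ} (hr : r ≠ 0) (D : C2Rk k r) :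
    c2_ev2 D.Φ (c2_V k r (jqModC k)) (jqModC k) = 0 := by
  apply c2_V_injective (k := k) r
  rw [c2_ev2_map, map_zero, c2_V_V hr hr]
  have h := (c2_ev2_eq_zero_iff D (AlgHom.id k (LaurentSeries k))
    (c2_V k (r * r) (jqModC k))).mpr (Or.inl rfl)
  simpa using h

theorem c2_ev2_V_V {r : ℕ} (hr : r ≠ 0) (D : C2Rk k r) {d : ℕ} (hd : d ≠ 0) :
    c2_ev2 D.Φ (c2_V k (d * r) (jqModC k)) (c2_V k d (jqModC k)) = 0 := by
  have h := congrArg (c2_V k d) (c2_ev2_VJ_J hr D)
  rwa [c2_ev2_map, map_zero, c2_V_V hd hr] at h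

end Rk

/-! ### the chain lemma -/

section Chain

variable {k : Type*} [Field k]

theorem c2_exists_unit_pow [IsAlgClosed k] (c : kˣ) {n : ℕ} (hn : n ≠ 0) :
    ∃ e : kˣ, e ^ n = c := by
  obtain ⟨z, hz⟩ := IsAlgClosed.exists_pow_nat_eq (c : k) (Nat.pos_of_ne_zero hn)
  have hz0 : z ≠ 0 := by
    rintro rfl
    rw [zero_pow hn] at hz
    exact c.ne_zero hz.symm
  exact ⟨Units.mk0 z hz0, Units.ext (by rw [Units.val_pow_eq_pow_val, Units.val_mk0, hz])⟩

/-- **Chain lemma.** If `ψ` sends `J` to `V_{pM} J`, then it sends every `V_d J`, `d ∣ M`, to a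
twist of some `V_n J` with `p * (M / d) ∣ n`. -/
theorem c2_chain [IsAlgClosed k] {Ω : Type*} [Field Ω] [Algebra k Ω]
    (ι : LaurentSeries k →ₐ[k] Ω) {A : Type*} [CommRing A] [Algebra k A]
    (inc : A →ₐ[k] LaurentSeries k) (hinc : Function.Injective inc) (ψ : A →ₐ[k] Ω)
    {p M : ℕ} (hp : p ≠ 0) (hM : M ≠ 0)
    (data : ∀ r : ℕ, r.Prime → r ∣ M → C2Rk k r)
    (hmem : ∀ d : ℕ, d ∣ M → ∃ x : A, inc x = c2_V k d (jqModC k))
    (h1 : ∀ x : A, inc x = jqModC k → ψ x = ι (c2_V k (p * M) (jqModC k))) :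
    ∀ d : ℕ, d ∣ M → ∀ x : A, inc x = c2_V k d (jqModC k) →
      ∃ (c : kˣ) (n : ℕ), n ≠ 0 ∧ p * (M / d) ∣ n ∧
        ψ x = ι (c2_tw c (c2_V k n (jqModC k))) := by
  intro d
  induction d using Nat.strong_induction_on with
  | _ d ih =>
    intro hdM x hx
    have hd0 : d ≠ 0 := fun h => hM (by rw [h] at hdM; exact Nat.eq_zero_of_zero_dvd hdM)
    rcases eq_or_ne d 1 with rfl | hd1
    · refine ⟨1, p * M, Nat.mul_ne_zero hp hM, by rw [Nat.div_one], ?_⟩
      rw [c2_tw_one]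
      exact h1 x (by rw [hx, c2_V_one])
    · -- split off a prime factor
      set r := d.minFac with hrdef
      have hrp : r.Prime := Nat.minFac_prime hd1
      have hrd : r ∣ d := Nat.minFac_dvd d
      obtain ⟨d', hd'⟩ : ∃ d', d = d' * r := ⟨d / r, (Nat.div_mul_cancel hrd).symm⟩
      have hr0 : r ≠ 0 := hrp.ne_zero
      have hd'0 : d' ≠ 0 := fun h => hd0 (by rw [hd', h, zero_mul])
      have hd'M : d' ∣ M := (Dvd.intro _ hd'.symm).trans hdM
      have hd'lt : d' < d := by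
        rw [hd']
        exact lt_mul_of_one_lt_right (Nat.pos_of_ne_zero hd'0) hrp.one_lt
      obtain ⟨x', hx'⟩ := hmem d' hd'M
      obtain ⟨c, n, hn0, hdvd, hψ'⟩ := ih d' hd'lt hd'M x' hx'
      have D := data r hrp (hrd.trans hdM)
      -- `M / d' = (M / d) * r`
      have hMd : M / d' = (M / d) * r := by
        obtain ⟨t, ht⟩ := hdM
        rw [ht, Nat.mul_div_cancel_left _ (Nat.pos_of_ne_zero hd0), hd',
          Nat.mul_assoc, Nat.mul_div_cancel_left _ (Nat.pos_of_ne_zero hd'0), mul_comm]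
      obtain ⟨n', hn'⟩ : ∃ n', n = n' * r := by
        have : r ∣ n := (Dvd.intro_left (p * (M / d)) (by ring) : r ∣ p * ((M / d) * r)).trans (hMd ▸ hdvd)
        exact ⟨n / r, (Nat.div_mul_cancel this).symm⟩
      have hn'0 : n' ≠ 0 := fun h => hn0 (by rw [hn', h, zero_mul])
      have hdvd' : p * (M / d) ∣ n' := by
        have h2 : p * (M / d) * r ∣ n' * r := by
          rw [← hn', mul_assoc, ← hMd]; exact hdvd
        exact Nat.dvd_of_mul_dvd_mul_right (Nat.pos_of_ne_zero hr0) h2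
      -- the relation between `x` and `x'`
      have hrel : c2_ev2 D.Φ x x' = 0 := by
        apply hinc
        rw [c2_ev2_map, map_zero, hx, hx', hd']
        exact c2_ev2_V_V hr0 D hd'0
      have hrelΩ : c2_ev2 D.Φ (ψ x) (ψ x') = 0 := by
        rw [← c2_ev2_map, hrel, map_zero]
      set θ : LaurentSeries k →ₐ[k] Ω := ι.comp ((c2_tw c).comp (c2_V k n')) with hθ
      have hθr : θ (c2_V k r (jqModC k)) = ψ x' := by
        rw [hψ', hθ, AlgHom.comp_apply, AlgHom.comp_apply, c2_V_V hn'0 hr0, ← hn']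
      rw [← hθr, c2_ev2_eq_zero_iff D θ] at hrelΩ
      rcases hrelΩ with h | ⟨b, -, h⟩
      · refine ⟨c, n * r, Nat.mul_ne_zero hn0 hr0, (hdvd'.trans (Dvd.intro _ hn'.symm)).mul_right r, ?_⟩
        rw [h, hθ, AlgHom.comp_apply, AlgHom.comp_apply, c2_V_V hn'0 (Nat.mul_ne_zero hr0 hr0),
          hn', mul_assoc]
      · obtain ⟨e, he⟩ := c2_exists_unit_pow (D.ζ ^ b) hn'0
        refine ⟨c * e, n', hn'0, hdvd', ?_⟩
        rw [h, hθ, AlgHom.comp_apply, AlgHom.comp_apply, c2_V_tw hn'0 he, c2_tw_tw]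

end Chain

/-! ### the dichotomy `V_p J ∈ E` or `[E(V_p J) : E] = p + 1` -/

section Dichotomy

variable {k : Type*} [Field k]

/-- a non-constant divisor of a product of linear factors has one of them as a root -/
theorem c2_exists_root_of_dvd_prod {F : Type*} [Field F] {ι : Type*} (s : Finset ι) (y : ι → F)
    (q : Polynomial F) (hq : q ∣ ∏ b ∈ s, (X - Polynomial.C (y b))) (hdeg : 1 ≤ q.natDegree) :
    ∃ b ∈ s, q.IsRoot (y b) := by
  classical
  induction s using Finset.induction_on with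
  | empty =>
    rw [Finset.prod_empty] at hq
    have := Polynomial.natDegree_eq_zero_of_isUnit (isUnit_of_dvd_one hq)
    omega
  | insert a s ha ih =>
    rw [Finset.prod_insert ha] at hq
    by_cases hroot : q.IsRoot (y a)
    · exact ⟨a, Finset.mem_insert_self a s, hroot⟩
    · have hcop : IsCoprime (X - Polynomial.C (y a)) q :=
        ((Polynomial.irreducible_X_sub_C (y a)).coprime_iff_not_dvd).mpr
          (fun h => hroot (Polynomial.dvd_iff_isRoot.mp h))
      obtain ⟨b, hb, hb'⟩ := ih (hcop.symm.dvd_of_dvd_mul_left hq)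
      exact ⟨b, Finset.mem_insert_of_mem hb, hb'⟩

theorem c2_tw_J_coeff (c : kˣ) : (c2_tw c (jqModC k)).coeff (-1) = ((c⁻¹ : kˣ) : k) := by
  rw [c2_tw_coeff, coeff_jqModC_neg_one, mul_one, zpow_neg_one]

theorem c2_tw_J_injOn {p : ℕ} {ζ : kˣ} (hζ : IsPrimitiveRoot ζ p) {i j : ℕ} (hi : i < p)
    (hj : j < p) (h : c2_tw (ζ ^ i) (jqModC k) = c2_tw (ζ ^ j) (jqModC k)) : i = j := by
  have h1 := congrArg (fun f : LaurentSeries k => f.coeff (-1)) h
  simp only [c2_tw_J_coeff] at h1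
  have h2 : (ζ ^ i)⁻¹ = (ζ ^ j)⁻¹ := Units.ext h1
  exact hζ.pow_inj hi hj (inv_injective h2)

theorem c2_VJ_ne_tw_J {p : ℕ} (hp : 2 ≤ p) (c : kˣ) :
    c2_V k (p * p) (jqModC k) ≠ c2_tw c (jqModC k) := by
  intro h
  have h1 := congrArg (fun f : LaurentSeries k => f.coeff (-1)) h
  simp only [c2_tw_J_coeff] at h1
  rw [c2_V_coeff_of_not_dvd (by positivity) _ (by
    intro hdvd
    have h2 : ((p * p : ℕ) : ℤ) ∣ 1 := (Int.dvd_neg).mp hdvd
    have h3 : (p * p : ℕ) ∣ 1 := by exact_mod_cast h2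
    have h4 := Nat.le_of_dvd one_pos h3
    nlinarith)] at h1
  exact (c⁻¹).ne_zero h1.symm

/-- **Dichotomy.** For an intermediate field `E ∋ J`, either `V_p J ∈ E`, or the minimal
polynomial of `V_p J` over `E` has degree `p + 1`. -/
theorem c2_dichotomy {p : ℕ} (hp : p.Prime) (D : C2Rk k p)
    (E : IntermediateField k (LaurentSeries k)) (hJ : jqModC k ∈ E) :
    c2_V k p (jqModC k) ∈ E ∨
      (IsIntegral E (c2_V k p (jqModC k)) ∧
        (minpoly E (c2_V k p (jqModC k))).natDegree = p + 1) := by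
  classical
  have hp0 : p ≠ 0 := hp.ne_zero
  set J := jqModC k with hJdef
  set x := c2_V k p J with hxdef
  -- the polynomial `Φ(X, J)` over `E`
  set Φ₁ : Polynomial E :=
    D.Φ.map (Polynomial.aeval (⟨J, hJ⟩ : E) : Polynomial k →ₐ[k] E).toRingHom with hΦ₁
  have hΦ₁monic : Φ₁.Monic := D.monic.map _
  have hΦ₁deg : Φ₁.natDegree = p + 1 := by rw [hΦ₁, D.monic.natDegree_map, D.natDegree_eq]
  have hmapval : Φ₁.map (algebraMap E (LaurentSeries k)) =
      D.Φ.map (Polynomial.aeval J : Polynomial k →ₐ[k] LaurentSeries k).toRingHom := by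
    have := c2_map_map (E.val) D.Φ (⟨J, hJ⟩ : E)
    exact this
  have hroot : Polynomial.aeval x Φ₁ = 0 := by
    rw [Polynomial.aeval_def, ← Polynomial.eval_map, hmapval]
    exact c2_ev2_VJ_J hp0 D
  have hint : IsIntegral E x := ⟨Φ₁, hΦ₁monic, hroot⟩
  set μ := minpoly E x with hμ
  have hμdvd : μ ∣ Φ₁ := minpoly.dvd E x hroot
  have hμle : μ.natDegree ≤ p + 1 := by
    rw [← hΦ₁deg]; exact Polynomial.natDegree_le_of_dvd hμdvd hΦ₁monic.ne_zero
  have hμmonic : μ.Monic := minpoly.monic hint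
  by_cases h1 : μ.natDegree = 1
  · left
    obtain ⟨e, he⟩ := (minpoly.natDegree_eq_one_iff).mp h1
    rw [← he]; exact e.2
  right
  refine ⟨hint, le_antisymm hμle ?_⟩
  have hμpos : 0 < μ.natDegree := minpoly.natDegree_pos hint
  have hμ2 : 2 ≤ μ.natDegree := by omega
  -- transport by `V_p`
  set g : E →+* LaurentSeries k :=
    (c2_V k p).toRingHom.comp (algebraMap E (LaurentSeries k)) with hg
  set ν : Polynomial (LaurentSeries k) := μ.map g with hν
  have hνmonic : ν.Monic := hμmonic.map g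
  have hνdeg : ν.natDegree = μ.natDegree := hμmonic.natDegree_map g
  have hν0 : ν ≠ 0 := hνmonic.ne_zero
  set x₀ := c2_V k (p * p) J with hx₀
  have hΦ₁g : Φ₁.map g = (X - Polynomial.C x₀) *
      ∏ b ∈ Finset.range p, (X - Polynomial.C (c2_tw (D.ζ ^ b) J)) := by
    rw [hg, ← Polynomial.map_map, hmapval]
    have := c2_map_map (c2_V k p) D.Φ J
    rw [this]
    exact D.fac
  have hνdvd : ν ∣ (X - Polynomial.C x₀) *
      ∏ b ∈ Finset.range p, (X - Polynomial.C (c2_tw (D.ζ ^ b) J)) := by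
    rw [← hΦ₁g]; exact Polynomial.map_dvd g hμdvd
  have hνx₀ : ν.IsRoot x₀ := by
    have h2 : ν.eval (c2_V k p x) = c2_V k p (Polynomial.aeval x μ) := by
      have e1 : ν = (μ.map (algebraMap E (LaurentSeries k))).map (c2_V k p).toRingHom := by
        rw [hν, hg, Polynomial.map_map]
      rw [e1, Polynomial.eval_map, Polynomial.aeval_def,
        ← Polynomial.eval_map (algebraMap E (LaurentSeries k))]
      exact Polynomial.eval₂_at_apply (c2_V k p).toRingHom x
    have h3 : c2_V k p x = x₀ := by rw [hxdef, c2_V_V hp0 hp0]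
    rw [Polynomial.IsRoot, ← h3, h2, hμ, minpoly.aeval, map_zero]
  -- a second root among the twists
  obtain ⟨b, hb, hbroot⟩ : ∃ b ∈ Finset.range p, ν.IsRoot (c2_tw (D.ζ ^ b) J) := by
    have hfac : (X - Polynomial.C x₀) * (ν /ₘ (X - Polynomial.C x₀)) = ν :=
      Polynomial.mul_divByMonic_eq_iff_isRoot.mpr hνx₀
    set ν₁ := ν /ₘ (X - Polynomial.C x₀) with hν₁
    have hν₁dvd : ν₁ ∣ ∏ b ∈ Finset.range p, (X - Polynomial.C (c2_tw (D.ζ ^ b) J)) := by
      rw [← hfac] at hνdvd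
      exact (mul_dvd_mul_iff_left (Polynomial.X_sub_C_ne_zero x₀)).mp hνdvd
    have hν₁deg : 1 ≤ ν₁.natDegree := by
      have h4 : ν.natDegree = 1 + ν₁.natDegree := by
        have hν₁0 : ν₁ ≠ 0 := by
          rintro h0
          rw [h0, mul_zero] at hfac
          exact hν0 hfac.symm
        rw [← hfac, Polynomial.natDegree_mul (Polynomial.X_sub_C_ne_zero x₀) hν₁0,
          Polynomial.natDegree_X_sub_C]
      omega
    obtain ⟨b, hb, hb'⟩ := c2_exists_root_of_dvd_prod _ _ ν₁ hν₁dvd hν₁deg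
    refine ⟨b, hb, ?_⟩
    rw [← hfac]
    exact Polynomial.IsRoot.dvd hb' (Dvd.intro_left _ rfl)
  -- the twist by a `p`-th root of unity fixes `ν`
  have hνtw : ∀ c : kˣ, c ^ p = 1 → ν.map (c2_tw c).toRingHom = ν := by
    intro c hc
    rw [hν, Polynomial.map_map]
    congr 1
    refine RingHom.ext fun e => ?_
    show c2_tw c (c2_V k p (algebraMap E (LaurentSeries k) e)) =
      c2_V k p (algebraMap E (LaurentSeries k) e)
    exact c2_tw_V hp0 hc _
  have hroots : ∀ j : ℕ, j < p → ν.IsRoot (c2_tw (D.ζ ^ j) J) := by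
    intro j hj
    have hb' : b < p := Finset.mem_range.mp hb
    set c : kˣ := D.ζ ^ (j + (p - b)) with hc
    have hcp : c ^ p = 1 := by
      rw [hc, ← pow_mul, mul_comm, pow_mul, D.prim.pow_eq_one, one_pow]
    have h5 : (ν.map (c2_tw c).toRingHom).eval (c2_tw c (c2_tw (D.ζ ^ b) J)) = 0 := by
      rw [Polynomial.eval_map]
      have := Polynomial.eval₂_at_apply (p := ν) (c2_tw c).toRingHom (c2_tw (D.ζ ^ b) J)
      rw [show (c2_tw c).toRingHom (c2_tw (D.ζ ^ b) J) = c2_tw c (c2_tw (D.ζ ^ b) J) from rfl]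
        at this
      rw [this, hbroot.eq_zero, map_zero]
    rw [hνtw c hcp, c2_tw_tw, hc, ← pow_add] at h5
    have h6 : D.ζ ^ (j + (p - b) + b) = D.ζ ^ j := by
      rw [show j + (p - b) + b = j + p by omega, pow_add, D.prim.pow_eq_one, mul_one]
    rw [h6] at h5
    exact h5
  -- count the roots
  have hsub : insert x₀ ((Finset.range p).image fun j => c2_tw (D.ζ ^ j) J) ⊆ ν.roots.toFinset := by
    intro z hz
    rw [Multiset.mem_toFinset, Polynomial.mem_roots hν0]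
    rcases Finset.mem_insert.mp hz with rfl | hz
    · exact hνx₀
    · obtain ⟨j, hj, rfl⟩ := Finset.mem_image.mp hz
      exact hroots j (Finset.mem_range.mp hj)
  have hcard : (insert x₀ ((Finset.range p).image fun j => c2_tw (D.ζ ^ j) J)).card = p + 1 := by
    rw [Finset.card_insert_of_notMem, Finset.card_image_of_injOn, Finset.card_range]
    · intro i hi j hj hij
      exact c2_tw_J_injOn D.prim (Finset.mem_range.mp hi) (Finset.mem_range.mp hj) hij
    · intro hmem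
      obtain ⟨j, -, hj⟩ := Finset.mem_image.mp hmem
      exact c2_VJ_ne_tw_J hp.two_le _ hj.symm
  calc p + 1 = (insert x₀ ((Finset.range p).image fun j => c2_tw (D.ζ ^ j) J)).card := hcard.symm
    _ ≤ ν.roots.toFinset.card := Finset.card_le_card hsub
    _ ≤ ν.roots.card := Multiset.toFinset_card_le _
    _ ≤ ν.natDegree := Polynomial.card_roots' ν
    _ = μ.natDegree := hνdeg

end Dichotomy

/-! ### integrality of the `V_d J` -/

section Integral

variable {k : Type*} [Field k]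

theorem c2_isIntegral_of_root {F B : Type*} [Field F] [Field B] [Algebra F B]
    (Q : Polynomial B) (hQ : Q.Monic) (hcoeff : ∀ i, IsIntegral F (Q.coeff i)) (x : B)
    (hx : Q.eval x = 0) : IsIntegral F x := by
  have hlifts : Q ∈ Polynomial.lifts (algebraMap (integralClosure F B) B) :=
    (Polynomial.lifts_iff_coeff_lifts Q).mpr fun i => ⟨⟨Q.coeff i, hcoeff i⟩, rfl⟩
  obtain ⟨Q', hQ'map, -, hQ'monic⟩ := Polynomial.lifts_and_natDegree_eq_and_monic hlifts hQ
  have h1 : IsIntegral (integralClosure F B) x :=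
    ⟨Q', hQ'monic, by rw [Polynomial.eval₂_eq_eval_map, hQ'map, hx]⟩
  exact isIntegral_trans x h1

theorem c2_isIntegral_aeval (E : IntermediateField k (LaurentSeries k)) {y : LaurentSeries k}
    (hy : IsIntegral E y) (q : Polynomial k) : IsIntegral E (Polynomial.aeval y q) := by
  rw [Polynomial.aeval_eq_sum_range]
  refine IsIntegral.sum _ fun i _ => ?_
  rw [Algebra.smul_def, IsScalarTower.algebraMap_apply k E (LaurentSeries k)]
  exact isIntegral_algebraMap.mul (hy.pow i)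

/-- every `V_d J`, `d ∣ M`, is integral over any intermediate field containing `J` -/
theorem c2_isIntegral_V (E : IntermediateField k (LaurentSeries k)) (hJ : jqModC k ∈ E) {M : ℕ}
    (hM : M ≠ 0) (data : ∀ r : ℕ, r.Prime → r ∣ M → C2Rk k r) :
    ∀ d : ℕ, d ∣ M → IsIntegral E (c2_V k d (jqModC k)) := by
  intro d
  induction d using Nat.strong_induction_on with
  | _ d ih =>
    intro hdM
    have hd0 : d ≠ 0 := fun h => hM (by rw [h] at hdM; exact Nat.eq_zero_of_zero_dvd hdM)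
    rcases eq_or_ne d 1 with rfl | hd1
    · rw [c2_V_one]
      exact isIntegral_algebraMap (x := (⟨jqModC k, hJ⟩ : E))
    · set r := d.minFac with hrdef
      have hrp : r.Prime := Nat.minFac_prime hd1
      have hrd : r ∣ d := Nat.minFac_dvd d
      obtain ⟨d', hd'⟩ : ∃ d', d = d' * r := ⟨d / r, (Nat.div_mul_cancel hrd).symm⟩
      have hr0 : r ≠ 0 := hrp.ne_zero
      have hd'0 : d' ≠ 0 := fun h => hd0 (by rw [hd', h, zero_mul])
      have hd'M : d' ∣ M := (Dvd.intro _ hd'.symm).trans hdM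
      have hd'lt : d' < d := by
        rw [hd']
        exact lt_mul_of_one_lt_right (Nat.pos_of_ne_zero hd'0) hrp.one_lt
      have hy := ih d' hd'lt hd'M
      have D := data r hrp (hrd.trans hdM)
      refine c2_isIntegral_of_root
        (D.Φ.map (Polynomial.aeval (c2_V k d' (jqModC k)) :
          Polynomial k →ₐ[k] LaurentSeries k).toRingHom) (D.monic.map _) (fun i => ?_) _ ?_
      · rw [Polynomial.coeff_map]
        exact c2_isIntegral_aeval E hy _
      · rw [hd']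
        exact c2_ev2_V_V hr0 D hd'0

end Integral

/-! ### the lift and the non-membership -/

section Lift

/-- the generators `V_d J`, `d ∣ M` -/
def c2_gens (k : Type*) [Field k] (M : ℕ) : Set (LaurentSeries k) :=
  {x | ∃ d : ℕ, d ∣ M ∧ x = c2_V k d (jqModC k)}

/-- the base field `k(J)` -/
abbrev c2_K0 (k : Type*) [Field k] : IntermediateField k (LaurentSeries k) :=
  IntermediateField.adjoin k {jqModC k}

/-- the field `k(J)(V_d J : d ∣ M)`, as an extension of `k(J)` -/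
abbrev c2_E1 (k : Type*) [Field k] (M : ℕ) : IntermediateField (c2_K0 k) (LaurentSeries k) :=
  IntermediateField.adjoin (c2_K0 k) (c2_gens k M)

variable {k : Type*} [Field k]

theorem c2_J_mem_K0 : jqModC k ∈ c2_K0 k :=
  IntermediateField.subset_adjoin k _ (Set.mem_singleton _)

/-- the lift: an embedding of `k(J)(V_d J : d ∣ M)` into an algebraically closed `Ω` with
`J ↦ V_{pM} J` and `V_p J ↦ V_M J` -/
theorem c2_exists_lift {Ω : Type*} [Field Ω] [IsAlgClosed Ω] [Algebra k Ω]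
    (ι : LaurentSeries k →ₐ[k] Ω) {p M : ℕ} (hp : p.Prime) (hM : M ≠ 0)
    (Dp : C2Rk k p) (data : ∀ r : ℕ, r.Prime → r ∣ M → C2Rk k r)
    (hP1 : c2_V k p (jqModC k) ∉ c2_K0 k)
    (hx : c2_V k p (jqModC k) ∈ c2_E1 k M) :
    ∃ φ : c2_E1 k M →+* Ω,
      (∀ j₀ : c2_K0 k, φ (algebraMap (c2_K0 k) (c2_E1 k M) j₀) =
        ι (c2_V k (p * M) (j₀ : LaurentSeries k))) ∧
      φ ⟨c2_V k p (jqModC k), hx⟩ = ι (c2_V k M (jqModC k)) := by
  classical
  set J := jqModC k with hJdef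
  set x := c2_V k p J with hxdef
  have hJK0 : J ∈ c2_K0 k := c2_J_mem_K0
  have hp0 := hp.ne_zero
  -- (S1)
  obtain ⟨hint, hdeg⟩ := (c2_dichotomy hp Dp (c2_K0 k) hJK0).resolve_left hP1
  -- the base embedding `J ↦ V_{pM} J`
  set σ₀ : c2_K0 k →ₐ[k] Ω := ι.comp ((c2_V k (p * M)).comp (c2_K0 k).val) with hσ₀
  letI algK0 : Algebra (c2_K0 k) Ω := σ₀.toRingHom.toAlgebra
  have hK : ∀ s ∈ c2_gens k M,
      IsIntegral (c2_K0 k) s ∧ ((minpoly (c2_K0 k) s).map (algebraMap (c2_K0 k) Ω)).Splits := by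
    rintro s ⟨d, hd, rfl⟩
    exact ⟨c2_isIntegral_V (c2_K0 k) hJK0 hM data d hd, IsAlgClosed.splits _⟩
  -- the minimal polynomial of `x` over `K0` is `Φ_p(X, J)`
  set Φ₁ : Polynomial (c2_K0 k) :=
    Dp.Φ.map (Polynomial.aeval (⟨J, hJK0⟩ : c2_K0 k) : Polynomial k →ₐ[k] c2_K0 k).toRingHom
    with hΦ₁
  have hΦ₁monic : Φ₁.Monic := Dp.monic.map _
  have hΦ₁deg : Φ₁.natDegree = p + 1 := by rw [hΦ₁, Dp.monic.natDegree_map, Dp.natDegree_eq]
  have hroot : Polynomial.aeval x Φ₁ = 0 := by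
    rw [Polynomial.aeval_def, ← Polynomial.eval_map]
    have := c2_map_map ((c2_K0 k).val) Dp.Φ (⟨J, hJK0⟩ : c2_K0 k)
    rw [show Φ₁.map (algebraMap (c2_K0 k) (LaurentSeries k)) = _ from this]
    exact c2_ev2_VJ_J hp0 Dp
  have hmin : minpoly (c2_K0 k) x = Φ₁ :=
    (Polynomial.eq_of_monic_of_dvd_of_natDegree_le (minpoly.monic hint) hΦ₁monic
      (minpoly.dvd (c2_K0 k) x hroot) (by rw [hΦ₁deg, hdeg])).symm
  have hy : Polynomial.aeval (ι (c2_V k M J)) (minpoly (c2_K0 k) x) = 0 := by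
    rw [hmin, Polynomial.aeval_def, ← Polynomial.eval_map]
    have h1 : Φ₁.map (algebraMap (c2_K0 k) Ω) =
        Dp.Φ.map (Polynomial.aeval (σ₀ ⟨J, hJK0⟩) : Polynomial k →ₐ[k] Ω).toRingHom :=
      c2_map_map σ₀ Dp.Φ ⟨J, hJK0⟩
    rw [h1]
    have h3 := c2_ev2_J_VJ hp0 Dp
    have h4 := congrArg (fun z => ι (c2_V k M z)) h3
    simp only [c2_ev2_map, map_zero] at h4
    rw [c2_V_V hM hp0, mul_comm M p] at h4
    exact h4
  obtain ⟨φ, hφ⟩ := IntermediateField.exists_algHom_adjoin_of_splits_of_aeval hK hx hy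
  exact ⟨φ.toRingHom, fun j₀ => φ.commutes j₀, hφ⟩

/-- a ring hom on `k(J)(V_d J : d ∣ M)` whose values on `k(J)` and on the generators lie in a
subfield takes all its values there -/
theorem c2_range_of_gens {Ω : Type*} [Field Ω] (T : Subfield Ω) {M : ℕ}
    (φ : c2_E1 k M →+* Ω)
    (hbase : ∀ j₀ : c2_K0 k, φ (algebraMap (c2_K0 k) (c2_E1 k M) j₀) ∈ T)
    (hgen : ∀ s (hs : s ∈ c2_gens k M),
      φ ⟨s, IntermediateField.subset_adjoin (c2_K0 k) _ hs⟩ ∈ T) :
    ∀ z : c2_E1 k M, φ z ∈ T := by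
  set S₁ : Subfield (LaurentSeries k) :=
    (T.comap φ).map (algebraMap (c2_E1 k M) (LaurentSeries k)) with hS₁
  have hmem : ∀ z : c2_E1 k M, φ z ∈ T → (z : LaurentSeries k) ∈ S₁ :=
    fun z hz => Subfield.mem_map.mpr ⟨z, hz, rfl⟩
  have hmem' : ∀ z : c2_E1 k M, (z : LaurentSeries k) ∈ S₁ → φ z ∈ T := by
    intro z hz
    obtain ⟨w, hw, hwz⟩ := Subfield.mem_map.mp hz
    have : w = z := Subtype.ext hwz
    rw [← this]
    exact hw
  have hle : c2_E1 k M ≤ S₁.toIntermediateField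
      (fun j₀ => hmem (algebraMap (c2_K0 k) (c2_E1 k M) j₀) (hbase j₀)) :=
    IntermediateField.adjoin_le_iff.mpr fun s hs =>
      hmem ⟨s, IntermediateField.subset_adjoin (c2_K0 k) _ hs⟩ (hgen s hs)
  intro z
  exact hmem' z (hle z.2)

theorem c2_not_mem_aux [IsAlgClosed k] {Ω : Type*} [Field Ω] [IsAlgClosed Ω] [Algebra k Ω]
    (ι : LaurentSeries k →ₐ[k] Ω) {p M : ℕ} (hp : p.Prime) (hM : M ≠ 0) (hpM : ¬ p ∣ M)
    (Dp : C2Rk k p) (data : ∀ r : ℕ, r.Prime → r ∣ M → C2Rk k r)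
    (hP1 : c2_V k p (jqModC k) ∉ c2_K0 k) :
    c2_V k p (jqModC k) ∉ c2_E1 k M := by
  intro hx
  have hp0 := hp.ne_zero
  obtain ⟨φ, hφ1, hφ2⟩ := c2_exists_lift ι hp hM Dp data hP1 hx
  -- `φ` as a `k`-algebra hom
  set ψ : c2_E1 k M →ₐ[k] Ω :=
    { φ with
      commutes' := fun c => by
        have h := hφ1 (algebraMap k (c2_K0 k) c)
        have e : algebraMap k (c2_E1 k M) c =
            algebraMap (c2_K0 k) (c2_E1 k M) (algebraMap k (c2_K0 k) c) := rfl
        show φ (algebraMap k (c2_E1 k M) c) = algebraMap k Ω c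
        rw [e, h]
        show ι (c2_V k (p * M) (algebraMap k (LaurentSeries k) c)) = _
        rw [AlgHom.commutes, AlgHom.commutes] } with hψ
  have hψφ : ∀ z, ψ z = φ z := fun _ => rfl
  have hchain := c2_chain ι ((c2_E1 k M).val.restrictScalars k) Subtype.val_injective ψ hp0 hM
    data (fun d hd => ⟨⟨_, IntermediateField.subset_adjoin (c2_K0 k) _ ⟨d, hd, rfl⟩⟩, rfl⟩)
    (fun a ha => by
      have hae : a = algebraMap (c2_K0 k) (c2_E1 k M) ⟨jqModC k, c2_J_mem_K0⟩ := Subtype.ext ha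
      rw [hψφ, hae, hφ1])
  -- everything lands in the range of `V_p`
  set T : Subfield Ω := (ι.toRingHom.comp (c2_V k p).toRingHom).fieldRange with hT
  have hall := c2_range_of_gens T φ
    (fun j₀ => ⟨c2_V k M (j₀ : LaurentSeries k), by
      rw [hφ1]
      show ι (c2_V k p (c2_V k M (j₀ : LaurentSeries k))) = ι (c2_V k (p * M) _)
      rw [c2_V_V hp0 hM]⟩)
    (fun s hs => by
      obtain ⟨d, hd, rfl⟩ := hs
      obtain ⟨c, n, hn0, hdvd, hc⟩ := hchain d hd
        ⟨_, IntermediateField.subset_adjoin (c2_K0 k) _ ⟨d, hd, rfl⟩⟩ rfl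
      obtain ⟨n₁, rfl⟩ : p ∣ n := (Dvd.intro _ rfl).trans hdvd
      have hn₁ : n₁ ≠ 0 := fun h => hn0 (by rw [h, mul_zero])
      refine ⟨c2_tw (c ^ p) (c2_V k n₁ (jqModC k)), ?_⟩
      rw [← hψφ, hc, ← c2_V_V hp0 hn₁]
      show ι (c2_V k p (c2_tw (c ^ p) (c2_V k n₁ (jqModC k)))) = _
      rw [c2_V_tw hp0 (rfl : c ^ p = c ^ p)])
  obtain ⟨f, hf⟩ := hall ⟨_, hx⟩
  rw [hφ2] at hf
  have hf' : c2_V k p f = c2_V k M (jqModC k) := ι.toRingHom.injective hf
  have h6 := congrArg (fun g : LaurentSeries k => g.coeff (-(M : ℤ))) hf'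
  simp only [c2_V_J_coeff hM] at h6
  rw [c2_V_coeff_of_not_dvd hp0 f (by
    rw [Int.dvd_neg, Int.natCast_dvd_natCast]; exact hpM)] at h6
  exact zero_ne_one h6

end Lift

/-! ### bridge to `Base.lean` and the two interface statements -/

section Bridge

open IntermediateField

variable {k : Type*} [Field k]

theorem c2_V_eq_Vq (n : ℕ) (f : LaurentSeries k) : c2_V k n f = Vq k n f := by
  rcases eq_or_ne n 0 with rfl | hn
  · rw [Vq_zero, c2_V, dif_pos rfl]
    rfl
  · haveI : NeZero n := ⟨hn⟩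
    rw [c2_V_eq, Vq_apply]

theorem c2_tw_eq_tw (c : kˣ) (f : LaurentSeries k) : c2_tw c f = tw c f := by
  ext n
  rfl

theorem c2_gens_eq (M : ℕ) : c2_gens k M = FbarGens k M := by
  ext x
  constructor
  · rintro ⟨d, hd, rfl⟩
    exact ⟨d, hd, c2_V_eq_Vq d _⟩
  · rintro ⟨d, hd, rfl⟩
    exact ⟨d, hd, (c2_V_eq_Vq d _).symm⟩

theorem c2_Fbar_le_E1 (M : ℕ) : Fbar k M ≤ (c2_E1 k M).restrictScalars k := by
  rw [Fbar, IntermediateField.adjoin_le_iff, ← c2_gens_eq]
  exact IntermediateField.subset_adjoin (c2_K0 k) _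

/-- for an intermediate field `E ∋ J` with `x = V_p J ∉ E`: `[E(x) : E] = p + 1` -/
theorem c2_relrank_sup {p : ℕ} (hp : p.Prime) (D : C2Rk k p)
    (E : IntermediateField k (LaurentSeries k)) (hJ : jqModC k ∈ E)
    (hx : c2_V k p (jqModC k) ∉ E) :
    E.relrank (E ⊔ k⟮c2_V k p (jqModC k)⟯) = p + 1 := by
  obtain ⟨hint, hdeg⟩ := (c2_dichotomy hp D E hJ).resolve_left hx
  have hle : E ≤ E ⊔ k⟮c2_V k p (jqModC k)⟯ := le_sup_left
  have hext : extendScalars hle = IntermediateField.adjoin E {c2_V k p (jqModC k)} := by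
    apply IntermediateField.restrictScalars_injective k
    rw [extendScalars_restrictScalars, restrictScalars_adjoin_eq_sup]
  rw [relrank_eq_rank_of_le hle, hext]
  haveI : FiniteDimensional E (IntermediateField.adjoin E {c2_V k p (jqModC k)}) :=
    IntermediateField.adjoin.finiteDimensional hint
  rw [← Module.finrank_eq_rank, IntermediateField.adjoin.finrank hint, hdeg]
  push_cast
  rfl

end Bridge

section Final

open IntermediateField

variable {k : Type} [Field k]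

/-- the root factorisation extracted from `PhiData` -/
def c2_ofPhiData {p : ℕ} (D : PhiData k p) : C2Rk k p where
  Φ := D.Φ
  monic := D.monic
  natDegree_eq := D.natDegree_eq
  ζ := D.ζ
  prim := D.prim
  fac := by
    have h := D.roots
    simp only [c2_V_eq_Vq, c2_tw_eq_tw]
    exact h

/-- **(S1)** `[k(J, V_p J) : k(J)] = p + 1`. -/
theorem c2_relrank_K0 {k : Type} [Field k] {p : ℕ} (hp : p.Prime) (D : PhiData k p)
    (hP1 : Vq k p (jqModC k) ∉ K0 k) :
    (K0 k).relrank (K0 k ⊔ k⟮Vq k p (jqModC k)⟯) = p + 1 := by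
  have h := c2_relrank_sup hp (c2_ofPhiData D) (K0 k) c2_J_mem_K0
    (by rw [c2_V_eq_Vq]; exact hP1)
  rwa [c2_V_eq_Vq] at h

/-- `V_p J ∉ F̄_M` for `p ∤ M`. -/
theorem c2_not_mem_Fbar [IsAlgClosed k] {p : ℕ} (hp : p.Prime) (D : PhiData k p)
    (hP1 : Vq k p (jqModC k) ∉ K0 k) (M : ℕ) (hM : M ≠ 0) (hpM : ¬ p ∣ M)
    (hΦ : ∀ r : ℕ, r.Prime → r ∣ M → Nonempty (PhiData k r)) :
    Vq k p (jqModC k) ∉ Fbar k M := by
  intro hmem
  have h := c2_not_mem_aux
    (IsScalarTower.toAlgHom k (LaurentSeries k) (AlgebraicClosure (LaurentSeries k)))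
    hp hM hpM (c2_ofPhiData D) (fun r hr hrM => c2_ofPhiData (hΦ r hr hrM).some)
    (by rw [c2_V_eq_Vq]; exact hP1)
  apply h
  rw [c2_V_eq_Vq]
  exact c2_Fbar_le_E1 M hmem

/-- **(S×(p+1))** for `p ∤ M`: `(p + 1) [F̄_M : k(J)] ≤ [F̄_{Mp} : k(J)]`. -/
theorem c2_step_coprime {k : Type} [Field k] [IsAlgClosed k] {p : ℕ} (hp : p.Prime)
    (D : PhiData k p) (hP1 : Vq k p (jqModC k) ∉ K0 k) (M : ℕ) (hM : M ≠ 0) (hpM : ¬ p ∣ M)
    (hΦ : ∀ r : ℕ, r.Prime → r ∣ M → Nonempty (PhiData k r)) :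
    ((p + 1 : ℕ) : Cardinal) * (K0 k).relrank (Fbar k M) ≤
      (K0 k).relrank (Fbar k (M * p)) := by
  have hx : Vq k p (jqModC k) ∉ Fbar k M := c2_not_mem_Fbar hp D hP1 M hM hpM hΦ
  have h1 : (Fbar k M).relrank (Fbar k M ⊔ k⟮Vq k p (jqModC k)⟯) = p + 1 := by
    have h := c2_relrank_sup hp (c2_ofPhiData D) (Fbar k M) (J_mem_Fbar M)
      (by rw [c2_V_eq_Vq]; exact hx)
    rwa [c2_V_eq_Vq] at h
  have hle1 : Fbar k M ≤ Fbar k M ⊔ k⟮Vq k p (jqModC k)⟯ := le_sup_left
  have hle2 : Fbar k M ⊔ k⟮Vq k p (jqModC k)⟯ ≤ Fbar k (M * p) := by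
    refine sup_le (Fbar_mono (Dvd.intro _ rfl)) ?_
    rw [IntermediateField.adjoin_simple_le_iff]
    exact Vq_mem_Fbar (Dvd.intro_left _ rfl)
  have h2 := relrank_mul_relrank hle1 hle2
  have h3 := relrank_mul_relrank (K0_le_Fbar (k := k) M) (hle1.trans hle2)
  have hpos : (1 : Cardinal) ≤
      (Fbar k M ⊔ k⟮Vq k p (jqModC k)⟯).relrank (Fbar k (M * p)) := by
    rw [Cardinal.one_le_iff_ne_zero, relrank_eq_rank_of_le hle2]
    exact (rank_pos).ne'
  rw [← h3, ← h2, h1, mul_comm]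
  gcongr
  calc ((p + 1 : ℕ) : Cardinal) = (p + 1 : Cardinal) * 1 := by push_cast; rw [mul_one]
    _ ≤ _ := by gcongr

end Final

end Fermat.Agent.S28Lib
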