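/-
S28, chunk A2 (helper5): the `q`-expansion dictionary in the variable `t = q^(1/p)`.
* `qx28_cuspLaurent_of_isWH` : a weakly holomorphic function on `Γ₀(N)` with `q`-expansion `φ`
  has `q_n`-Laurent expansion `φ(t^n)`;
* `qx28_cuspLaurent_jAn`, `qx28_cuspLaurent_jLvl` : `j(z) ↦ J(t^n)`, `j(dz) ↦ J(t^(nd))`;
* `qx28_cuspLaurent_jHecke` : `j((z+b)/p) ↦ J(ζ_p^b t)`.
-/
import Fermat.Agent.Lib.S24.CuspExp
import Fermat.Agent.Lib.S24.WHGen
import Fermat.Agent.Lib.S28.PhiC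

set_option autoImplicit false

namespace Fermat.Agent.S28Lib

open UpperHalfPlane ModularForm CongruenceSubgroup MatrixGroups Filter
open scoped Manifold Topology
open Fermat.Agent.LibS23 Fermat.Agent.S20Lib Fermat.Agent.S24Lib ModularCurve

local notation "𝕢" => Function.Periodic.qParam
local notation "Δf" => (ModularForm.discriminant : ℍ → ℂ)

/-- the `q_N`-expansion of a `1`-periodic function is obtained by `q ↦ q^N` -/
theorem qx28_ofPS_qExpansion {F : ℍ → ℂ} (hF : QExp F) (N : ℕ) [NeZero N] :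
    HahnSeries.ofPowerSeries ℤ ℂ (qExpansion (N : ℝ) F)
      = qExpand ℂ N (HahnSeries.ofPowerSeries ℤ ℂ (qx F)) := by
  have hN : N ≠ 0 := NeZero.ne N
  have hNpos : 0 < N := Nat.pos_of_ne_zero hN
  ext k
  rcases lt_or_ge k 0 with hk | hk
  · rw [ofPowerSeries_coeff_of_neg _ hk]
    by_cases hdk : (N : ℤ) ∣ k
    · obtain ⟨m, rfl⟩ := hdk
      have hm : m < 0 := by
        by_contra hm
        rw [not_lt] at hm
        have : 0 ≤ (N : ℤ) * m := mul_nonneg (by positivity) hm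
        omega
      rw [qExpand_coeff_mul, ofPowerSeries_coeff_of_neg _ hm]
    · rw [qExpand_coeff_of_not_dvd _ _ hdk]
  · lift k to ℕ using hk
    rw [HahnSeries.ofPowerSeries_apply_coeff, CuspQExp.coeff_of_qExp hF]
    split_ifs with h
    · obtain ⟨m, rfl⟩ := h
      rw [Nat.mul_div_cancel_left m hNpos]
      push_cast
      rw [qExpand_coeff_mul, HahnSeries.ofPowerSeries_apply_coeff]
    · rw [qExpand_coeff_of_not_dvd]
      exact fun h' => h (Int.natCast_dvd_natCast.mp h')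

theorem qx28_cuspD (N : ℕ) [NeZero N] : cuspD N = qExpand ℂ N whD :=
  qx28_ofPS_qExpansion QExp.discriminant N

/-- weakly holomorphic functions on `Γ₀(N)` have `q_n`-Laurent expansions for every `n` -/
theorem qx28_cuspMer_of_isWH {N : ℕ} [NeZero N] {h : ℍ → ℂ} {φ : LaurentSeries ℂ}
    (H : IsWH N h φ) (n : ℕ) [NeZero n] : CuspMer n h := by
  have hmd := H.mdiff
  obtain ⟨M, G, hG, hq⟩ := H
  have hQG : QExp ⇑G := QExp.of_gamma0 G
  have hfun : Δf ^ M * h = ⇑G := by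
    funext z
    simp only [Pi.mul_apply, Pi.pow_apply]
    rw [hG z]
    ring
  refine ⟨?_, hmd, ⟨M, ?_⟩⟩
  · intro w
    have h1 := (CuspQExp.of_qExp (N := n) hQG).1 w
    have h2 := (cuspLaurent_disc (N := n)).1 w
    simp only [Function.comp_apply] at h1 h2 ⊢
    have e : ∀ z : ℍ, h z = G z / Δf z ^ M := fun z => by
      rw [hG z, mul_div_assoc, div_self (pow_ne_zero M (discriminant_ne_zero z)), mul_one]
    rw [e, e, h1, h2]
  · rw [hfun]
    exact hQG.2.2

/-- the `q_n`-Laurent expansion of a weakly holomorphic function with `q`-expansion `φ` is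
`φ(t^n)` -/
theorem qx28_cuspLaurent_of_isWH {N : ℕ} [NeZero N] {h : ℍ → ℂ} {φ : LaurentSeries ℂ}
    (H : IsWH N h φ) (n : ℕ) [NeZero n] : cuspLaurent n h = qExpand ℂ n φ := by
  have hC := qx28_cuspMer_of_isWH H n
  obtain ⟨M, G, hG, hq⟩ := H
  have hQG : QExp ⇑G := QExp.of_gamma0 G
  have hfun : Δf ^ M * h = ⇑G := by
    funext z
    simp only [Pi.mul_apply, Pi.pow_apply]
    rw [hG z]
    ring
  have hb : IsBoundedAtImInfty (Δf ^ M * h) := by
    rw [hfun]
    exact hQG.2.2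
  have hs := cuspLaurent_spec hC hb
  rw [hfun, qx28_ofPS_qExpansion hQG n, hq, map_mul, map_pow] at hs
  change qExpand ℂ n φ * qExpand ℂ n whD ^ M = _ at hs
  rw [← qx28_cuspD] at hs
  exact (mul_right_cancel₀ (pow_ne_zero M (cuspD_ne_zero n)) hs).symm

theorem qx28_cuspMer_jLvl (d n : ℕ) [NeZero d] [NeZero n] : CuspMer n (jLvl d) :=
  qx28_cuspMer_of_isWH (isWH_jLvl (N := d) (dvd_refl d)) n

/-- `j(dz)` has `q_n`-expansion `J(t^(nd))` -/
theorem qx28_cuspLaurent_jLvl (d n : ℕ) [NeZero d] [NeZero n] :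
    cuspLaurent n (jLvl d) = qExpand ℂ n (qExpand ℂ d (jqModC ℂ)) := by
  rw [qx28_cuspLaurent_of_isWH (isWH_jLvl (N := d) (dvd_refl d)) n, coeffMap_Jgen]

/-- `j(z)` has `q_n`-expansion `J(t^n)` -/
theorem qx28_cuspLaurent_jAn (n : ℕ) [NeZero n] :
    cuspLaurent n jAn = qExpand ℂ n (jqModC ℂ) := by
  have h := qx28_cuspLaurent_jLvl 1 n
  rw [jLvl_one, qExpand_one_apply] at h
  exact h

/-! ### the inverse dilations `z ↦ (z + b) / p` -/

theorem qx28_hecke_smul_eq_ofComplex {p : ℕ} (hp : p ≠ 0) (b : ℕ) (z : ℍ) :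
    heckeMatrix p b • z = ofComplex (((z : ℂ) + b) / p) := by
  rw [← coe_heckeMatrix_smul hp b z, ofComplex_apply]

theorem qx28_hecke_vadd {p : ℕ} (hp : p ≠ 0) (b : ℕ) (z : ℍ) :
    heckeMatrix p (b + 1) • z = heckeMatrix p b • ((1 : ℝ) +ᵥ z) := by
  apply UpperHalfPlane.ext
  rw [coe_heckeMatrix_smul hp, coe_heckeMatrix_smul hp, UpperHalfPlane.coe_vadd]
  push_cast
  ring

theorem qx28_periodic_hecke {F : ℍ → ℂ} (hF : Function.Periodic (F ∘ ofComplex) 1) {p : ℕ}
    (hp : p ≠ 0) (b : ℕ) :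
    Function.Periodic ((fun z => F (heckeMatrix p b • z)) ∘ ofComplex) (p : ℝ) := by
  have hp' : (p : ℂ) ≠ 0 := by exact_mod_cast hp
  intro w
  by_cases! hw : 0 < Complex.im w
  · have hw' : 0 < Complex.im (w + ((p : ℝ) : ℂ)) := by simp [hw]
    simp only [Function.comp_apply]
    rw [qx28_hecke_smul_eq_ofComplex hp, qx28_hecke_smul_eq_ofComplex hp,
      ofComplex_apply_of_im_pos hw', ofComplex_apply_of_im_pos hw]
    have h1 := hF ((w + b) / p)
    simp only [Function.comp_apply] at h1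
    rw [← h1]
    congr 2
    simp only [Complex.ofReal_natCast]
    field_simp
    ring
  · have hw2 : Complex.im (w + ((p : ℝ) : ℂ)) ≤ 0 := by simpa using hw
    simp only [Function.comp_apply]
    rw [ofComplex_apply_of_im_nonpos hw2, ofComplex_apply_of_im_nonpos hw]

theorem qx28_hecke_eq_slash (F : ℍ → ℂ) {p : ℕ} (hp : p ≠ 0) (b : ℕ) :
    (fun z => F (heckeMatrix p b • z)) = (p : ℂ) • (F ∣[(0 : ℤ)] heckeMatrix p b) := by
  funext z
  rw [Pi.smul_apply, slash_heckeMatrix_apply 0 hp, smul_eq_mul, ← mul_assoc,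
    mul_inv_cancel₀ (by exact_mod_cast hp : (p : ℂ) ≠ 0), one_mul]

theorem qx28_cuspQExp_hecke {F : ℍ → ℂ} (hF : QExp F) {p : ℕ} [NeZero p] (b : ℕ) :
    CuspQExp p (fun z => F (heckeMatrix p b • z)) := by
  have hp : p ≠ 0 := NeZero.ne p
  refine ⟨qx28_periodic_hecke hF.1 hp b, ?_, ?_⟩
  · rw [qx28_hecke_eq_slash F hp b]
    exact (hF.2.1.slash 0 _).const_smul _
  · rw [qx28_hecke_eq_slash F hp b]
    have h10 : (heckeMatrix p b) 1 0 = 0 := by
      have := val_heckeMatrix (p := p) hp b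
      have h2 := congrFun (congrFun this 1) 0
      simpa using h2
    exact (IsBoundedAtImInfty.slash 0 h10 hF.2.2).const_smul_left _

/-- the `q_p`-expansion of `z ↦ F (z / p)` is the `q`-expansion of `F` -/
theorem qx28_qExpansion_hecke {F : ℍ → ℂ} (hF : QExp F) {p : ℕ} [NeZero p] :
    qExpansion (p : ℝ) (fun z => F (heckeMatrix p 0 • z)) = qx F := by
  have hp : p ≠ 0 := NeZero.ne p
  have hp' : (p : ℂ) ≠ 0 := by exact_mod_cast hp
  ext n
  refine (qx28_cuspQExp_hecke hF 0).coeff_unique (c := fun n => (qx F).coeff n) (fun z => ?_) n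
  have hs := hasSum_qExpansion one_pos hF.1 hF.2.1 hF.2.2 (heckeMatrix p 0 • z)
  have hq : 𝕢 1 ((heckeMatrix p 0 • z : ℍ) : ℂ) = 𝕢 (p : ℝ) (z : ℂ) := by
    rw [coe_heckeMatrix_smul hp]
    simp only [Function.Periodic.qParam]
    congr 1
    push_cast
    field_simp
    ring
  rw [hq] at hs
  exact hs

theorem qx28_cuspMer_jHecke (p : ℕ) [NeZero p] (b : ℕ) :
    CuspMer p (fun z => jAn (heckeMatrix p b • z)) := by
  have hp : p ≠ 0 := NeZero.ne p
  have hp0 : 0 < p := Nat.pos_of_ne_zero hp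
  have hpR : (0 : ℝ) < p := Nat.cast_pos.mpr hp0
  refine ⟨qx28_periodic_hecke ?_ hp b, ?_, ⟨1, ?_⟩⟩
  · have := (cuspMer_jAn (N := 1)).1
    simpa using this
  · rw [qx28_hecke_eq_slash jAn hp b]
    exact (jAn_mdiff.slash 0 _).const_smul _
  · have h := bdd_discriminant_pow_mul_jAn_upper 1 (b : ℝ) (p : ℝ) one_pos hpR 1 (by
      rw [Nat.cast_one, div_le_one hpR]
      exact_mod_cast hp0)
    rw [← phiC_heckeMatrix_eq_upper hp0] at h
    exact h

/-- `j(z/p)` has `q_p`-expansion `J(t)` -/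
theorem qx28_cuspLaurent_jHecke_zero (p : ℕ) [NeZero p] :
    cuspLaurent p (fun z => jAn (heckeMatrix p 0 • z)) = jqModC ℂ := by
  have hE4 : QExp (⇑E₄ : ℍ → ℂ) := simple_isLO_E4.qexp
  have hE := qx28_cuspQExp_hecke (p := p) hE4 0
  have hD := qx28_cuspQExp_hecke (p := p) QExp.discriminant 0
  have hJ := qx28_cuspMer_jHecke p 0
  have hfun : (fun z => jAn (heckeMatrix p 0 • z)) * (fun z => Δf (heckeMatrix p 0 • z))
      = (fun z => E₄ (heckeMatrix p 0 • z))
        * ((fun z => E₄ (heckeMatrix p 0 • z)) * (fun z => E₄ (heckeMatrix p 0 • z))) := by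
    funext z
    simp only [Pi.mul_apply]
    rw [jAn_mul_discriminant]
    ring
  have h1 := congrArg (cuspLaurent p) hfun
  rw [cuspLaurent_mul hJ (CuspMer.of_cuspQExp hD),
    cuspLaurent_mul (CuspMer.of_cuspQExp hE) (CuspMer.of_cuspQExp (hE.mul hE)),
    cuspLaurent_mul (CuspMer.of_cuspQExp hE) (CuspMer.of_cuspQExp hE),
    cuspLaurent_of_cuspQExp hD, cuspLaurent_of_cuspQExp hE, qx28_qExpansion_hecke hE4,
    qx28_qExpansion_hecke QExp.discriminant] at h1
  have h2 := whBridge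
  apply mul_right_cancel₀ whD_ne_zero
  rw [← h2, whD, h1]
  ring

theorem qx28_twist_twist (a b : ℂ) (ha : a ≠ 0) (hb : b ≠ 0) (x : LaurentSeries ℂ) :
    cuspF_twist a ha (cuspF_twist b hb x) = cuspF_twist (a * b) (mul_ne_zero ha hb) x := by
  ext n
  simp only [cuspF_twist_coeff]
  rw [mul_zpow]
  ring

/-- `j((z+b)/p)` has `q_p`-expansion `J(ζ_p^b t)` -/
theorem qx28_cuspLaurent_jHecke (p : ℕ) [NeZero p] (b : ℕ) :
    cuspLaurent p (fun z => jAn (heckeMatrix p b • z))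
      = cuspF_twist (cuspF_zeta p ^ b) (pow_ne_zero b (cuspF_zeta_ne_zero p)) (jqModC ℂ) := by
  induction b with
  | zero =>
    rw [qx28_cuspLaurent_jHecke_zero]
    ext n
    rw [cuspF_twist_coeff]
    simp
  | succ b ih =>
    rw [cuspLaurent_vadd (qx28_cuspMer_jHecke p b) (qx28_cuspMer_jHecke p (b + 1))
      (fun z => by rw [qx28_hecke_vadd (NeZero.ne p)]), ih]
    ext n
    simp only [cuspF_twist_coeff]
    rw [pow_succ, mul_zpow]
    ring

end Fermat.Agent.S28Lib
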