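/-
S28, chunk A2 (helper5): the formal root factorisation (R) of the modular polynomial `phiC p`
over `ℂ((t))`, `t = q^(1/p)`:
`Φ_p(X, J(t^p)) = (X - J(t^(p²))) ∏_{b<p} (X - J(ζ^b t))`.
-/
import Fermat.Agent.Lib.S28.QXDict
import Fermat.Agent.Lib.S28.Base

set_option autoImplicit false

namespace Fermat.Agent.S28Lib

open UpperHalfPlane ModularForm CongruenceSubgroup MatrixGroups Filter
open scoped Manifold Topology
open Fermat.Agent.LibS23 Fermat.Agent.S20Lib Fermat.Agent.S24Lib ModularCurve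
open Polynomial

/-- finite products of functions with `q_N`-Laurent expansions -/
theorem qx28_cuspMer_prod {N : ℕ} [NeZero N] {ι : Type*} (s : Finset ι) (g : ι → ℍ → ℂ)
    (hg : ∀ i ∈ s, CuspMer N (g i)) :
    CuspMer N (∏ i ∈ s, g i) ∧ cuspLaurent N (∏ i ∈ s, g i) = ∏ i ∈ s, cuspLaurent N (g i) := by
  classical
  induction s using Finset.induction_on with
  | empty =>
    simp only [Finset.prod_empty]
    refine ⟨CuspMer.const 1, ?_⟩
    rw [show (1 : ℍ → ℂ) = fun _ => (1 : ℂ) from rfl, cuspLaurent_const, map_one]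
  | insert a s ha ih =>
    have h1 := hg a (Finset.mem_insert_self a s)
    have h2 := ih (fun i hi => hg i (Finset.mem_insert_of_mem hi))
    rw [Finset.prod_insert ha, Finset.prod_insert ha]
    exact ⟨h1.mul h2.1, by rw [cuspLaurent_mul h1 h2.1, h2.2]⟩

theorem qx28_cuspMer_const_sub {N : ℕ} [NeZero N] {F : ℍ → ℂ} (hF : CuspMer N F) (c : ℂ) :
    CuspMer N (fun z => c - F z) ∧
      cuspLaurent N (fun z => c - F z) = HahnSeries.C c - cuspLaurent N F := by
  have e : (fun z => c - F z) = (fun _ : ℍ => c) + (fun _ : ℍ => (-1 : ℂ)) * F := by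
    funext z
    simp only [Pi.add_apply, Pi.mul_apply]
    ring
  have h1 : CuspMer N ((fun _ : ℍ => (-1 : ℂ)) * F) := (CuspMer.const (-1)).mul hF
  rw [e]
  refine ⟨(CuspMer.const c).add h1, ?_⟩
  rw [cuspLaurent_add (CuspMer.const c) h1, cuspLaurent_mul (CuspMer.const (-1)) hF,
    cuspLaurent_const, cuspLaurent_const, map_neg, map_one]
  ring

/-- polynomials in a function with a `q_N`-Laurent expansion -/
theorem qx28_cuspMer_poly {N : ℕ} [NeZero N] {F : ℍ → ℂ} (hF : CuspMer N F) (P : Polynomial ℂ) :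
    CuspMer N (fun z => P.eval (F z)) ∧
      cuspLaurent N (fun z => P.eval (F z)) = Polynomial.aeval (cuspLaurent N F) P := by
  induction P using Polynomial.induction_on' with
  | add p q hp hq =>
    have e : (fun z => (p + q).eval (F z)) = (fun z => p.eval (F z)) + (fun z => q.eval (F z)) := by
      funext z
      simp
    rw [e, map_add]
    exact ⟨hp.1.add hq.1, by rw [cuspLaurent_add hp.1 hq.1, hp.2, hq.2]⟩
  | monomial n a =>
    have hpr := qx28_cuspMer_prod (N := N) (Finset.range n) (fun _ => F) (fun _ _ => hF)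
    have e : (fun z => (Polynomial.monomial n a).eval (F z))
        = (fun _ : ℍ => a) * ∏ _i ∈ Finset.range n, F := by
      funext z
      simp [Finset.prod_const]
    rw [e]
    refine ⟨(CuspMer.const a).mul hpr.1, ?_⟩
    rw [cuspLaurent_mul (CuspMer.const a) hpr.1, hpr.2, cuspLaurent_const, Finset.prod_const,
      Finset.card_range, Polynomial.aeval_monomial, algebraMap_eq_C]

theorem qx28_twist_congr {a b : ℂ} (h : a = b) (ha : a ≠ 0) (hb : b ≠ 0) (x : LaurentSeries ℂ) :
    cuspF_twist a ha x = cuspF_twist b hb x := by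
  subst h
  rfl

/-- the twist of `Base.lean` agrees with the complex one -/
theorem qx28_tw_eq (c : ℂˣ) (a : LaurentSeries ℂ) : tw c a = cuspF_twist (c : ℂ) c.ne_zero a := by
  ext n
  rw [tw_coeff, cuspF_twist_coeff, Units.val_zpow_eq_zpow_val]

/-- **(R) over `ℂ`**: `Φ_p(X, J(t^p)) = (X - J(t^(p²))) ∏_{b<p} (X - J(ζ^b t))`. -/
theorem qx28_roots_C (p : ℕ) [Fact p.Prime] (ζ : ℂˣ) (hζ : (ζ : ℂ) = cuspF_zeta p) :
    (phiC p).map (evY (Vq ℂ p (jqModC ℂ))) =
      (X - C (Vq ℂ (p * p) (jqModC ℂ))) *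
        ∏ b ∈ Finset.range p, (X - C (tw (ζ ^ b) (jqModC ℂ))) := by
  have : NeZero p := ⟨(Fact.out : p.Prime).ne_zero⟩
  have : NeZero (p * p) := ⟨Nat.mul_ne_zero (NeZero.ne p) (NeZero.ne p)⟩
  apply Polynomial.eq_of_infinite_eval_eq
  refine Set.Infinite.mono ?_ (Set.infinite_range_of_injective
    (HahnSeries.C_injective (Γ := ℤ) (R := ℂ)))
  rintro _ ⟨x₀, rfl⟩
  change Polynomial.eval _ _ = Polynomial.eval _ _
  -- the two functions of `z`
  set Q : Polynomial ℂ := (phiC p).eval (C x₀) with hQ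
  have hJ : CuspMer p jAn := cuspMer_jAn
  have hL := qx28_cuspMer_poly hJ Q
  have hInf := qx28_cuspMer_const_sub (qx28_cuspMer_jLvl p p) x₀
  have hFin : ∀ b ∈ Finset.range p, CuspMer p (fun z => x₀ - jAn (heckeMatrix p b • z)) :=
    fun b _ => (qx28_cuspMer_const_sub (qx28_cuspMer_jHecke p b) x₀).1
  have hPr := qx28_cuspMer_prod (N := p) (Finset.range p)
    (fun b => fun z => x₀ - jAn (heckeMatrix p b • z)) hFin
  have hfun : (fun z => Q.eval (jAn z))
      = (fun z => x₀ - jLvl p z)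
        * ∏ b ∈ Finset.range p, (fun z => x₀ - jAn (heckeMatrix p b • z)) := by
    funext z
    have h1 := congrArg (Polynomial.eval x₀) (phiC_map_eval p z)
    have h2 : ((phiC p).map (Polynomial.evalRingHom (jAn z))).eval x₀ = Q.eval (jAn z) := by
      have := Polynomial.eval_map_apply (p := phiC p) (Polynomial.evalRingHom (jAn z)) (C x₀)
      simpa using this
    rw [h2] at h1
    rw [h1, Pi.mul_apply, Finset.prod_apply, jLvl]
    simp [Polynomial.eval_prod]
  have h3 := congrArg (cuspLaurent p) hfun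
  rw [hL.2, cuspLaurent_mul hInf.1 hPr.1, hInf.2, hPr.2, qx28_cuspLaurent_jAn,
    qx28_cuspLaurent_jLvl] at h3
  -- left side
  have hl : ((phiC p).map (evY (Vq ℂ p (jqModC ℂ)))).eval (HahnSeries.C x₀)
      = Polynomial.aeval (qExpand ℂ p (jqModC ℂ)) Q := by
    have := Polynomial.eval_map_apply (p := phiC p) (evY (Vq ℂ p (jqModC ℂ))) (C x₀)
    rw [evY_C, algebraMap_eq_C] at this
    rw [this, hQ, evY_apply, Vq_apply]
  rw [hl, h3, Polynomial.eval_mul, Polynomial.eval_sub, Polynomial.eval_X, Polynomial.eval_C,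
    Polynomial.eval_prod, Vq_apply, qExpand_qExpand]
  congr 1
  refine Finset.prod_congr rfl fun b _ => ?_
  rw [Polynomial.eval_sub, Polynomial.eval_X, Polynomial.eval_C,
    (qx28_cuspMer_const_sub (qx28_cuspMer_jHecke p b) x₀).2, qx28_cuspLaurent_jHecke, qx28_tw_eq]
  congr 1
  exact qx28_twist_congr (by rw [Units.val_pow_eq_pow_val, hζ]) _ _ _

end Fermat.Agent.S28Lib
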