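/-
S28, chunk A2 (helper5): integrality of the modular polynomial `phiC p` and the root
factorisation (R) over `𝓞 = integralClosure ℤ ℂ`.
* `qx28_evY_coeff_top`, `qx28_evY_coeff_of_lt` : triangularity of `Q ↦ Q(J(q^m))`;
* `qx28_descend` : `P(J(q^m)) ∈ R((q))` implies `P ∈ R[Y]`;
* `qx28_main` : `phiC p` comes from `Φo ∈ 𝓞[Y][X]`, (R) holds over `𝓞`, and `Φo(c, Y)` has a
  unit leading coefficient for every constant `c`.
-/
import Fermat.Agent.Lib.S28.QXRoots

set_option autoImplicit false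

namespace Fermat.Agent.S28Lib

open ModularCurve Polynomial

/-! ### low coefficients of products -/

section low

variable {R : Type*} [CommRing R]

/-- the lowest coefficient of a product -/
theorem qx28_coeff_mul_low {x y : LaurentSeries R} {a b : ℤ} (hx : ∀ k < a, x.coeff k = 0)
    (hy : ∀ k < b, y.coeff k = 0) :
    (x * y).coeff (a + b) = x.coeff a * y.coeff b ∧ ∀ k < a + b, (x * y).coeff k = 0 := by
  have hxs : ∀ i ∈ x.support, a ≤ i := fun i hi => by
    by_contra h
    exact hi (hx i (not_le.mp h))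
  have hys : ∀ i ∈ y.support, b ≤ i := fun i hi => by
    by_contra h
    exact hi (hy i (not_le.mp h))
  constructor
  · rw [HahnSeries.coeff_mul]
    rw [Finset.sum_eq_single (a, b)]
    · rintro ⟨i, j⟩ hij hne
      rw [Finset.mem_antidiagonal] at hij
      exfalso
      apply hne
      have h1 := hxs i hij.1
      have h2 := hys j hij.2.1
      have h3 : i + j = a + b := hij.2.2
      have hi : i = a := by omega
      have hj : j = b := by omega
      rw [hi, hj]
    · intro hnot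
      rw [Finset.mem_antidiagonal] at hnot
      by_contra h
      apply hnot
      refine ⟨?_, ?_, rfl⟩
      · exact fun h0 => h (by rw [show x.coeff a = 0 from h0, zero_mul])
      · exact fun h0 => h (by rw [show y.coeff b = 0 from h0, mul_zero])
  · intro k hk
    rw [HahnSeries.coeff_mul]
    apply Finset.sum_eq_zero
    rintro ⟨i, j⟩ hij
    rw [Finset.mem_antidiagonal] at hij
    exfalso
    have h1 := hxs i hij.1
    have h2 := hys j hij.2.1
    have h3 : i + j = k := hij.2.2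
    omega

/-- the lowest coefficient of a finite product -/
theorem qx28_coeff_prod_low {ι : Type*} (s : Finset ι) (x : ι → LaurentSeries R) (a : ι → ℤ)
    (hx : ∀ i ∈ s, ∀ k < a i, (x i).coeff k = 0) :
    (∏ i ∈ s, x i).coeff (∑ i ∈ s, a i) = ∏ i ∈ s, (x i).coeff (a i) ∧
      ∀ k < ∑ i ∈ s, a i, (∏ i ∈ s, x i).coeff k = 0 := by
  classical
  induction s using Finset.induction_on with
  | empty =>
    simp only [Finset.prod_empty, Finset.sum_empty]
    refine ⟨by simp, fun k hk => ?_⟩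
    rw [HahnSeries.coeff_one, if_neg hk.ne]
  | insert i s hi ih =>
    have h1 := hx i (Finset.mem_insert_self i s)
    have h2 := ih (fun j hj => hx j (Finset.mem_insert_of_mem hj))
    have h3 := qx28_coeff_mul_low h1 h2.2
    rw [Finset.prod_insert hi, Finset.sum_insert hi, Finset.prod_insert hi, ← h2.1]
    exact h3

end low

/-! ### triangularity of `Q ↦ Q(J(q^m))` -/

section tri

variable {R : Type*} [CommRing R]

theorem qx28_VJ_pow_coeff_self {m : ℕ} (hm : m ≠ 0) (i : ℕ) :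
    ((Vq R m (jqModC R)) ^ i).coeff (-((m : ℤ) * i)) = 1 := by
  rw [← map_pow, show -((m : ℤ) * i) = (m : ℤ) * (-(i : ℤ)) by ring, Vq_coeff_mul hm,
    coeff_jqModC_pow_self]

theorem qx28_VJ_pow_coeff_of_lt {m : ℕ} (hm : m ≠ 0) (i : ℕ) {k : ℤ}
    (hk : k < -((m : ℤ) * i)) : ((Vq R m (jqModC R)) ^ i).coeff k = 0 := by
  rw [← map_pow]
  by_cases hd : (m : ℤ) ∣ k
  · obtain ⟨k', rfl⟩ := hd
    rw [Vq_coeff_mul hm]
    apply coeff_jqModC_pow_of_lt
    have hm' : (0 : ℤ) < m := by exact_mod_cast Nat.pos_of_ne_zero hm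
    by_contra h
    rw [not_lt] at h
    have : (m : ℤ) * (-(i : ℤ)) ≤ (m : ℤ) * k' := mul_le_mul_of_nonneg_left h hm'.le
    linarith
  · exact Vq_coeff_of_not_dvd hm _ hd

theorem qx28_evY_coeff_top {m : ℕ} (hm : m ≠ 0) (Q : Polynomial R) {d : ℕ}
    (hd : Q.natDegree ≤ d) :
    (evY (Vq R m (jqModC R)) Q).coeff (-((m : ℤ) * d)) = Q.coeff d := by
  have hm' : (0 : ℤ) < m := by exact_mod_cast Nat.pos_of_ne_zero hm
  rw [evY_apply, Polynomial.aeval_eq_sum_range' (Nat.lt_succ_of_le hd), HahnSeries.coeff_sum,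
    Finset.sum_eq_single d]
  · rw [Algebra.smul_def, algebraMap_eq_C, HahnSeries.C_apply, HahnSeries.coeff_single_zero_mul,
      qx28_VJ_pow_coeff_self hm, mul_one]
  · intro i hi hne
    rw [Finset.mem_range] at hi
    have hlt : i < d := by omega
    have hlt' : (i : ℤ) < d := by exact_mod_cast hlt
    rw [Algebra.smul_def, algebraMap_eq_C, HahnSeries.C_apply, HahnSeries.coeff_single_zero_mul,
      qx28_VJ_pow_coeff_of_lt hm i (by nlinarith), mul_zero]
  · intro h
    exact absurd (Finset.self_mem_range_succ d) h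

theorem qx28_evY_coeff_of_lt {m : ℕ} (hm : m ≠ 0) (Q : Polynomial R) {d : ℕ}
    (hd : Q.natDegree ≤ d) {k : ℤ} (hk : k < -((m : ℤ) * d)) :
    (evY (Vq R m (jqModC R)) Q).coeff k = 0 := by
  have hm' : (0 : ℤ) < m := by exact_mod_cast Nat.pos_of_ne_zero hm
  rw [evY_apply, Polynomial.aeval_eq_sum_range' (Nat.lt_succ_of_le hd), HahnSeries.coeff_sum]
  apply Finset.sum_eq_zero
  intro i hi
  rw [Finset.mem_range] at hi
  have hle : (i : ℤ) ≤ d := by exact_mod_cast Nat.lt_succ_iff.mp hi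
  rw [Algebra.smul_def, algebraMap_eq_C, HahnSeries.C_apply, HahnSeries.coeff_single_zero_mul,
    qx28_VJ_pow_coeff_of_lt hm i (by nlinarith), mul_zero]

/-- `coeffMap` commutes with the evaluation of the inner variable -/
theorem qx28_coeffMap_evY {A : Type*} [CommRing A] (f : R →+* A) (y : LaurentSeries R) :
    (coeffMap f).comp (evY y) = (evY (coeffMap f y)).comp (Polynomial.mapRingHom f) := by
  apply Polynomial.ringHom_ext
  · intro a
    simp only [RingHom.comp_apply, Polynomial.coe_mapRingHom, Polynomial.map_C, evY_C,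
      algebraMap_eq_C, HahnSeries.C_apply, coeffMap_single]
  · simp only [RingHom.comp_apply, Polynomial.coe_mapRingHom, Polynomial.map_X, evY_X]

theorem qx28_coeffMap_injective {A : Type*} [CommRing A] {f : R →+* A}
    (hf : Function.Injective f) : Function.Injective (coeffMap f) := by
  intro x y h
  ext k
  apply hf
  rw [← coeffMap_coeff, ← coeffMap_coeff, h]

/-- **descent**: if `P(J(q^m))` has coefficients in the image of `f`, so has `P`. -/
theorem qx28_descend {A : Type*} [CommRing A] (f : R →+* A) {m : ℕ} (hm : m ≠ 0) :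
    ∀ (n : ℕ) (P : Polynomial A), P.natDegree < n →
      evY (Vq A m (jqModC A)) P ∈ Set.range (coeffMap f) →
      ∃ Po : Polynomial R, Po.map f = P := by
  intro n
  induction n with
  | zero => intro P hP; exact absurd hP (Nat.not_lt_zero _)
  | succ n ih =>
    intro P hP ⟨w, hw⟩
    -- the leading coefficient
    have hlead : P.leadingCoeff = f (w.coeff (-((m : ℤ) * P.natDegree))) := by
      rw [← coeffMap_coeff, hw, qx28_evY_coeff_top hm P le_rfl]
      rfl
    set a := w.coeff (-((m : ℤ) * P.natDegree)) with ha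
    rcases Nat.eq_zero_or_pos P.natDegree with h0 | hpos
    · refine ⟨Polynomial.C a, ?_⟩
      rw [Polynomial.map_C, ← hlead, Polynomial.leadingCoeff, h0]
      exact (Polynomial.eq_C_of_natDegree_eq_zero h0).symm
    · have hdeg : P.eraseLead.natDegree < n := by
        have := Polynomial.eraseLead_natDegree_le P
        omega
      have hmem : evY (Vq A m (jqModC A)) P.eraseLead ∈ Set.range (coeffMap f) := by
        refine ⟨w - HahnSeries.C a * (Vq R m (jqModC R)) ^ P.natDegree, ?_⟩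
        have e : P.eraseLead = P - Polynomial.C P.leadingCoeff * X ^ P.natDegree := by
          rw [← Polynomial.self_sub_monomial_natDegree_leadingCoeff,
            Polynomial.C_mul_X_pow_eq_monomial]
        rw [e, map_sub, map_sub, map_mul, map_mul, map_pow, map_pow, hw, coeffMap_Vq,
          coeffMap_jqModC, evY_X, evY_C, algebraMap_eq_C, HahnSeries.C_apply, HahnSeries.C_apply,
          coeffMap_single, hlead]
      obtain ⟨Qo, hQo⟩ := ih P.eraseLead hdeg hmem
      refine ⟨Qo + Polynomial.monomial P.natDegree a, ?_⟩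
      rw [Polynomial.map_add, hQo, Polynomial.map_monomial, ← hlead]
      exact Polynomial.eraseLead_add_monomial_natDegree_leadingCoeff P

end tri

/-! ### the integral model of `phiC p` -/

section main

open Fermat.Agent.S24Lib

set_option quotPrecheck false in
local notation "𝓞" => ↥(integralClosure ℤ ℂ)

/-- `ζ_p = e^{2πi/p}` as a unit of `𝓞` -/
theorem qx28_exists_zeta (p : ℕ) [NeZero p] :
    ∃ ζ : 𝓞ˣ, algebraMap 𝓞 ℂ (ζ : 𝓞) = cuspF_zeta p ∧ IsPrimitiveRoot ζ p := by
  have hp : p ≠ 0 := NeZero.ne p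
  have hprim : IsPrimitiveRoot (cuspF_zeta p) p := Complex.isPrimitiveRoot_exp p hp
  have hint : IsIntegral ℤ (cuspF_zeta p) := hprim.isIntegral (Nat.pos_of_ne_zero hp)
  have hzp : (⟨cuspF_zeta p, hint⟩ : 𝓞) ^ p = 1 := by
    apply Subtype.ext
    rw [SubmonoidClass.coe_pow]
    exact hprim.pow_eq_one
  refine ⟨Units.ofPowEqOne _ p hzp hp, rfl, ?_⟩
  rw [← IsPrimitiveRoot.coe_units_iff, Units.val_ofPowEqOne]
  exact IsPrimitiveRoot.of_map_of_injective (f := algebraMap 𝓞 ℂ) hprim Subtype.val_injective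

/-- **A2, final form**: the modular polynomial `phiC p` has coefficients in
`𝓞 = integralClosure ℤ ℂ`; over `𝓞((t))` it factors as
`Φ(X, J(t^p)) = (X - J(t^(p²))) ∏_{b<p} (X - J(ζ^b t))`; and for every constant `c ∈ 𝓞` the
polynomial `Φ(c, Y) ∈ 𝓞[Y]` has degree `p + 1` and a unit leading coefficient. -/
theorem qx28_main (p : ℕ) [Fact p.Prime] :
    ∃ (Φo : Polynomial (Polynomial 𝓞)) (ζ : 𝓞ˣ),
      Φo.map (Polynomial.mapRingHom (algebraMap 𝓞 ℂ)) = phiC p ∧
      Φo.Monic ∧ Φo.natDegree = p + 1 ∧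
      IsPrimitiveRoot ζ p ∧
      Φo.map (evY (Vq 𝓞 p (jqModC 𝓞))) =
        (X - C (Vq 𝓞 (p * p) (jqModC 𝓞))) *
          ∏ b ∈ Finset.range p, (X - C (tw (ζ ^ b) (jqModC 𝓞))) ∧
      ∀ c : 𝓞, IsUnit (Φo.eval (C c)).leadingCoeff ∧ (Φo.eval (C c)).natDegree = p + 1 := by
  have hp : p ≠ 0 := (Fact.out : p.Prime).ne_zero
  have hpp : p * p ≠ 0 := Nat.mul_ne_zero hp hp
  have : NeZero p := ⟨hp⟩
  set ι : 𝓞 →+* ℂ := algebraMap 𝓞 ℂ with hι
  have hinj : Function.Injective ι := Subtype.val_injective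
  obtain ⟨ζ, hζ, hprim⟩ := qx28_exists_zeta p
  set ζC : ℂˣ := Units.map (ι : 𝓞 →* ℂ) ζ with hζC
  have hζC' : (ζC : ℂ) = cuspF_zeta p := hζ
  set RHSo : Polynomial (LaurentSeries 𝓞) := (X - C (Vq 𝓞 (p * p) (jqModC 𝓞))) *
    ∏ b ∈ Finset.range p, (X - C (tw (ζ ^ b) (jqModC 𝓞))) with hRHSo
  have hRmap : RHSo.map (coeffMap ι) = (X - C (Vq ℂ (p * p) (jqModC ℂ))) *
      ∏ b ∈ Finset.range p, (X - C (tw (ζC ^ b) (jqModC ℂ))) := by
    rw [hRHSo, Polynomial.map_mul, Polynomial.map_sub, Polynomial.map_X, Polynomial.map_C,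
      coeffMap_Vq, coeffMap_jqModC, Polynomial.map_prod]
    congr 1
    refine Finset.prod_congr rfl fun b _ => ?_
    rw [Polynomial.map_sub, Polynomial.map_X, Polynomial.map_C, coeffMap_tw, coeffMap_jqModC,
      map_pow]
  have hR := qx28_roots_C p ζC hζC'
  -- the coefficients descend to `𝓞`
  have hcoef : ∀ n : ℕ, ∃ Po : Polynomial 𝓞, Po.map ι = (phiC p).coeff n := by
    intro n
    refine qx28_descend ι hp _ ((phiC p).coeff n) (Nat.lt_succ_self _) ⟨RHSo.coeff n, ?_⟩
    rw [← Polynomial.coeff_map, hRmap, ← hR, Polynomial.coeff_map]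
  choose Po hPo using hcoef
  set Φo : Polynomial (Polynomial 𝓞) :=
    ∑ n ∈ Finset.range (p + 2), Polynomial.monomial n (Po n) with hΦo
  have hΦmap : Φo.map (Polynomial.mapRingHom ι) = phiC p := by
    rw [hΦo, Polynomial.map_sum]
    conv_rhs => rw [Polynomial.as_sum_range' (phiC p) (p + 2) (by rw [phiC_natDegree]; omega)]
    refine Finset.sum_congr rfl fun n _ => ?_
    rw [Polynomial.map_monomial, Polynomial.coe_mapRingHom, hPo]
  have hminj : Function.Injective (Polynomial.mapRingHom ι) := by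
    rw [Polynomial.coe_mapRingHom]
    exact Polynomial.map_injective ι hinj
  have hmonic : Φo.Monic :=
    Polynomial.monic_of_injective hminj (by rw [hΦmap]; exact phiC_monic p)
  have hdeg : Φo.natDegree = p + 1 := by
    rw [← Polynomial.natDegree_map_eq_of_injective hminj, hΦmap, phiC_natDegree]
  have hroots : Φo.map (evY (Vq 𝓞 p (jqModC 𝓞))) = RHSo := by
    apply Polynomial.map_injective (coeffMap ι) (qx28_coeffMap_injective hinj)
    rw [Polynomial.map_map, qx28_coeffMap_evY, ← Polynomial.map_map, hΦmap, coeffMap_Vq,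
      coeffMap_jqModC, hR, hRmap]
  refine ⟨Φo, ζ, hΦmap, hmonic, hdeg, hprim, hroots, fun c => ?_⟩
  -- the leading coefficient of `Φo(c, Y)`
  set Q : Polynomial 𝓞 := Φo.eval (C c) with hQ
  have hev : evY (Vq 𝓞 p (jqModC 𝓞)) Q = (HahnSeries.C c - Vq 𝓞 (p * p) (jqModC 𝓞)) *
      ∏ b ∈ Finset.range p, (HahnSeries.C c - tw (ζ ^ b) (jqModC 𝓞)) := by
    have h := Polynomial.eval_map_apply (p := Φo) (evY (Vq 𝓞 p (jqModC 𝓞))) (C c)
    rw [evY_C, algebraMap_eq_C] at h
    rw [hQ, ← h, hroots, hRHSo, Polynomial.eval_mul, Polynomial.eval_sub, Polynomial.eval_X,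
      Polynomial.eval_C, Polynomial.eval_prod]
    congr 1
    refine Finset.prod_congr rfl fun b _ => ?_
    rw [Polynomial.eval_sub, Polynomial.eval_X, Polynomial.eval_C]
  have hpos : (0 : ℤ) < ((p * p : ℕ) : ℤ) := by exact_mod_cast Nat.pos_of_ne_zero hpp
  have hInf : ∀ k < -((p * p : ℕ) : ℤ),
      (HahnSeries.C c - Vq 𝓞 (p * p) (jqModC 𝓞)).coeff k = 0 := by
    intro k hk
    have h1 := qx28_VJ_pow_coeff_of_lt (R := 𝓞) hpp 1 (k := k) (by simpa using hk)
    rw [pow_one] at h1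
    rw [HahnSeries.coeff_sub, h1, HahnSeries.C_apply,
      HahnSeries.coeff_single_of_ne (by omega), sub_zero]
  have hInf0 : (HahnSeries.C c - Vq 𝓞 (p * p) (jqModC 𝓞)).coeff (-((p * p : ℕ) : ℤ)) = -1 := by
    have h1 := qx28_VJ_pow_coeff_self (R := 𝓞) hpp 1
    rw [pow_one, Nat.cast_one, mul_one] at h1
    rw [HahnSeries.coeff_sub, h1, HahnSeries.C_apply,
      HahnSeries.coeff_single_of_ne (by omega), zero_sub]
  have hFin : ∀ b ∈ Finset.range p, ∀ k < (-1 : ℤ),
      (HahnSeries.C c - tw (ζ ^ b) (jqModC 𝓞)).coeff k = 0 := by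
    intro b _ k hk
    rw [HahnSeries.coeff_sub, tw_coeff, coeff_jqModC_of_lt 𝓞 hk, mul_zero, HahnSeries.C_apply,
      HahnSeries.coeff_single_of_ne (by omega), sub_zero]
  have hFin0 : ∀ b : ℕ, (HahnSeries.C c - tw (ζ ^ b) (jqModC 𝓞)).coeff (-1 : ℤ)
      = -(((ζ ^ b) ^ (-1 : ℤ) : 𝓞ˣ) : 𝓞) := by
    intro b
    rw [HahnSeries.coeff_sub, tw_coeff, coeff_jqModC_neg_one, mul_one, HahnSeries.C_apply,
      HahnSeries.coeff_single_of_ne (by omega), zero_sub]
  have hP := qx28_coeff_prod_low (Finset.range p)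
    (fun b => HahnSeries.C c - tw (ζ ^ b) (jqModC 𝓞)) (fun _ => (-1 : ℤ)) hFin
  have hW := qx28_coeff_mul_low hInf hP.2
  set e : ℤ := -((p * p : ℕ) : ℤ) + ∑ _b ∈ Finset.range p, (-1 : ℤ) with he
  have he' : e = -((p : ℤ) * ((p + 1 : ℕ) : ℤ)) := by
    rw [he, Finset.sum_const, Finset.card_range]
    push_cast
    ring
  have hu : IsUnit ((evY (Vq 𝓞 p (jqModC 𝓞)) Q).coeff e) := by
    rw [hev, hW.1, hInf0, hP.1]
    refine IsUnit.mul isUnit_one.neg ?_
    refine Finset.prod_induction _ IsUnit (fun _ _ => IsUnit.mul) isUnit_one fun b _ => ?_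
    rw [hFin0 b]
    exact (Units.isUnit _).neg
  have hz : ∀ k < e, (evY (Vq 𝓞 p (jqModC 𝓞)) Q).coeff k = 0 := by
    rw [hev]
    exact hW.2
  have hQ0 : Q ≠ 0 := by
    intro h0
    rw [h0, map_zero, HahnSeries.coeff_zero] at hu
    exact not_isUnit_zero hu
  have htop := qx28_evY_coeff_top hp Q (le_refl Q.natDegree)
  have hlc : Q.coeff Q.natDegree ≠ 0 := Polynomial.leadingCoeff_ne_zero.mpr hQ0
  have h1 : ¬ (-((p : ℤ) * Q.natDegree) < e) := fun h => hlc (by rw [← htop]; exact hz _ h)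
  have h2 : ¬ (e < -((p : ℤ) * Q.natDegree)) := fun h =>
    hu.ne_zero (qx28_evY_coeff_of_lt hp Q (le_refl Q.natDegree) h)
  have heq : -((p : ℤ) * Q.natDegree) = e := by omega
  constructor
  · rw [Polynomial.leadingCoeff, ← htop, heq]
    exact hu
  · have h3 : (p : ℤ) * Q.natDegree = (p : ℤ) * ((p + 1 : ℕ) : ℤ) := by
      rw [he'] at heq
      linarith
    exact_mod_cast mul_left_cancel₀ (by exact_mod_cast hp : (p : ℤ) ≠ 0) h3

end main

end Fermat.Agent.S28Lib
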