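import Fermat.Agent.Lib.S28.PhiK
import Fermat.Agent.Lib.S28.QXInt

/-!
# S28, chunk A4 (final): the field `k` and the modular polynomials over it

`exists_field_phiData ℓ`: there is an algebraically closed field `k` of characteristic `ℓ`
(`k = 𝓞 ⧸ 𝔪`, `𝓞` the ring of all algebraic integers) carrying `PhiData k p` for every prime
`p ≠ ℓ`.  Combines chunk A2 (`qx28_main`) with `a4_exists_field_phiData`.
-/

set_option autoImplicit false

namespace Fermat.Agent.S28Lib

open Polynomial

/-- chunk A2 delivers the hypothesis of chunk A4. -/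
theorem a4_hyp (p : ℕ) [Fact p.Prime] : a4_Hyp p := by
  obtain ⟨Φo, ζ, h1, -, -, h4, h5, -⟩ := qx28_main p
  exact ⟨Φo, ζ, h1, h4, h5⟩

/-- **A4**: an algebraically closed field of characteristic `ℓ` with modular polynomials
`PhiData k p` for all primes `p ≠ ℓ`. -/
theorem exists_field_phiData (ℓ : ℕ) [Fact ℓ.Prime] :
    ∃ (k : Type) (_ : Field k) (_ : CharP k ℓ) (_ : IsAlgClosed k),
      ∀ p : ℕ, p.Prime → p ≠ ℓ → Nonempty (PhiData k p) :=
  a4_exists_field_phiData (fun p _ => a4_hyp p) ℓ

end Fermat.Agent.S28Lib
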