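/-
S28 (Igusa), chunk B2 / SM (helper8): the case `char k ∈ {2, 3}` of step (P1),
`J(q^p) ∉ k[J(q)]` for a prime `p ≠ char k`, together with the generic "conjugates are the roots"
lemma.  Everything happens in the single field `k((q))` of formal Laurent series, with the
notation `Vq`, `tw` of `Lib/S28/Base.lean`.

* `sm_eta_D` : the formal identity `∏_b Δ(ζ^b q) · Δ(q^{p²}) = ε · Δ(q^p)^{p+1}` (power series);
* `sm_roots_of_rel` : if `J(q^p) = P(J(q))` then `P` is monic of degree `p` and
  `P(Y) - J(q^p) = ∏_b (Y - J(ζ^b q))`;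
* `sm_not_poly` : for `char k ∈ {2, 3}` and a prime `p ≠ char k`, `J(q^p)` is not a polynomial
  in `J(q)`.
-/
import Mathlib
import Fermat.Prelude.Def_ModularCurve_X0ModL
import Fermat.Agent.Lib.S28.Base
import Fermat.Agent.Lib.S28.PolyCount

set_option autoImplicit false

namespace Fermat.Agent.S28Lib

open HahnSeries ModularCurve

noncomputable section

variable {k : Type*} [Field k]

/-! ### `tw` and `Vq` on power series -/

theorem sm_tw_ofPowerSeries (c : kˣ) (f : PowerSeries k) :
    tw c (HahnSeries.ofPowerSeries ℤ k f)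
      = HahnSeries.ofPowerSeries ℤ k (PowerSeries.rescale (c : k) f) := by
  ext n
  rw [tw_coeff]
  rcases lt_or_ge n 0 with hn | hn
  · rw [ofPowerSeries_coeff_of_neg _ hn, ofPowerSeries_coeff_of_neg _ hn, mul_zero]
  · obtain ⟨m, rfl⟩ := Int.eq_ofNat_of_zero_le hn
    rw [HahnSeries.ofPowerSeries_apply_coeff, HahnSeries.ofPowerSeries_apply_coeff,
      PowerSeries.coeff_rescale, zpow_natCast, Units.val_pow_eq_pow_val]

theorem sm_Vq_ofPowerSeries {p : ℕ} (hp : p ≠ 0) (f : PowerSeries k) :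
    Vq k p (HahnSeries.ofPowerSeries ℤ k f)
      = HahnSeries.ofPowerSeries ℤ k (PowerSeries.expand p hp f) := by
  ext n
  by_cases hn : (p : ℤ) ∣ n
  · obtain ⟨m, rfl⟩ := hn
    rw [Vq_coeff_mul hp]
    rcases lt_or_ge m 0 with hm | hm
    · rw [ofPowerSeries_coeff_of_neg _ hm, ofPowerSeries_coeff_of_neg]
      exact mul_neg_of_pos_of_neg (by exact_mod_cast Nat.pos_of_ne_zero hp) hm
    · obtain ⟨m', rfl⟩ := Int.eq_ofNat_of_zero_le hm
      rw [HahnSeries.ofPowerSeries_apply_coeff, ← Nat.cast_mul,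
        HahnSeries.ofPowerSeries_apply_coeff, PowerSeries.coeff_expand_mul]
  · rw [Vq_coeff_of_not_dvd hp _ hn]
    rcases lt_or_ge n 0 with hn0 | hn0
    · rw [ofPowerSeries_coeff_of_neg _ hn0]
    · obtain ⟨m, rfl⟩ := Int.eq_ofNat_of_zero_le hn0
      rw [HahnSeries.ofPowerSeries_apply_coeff, PowerSeries.coeff_expand_of_not_dvd]
      exact fun hd => hn (by exact_mod_cast hd)

/-! ### the `η`-product over `k` -/

section Eta

open PowerSeries
open scoped PowerSeries.WithPiTopology

variable (k)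

/-- the `η`-product `∏ (1 - X^n)` with coefficients in `k` -/
def sm_E : PowerSeries k := PowerSeries.map (Int.castRingHom k) etaProd

/-- the `Δ`-series `X ∏ (1 - X^n)^24` with coefficients in `k` -/
def sm_D : PowerSeries k := PowerSeries.X * sm_E k ^ 24

/-- the discrete topology on the coefficient field (local use only) -/
@[reducible] def sm_topK : TopologicalSpace k := ⊥

attribute [local instance] sm_topK

omit [Field k] in
theorem sm_discK : DiscreteTopology k := ⟨rfl⟩

attribute [local instance] sm_discK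

variable {k}

theorem sm_continuous_of_coeff {R : Type*} [Semiring R] [TopologicalSpace R]
    (Φ : PowerSeries R → PowerSeries k)
    (h : ∀ d, Continuous (fun f => PowerSeries.coeff d (Φ f))) : Continuous Φ := by
  rw [continuous_iff_continuousAt]
  intro f
  exact (PowerSeries.WithPiTopology.tendsto_iff_coeff_tendsto _ _ _ _).mpr
    (fun d => (h d).continuousAt)

theorem sm_continuous_map : Continuous (PowerSeries.map (Int.castRingHom k)) := by
  apply sm_continuous_of_coeff
  intro d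
  simp only [PowerSeries.coeff_map]
  exact (continuous_of_discreteTopology).comp (PowerSeries.WithPiTopology.continuous_coeff ℤ d)

theorem sm_continuous_rescale (z : k) : Continuous (PowerSeries.rescale z) := by
  apply sm_continuous_of_coeff
  intro d
  simp only [PowerSeries.coeff_rescale]
  exact continuous_const.mul (PowerSeries.WithPiTopology.continuous_coeff k d)

theorem sm_continuous_expand (p : ℕ) (hp : p ≠ 0) :
    Continuous (PowerSeries.expand (R := k) p hp) := by
  apply sm_continuous_of_coeff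
  intro d
  simp only [PowerSeries.coeff_expand]
  by_cases h : p ∣ d
  · simp only [h, if_true]
    exact PowerSeries.WithPiTopology.continuous_coeff k _
  · simp only [h, if_false]
    exact continuous_const

theorem sm_multipliable {u : ℕ → PowerSeries k} (hu : ∀ n, ((n + 1 : ℕ) : ℕ∞) ≤ (u n).order) :
    Multipliable (fun n => 1 + u n) := by
  apply PowerSeries.WithPiTopology.multipliable_one_add_of_tendsto_order_atTop_nhds_top
  refine ENat.tendsto_nhds_top_iff_natCast_lt.mpr
    (fun m => Filter.eventually_atTop.mpr ⟨m, fun n hn => ?_⟩)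
  refine lt_of_lt_of_le ?_ (hu n)
  exact_mod_cast Nat.lt_succ_of_le hn

theorem sm_E_eq : sm_E k = ∏' n : ℕ, (1 - PowerSeries.X ^ (n + 1) : PowerSeries k) := by
  rw [sm_E, etaProd, (PowerSeries.WithPiTopology.multipliable_one_sub_X_pow ℤ).map_tprod _
    sm_continuous_map]
  simp

theorem sm_rescale_E (z : k) :
    PowerSeries.rescale z (sm_E k)
      = ∏' n : ℕ, (1 - PowerSeries.C (z ^ (n + 1)) * PowerSeries.X ^ (n + 1) : PowerSeries k) := by
  rw [sm_E_eq, (PowerSeries.WithPiTopology.multipliable_one_sub_X_pow k).map_tprod _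
    (sm_continuous_rescale z)]
  refine tprod_congr fun n => ?_
  rw [map_sub, map_one, map_pow, PowerSeries.rescale_X, mul_pow, ← map_pow]

theorem sm_expand_E (p : ℕ) (hp : p ≠ 0) :
    PowerSeries.expand p hp (sm_E k)
      = ∏' n : ℕ, (1 - PowerSeries.X ^ (p * (n + 1)) : PowerSeries k) := by
  rw [sm_E_eq, (PowerSeries.WithPiTopology.multipliable_one_sub_X_pow k).map_tprod _
    (sm_continuous_expand p hp)]
  refine tprod_congr fun n => ?_
  rw [map_sub, map_one, map_pow, PowerSeries.expand_X, ← pow_mul]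

/-- multipliability criterion in the form `order (v n - 1) ≥ n + 1` -/
theorem sm_multipliable' {v : ℕ → PowerSeries k}
    (hv : ∀ n, ((n + 1 : ℕ) : ℕ∞) ≤ (v n - 1).order) : Multipliable v := by
  have h := sm_multipliable hv
  simpa using h

theorem sm_le_order_X_pow_mul (m n : ℕ) (h : n ≤ m) (g : PowerSeries k) :
    ((n : ℕ) : ℕ∞) ≤ (PowerSeries.X ^ m * g).order := by
  rw [PowerSeries.order_mul, PowerSeries.order_X_pow]
  exact le_trans (by exact_mod_cast h) le_self_add

theorem sm_multipliable_C (z : k) : Multipliable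
    (fun n : ℕ => (1 - PowerSeries.C (z ^ (n + 1)) * PowerSeries.X ^ (n + 1) : PowerSeries k)) := by
  apply sm_multipliable'
  intro n
  have : (1 - PowerSeries.C (z ^ (n + 1)) * PowerSeries.X ^ (n + 1) : PowerSeries k) - 1
      = PowerSeries.X ^ (n + 1) * (- PowerSeries.C (z ^ (n + 1))) := by ring
  rw [this]
  exact sm_le_order_X_pow_mul _ _ le_rfl _

/-- the three auxiliary families: non-multiples, multiples (two versions) -/
theorem sm_multipliable_ite (c : ℕ → Prop) [DecidablePred c] (e : ℕ → ℕ)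
    (he : ∀ n, n + 1 ≤ e n) : Multipliable
    (fun n : ℕ => (if c n then 1 - PowerSeries.X ^ (e n) else 1 : PowerSeries k)) := by
  apply sm_multipliable'
  intro n
  by_cases h : c n
  · have : (if c n then 1 - PowerSeries.X ^ (e n) else 1 : PowerSeries k) - 1
        = PowerSeries.X ^ (e n) * (-1) := by rw [if_pos h]; ring
    rw [this]
    exact sm_le_order_X_pow_mul _ _ (he n) _
  · rw [if_neg h, sub_self, PowerSeries.order_zero]
    exact le_top

theorem sm_prod_one_sub (p : ℕ) (hp : 0 < p) {ω : k} (hω : IsPrimitiveRoot ω p)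
    (Y : PowerSeries k) :
    ∏ b ∈ Finset.range p, (1 - PowerSeries.C (ω ^ b) * Y) = 1 - Y ^ p := by
  have : NeZero p := ⟨hp.ne'⟩
  have hω' : IsPrimitiveRoot (PowerSeries.C ω : PowerSeries k) p :=
    hω.map_of_injective PowerSeries.C_injective
  have h := hω'.pow_sub_pow_eq_prod_sub_mul (1 : PowerSeries k) Y hp
  rw [one_pow] at h
  rw [h]
  refine Finset.prod_bij (fun b _ => (PowerSeries.C ω : PowerSeries k) ^ b) ?_ ?_ ?_ ?_
  · intro b _
    rw [Polynomial.mem_nthRootsFinset hp, ← pow_mul, mul_comm, pow_mul, hω'.pow_eq_one, one_pow]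
  · intro b hb b' hb' hbb
    exact hω'.pow_inj (Finset.mem_range.mp hb) (Finset.mem_range.mp hb') hbb
  · intro μ hμ
    rw [Polynomial.mem_nthRootsFinset hp] at hμ
    obtain ⟨i, hi, hiμ⟩ := hω'.eq_pow_of_pow_eq_one hμ
    exact ⟨i, Finset.mem_range.mpr hi, hiμ⟩
  · intro b _
    rw [map_pow]

theorem sm_prod_rescale_E (p : ℕ) (hp : p.Prime) {ζ : k} (hζ : IsPrimitiveRoot ζ p) :
    ∏ b ∈ Finset.range p, PowerSeries.rescale (ζ ^ b) (sm_E k)
      = ∏' n : ℕ, (if p ∣ n + 1 then (1 - PowerSeries.X ^ (n + 1)) ^ p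
          else 1 - PowerSeries.X ^ (p * (n + 1)) : PowerSeries k) := by
  simp_rw [sm_rescale_E]
  rw [← Multipliable.tprod_finsetProd (fun b _ => sm_multipliable_C (ζ ^ b))]
  refine tprod_congr fun n => ?_
  by_cases h : p ∣ n + 1
  · rw [if_pos h]
    obtain ⟨c, hc⟩ := h
    have h1 : ∀ b : ℕ, (ζ ^ b) ^ (n + 1) = 1 := by
      intro b
      rw [← pow_mul, hc, mul_comm b, mul_assoc, pow_mul, hζ.pow_eq_one, one_pow]
    simp_rw [h1, map_one, one_mul]
    rw [Finset.prod_const, Finset.card_range]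
  · rw [if_neg h]
    have hcop : (n + 1).Coprime p := (Nat.Prime.coprime_iff_not_dvd hp).mpr h |>.symm
    have hω : IsPrimitiveRoot (ζ ^ (n + 1)) p := hζ.pow_of_coprime (n + 1) hcop
    have h2 : ∀ b : ℕ, (ζ ^ b) ^ (n + 1) = (ζ ^ (n + 1)) ^ b := by
      intro b
      rw [← pow_mul, ← pow_mul, mul_comm]
    simp_rw [h2]
    rw [sm_prod_one_sub p hp.pos hω, ← pow_mul, mul_comm]

/-- the key product identity for the `η`-product -/
theorem sm_eta_E (p : ℕ) (hp : p.Prime) {ζ : k} (hζ : IsPrimitiveRoot ζ p) :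
    (∏ b ∈ Finset.range p, PowerSeries.rescale (ζ ^ b) (sm_E k))
        * PowerSeries.expand (p * p) (Nat.mul_ne_zero hp.ne_zero hp.ne_zero) (sm_E k)
      = PowerSeries.expand p hp.ne_zero (sm_E k) ^ (p + 1) := by
  classical
  have hp0 : p ≠ 0 := hp.ne_zero
  have hp1 : 0 < p := hp.pos
  set A : ℕ → PowerSeries k := fun n => if ¬ p ∣ n + 1 then 1 - PowerSeries.X ^ (p * (n + 1)) else 1
    with hA
  set B : ℕ → PowerSeries k := fun n => if p ∣ n + 1 then 1 - PowerSeries.X ^ (p * (n + 1)) else 1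
    with hB
  set Dm : ℕ → PowerSeries k := fun n => if p ∣ n + 1 then 1 - PowerSeries.X ^ (n + 1) else 1
    with hDm
  have hle : ∀ n : ℕ, n + 1 ≤ p * (n + 1) := fun n => Nat.le_mul_of_pos_left _ hp1
  have mA : Multipliable A := sm_multipliable_ite _ _ hle
  have mB : Multipliable B := sm_multipliable_ite _ _ hle
  have mD : Multipliable Dm := sm_multipliable_ite _ _ (fun n => le_rfl)
  -- reindexing along the multiples of `p`
  set g : ℕ → ℕ := fun m => p * (m + 1) - 1 with hg
  have hg1 : ∀ m, g m + 1 = p * (m + 1) := fun m => by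
    have := hle m
    simp only [hg]; omega
  have hginj : Function.Injective g := by
    intro a b hab
    have h1 := hg1 a
    have h2 := hg1 b
    rw [hab, h2] at h1
    have := Nat.eq_of_mul_eq_mul_left hp1 h1
    omega
  have hrange : ∀ n, p ∣ n + 1 → n ∈ Set.range g := by
    intro n hn
    obtain ⟨c, hc⟩ := hn
    have hc0 : c ≠ 0 := by
      rintro rfl
      simp at hc
    refine ⟨c - 1, ?_⟩
    have h1 := hg1 (c - 1)
    have h3 : c - 1 + 1 = c := by omega
    rw [h3, ← hc] at h1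
    omega
  have hBsupp : Function.mulSupport B ⊆ Set.range g := by
    intro n hn
    by_contra hnot
    apply hn
    simp only [hB]
    rw [if_neg (fun hd => hnot (hrange n hd))]
  have hDsupp : Function.mulSupport Dm ⊆ Set.range g := by
    intro n hn
    by_contra hnot
    apply hn
    simp only [hDm]
    rw [if_neg (fun hd => hnot (hrange n hd))]
  -- the three products
  have e1 : PowerSeries.expand p hp0 (sm_E k) = (∏' n, A n) * ∏' n, B n := by
    rw [sm_expand_E, ← mA.tprod_mul mB]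
    refine tprod_congr fun n => ?_
    simp only [hA, hB]
    by_cases h : p ∣ n + 1
    · simp [h]
    · simp [h]
  have e2 : (∏' n, B n) = PowerSeries.expand (p * p) (Nat.mul_ne_zero hp0 hp0) (sm_E k) := by
    rw [sm_expand_E, ← hginj.tprod_eq hBsupp]
    refine tprod_congr fun m => ?_
    simp only [hB]
    rw [if_pos ⟨m + 1, hg1 m⟩, hg1 m, mul_assoc]
  have e3 : (∏' n, Dm n) = PowerSeries.expand p hp0 (sm_E k) := by
    rw [sm_expand_E, ← hginj.tprod_eq hDsupp]
    refine tprod_congr fun m => ?_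
    simp only [hDm]
    rw [if_pos ⟨m + 1, hg1 m⟩, hg1 m]
  have e4 : ∏ b ∈ Finset.range p, PowerSeries.rescale (ζ ^ b) (sm_E k)
      = (∏' n, A n) * (∏' n, Dm n) ^ p := by
    rw [sm_prod_rescale_E p hp hζ, ← mD.tprod_pow, ← mA.tprod_mul (mD.pow p)]
    refine tprod_congr fun n => ?_
    simp only [hA, hDm]
    by_cases h : p ∣ n + 1
    · simp [h]
    · simp [h]
  rw [e4, e3, ← e2]
  have e1' := e1
  calc (∏' n, A n) * PowerSeries.expand p hp0 (sm_E k) ^ p * ∏' n, B n
      = PowerSeries.expand p hp0 (sm_E k) ^ p * ((∏' n, A n) * ∏' n, B n) := by ring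
    _ = PowerSeries.expand p hp0 (sm_E k) ^ (p + 1) := by rw [← e1, pow_succ]

/-- the key product identity for the `Δ`-series -/
theorem sm_eta_D (p : ℕ) (hp : p.Prime) {ζ : k} (hζ : IsPrimitiveRoot ζ p) :
    (∏ b ∈ Finset.range p, PowerSeries.rescale (ζ ^ b) (sm_D k))
        * PowerSeries.expand (p * p) (Nat.mul_ne_zero hp.ne_zero hp.ne_zero) (sm_D k)
      = PowerSeries.C (∏ b ∈ Finset.range p, ζ ^ b)
          * PowerSeries.expand p hp.ne_zero (sm_D k) ^ (p + 1) := by
  have h := sm_eta_E p hp hζ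
  have h1 : ∀ b : ℕ, PowerSeries.rescale (ζ ^ b) (sm_D k)
      = PowerSeries.C (ζ ^ b) * PowerSeries.X * PowerSeries.rescale (ζ ^ b) (sm_E k) ^ 24 := by
    intro b
    rw [sm_D, map_mul, map_pow, PowerSeries.rescale_X]
  have h2 : ∀ (m : ℕ) (hm : m ≠ 0), PowerSeries.expand m hm (sm_D k)
      = PowerSeries.X ^ m * PowerSeries.expand m hm (sm_E k) ^ 24 := by
    intro m hm
    rw [sm_D, map_mul, map_pow, PowerSeries.expand_X]
  simp_rw [h1]
  rw [h2, h2, Finset.prod_mul_distrib, Finset.prod_mul_distrib, Finset.prod_const,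
    Finset.card_range, Finset.prod_pow, ← map_prod]
  calc PowerSeries.C (∏ b ∈ Finset.range p, ζ ^ b) * PowerSeries.X ^ p
          * (∏ b ∈ Finset.range p, PowerSeries.rescale (ζ ^ b) (sm_E k)) ^ 24
          * (PowerSeries.X ^ (p * p) * PowerSeries.expand (p * p)
              (Nat.mul_ne_zero hp.ne_zero hp.ne_zero) (sm_E k) ^ 24)
      = PowerSeries.C (∏ b ∈ Finset.range p, ζ ^ b) * PowerSeries.X ^ p * PowerSeries.X ^ (p * p)
          * ((∏ b ∈ Finset.range p, PowerSeries.rescale (ζ ^ b) (sm_E k))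
              * PowerSeries.expand (p * p) (Nat.mul_ne_zero hp.ne_zero hp.ne_zero) (sm_E k)) ^ 24 := by
        ring
    _ = PowerSeries.C (∏ b ∈ Finset.range p, ζ ^ b)
          * (PowerSeries.X ^ p * PowerSeries.expand p hp.ne_zero (sm_E k) ^ 24) ^ (p + 1) := by
        rw [h]; ring

/-! ### low coefficients -/

theorem sm_coeff_finprod (s : Finset ℕ) :
    PowerSeries.coeff 0 (∏ i ∈ s, (1 - PowerSeries.X ^ (i + 1) : PowerSeries k)) = 1 ∧
    PowerSeries.coeff 1 (∏ i ∈ s, (1 - PowerSeries.X ^ (i + 1) : PowerSeries k))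
      = if 0 ∈ s then -1 else 0 := by
  classical
  induction s using Finset.induction_on with
  | empty => simp
  | insert a s ha ih =>
    obtain ⟨ih0, ih1⟩ := ih
    rw [Finset.prod_insert ha]
    have hmul : ∀ g : PowerSeries k,
        (1 - PowerSeries.X ^ (a + 1)) * g = g - PowerSeries.X ^ (a + 1) * g := fun g => by ring
    rw [hmul, map_sub, map_sub, PowerSeries.coeff_X_pow_mul', PowerSeries.coeff_X_pow_mul',
      ih0, ih1]
    refine ⟨by simp, ?_⟩
    rcases Nat.eq_zero_or_pos a with rfl | ha0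
    · have h0 : (0 : ℕ) ∉ s := ha
      simp [h0, ih0]
    · have h1 : ¬ a + 1 ≤ 1 := by omega
      have hmem : (0 ∈ insert a s) ↔ 0 ∈ s := by
        rw [Finset.mem_insert]
        constructor
        · rintro (h | h)
          · omega
          · exact h
        · exact Or.inr
      simp [h1, hmem]

theorem sm_coeff_E :
    PowerSeries.coeff 0 (sm_E k) = 1 ∧ PowerSeries.coeff 1 (sm_E k) = -1 := by
  have hprod : HasProd (fun n : ℕ => (1 - PowerSeries.X ^ (n + 1) : PowerSeries k)) (sm_E k) := by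
    rw [sm_E_eq]
    exact (PowerSeries.WithPiTopology.multipliable_one_sub_X_pow k).hasProd
  have key : ∀ d : ℕ, ∃ s₀ : Finset ℕ, ∀ s, s₀ ≤ s →
      PowerSeries.coeff d (∏ i ∈ s, (1 - PowerSeries.X ^ (i + 1) : PowerSeries k))
        = PowerSeries.coeff d (sm_E k) := by
    intro d
    have h1 := (PowerSeries.WithPiTopology.tendsto_iff_coeff_tendsto _ _ _ _).mp hprod d
    rw [nhds_discrete, Filter.tendsto_pure] at h1
    exact Filter.eventually_atTop.mp h1
  constructor
  · obtain ⟨s₀, hs₀⟩ := key 0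
    rw [← hs₀ s₀ le_rfl]
    exact (sm_coeff_finprod s₀).1
  · obtain ⟨s₀, hs₀⟩ := key 1
    rw [← hs₀ (insert 0 s₀) (Finset.subset_insert _ _), (sm_coeff_finprod _).2,
      if_pos (Finset.mem_insert_self _ _)]

theorem sm_coeff_pow (g : PowerSeries k) (hg : PowerSeries.coeff 0 g = 1) (n : ℕ) :
    PowerSeries.coeff 0 (g ^ n) = 1 ∧ PowerSeries.coeff 1 (g ^ n) = n * PowerSeries.coeff 1 g := by
  induction n with
  | zero => simp
  | succ n ih =>
    obtain ⟨ih0, ih1⟩ := ih
    rw [pow_succ]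
    constructor
    · rw [PowerSeries.coeff_mul]
      simp [ih0, hg]
    · rw [PowerSeries.coeff_mul]
      simp [Finset.Nat.antidiagonal_succ, ih0, ih1, hg]
      ring

end Eta

/-! ### the identities in `k((q))` -/

section Laurent

variable (k)

/-- the `Δ`-series as a Laurent series -/
def sm_DL : LaurentSeries k := HahnSeries.ofPowerSeries ℤ k (sm_D k)

variable {k}

theorem sm_eta_L {p : ℕ} (hp : p.Prime) (ζ : kˣ) (hζ : IsPrimitiveRoot ζ p) :
    (∏ b ∈ Finset.range p, tw (ζ ^ b) (sm_DL k)) * Vq k (p * p) (sm_DL k)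
      = HahnSeries.C (∏ b ∈ Finset.range p, ((ζ ^ b : kˣ) : k)) * Vq k p (sm_DL k) ^ (p + 1) := by
  have hζ' : IsPrimitiveRoot (ζ : k) p := IsPrimitiveRoot.coe_units_iff.mpr hζ
  have h := sm_eta_D p hp hζ'
  have h' := congrArg (HahnSeries.ofPowerSeries ℤ k) h
  rw [map_mul, map_prod, map_mul, map_pow, HahnSeries.ofPowerSeries_C] at h'
  simp only [sm_DL, sm_tw_ofPowerSeries, sm_Vq_ofPowerSeries hp.ne_zero,
    sm_Vq_ofPowerSeries (Nat.mul_ne_zero hp.ne_zero hp.ne_zero), Units.val_pow_eq_pow_val]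
  exact h'

/-- coefficients of a polynomial in `J` -/
theorem sm_coeff_aeval_J (P : Polynomial k) (m : ℤ) :
    (Polynomial.aeval (jqModC k) P).coeff m
      = ∑ i ∈ Finset.range (P.natDegree + 1), P.coeff i * ((jqModC k) ^ i).coeff m := by
  rw [Polynomial.aeval_eq_sum_range, HahnSeries.coeff_sum]
  refine Finset.sum_congr rfl fun i _ => ?_
  rw [Algebra.smul_def, algebraMap_eq_C, HahnSeries.C_apply, HahnSeries.coeff_single_mul, sub_zero]

theorem sm_coeff_aeval_J_top (P : Polynomial k) :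
    (Polynomial.aeval (jqModC k) P).coeff (-(P.natDegree : ℤ)) = P.leadingCoeff := by
  rw [sm_coeff_aeval_J, Finset.sum_range_succ, coeff_jqModC_pow_self, mul_one,
    Finset.sum_eq_zero, zero_add, Polynomial.leadingCoeff]
  intro i hi
  rw [coeff_jqModC_pow_of_lt, mul_zero]
  have := Finset.mem_range.mp hi
  omega

theorem sm_coeff_aeval_J_lt (P : Polynomial k) {m : ℤ} (hm : m < -(P.natDegree : ℤ)) :
    (Polynomial.aeval (jqModC k) P).coeff m = 0 := by
  rw [sm_coeff_aeval_J]
  refine Finset.sum_eq_zero fun i hi => ?_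
  rw [coeff_jqModC_pow_of_lt, mul_zero]
  have := Finset.mem_range.mp hi
  omega

/-- `J` is transcendental over `k`. -/
theorem sm_aeval_J_eq_zero {P : Polynomial k} (h : Polynomial.aeval (jqModC k) P = 0) : P = 0 := by
  have h1 := sm_coeff_aeval_J_top P
  rw [h, HahnSeries.coeff_zero] at h1
  exact Polynomial.leadingCoeff_eq_zero.mp h1.symm

/-- `J(q^p)` is transcendental over `k`. -/
theorem sm_aeval_VJ_eq_zero {p : ℕ} (hp : p ≠ 0) {P : Polynomial k}
    (h : Polynomial.aeval (Vq k p (jqModC k)) P = 0) : P = 0 := by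
  apply sm_aeval_J_eq_zero
  apply Vq_injective hp
  have h2 : Vq k p (Polynomial.aeval (jqModC k) P) = Polynomial.aeval (Vq k p (jqModC k)) P :=
    (Polynomial.aeval_algHom_apply (VqAlg k p) (jqModC k) P).symm
  rw [h2, h, map_zero]

/-- a relation `J(q^p) = P(J(q))` forces `P` to be monic of degree `p`. -/
theorem sm_monic_of_rel {p : ℕ} (hp : p ≠ 0) (P : Polynomial k)
    (hrel : Vq k p (jqModC k) = Polynomial.aeval (jqModC k) P) : P.Monic ∧ P.natDegree = p := by
  have hV1 : (Vq k p (jqModC k)).coeff (-(p : ℤ)) = 1 := by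
    have := Vq_coeff_mul hp (jqModC k) (-1)
    rw [mul_neg_one] at this
    rw [this, coeff_jqModC_neg_one]
  have hV0 : ∀ m : ℤ, m < -(p : ℤ) → (Vq k p (jqModC k)).coeff m = 0 := by
    intro m hm
    by_cases hd : (p : ℤ) ∣ m
    · obtain ⟨c, rfl⟩ := hd
      rw [Vq_coeff_mul hp]
      apply coeff_jqModC_of_lt
      have hp' : (0 : ℤ) < p := by exact_mod_cast Nat.pos_of_ne_zero hp
      by_contra hc
      have hc' : -1 ≤ c := not_lt.mp hc
      have : -(p : ℤ) ≤ (p : ℤ) * c := by nlinarith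
      omega
    · exact Vq_coeff_of_not_dvd hp _ hd
  have hdeg : P.natDegree = p := by
    rcases lt_trichotomy P.natDegree p with hlt | heq | hgt
    · exfalso
      have := sm_coeff_aeval_J_lt P (m := -(p : ℤ)) (by omega)
      rw [← hrel, hV1] at this
      exact one_ne_zero this
    · exact heq
    · exfalso
      have h1 := sm_coeff_aeval_J_top P
      rw [← hrel, hV0 _ (by omega)] at h1
      have hP0 : P = 0 := Polynomial.leadingCoeff_eq_zero.mp h1.symm
      rw [hP0] at hgt
      simp at hgt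
  refine ⟨?_, hdeg⟩
  have h1 := sm_coeff_aeval_J_top P
  rw [← hrel, hdeg, hV1] at h1
  exact h1.symm

/-- if `J(q^p) = P(J(q))`, the conjugates `J(ζ^b q)`, `b < p`, are exactly the roots of
`P(Y) - J(q^p)`. -/
theorem sm_roots_of_rel {p : ℕ} (hp : p ≠ 0) (ζ : kˣ) (hζ : IsPrimitiveRoot ζ p)
    (P : Polynomial k) (hrel : Vq k p (jqModC k) = Polynomial.aeval (jqModC k) P) :
    P.map (algebraMap k (LaurentSeries k)) - Polynomial.C (Vq k p (jqModC k))
      = ∏ b ∈ Finset.range p, (Polynomial.X - Polynomial.C (tw (ζ ^ b) (jqModC k))) := by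
  obtain ⟨hmon, hdeg⟩ := sm_monic_of_rel hp P hrel
  have hp1 : 0 < p := Nat.pos_of_ne_zero hp
  set x := Vq k p (jqModC k) with hx
  have hMdeg : (P.map (algebraMap k (LaurentSeries k))).natDegree = p := by
    rw [hmon.natDegree_map, hdeg]
  have hMmon : (P.map (algebraMap k (LaurentSeries k))).Monic := hmon.map _
  have hMd : (P.map (algebraMap k (LaurentSeries k))).degree = ((p : ℕ) : WithBot ℕ) := by
    rw [Polynomial.degree_eq_natDegree hMmon.ne_zero, hMdeg]
  have hClt : (Polynomial.C x).degree < (P.map (algebraMap k (LaurentSeries k))).degree := by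
    rw [hMd]
    exact lt_of_le_of_lt Polynomial.degree_C_le (by exact_mod_cast hp1)
  have hQmon : (P.map (algebraMap k (LaurentSeries k)) - Polynomial.C x).Monic :=
    hMmon.sub_of_left hClt
  have hQdeg : (P.map (algebraMap k (LaurentSeries k)) - Polynomial.C x).degree
      = ((p : ℕ) : WithBot ℕ) := by
    rw [Polynomial.degree_sub_eq_left_of_degree_lt hClt, hMd]
  have hRmon : (∏ b ∈ Finset.range p,
      (Polynomial.X - Polynomial.C (tw (ζ ^ b) (jqModC k)))).Monic :=
    Polynomial.monic_prod_X_sub_C _ _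
  have hRdeg : (∏ b ∈ Finset.range p,
      (Polynomial.X - Polynomial.C (tw (ζ ^ b) (jqModC k)))).degree = ((p : ℕ) : WithBot ℕ) := by
    rw [Polynomial.degree_eq_natDegree hRmon.ne_zero,
      Polynomial.natDegree_finsetProd_X_sub_C_eq_card, Finset.card_range]
  refine Polynomial.eq_of_degree_sub_lt_of_eval_index_eq (Finset.range p)
    (v := fun b => tw (ζ ^ b) (jqModC k)) ?_ ?_ ?_
  · intro b hb b' hb' hbb
    have h1 := congrArg (fun y : LaurentSeries k => y.coeff (-1)) hbb
    simp only [tw_coeff, coeff_jqModC_neg_one, mul_one] at h1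
    have h2 : (ζ ^ b) ^ (-1 : ℤ) = (ζ ^ b') ^ (-1 : ℤ) := Units.ext h1
    rw [zpow_neg_one, zpow_neg_one, inv_inj] at h2
    exact hζ.pow_inj (Finset.mem_range.mp hb) (Finset.mem_range.mp hb') h2
  · rw [Finset.card_range]
    have := Polynomial.degree_sub_lt_left (hQdeg.trans hRdeg.symm) hQmon.ne_zero
      (hQmon.leadingCoeff.trans hRmon.leadingCoeff.symm)
    rwa [hQdeg] at this
  · intro b hb
    have hpow : (ζ ^ b) ^ p = 1 := by rw [← pow_mul, mul_comm, pow_mul, hζ.pow_eq_one, one_pow]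
    have h1 : tw (ζ ^ b) x = Polynomial.aeval (tw (ζ ^ b) (jqModC k)) P := by
      have h2 := congrArg (twAlg (ζ ^ b)) hrel
      rw [twAlg_apply, ← Polynomial.aeval_algHom_apply, twAlg_apply] at h2
      exact h2
    rw [hx, tw_Vq_of_pow_eq_one hp hpow, ← hx] at h1
    rw [Polynomial.eval_sub, Polynomial.eval_map, Polynomial.eval_C, Polynomial.eval_prod,
      Finset.prod_eq_zero hb (by simp)]
    show Polynomial.aeval (tw (ζ ^ b) (jqModC k)) P - x = 0
    rw [← h1, sub_self]

end Laurent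

/-! ### characteristic `2` and `3` -/

section Small

theorem sm_E4 (ℓ : ℕ) [CharP k ℓ] (hℓ : ℓ = 2 ∨ ℓ = 3) :
    PowerSeries.map (Int.castRingHom k) eisenstein4 = 1 := by
  have h240 : ((240 : ℤ) : k) = 0 := by
    have h : ((240 : ℕ) : k) = 0 := by
      rw [CharP.cast_eq_zero_iff k ℓ]
      rcases hℓ with rfl | rfl <;> norm_num
    exact_mod_cast h
  ext n
  rw [PowerSeries.coeff_map, eisenstein4, PowerSeries.coeff_mk, PowerSeries.coeff_one]
  split_ifs with h
  · simp
  · rw [eq_intCast, Int.cast_mul, h240, zero_mul]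

theorem sm_J_mul_D (ℓ : ℕ) [CharP k ℓ] (hℓ : ℓ = 2 ∨ ℓ = 3) : jqModC k * sm_DL k = 1 := by
  have h1 : PowerSeries.map (Int.castRingHom k) jNum
      = PowerSeries.map (Int.castRingHom k) dedekindEtaUnitInv := by
    rw [jNum, map_mul, map_pow, sm_E4 ℓ hℓ, one_pow, one_mul]
  have h2 : sm_E k ^ 24 = PowerSeries.map (Int.castRingHom k) dedekindEtaUnit := by
    rw [sm_E, dedekindEtaUnit, map_pow]
  have h3 : PowerSeries.map (Int.castRingHom k) dedekindEtaUnitInv
      * PowerSeries.map (Int.castRingHom k) dedekindEtaUnit = 1 := by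
    rw [← map_mul, mul_comm, dedekindEtaUnit_mul_inv, map_one]
  rw [jqModC, sm_DL, sm_D, h1, h2, map_mul, HahnSeries.ofPowerSeries_X]
  calc HahnSeries.single (-1 : ℤ) (1 : k)
        * HahnSeries.ofPowerSeries ℤ k (PowerSeries.map (Int.castRingHom k) dedekindEtaUnitInv)
        * (HahnSeries.single (1 : ℤ) (1 : k)
          * HahnSeries.ofPowerSeries ℤ k (PowerSeries.map (Int.castRingHom k) dedekindEtaUnit))
      = (HahnSeries.single (-1 : ℤ) (1 : k) * HahnSeries.single (1 : ℤ) (1 : k))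
        * (HahnSeries.ofPowerSeries ℤ k (PowerSeries.map (Int.castRingHom k) dedekindEtaUnitInv)
          * HahnSeries.ofPowerSeries ℤ k
            (PowerSeries.map (Int.castRingHom k) dedekindEtaUnit)) := by ring
    _ = 1 := by
      rw [← map_mul, h3, map_one (HahnSeries.ofPowerSeries ℤ k), mul_one,
        HahnSeries.single_mul_single]
      simp

/-- the key computation: a relation `J(q^p) = P(J)` in characteristic `2` or `3` forces
`P = X ^ p`. -/
theorem sm_eq_X_pow (ℓ : ℕ) [CharP k ℓ] (hℓ : ℓ = 2 ∨ ℓ = 3) {p : ℕ} (hp : p.Prime)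
    (ζ : kˣ) (hζ : IsPrimitiveRoot ζ p) (P : Polynomial k)
    (hrel : Vq k p (jqModC k) = Polynomial.aeval (jqModC k) P) : P = Polynomial.X ^ p := by
  have hp0 : p ≠ 0 := hp.ne_zero
  obtain ⟨hmon, hdeg⟩ := sm_monic_of_rel hp0 P hrel
  have hroots := sm_roots_of_rel hp0 ζ hζ P hrel
  have hJD : jqModC k * sm_DL k = 1 := sm_J_mul_D ℓ hℓ
  have heta := sm_eta_L hp ζ hζ
  -- the relation pushed through `V_p`
  have hVV : Vq k (p * p) (jqModC k) = Polynomial.aeval (Vq k p (jqModC k)) P := by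
    have h1 : Vq k p (Polynomial.aeval (jqModC k) P)
        = Polynomial.aeval (Vq k p (jqModC k)) P :=
      (Polynomial.aeval_algHom_apply (VqAlg k p) (jqModC k) P).symm
    rw [← Vq_Vq hp0 hp0, ← h1, ← hrel]
  have hxD : Vq k p (jqModC k) * Vq k p (sm_DL k) = 1 := by
    rw [← map_mul, hJD, map_one]
  have hVVD : Vq k (p * p) (jqModC k) * Vq k (p * p) (sm_DL k) = 1 := by
    rw [← map_mul, hJD, map_one]
  have htw : (∏ b ∈ Finset.range p, tw (ζ ^ b) (jqModC k))
      * (∏ b ∈ Finset.range p, tw (ζ ^ b) (sm_DL k)) = 1 := by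
    rw [← Finset.prod_mul_distrib]
    refine Finset.prod_eq_one fun b _ => ?_
    rw [← map_mul, hJD, map_one]
  -- evaluate the factorisation at `0`
  have h0 := congrArg (Polynomial.eval 0) hroots
  rw [Polynomial.eval_sub, Polynomial.eval_C, Polynomial.eval_zero_map, Polynomial.eval_prod] at h0
  simp only [Polynomial.eval_sub, Polynomial.eval_X, Polynomial.eval_C, zero_sub] at h0
  rw [Finset.prod_neg, Finset.card_range] at h0
  set x := Vq k p (jqModC k) with hx
  set ε : k := ∏ b ∈ Finset.range p, ((ζ ^ b : kˣ) : k) with hε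
  have hε0 : ε ≠ 0 := by
    rw [hε, Finset.prod_ne_zero_iff]
    intro b _
    exact Units.ne_zero _
  -- the product of the conjugates, from the `η`-identity
  have hprod : x ^ (p + 1) = HahnSeries.C ε * (∏ b ∈ Finset.range p, tw (ζ ^ b) (jqModC k))
      * Vq k (p * p) (jqModC k) := by
    calc x ^ (p + 1)
        = x ^ (p + 1) * ((∏ b ∈ Finset.range p, tw (ζ ^ b) (jqModC k))
            * (∏ b ∈ Finset.range p, tw (ζ ^ b) (sm_DL k)))
          * (Vq k (p * p) (jqModC k) * Vq k (p * p) (sm_DL k)) := by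
          rw [htw, hVVD, mul_one, mul_one]
      _ = x ^ (p + 1) * ((∏ b ∈ Finset.range p, tw (ζ ^ b) (sm_DL k))
            * Vq k (p * p) (sm_DL k)) * (∏ b ∈ Finset.range p, tw (ζ ^ b) (jqModC k))
          * Vq k (p * p) (jqModC k) := by ring
      _ = (x * Vq k p (sm_DL k)) ^ (p + 1) * HahnSeries.C ε
          * (∏ b ∈ Finset.range p, tw (ζ ^ b) (jqModC k)) * Vq k (p * p) (jqModC k) := by
          rw [heta]; ring
      _ = _ := by rw [hxD, one_pow, one_mul]
  -- the polynomial identity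
  have hpoly : Polynomial.aeval x
      ((Polynomial.C (P.eval 0) - Polynomial.X) * Polynomial.C ε * P
        - Polynomial.C ((-1 : k) ^ p) * Polynomial.X ^ (p + 1)) = 0 := by
    simp only [map_sub, map_mul, map_pow, Polynomial.aeval_C, Polynomial.aeval_X, map_neg, map_one]
    rw [h0, ← hVV, hprod, algebraMap_eq_C]
    ring
  have hpoly' := sm_aeval_VJ_eq_zero hp0 hpoly
  have hfin : P * (Polynomial.X - Polynomial.C (P.eval 0))
      = Polynomial.C (-(ε⁻¹ * (-1 : k) ^ p)) * Polynomial.X ^ (p + 1) := by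
    have h1 : (Polynomial.C (P.eval 0) - Polynomial.X) * Polynomial.C ε * P
        = Polynomial.C ((-1 : k) ^ p) * Polynomial.X ^ (p + 1) := sub_eq_zero.mp hpoly'
    have h2 : Polynomial.C ε⁻¹ * Polynomial.C ε = (1 : Polynomial k) := by
      rw [← Polynomial.C_mul, inv_mul_cancel₀ hε0, Polynomial.C_1]
    calc P * (Polynomial.X - Polynomial.C (P.eval 0))
        = -((Polynomial.C ε⁻¹ * Polynomial.C ε)
            * ((Polynomial.C (P.eval 0) - Polynomial.X) * P)) := by rw [h2]; ring
      _ = -(Polynomial.C ε⁻¹ * ((Polynomial.C (P.eval 0) - Polynomial.X) * Polynomial.C ε * P)) := by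
          ring
      _ = _ := by
          rw [h1, Polynomial.C_neg, Polynomial.C_mul]; ring
  exact pc_eq_X_pow p P hmon hdeg _ _ hfin

theorem sm_not_poly_aux (ℓ : ℕ) [CharP k ℓ] (hℓ : ℓ = 2 ∨ ℓ = 3) {p : ℕ} (hp : p.Prime)
    (hpℓ : p ≠ ℓ) (ζ : kˣ) (hζ : IsPrimitiveRoot ζ p) (P : Polynomial k) :
    Vq k p (jqModC k) ≠ Polynomial.aeval (jqModC k) P := by
  intro hrel
  have hp0 : p ≠ 0 := hp.ne_zero
  have hPX := sm_eq_X_pow ℓ hℓ hp ζ hζ P hrel
  have hJD : jqModC k * sm_DL k = 1 := sm_J_mul_D ℓ hℓ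
  have hxJ : Vq k p (jqModC k) = jqModC k ^ p := by
    rw [hrel, hPX, map_pow, Polynomial.aeval_X]
  have hxD : Vq k p (jqModC k) * Vq k p (sm_DL k) = 1 := by
    rw [← map_mul, hJD, map_one]
  have hVD : Vq k p (sm_DL k) = sm_DL k ^ p := by
    calc Vq k p (sm_DL k) = Vq k p (sm_DL k) * (jqModC k * sm_DL k) ^ p := by
          rw [hJD, one_pow, mul_one]
      _ = (Vq k p (jqModC k) * Vq k p (sm_DL k)) * sm_DL k ^ p := by
          rw [mul_pow, hxJ]; ring
      _ = _ := by rw [hxD, one_mul]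
  -- back to power series
  have hPS : PowerSeries.expand p hp0 (sm_D k) = sm_D k ^ p := by
    apply HahnSeries.ofPowerSeries_injective (Γ := ℤ)
    rw [map_pow, ← sm_Vq_ofPowerSeries hp0]
    exact hVD
  have hE : PowerSeries.expand p hp0 (sm_E k) ^ 24 = (sm_E k ^ p) ^ 24 := by
    have h1 : PowerSeries.X ^ p * PowerSeries.expand p hp0 (sm_E k) ^ 24
        = PowerSeries.X ^ p * (sm_E k ^ p) ^ 24 := by
      have h2 := hPS
      rw [sm_D, map_mul, map_pow, PowerSeries.expand_X, mul_pow] at h2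
      rw [h2]; ring
    exact mul_left_cancel₀ (pow_ne_zero p PowerSeries.X_ne_zero) h1
  -- strip the `ℓ`-part of `24`
  have hℓp : ℓ.Prime := by rcases hℓ with rfl | rfl <;> norm_num
  have : Fact ℓ.Prime := ⟨hℓp⟩
  have : CharP (PowerSeries k) ℓ := charP_of_injective_ringHom PowerSeries.C_injective ℓ
  have : ExpChar (PowerSeries k) ℓ := ExpChar.prime hℓp
  obtain ⟨m, e, hme, hm⟩ : ∃ m e : ℕ, 24 = m * ℓ ^ e ∧ ¬ ℓ ∣ m := by
    rcases hℓ with rfl | rfl
    · exact ⟨3, 3, by norm_num, by norm_num⟩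
    · exact ⟨8, 1, by norm_num, by norm_num⟩
  have hE' : PowerSeries.expand p hp0 (sm_E k) ^ m = (sm_E k ^ p) ^ m := by
    apply iterateFrobenius_inj (PowerSeries k) ℓ e
    rw [iterateFrobenius_def, iterateFrobenius_def, ← pow_mul, ← pow_mul, ← hme]
    exact hE
  -- compare the coefficients of `q`
  have hc0 : PowerSeries.coeff 0 (PowerSeries.expand p hp0 (sm_E k)) = 1 := by
    rw [PowerSeries.coeff_zero_eq_constantCoeff_apply, PowerSeries.constantCoeff_expand,
      ← PowerSeries.coeff_zero_eq_constantCoeff_apply]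
    exact sm_coeff_E.1
  have hc1 : PowerSeries.coeff 1 (PowerSeries.expand p hp0 (sm_E k)) = 0 := by
    apply PowerSeries.coeff_expand_of_not_dvd
    intro h
    exact hp.one_lt.ne' (Nat.dvd_one.mp h)
  have hL := (sm_coeff_pow _ hc0 m).2
  rw [hc1, mul_zero, hE', ← pow_mul, (sm_coeff_pow _ sm_coeff_E.1 (p * m)).2, sm_coeff_E.2] at hL
  have hpm : ((p * m : ℕ) : k) = 0 := by
    have := neg_eq_zero.mp (by simpa using hL.symm : -((p * m : ℕ) : k) = 0)
    exact this
  rw [CharP.cast_eq_zero_iff k ℓ] at hpm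
  rcases hℓp.dvd_mul.mp hpm with h | h
  · exact hpℓ ((Nat.prime_dvd_prime_iff_eq hℓp hp).mp h).symm
  · exact hm h

end Small

/-- **(P1) in characteristic `2` and `3`**: `J(q^p)` is not a polynomial in `J(q)`. -/
theorem sm_not_poly (k : Type) [Field k] [IsAlgClosed k] (l : ℕ) [CharP k l] (hl : l = 2 ∨ l = 3)
    (p : ℕ) (hp : p.Prime) (hpl : p ≠ l) (P : Polynomial k) :
    Vq k p (jqModC k) ≠ Polynomial.aeval (jqModC k) P := by
  have hlp : l.Prime := by rcases hl with rfl | rfl <;> norm_num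
  have : NeZero (p : k) := by
    refine ⟨fun h => ?_⟩
    rw [CharP.cast_eq_zero_iff k l] at h
    exact hpl ((Nat.prime_dvd_prime_iff_eq hlp hp).mp h).symm
  obtain ⟨ζ, hζ⟩ := HasEnoughRootsOfUnity.exists_primitiveRoot k p
  obtain ⟨u, rfl⟩ := hζ.isUnit hp.ne_zero
  exact sm_not_poly_aux l hl hp hpl u (IsPrimitiveRoot.coe_units_iff.mp hζ) P

end

end Fermat.Agent.S28Lib
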