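/-
S28, chunk G, companion (helper7): the same degree bound over `ℚ(j⁻¹) = ℚ(j)` (for the chart at
infinity).
-/
import Fermat.Agent.Lib.S28.DegQ

set_option autoImplicit false

namespace Fermat.Agent.S28Lib

open ModularCurve IntermediateField ModularCurve.IgusaScheme

/-- `K(x⁻¹) = K(x)`. -/
theorem dq_adjoin_inv {K F : Type*} [Field K] [Field F] [Algebra K F] (x : F) :
    K⟮x⁻¹⟯ = K⟮x⟯ := by
  apply le_antisymm
  · rw [adjoin_simple_le_iff]
    exact inv_mem (mem_adjoin_simple_self K x)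
  · rw [adjoin_simple_le_iff]
    have h := inv_mem (mem_adjoin_simple_self K x⁻¹)
    rwa [inv_inv] at h

theorem dq_adjoin_jFull_inv (N : ℕ) [NeZero N] : ℚ⟮(jFull N)⁻¹⟯ = ℚ⟮jFull N⟯ :=
  dq_adjoin_inv (jFull N)

/-- the function field of `X₀(N)` over `ℚ` is finite over `ℚ(j⁻¹)`. -/
theorem dq_finite_inv (N : ℕ) [NeZero N] :
    Module.Finite ℚ⟮(jFull N)⁻¹⟯ ↥(modularFunctionFieldFull N) := by
  rw [dq_adjoin_jFull_inv]
  exact dq_finite N

/-- `[F : ℚ(j⁻¹)] ≤ ψ(N)`. -/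
theorem dq_finrank_inv_le (N : ℕ) [NeZero N] :
    Module.finrank ℚ⟮(jFull N)⁻¹⟯ ↥(modularFunctionFieldFull N) ≤ dedekindPsi N := by
  rw [dq_adjoin_jFull_inv]
  exact dq_finrank_le N

end Fermat.Agent.S28Lib
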