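/-
S28 (Igusa), chunk C3 final form (lead): `c3_igusa_indep` = (IG') from (P1), combining IG.lean (c3_IG'), StepP.lean (c1_step) and ChainLift.lean (c2_step_coprime).
-/
import Fermat.Agent.Lib.S28.IG
import Fermat.Agent.Lib.S28.StepP
import Fermat.Agent.Lib.S28.ChainLift

set_option autoImplicit false

namespace Fermat.Agent.S28Lib

open HahnSeries ModularCurve Polynomial IntermediateField

noncomputable section

/-- **(IG')** from (P1): `ψ(N)` elements of `ℤ[V_d J : d ∣ N]` whose reductions to `k` are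
linearly independent over `K0 = k(J)`. -/
theorem c3_igusa_indep {k : Type} [Field k] [IsAlgClosed k] (N : ℕ) (hN : N ≠ 0)
    (hΦ : ∀ p : ℕ, p.Prime → p ∣ N → Nonempty (PhiData k p))
    (hP1 : ∀ p : ℕ, p.Prime → p ∣ N → Vq k p (jqModC k) ∉ K0 k) :
    ∃ m : Fin (dedekindPsi N) → LaurentSeries ℤ,
      (∀ i, m i ∈ Subring.closure {x : LaurentSeries ℤ | ∃ d, d ∣ N ∧ x = Vq ℤ d (jqModC ℤ)}) ∧
      LinearIndependent ↥(K0 k) (fun i => coeffMap (Int.castRingHom k) (m i)) := by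
  have : NeZero N := ⟨hN⟩
  have hM0 : ∀ p M : ℕ, M * p ∣ N → M ≠ 0 := by
    rintro p M h rfl
    rw [zero_mul] at h
    exact hN (Nat.eq_zero_of_zero_dvd h)
  obtain ⟨m, hm, -, hli⟩ := c3_IG' k N hΦ
    (fun p M hp _ hMp => by
      have hpN : p ∣ N := (Dvd.intro_left M rfl).trans hMp
      obtain ⟨D⟩ := hΦ p hp hpN
      exact c1_step D hp.two_le (hP1 p hp hpN) M)
    (fun p M hp hpM hMp => by
      have hpN : p ∣ N := (Dvd.intro_left M rfl).trans hMp
      obtain ⟨D⟩ := hΦ p hp hpN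
      exact c2_step_coprime hp D (hP1 p hp hpN) M (hM0 p M hMp) hpM
        (fun r hr hrM => hΦ r hr (hrM.trans ((Dvd.intro p rfl).trans hMp))))
  exact ⟨m, hm, hli⟩

end

end Fermat.Agent.S28Lib
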