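import Mathlib
import Fermat.Agent.Lib.S24.JAnOrder
import Fermat.Agent.Lib.S24.JAnSurj

/-!
# S28, chunk A3: multiplicities of the roots of `Φ(0, Y)` and `Φ(1728, Y)` over `ℂ`

If `Q(j(w)) = c ∏ᵢ j(gᵢ w)` for holomorphic maps `gᵢ : ℍ → ℍ`, then every root `y ≠ 0` of `Q` has
multiplicity divisible by `3` (`om_three_dvd`); if `Q(j(w)) = c ∏ᵢ (j(gᵢ w) - 1728)`, every root
`y ≠ 1728` of `Q` has even multiplicity (`om_two_dvd`).
-/

set_option autoImplicit false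

namespace Fermat.Agent.S28Lib

open UpperHalfPlane ModularForm Polynomial
open scoped Manifold Topology
open Fermat.Agent.S24Lib Fermat.Agent.S20Lib Fermat.Agent.LibS23

/-- `j - 1728` has order `2` at every zero of `E₆`. -/
theorem om_order_of_E6 {τ : ℍ} (h : E₆ τ = 0) :
    analyticOrderAt (fun z : ℂ => jAn (ofComplex z) - 1728) (τ : ℂ) = 2 := by
  have e : (fun z : ℂ => jAn (ofComplex z) - 1728)
      = (fun z : ℂ => E₆ (ofComplex z)) ^ 2
        * (fun z : ℂ => (ModularForm.discriminant (ofComplex z))⁻¹) := by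
    ext z
    simp only [Pi.mul_apply, Pi.pow_apply]
    rw [jAn_sub, div_eq_mul_inv]
  have h6 := jAn_analyticAt jAn_mdiff_E6 τ
  have hΔ := jAn_analyticAt_inv_discriminant τ
  have h1 := jAn_order_simple Irr.E6 h
  have h2 := jAn_order_inv_discriminant τ
  rw [e, analyticOrderAt_mul (h6.pow 2) hΔ, analyticOrderAt_pow h6, h1, h2]
  norm_num

/-- `j` has order `3` at every zero of `E₄`. -/
theorem om_order_of_E4 {τ : ℍ} (h : E₄ τ = 0) :
    analyticOrderAt (fun z : ℂ => jAn (ofComplex z)) (τ : ℂ) = 3 := by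
  have e : (fun z : ℂ => jAn (ofComplex z))
      = (fun z : ℂ => E₄ (ofComplex z)) ^ 3
        * (fun z : ℂ => (ModularForm.discriminant (ofComplex z))⁻¹) := by
    ext z
    simp only [Pi.mul_apply, Pi.pow_apply]
    unfold jAn
    rw [div_eq_mul_inv]
  have h4 := jAn_analyticAt jAn_mdiff_E4 τ
  have hΔ := jAn_analyticAt_inv_discriminant τ
  have h1 := jAn_order_simple Irr.E4 h
  have h2 := jAn_order_inv_discriminant τ
  rw [e, analyticOrderAt_mul (h4.pow 3) hΔ, analyticOrderAt_pow h4, h1, h2]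
  norm_num

/-- at a point with `j ≠ 0` the local order of `j - j(τ)` is `1` or `2`. -/
theorem om_order_sub_of_ne_zero {τ : ℍ} (h0 : jAn τ ≠ 0) :
    analyticOrderAt (fun z : ℂ => jAn (ofComplex z) - jAn τ) (τ : ℂ) = 1 ∨
      analyticOrderAt (fun z : ℂ => jAn (ofComplex z) - jAn τ) (τ : ℂ) = 2 := by
  by_cases h1 : jAn τ = 1728
  · right
    have h6 : E₆ τ = 0 := by
      have := jAn_sub τ
      rw [h1, sub_self] at this
      have hΔ := discriminant_ne_zero τ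
      have h2 : E₆ τ ^ 2 = 0 := by
        have := this.symm
        rwa [div_eq_zero_iff, or_iff_left hΔ] at this
      exact pow_eq_zero_iff (two_ne_zero) |>.mp h2
    rw [h1]
    exact om_order_of_E6 h6
  · left
    exact jAn_order_generic h0 h1

/-- at a point with `j ≠ 1728` the local order of `j - j(τ)` is `1` or `3`. -/
theorem om_order_sub_of_ne_1728 {τ : ℍ} (h1 : jAn τ ≠ 1728) :
    analyticOrderAt (fun z : ℂ => jAn (ofComplex z) - jAn τ) (τ : ℂ) = 1 ∨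
      analyticOrderAt (fun z : ℂ => jAn (ofComplex z) - jAn τ) (τ : ℂ) = 3 := by
  by_cases h0 : jAn τ = 0
  · right
    have h4 : E₄ τ = 0 := by
      have hΔ := discriminant_ne_zero τ
      have h3 : E₄ τ ^ 3 = 0 := by
        have := jAn_mul_discriminant τ
        rw [h0, zero_mul] at this
        exact this.symm
      exact pow_eq_zero_iff (three_ne_zero) |>.mp h3
    rw [h0]
    simp only [sub_zero]
    exact om_order_of_E4 h4
  · left
    exact jAn_order_generic h0 h1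

/-- the key order computation: if `Q(j(z)) = G(z)^n U(z)` with `U(τ) ≠ 0`, then
`mult_{j(τ)}(Q) · ord_τ(j - j(τ)) = n · ord_τ(G)`. -/
theorem om_key (Q : ℂ[X]) (hQ : Q ≠ 0) (τ : ℍ) (G U : ℂ → ℂ) (hG : AnalyticAt ℂ G (τ : ℂ))
    (hU : AnalyticAt ℂ U (τ : ℂ)) (hU0 : U (τ : ℂ) ≠ 0) (n : ℕ)
    (h : ∀ z : ℂ, Q.eval (jAn (ofComplex z)) = G z ^ n * U z) :
    Q.rootMultiplicity (jAn τ) •
        analyticOrderAt (fun z : ℂ => jAn (ofComplex z) - jAn τ) (τ : ℂ)
      = n • analyticOrderAt G (τ : ℂ) := by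
  obtain ⟨Q₁, hQ₁, hnd⟩ := exists_eq_pow_rootMultiplicity_mul_and_not_dvd Q hQ (jAn τ)
  set m := Q.rootMultiplicity (jAn τ) with hm
  have hJ : AnalyticAt ℂ (fun z : ℂ => jAn (ofComplex z)) (τ : ℂ) := jAn_analyticAt jAn_mdiff τ
  have hJτ : jAn (ofComplex (τ : ℂ)) = jAn τ := by rw [ofComplex_apply]
  have hf₁ : AnalyticAt ℂ (fun z : ℂ => jAn (ofComplex z) - jAn τ) (τ : ℂ) :=
    hJ.sub analyticAt_const
  have hf₂ : AnalyticAt ℂ (fun z : ℂ => Q₁.eval (jAn (ofComplex z))) (τ : ℂ) := by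
    have := hJ.aeval_polynomial Q₁
    simpa [Polynomial.aeval_def, Polynomial.eval₂_eq_eval_map] using this
  have hf₂0 : (fun z : ℂ => Q₁.eval (jAn (ofComplex z))) (τ : ℂ) ≠ 0 := by
    show Q₁.eval (jAn (ofComplex (τ : ℂ))) ≠ 0
    rw [hJτ]
    intro h0
    exact hnd (dvd_iff_isRoot.mpr h0)
  have e1 : (fun z : ℂ => Q.eval (jAn (ofComplex z)))
      = (fun z : ℂ => jAn (ofComplex z) - jAn τ) ^ m
        * (fun z : ℂ => Q₁.eval (jAn (ofComplex z))) := by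
    ext z
    simp only [Pi.mul_apply, Pi.pow_apply]
    conv_lhs => rw [hQ₁]
    simp [eval_mul, eval_pow]
  have e2 : (fun z : ℂ => Q.eval (jAn (ofComplex z))) = G ^ n * U := by
    ext z
    simp only [Pi.mul_apply, Pi.pow_apply]
    exact h z
  have o1 : analyticOrderAt (fun z : ℂ => Q.eval (jAn (ofComplex z))) (τ : ℂ)
      = m • analyticOrderAt (fun z : ℂ => jAn (ofComplex z) - jAn τ) (τ : ℂ) := by
    rw [e1, analyticOrderAt_mul (hf₁.pow m) hf₂, analyticOrderAt_pow hf₁,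
      (hf₂.analyticOrderAt_eq_zero).mpr hf₂0, add_zero]
  have o2 : analyticOrderAt (fun z : ℂ => Q.eval (jAn (ofComplex z))) (τ : ℂ)
      = n • analyticOrderAt G (τ : ℂ) := by
    rw [e2, analyticOrderAt_mul (hG.pow n) hU, analyticOrderAt_pow hG,
      (hU.analyticOrderAt_eq_zero).mpr hU0, add_zero]
  rw [← o1, o2]

section Prod

/-- arithmetic in `ℕ∞`. -/
theorem om_enat_aux (m a n : ℕ) (x : ℕ∞) (h : m • (a : ℕ∞) = n • x) (hn : n ≠ 0) :
    ∃ n₂ : ℕ, m * a = n * n₂ := by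
  have hx : x ≠ ⊤ := by
    rintro rfl
    rw [nsmul_eq_mul, nsmul_eq_mul] at h
    have h' : ((n : ℕ∞) * ⊤) = ⊤ := ENat.mul_top (by exact_mod_cast hn)
    rw [h'] at h
    exact ENat.natCast_ne_top (m * a) (by push_cast; exact h)
  obtain ⟨n₂, rfl⟩ := ENat.ne_top_iff_exists.mp hx
  refine ⟨n₂, ?_⟩
  rw [nsmul_eq_mul, nsmul_eq_mul] at h
  exact_mod_cast h

variable {ι : Type*} (s : Finset ι) (g : ι → ℍ → ℍ)

theorem om_analyticAt_comp {F : ℍ → ℂ} (hF : MDiff F) {i : ι} (hg : MDiff (g i)) (τ : ℍ) :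
    AnalyticAt ℂ (fun z : ℂ => F (g i (ofComplex z))) (τ : ℂ) :=
  jAn_analyticAt (F := fun w => F (g i w)) (hF.comp hg) τ

theorem om_analyticAt_prod {F : ℍ → ℂ} (hF : MDiff F) (hg : ∀ i ∈ s, MDiff (g i)) (τ : ℍ) :
    AnalyticAt ℂ (fun z : ℂ => ∏ i ∈ s, F (g i (ofComplex z))) (τ : ℂ) :=
  Finset.analyticAt_fun_prod s fun i hi => om_analyticAt_comp g hF (hg i hi) τ

/-- **(M) at `0`.** -/
theorem om_three_dvd (Q : ℂ[X]) (hQ : Q ≠ 0) (hg : ∀ i ∈ s, MDiff (g i)) (c : ℂ) (hc : c ≠ 0)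
    (h : ∀ w : ℍ, Q.eval (jAn w) = c * ∏ i ∈ s, jAn (g i w)) (y : ℂ) (hy : y ≠ 0) :
    3 ∣ Q.rootMultiplicity y := by
  obtain ⟨τ, rfl⟩ := jAn_surjective y
  set G : ℂ → ℂ := fun z => ∏ i ∈ s, E₄ (g i (ofComplex z)) with hGdef
  set U : ℂ → ℂ := fun z => c * (∏ i ∈ s, ModularForm.discriminant (g i (ofComplex z)))⁻¹
    with hUdef
  have hG : AnalyticAt ℂ G (τ : ℂ) := om_analyticAt_prod s g jAn_mdiff_E4 hg τ
  have hD : AnalyticAt ℂ (fun z : ℂ => ∏ i ∈ s, ModularForm.discriminant (g i (ofComplex z)))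
      (τ : ℂ) := om_analyticAt_prod s g jAn_mdiff_discriminant hg τ
  have hD0 : ∀ z : ℂ, (∏ i ∈ s, ModularForm.discriminant (g i (ofComplex z))) ≠ 0 := fun z =>
    Finset.prod_ne_zero_iff.mpr fun i _ => discriminant_ne_zero _
  have hU : AnalyticAt ℂ U (τ : ℂ) := analyticAt_const.mul (hD.inv (hD0 _))
  have hU0 : U (τ : ℂ) ≠ 0 := mul_ne_zero hc (inv_ne_zero (hD0 _))
  have hkey := om_key Q hQ τ G U hG hU hU0 3 (fun z => by
    rw [h (ofComplex z), hGdef, hUdef]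
    simp only
    have : ∀ i ∈ s, jAn (g i (ofComplex z))
        = E₄ (g i (ofComplex z)) ^ 3 * (ModularForm.discriminant (g i (ofComplex z)))⁻¹ :=
      fun i _ => by unfold jAn; rw [div_eq_mul_inv]
    rw [Finset.prod_congr rfl this, Finset.prod_mul_distrib, Finset.prod_pow, Finset.prod_inv_distrib]
    ring)
  rcases om_order_sub_of_ne_zero hy with h1 | h1
  · rw [h1] at hkey
    obtain ⟨n₂, h3⟩ := om_enat_aux (Q.rootMultiplicity (jAn τ)) 1 3 _
      (by exact_mod_cast hkey) (by norm_num)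
    exact ⟨n₂, by omega⟩
  · rw [h1] at hkey
    obtain ⟨n₂, h3⟩ := om_enat_aux (Q.rootMultiplicity (jAn τ)) 2 3 _
      (by exact_mod_cast hkey) (by norm_num)
    omega

/-- **(M) at `1728`.** -/
theorem om_two_dvd (Q : ℂ[X]) (hQ : Q ≠ 0) (hg : ∀ i ∈ s, MDiff (g i)) (c : ℂ) (hc : c ≠ 0)
    (h : ∀ w : ℍ, Q.eval (jAn w) = c * ∏ i ∈ s, (jAn (g i w) - 1728)) (y : ℂ) (hy : y ≠ 1728) :
    2 ∣ Q.rootMultiplicity y := by
  obtain ⟨τ, rfl⟩ := jAn_surjective y
  set G : ℂ → ℂ := fun z => ∏ i ∈ s, E₆ (g i (ofComplex z)) with hGdef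
  set U : ℂ → ℂ := fun z => c * (∏ i ∈ s, ModularForm.discriminant (g i (ofComplex z)))⁻¹
    with hUdef
  have hG : AnalyticAt ℂ G (τ : ℂ) := om_analyticAt_prod s g jAn_mdiff_E6 hg τ
  have hD : AnalyticAt ℂ (fun z : ℂ => ∏ i ∈ s, ModularForm.discriminant (g i (ofComplex z)))
      (τ : ℂ) := om_analyticAt_prod s g jAn_mdiff_discriminant hg τ
  have hD0 : ∀ z : ℂ, (∏ i ∈ s, ModularForm.discriminant (g i (ofComplex z))) ≠ 0 := fun z =>
    Finset.prod_ne_zero_iff.mpr fun i _ => discriminant_ne_zero _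
  have hU : AnalyticAt ℂ U (τ : ℂ) := analyticAt_const.mul (hD.inv (hD0 _))
  have hU0 : U (τ : ℂ) ≠ 0 := mul_ne_zero hc (inv_ne_zero (hD0 _))
  have hkey := om_key Q hQ τ G U hG hU hU0 2 (fun z => by
    rw [h (ofComplex z), hGdef, hUdef]
    simp only
    have : ∀ i ∈ s, jAn (g i (ofComplex z)) - 1728
        = E₆ (g i (ofComplex z)) ^ 2 * (ModularForm.discriminant (g i (ofComplex z)))⁻¹ :=
      fun i _ => by rw [jAn_sub, div_eq_mul_inv]
    rw [Finset.prod_congr rfl this, Finset.prod_mul_distrib, Finset.prod_pow, Finset.prod_inv_distrib]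
    ring)
  rcases om_order_sub_of_ne_1728 hy with h1 | h1
  · rw [h1] at hkey
    obtain ⟨n₂, h3⟩ := om_enat_aux (Q.rootMultiplicity (jAn τ)) 1 2 _
      (by exact_mod_cast hkey) (by norm_num)
    exact ⟨n₂, by omega⟩
  · rw [h1] at hkey
    obtain ⟨n₂, h3⟩ := om_enat_aux (Q.rootMultiplicity (jAn τ)) 3 2 _
      (by exact_mod_cast hkey) (by norm_num)
    omega

end Prod

end Fermat.Agent.S28Lib
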