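/-
S28, chunk B1 (helper1): (P1) `J(q^p) ∉ k(J)` for `1728 ≠ 0` in `k`, and the shared front part:
`J(q^p) ∈ k(J)` forces `J(q^p) = P(J)` with `P` monic of degree `p` and
`Φ̄(X, Y) = (X - P(Y)) (P(X) - Y)`.
-/
import Fermat.Agent.Lib.S28.Base
import Fermat.Agent.Lib.S28.PolyCount
import Fermat.Prelude.Thm_ModularCurve_coeff_jqModC_pow_self
import Fermat.Prelude.Thm_ModularCurve_coeff_jqModC_pow_of_lt
import Fermat.Prelude.Thm_ModularCurve_coeff_jqModC_neg_one

set_option autoImplicit false

namespace Fermat.Agent.S28Lib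

open HahnSeries ModularCurve Polynomial

noncomputable section

section general

variable {k : Type} [Field k]

/-! ### `J` is transcendental -/

theorem p1_coeff_C_mul (c : k) (x : LaurentSeries k) (m : ℤ) :
    (HahnSeries.C c * x).coeff m = c * x.coeff m := by
  rw [HahnSeries.C_mul_eq_smul]
  rfl

theorem p1_aeval_eq_sum (P : Polynomial k) :
    Polynomial.aeval (jqModC k) P
      = ∑ i ∈ Finset.range (P.natDegree + 1), HahnSeries.C (P.coeff i) * jqModC k ^ i := by
  rw [Polynomial.aeval_def, Polynomial.eval₂_eq_sum_range]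
  refine Finset.sum_congr rfl fun i _ => ?_
  rw [algebraMap_eq_C]

theorem p1_coeff_aeval_of_lt (P : Polynomial k) {m : ℤ} (hm : m < -(P.natDegree : ℤ)) :
    (Polynomial.aeval (jqModC k) P).coeff m = 0 := by
  rw [p1_aeval_eq_sum, HahnSeries.coeff_sum]
  refine Finset.sum_eq_zero fun i hi => ?_
  have hi' : i ≤ P.natDegree := Nat.lt_succ_iff.mp (Finset.mem_range.mp hi)
  rw [p1_coeff_C_mul, coeff_jqModC_pow_of_lt k (by
    have : (i : ℤ) ≤ P.natDegree := by exact_mod_cast hi'
    linarith), mul_zero]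

theorem p1_coeff_aeval_natDegree (P : Polynomial k) :
    (Polynomial.aeval (jqModC k) P).coeff (-(P.natDegree : ℤ)) = P.leadingCoeff := by
  rw [p1_aeval_eq_sum, HahnSeries.coeff_sum, Finset.sum_range_succ]
  rw [Finset.sum_eq_zero, zero_add]
  · rw [p1_coeff_C_mul, coeff_jqModC_pow_self, mul_one]
    rfl
  · intro i hi
    have hi' : i < P.natDegree := Finset.mem_range.mp hi
    rw [p1_coeff_C_mul, coeff_jqModC_pow_of_lt k (by
      have : (i : ℤ) < P.natDegree := by exact_mod_cast hi'
      linarith), mul_zero]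

theorem p1_transcendental_J : Transcendental k (jqModC k) := by
  rw [transcendental_iff]
  intro P hP
  by_contra h0
  have h := p1_coeff_aeval_natDegree P
  rw [hP, HahnSeries.coeff_zero] at h
  exact h0 (Polynomial.leadingCoeff_eq_zero.mp h.symm)

theorem p1_aeval_injective : Function.Injective (Polynomial.aeval (R := k) (jqModC k)) :=
  transcendental_iff_injective.mp p1_transcendental_J

end general

/-! ### the front part: `V_p J = P(J)` forces the shape of `Φ̄` -/

section front

variable {k : Type} [Field k] {p : ℕ}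

theorem p1_Vq_aeval (n : ℕ) (P : Polynomial k) (y : LaurentSeries k) :
    Vq k n (Polynomial.aeval y P) = Polynomial.aeval (Vq k n y) P :=
  (Polynomial.aeval_algHom_apply (VqAlg k n) y P).symm

theorem p1_tw_aeval (c : kˣ) (P : Polynomial k) (y : LaurentSeries k) :
    tw c (Polynomial.aeval y P) = Polynomial.aeval (tw c y) P :=
  (Polynomial.aeval_algHom_apply (twAlg c) y P).symm

theorem p1_coeff_VqJ_self (hp : p ≠ 0) : (Vq k p (jqModC k)).coeff (-(p : ℤ)) = 1 := by
  have h := Vq_coeff_mul hp (jqModC k) (-1)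
  rw [mul_neg_one, coeff_jqModC_neg_one] at h
  exact h

theorem p1_coeff_VqJ_of_lt (hp : p ≠ 0) {m : ℤ} (hm : m < -(p : ℤ)) :
    (Vq k p (jqModC k)).coeff m = 0 := by
  by_cases h : (p : ℤ) ∣ m
  · obtain ⟨m', rfl⟩ := h
    rw [Vq_coeff_mul hp]
    apply coeff_jqModC_of_lt k
    have hp' : (0 : ℤ) < p := by exact_mod_cast Nat.pos_of_ne_zero hp
    by_contra hcon
    rw [not_lt] at hcon
    nlinarith
  · exact Vq_coeff_of_not_dvd hp _ h

theorem p1_poly_natDegree (hp : p ≠ 0) (P : Polynomial k)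
    (hP : Vq k p (jqModC k) = Polynomial.aeval (jqModC k) P) : P.natDegree = p ∧ P.Monic := by
  have hP0 : P ≠ 0 := by
    rintro rfl
    have h := p1_coeff_VqJ_self (k := k) hp
    rw [hP, map_zero, HahnSeries.coeff_zero] at h
    exact zero_ne_one h
  have hlc : P.leadingCoeff ≠ 0 := Polynomial.leadingCoeff_ne_zero.mpr hP0
  have h1 : P.natDegree ≤ p := by
    by_contra hcon
    rw [not_le] at hcon
    have h := p1_coeff_aeval_natDegree P
    rw [← hP, p1_coeff_VqJ_of_lt hp (by
      have : (p : ℤ) < P.natDegree := by exact_mod_cast hcon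
      linarith)] at h
    exact hlc h.symm
  have h2 : p ≤ P.natDegree := by
    by_contra hcon
    rw [not_le] at hcon
    have h := p1_coeff_VqJ_self (k := k) hp
    rw [hP, p1_coeff_aeval_of_lt P (by
      have : (P.natDegree : ℤ) < p := by exact_mod_cast hcon
      linarith)] at h
    exact zero_ne_one h
  have hn : P.natDegree = p := le_antisymm h1 h2
  refine ⟨hn, ?_⟩
  have h := p1_coeff_aeval_natDegree P
  rw [← hP, hn, p1_coeff_VqJ_self hp] at h
  exact h.symm

theorem p1_tw_root (D : PhiData k p) (hp : p ≠ 0) (P : Polynomial k)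
    (hP : Vq k p (jqModC k) = Polynomial.aeval (jqModC k) P) (b : ℕ) :
    Polynomial.aeval (tw (D.ζ ^ b) (jqModC k)) P = Vq k p (jqModC k) := by
  rw [← p1_tw_aeval, ← hP]
  refine tw_Vq_of_pow_eq_one hp ?_ _
  rw [← pow_mul, mul_comm, pow_mul, D.prim.pow_eq_one, one_pow]

theorem p1_tw_inj (D : PhiData k p) {b b' : ℕ} (hb : b < p) (hb' : b' < p)
    (h : tw (D.ζ ^ b) (jqModC k) = tw (D.ζ ^ b') (jqModC k)) : b = b' := by
  have h1 := congrArg (fun x : LaurentSeries k => x.coeff (-1)) h
  simp only [tw_coeff, coeff_jqModC_neg_one, mul_one] at h1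
  have h2 : (D.ζ ^ b) ^ (-1 : ℤ) = (D.ζ ^ b') ^ (-1 : ℤ) := Units.ext h1
  rw [zpow_neg_one, zpow_neg_one, inv_inj] at h2
  exact D.prim.pow_inj hb hb' h2

/-- `P(X) - J(q^p) = ∏_b (X - J(ζ^b q))`. -/
theorem p1_factor (D : PhiData k p) (hp : p ≠ 0) (P : Polynomial k)
    (hP : Vq k p (jqModC k) = Polynomial.aeval (jqModC k) P) :
    P.map (algebraMap k (LaurentSeries k)) - Polynomial.C (Vq k p (jqModC k))
      = ∏ b ∈ Finset.range p, (X - Polynomial.C (tw (D.ζ ^ b) (jqModC k))) := by
  classical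
  obtain ⟨hn, hmon⟩ := p1_poly_natDegree hp P hP
  set H : Polynomial (LaurentSeries k) :=
    P.map (algebraMap k (LaurentSeries k)) - Polynomial.C (Vq k p (jqModC k)) with hH
  have hmapmon : (P.map (algebraMap k (LaurentSeries k))).Monic := hmon.map _
  have hdegC : (Polynomial.C (Vq k p (jqModC k))).degree
      < (P.map (algebraMap k (LaurentSeries k))).degree := by
    rw [Polynomial.degree_map, Polynomial.degree_eq_natDegree hmon.ne_zero, hn]
    refine lt_of_le_of_lt Polynomial.degree_C_le ?_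
    exact_mod_cast Nat.pos_of_ne_zero hp
  have hHmon : H.Monic := hmapmon.sub_of_left hdegC
  have hHdeg : H.natDegree = p := by
    rw [hH, Polynomial.natDegree_sub_eq_left_of_natDegree_lt, Polynomial.natDegree_map, hn]
    rw [Polynomial.natDegree_C, Polynomial.natDegree_map, hn]
    exact Nat.pos_of_ne_zero hp
  set S : Finset (LaurentSeries k) :=
    (Finset.range p).image (fun b => tw (D.ζ ^ b) (jqModC k)) with hS
  have hinj : Set.InjOn (fun b => tw (D.ζ ^ b) (jqModC k)) (Finset.range p : Set ℕ) := by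
    intro b hb b' hb' h
    exact p1_tw_inj D (Finset.mem_range.mp hb) (Finset.mem_range.mp hb') h
  have hScard : S.card = p := by
    rw [hS, Finset.card_image_of_injOn hinj, Finset.card_range]
  have hSle : S.val ≤ H.roots := by
    rw [Multiset.le_iff_subset S.nodup]
    intro r hr
    rw [Finset.mem_val, hS, Finset.mem_image] at hr
    obtain ⟨b, -, rfl⟩ := hr
    rw [Polynomial.mem_roots hHmon.ne_zero, Polynomial.IsRoot.def, hH, Polynomial.eval_sub,
      Polynomial.eval_C, Polynomial.eval_map_algebraMap, p1_tw_root D hp P hP b, sub_self]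
  have hroots : S.val = H.roots := by
    refine Multiset.eq_of_le_of_card_le hSle ?_
    calc Multiset.card H.roots ≤ H.natDegree := Polynomial.card_roots' H
      _ = p := hHdeg
      _ = Multiset.card S.val := hScard.symm
  have hprod := Polynomial.prod_multiset_X_sub_C_of_monic_of_roots_card_eq hHmon (by
    rw [← hroots, hHdeg]; exact hScard)
  rw [← hprod, ← hroots]
  change (S.val.map fun a => X - Polynomial.C a).prod = _
  rw [← Finset.prod_eq_multiset_prod, hS, Finset.prod_image hinj]

theorem p1_evY_injective (hp : p ≠ 0) :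
    Function.Injective (evY (Vq k p (jqModC k)) : Polynomial k → LaurentSeries k) := by
  intro a b h
  rw [evY_apply, evY_apply, ← p1_Vq_aeval, ← p1_Vq_aeval] at h
  exact p1_aeval_injective (Vq_injective hp h)

/-- **the shape of `Φ̄`**: `Φ̄(X, Y) = (X - P(Y)) (P(X) - Y)`. -/
theorem p1_phi_eq (D : PhiData k p) (hp : p ≠ 0) (P : Polynomial k)
    (hP : Vq k p (jqModC k) = Polynomial.aeval (jqModC k) P) :
    D.Φ = (X - Polynomial.C P) * (P.map (Polynomial.C : k →+* Polynomial k) - Polynomial.C X) := by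
  apply Polynomial.map_injective _ (p1_evY_injective (k := k) hp)
  rw [D.roots, Polynomial.map_mul, Polynomial.map_sub, Polynomial.map_sub, Polynomial.map_X,
    Polynomial.map_C, Polynomial.map_C, Polynomial.map_map, evY_X]
  have h1 : evY (Vq k p (jqModC k)) P = Vq k (p * p) (jqModC k) := by
    rw [evY_apply, ← p1_Vq_aeval, ← hP, Vq_Vq hp hp]
  have h2 : (evY (Vq k p (jqModC k))).comp (Polynomial.C : k →+* Polynomial k)
      = algebraMap k (LaurentSeries k) := by
    ext r
    rw [RingHom.comp_apply, evY_C]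
  rw [h1, h2, p1_factor D hp P hP]

theorem p1_eval_zero (P : Polynomial k) :
    ((X - Polynomial.C P) * (P.map (Polynomial.C : k →+* Polynomial k) - Polynomial.C X)
        : Polynomial (Polynomial k)).eval 0
      = P * (X - Polynomial.C (P.eval 0)) := by
  rw [Polynomial.eval_mul, Polynomial.eval_sub, Polynomial.eval_sub, Polynomial.eval_X,
    Polynomial.eval_C, Polynomial.eval_C, Polynomial.eval_zero_map]
  ring

theorem p1_eval_1728 (P : Polynomial k) :
    ((X - Polynomial.C P) * (P.map (Polynomial.C : k →+* Polynomial k) - Polynomial.C X)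
        : Polynomial (Polynomial k)).eval (Polynomial.C 1728)
      = (P - Polynomial.C 1728) * (X - Polynomial.C (P.eval 1728)) := by
  rw [Polynomial.eval_mul, Polynomial.eval_sub, Polynomial.eval_sub, Polynomial.eval_X,
    Polynomial.eval_C, Polynomial.eval_C, Polynomial.eval_map, Polynomial.eval₂_at_apply]
  ring

end front

/-! ### integrality: `V_p J ∈ k(J)` forces `V_p J ∈ k[J]` -/

section mem

open scoped IntermediateField.algebraAdjoinAdjoin

variable {k : Type} [Field k] {p : ℕ}

theorem p1_Vq_comp_evY (n : ℕ) (y : LaurentSeries k) :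
    (Vq k n).comp (evY y) = evY (Vq k n y) := by
  refine Polynomial.ringHom_ext (fun a => ?_) ?_
  · rw [RingHom.comp_apply, evY_C, evY_C, algebraMap_eq_C, Vq_C]
  · rw [RingHom.comp_apply, evY_X, evY_X]

/-- `Φ(V_p J, J) = 0`. -/
theorem p1_eval_Vq (hp : p ≠ 0) (D : PhiData k p) :
    (D.Φ.map (evY (jqModC k))).eval (Vq k p (jqModC k)) = 0 := by
  apply Vq_injective hp
  have hme : ∀ (Q : Polynomial (LaurentSeries k)) (x : LaurentSeries k),
      Vq k p (Q.eval x) = (Q.map (Vq k p)).eval (Vq k p x) := fun Q x => by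
    rw [Polynomial.eval_map, Polynomial.eval₂_at_apply]
  rw [map_zero, hme, Polynomial.map_map, p1_Vq_comp_evY, Vq_Vq hp hp, D.roots,
    Polynomial.eval_mul, Polynomial.eval_sub, Polynomial.eval_X, Polynomial.eval_C, sub_self,
    zero_mul]

/-- if `J(q^p) ∈ k(J)` then `J(q^p) ∈ k[J]` (it is integral over the integrally closed `k[J]`). -/
theorem p1_exists_poly_of_mem (hp : p.Prime) (D : PhiData k p)
    (h : Vq k p (jqModC k) ∈ K0 k) :
    ∃ P : Polynomial k, Polynomial.aeval (jqModC k) P = Vq k p (jqModC k) := by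
  have hUFD : UniqueFactorizationMonoid ↥(Algebra.adjoin k {jqModC k}) :=
    (p1_transcendental_J (k := k)).uniqueFactorizationMonoid_adjoin
  -- the generator of `k[J]`
  set g : ↥(Algebra.adjoin k {jqModC k}) :=
    ⟨jqModC k, Algebra.self_mem_adjoin_singleton k _⟩ with hg
  set f : Polynomial k →+* ↥(Algebra.adjoin k {jqModC k}) :=
    (Polynomial.aeval g).toRingHom with hf
  have hcomp : ((Algebra.adjoin k {jqModC k}).val.toRingHom).comp f = evY (jqModC k) := by
    refine Polynomial.ringHom_ext (fun a => ?_) ?_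
    · rw [RingHom.comp_apply, evY_C, hf]
      simp
    · rw [RingHom.comp_apply, evY_X, hf]
      simp [hg]
  have hint : IsIntegral ↥(Algebra.adjoin k {jqModC k})
      (⟨Vq k p (jqModC k), h⟩ : ↥(K0 k)) := by
    refine ⟨D.Φ.map f, D.monic.map f, ?_⟩
    apply Subtype.ext
    have h1 : ((Polynomial.eval₂ (algebraMap ↥(Algebra.adjoin k {jqModC k}) ↥(K0 k))
        (⟨Vq k p (jqModC k), h⟩ : ↥(K0 k)) (D.Φ.map f) : ↥(K0 k)) : LaurentSeries k)
        = Polynomial.eval₂ ((Algebra.adjoin k {jqModC k}).val.toRingHom)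
            (Vq k p (jqModC k)) (D.Φ.map f) := by
      have := Polynomial.hom_eval₂ (D.Φ.map f)
        (algebraMap ↥(Algebra.adjoin k {jqModC k}) ↥(K0 k))
        ((K0 k).val.toRingHom) (⟨Vq k p (jqModC k), h⟩ : ↥(K0 k))
      exact this
    rw [h1, Polynomial.eval₂_map, hcomp, ← Polynomial.eval_map, p1_eval_Vq hp.ne_zero D]
    rfl
  obtain ⟨y, hy⟩ := IsIntegrallyClosed.isIntegral_iff.mp hint
  have hy' : (y : LaurentSeries k) = Vq k p (jqModC k) := congrArg Subtype.val hy
  have hymem : (y : LaurentSeries k) ∈ (Polynomial.aeval (R := k) (jqModC k)).range := by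
    rw [← Algebra.adjoin_singleton_eq_range_aeval]
    exact y.2
  obtain ⟨P, hP⟩ := hymem
  exact ⟨P, hP.trans hy'⟩

/-- **(P1)** for characteristic `≠ 2, 3`: `J(q^p) ∉ k(J)`. -/
theorem p1_not_mem_of_six_ne_zero [IsAlgClosed k] (hp : p.Prime)
    (hpk : (p : k) ≠ 0) (h2 : (2 : k) ≠ 0) (h3 : (3 : k) ≠ 0) (D : PhiData k p) :
    Vq k p (jqModC k) ∉ K0 k := by
  intro hmem
  obtain ⟨P, hP⟩ := p1_exists_poly_of_mem hp D hmem
  obtain ⟨hn, hmon⟩ := p1_poly_natDegree hp.ne_zero P hP.symm
  have hΦ := p1_phi_eq D hp.ne_zero P hP.symm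
  have h1728 : (1728 : k) ≠ 0 := by
    have : (1728 : k) = 2 ^ 6 * 3 ^ 3 := by norm_num
    rw [this]
    exact mul_ne_zero (pow_ne_zero _ h2) (pow_ne_zero _ h3)
  refine pc_no_poly_of_mult h1728 p hp.two_le hpk P hmon hn ?_ ?_
  · have h := D.mult0
    rw [hΦ, p1_eval_zero] at h
    exact h
  · have h := D.mult1728
    rw [hΦ, p1_eval_1728] at h
    exact h

end mem

end

end Fermat.Agent.S28Lib
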