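/-
S28, chunk A1 (helper1): the modular polynomial `Φ_p` over `ℂ`, pointwise.

For a prime `p` the `p + 1` functions `j(pz)` and `j((z+b)/p)`, `b < p`, are permuted by
`SL₂(ℤ)`; hence the coefficients of `∏ (X - f_i)` are polynomials in `j`.
-/
import Fermat.Agent.Lib.S24.NormRel

set_option autoImplicit false

namespace Fermat.Agent.S28Lib

open UpperHalfPlane ModularForm CongruenceSubgroup MatrixGroups Filter Matrix.SpecialLinearGroup
open Polynomial
open scoped Manifold Topology Real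
open Fermat.Agent.LibS23 Fermat.Agent.S20Lib Fermat.Agent.S24Lib

/-- if `M₁ γ = γ' M₂` with `γ, γ' ∈ SL₂(ℤ)` then `j (M₁ (γ z)) = j (M₂ z)`. -/
theorem phiC_jAn_conj {M₁ M₂ : GL (Fin 2) ℝ} {γ γ' : SL(2, ℤ)}
    (h : M₁ * (mapGL ℝ γ) = (mapGL ℝ γ') * M₂) (z : ℍ) :
    jAn (M₁ • (γ • z)) = jAn (M₂ • z) := by
  have e : M₁ • (γ • z) = γ' • (M₂ • z) := by
    change M₁ • ((mapGL ℝ γ) • z) = (mapGL ℝ γ') • (M₂ • z)
    rw [← mul_smul, ← mul_smul, h]
  rw [e, jAn_smul]

/-! ### matrix identities -/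

theorem phiC_diag_T {p : ℕ} (hp : p ≠ 0) :
    heckeDiagMatrix p * (mapGL ℝ ModularGroup.T)
      = (mapGL ℝ (⟨!![1, (p : ℤ); 0, 1], by simp [Matrix.det_fin_two_of]⟩ : SL(2, ℤ)))
        * heckeDiagMatrix p := by
  apply Units.ext
  rw [Units.val_mul, Units.val_mul, val_heckeDiagMatrix hp]
  ext i j
  fin_cases i <;> fin_cases j <;>
    simp [mapGL_coe_matrix, Matrix.mul_apply, Fin.sum_univ_two, ModularGroup.coe_T]

theorem phiC_upper_T {p : ℕ} (hp : p ≠ 0) {b r c : ℕ} (h : b + 1 = r + c * p) :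
    heckeMatrix p b * (mapGL ℝ ModularGroup.T)
      = (mapGL ℝ (⟨!![1, (c : ℤ); 0, 1], by simp [Matrix.det_fin_two_of]⟩ : SL(2, ℤ)))
        * heckeMatrix p r := by
  have h' : (b : ℝ) + 1 = r + c * p := by exact_mod_cast h
  apply Units.ext
  rw [Units.val_mul, Units.val_mul, val_heckeMatrix hp, val_heckeMatrix hp]
  ext i j
  fin_cases i <;> fin_cases j <;>
    simp [mapGL_coe_matrix, Matrix.mul_apply, Fin.sum_univ_two, ModularGroup.coe_T]
  linarith

theorem phiC_diag_S {p : ℕ} (hp : p ≠ 0) :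
    heckeDiagMatrix p * (mapGL ℝ ModularGroup.S)
      = (mapGL ℝ ModularGroup.S) * heckeMatrix p 0 := by
  apply Units.ext
  rw [Units.val_mul, Units.val_mul, val_heckeDiagMatrix hp, val_heckeMatrix hp]
  ext i j
  fin_cases i <;> fin_cases j <;>
    simp [mapGL_coe_matrix, Matrix.mul_apply, Fin.sum_univ_two, ModularGroup.coe_S]

theorem phiC_upper_zero_S {p : ℕ} (hp : p ≠ 0) :
    heckeMatrix p 0 * (mapGL ℝ ModularGroup.S)
      = (mapGL ℝ ModularGroup.S) * heckeDiagMatrix p := by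
  apply Units.ext
  rw [Units.val_mul, Units.val_mul, val_heckeDiagMatrix hp, val_heckeMatrix hp]
  ext i j
  fin_cases i <;> fin_cases j <;>
    simp [mapGL_coe_matrix, Matrix.mul_apply, Fin.sum_univ_two, ModularGroup.coe_S]

theorem phiC_upper_S {p : ℕ} (hp : p ≠ 0) {b b' : ℕ} {m : ℤ}
    (h : (b : ℤ) * b' + 1 = m * p) :
    heckeMatrix p b * (mapGL ℝ ModularGroup.S)
      = (mapGL ℝ (⟨!![(b : ℤ), -m; (p : ℤ), -(b' : ℤ)], by
          rw [Matrix.det_fin_two_of]; linarith⟩ : SL(2, ℤ)))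
        * heckeMatrix p b' := by
  have h' : (b : ℝ) * b' + 1 = m * p := by exact_mod_cast h
  apply Units.ext
  rw [Units.val_mul, Units.val_mul, val_heckeMatrix hp, val_heckeMatrix hp]
  ext i j
  fin_cases i <;> fin_cases j <;>
    simp [mapGL_coe_matrix, Matrix.mul_apply, Fin.sum_univ_two, ModularGroup.coe_S]
  · linarith
  · ring

/-! ### the explicit family -/

/-- `none ↦ j(pz)`, `some b ↦ j((z+b)/p)`. -/
noncomputable def phiC_fam (p : ℕ) : Option (ZMod p) → ℍ → ℂ
  | none => fun z => jAn (heckeDiagMatrix p • z)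
  | some b => fun z => jAn (heckeMatrix p b.val • z)

theorem phiC_fam_none (p : ℕ) (z : ℍ) : phiC_fam p none z = jAn (heckeDiagMatrix p • z) := rfl

theorem phiC_fam_some (p : ℕ) (b : ZMod p) (z : ℍ) :
    phiC_fam p (some b) z = jAn (heckeMatrix p b.val • z) := rfl

theorem phiC_fam_T (p : ℕ) [NeZero p] (i : Option (ZMod p)) (z : ℍ) :
    phiC_fam p i (ModularGroup.T • z) = phiC_fam p (i.map (· + 1)) z := by
  cases i with
  | none => exact phiC_jAn_conj (phiC_diag_T (NeZero.ne p)) z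
  | some b =>
    refine phiC_jAn_conj (phiC_upper_T (NeZero.ne p) (c := (b.val + 1) / p) ?_) z
    rw [ZMod.val_add, ZMod.val_one_eq_one_mod, Nat.add_mod_mod]
    exact (Nat.mod_add_div' _ _).symm

/-- the permutation of the family induced by `S`. -/
noncomputable def phiC_sigmaS (p : ℕ) : Option (ZMod p) → Option (ZMod p)
  | none => some 0
  | some b => if b = 0 then none else some (-b⁻¹)

theorem phiC_sigmaS_invol (p : ℕ) [Fact p.Prime] : Function.Involutive (phiC_sigmaS p) := by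
  intro i
  cases i with
  | none => simp [phiC_sigmaS]
  | some b =>
    by_cases hb : b = 0
    · simp [phiC_sigmaS, hb]
    · have h1 : -b⁻¹ ≠ 0 := neg_ne_zero.mpr (inv_ne_zero hb)
      simp [phiC_sigmaS, hb, h1, inv_neg]

theorem phiC_fam_S (p : ℕ) [Fact p.Prime] (i : Option (ZMod p)) (z : ℍ) :
    phiC_fam p i (ModularGroup.S • z) = phiC_fam p (phiC_sigmaS p i) z := by
  have hp : p ≠ 0 := (Fact.out : p.Prime).ne_zero
  haveI : NeZero p := ⟨hp⟩
  cases i with
  | none =>
    have h := phiC_jAn_conj (phiC_diag_S hp) z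
    simpa [phiC_fam, phiC_sigmaS] using h
  | some b =>
    by_cases hb : b = 0
    · subst hb
      have h := phiC_jAn_conj (phiC_upper_zero_S hp) z
      simpa [phiC_fam, phiC_sigmaS] using h
    · have hz : ((b.val * (-b⁻¹).val + 1 : ℕ) : ZMod p) = 0 := by
        push_cast
        rw [ZMod.natCast_zmod_val, ZMod.natCast_zmod_val, mul_neg, mul_inv_cancel₀ hb]
        ring
      obtain ⟨m, hm⟩ := (ZMod.natCast_eq_zero_iff _ _).mp hz
      have hm' : ((b.val : ℕ) : ℤ) * ((-b⁻¹).val : ℕ) + 1 = (m : ℤ) * p := by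
        have : ((b.val * (-b⁻¹).val + 1 : ℕ) : ℤ) = ((p * m : ℕ) : ℤ) := by rw [hm]
        push_cast at this
        linarith
      have h := phiC_jAn_conj (phiC_upper_S hp hm') z
      simpa [phiC_fam, phiC_sigmaS, hb] using h

/-- the polynomial `∏ (X - f_i(z))`. -/
noncomputable def phiC_prod (p : ℕ) [NeZero p] (z : ℍ) : ℂ[X] :=
  ∏ i : Option (ZMod p), (X - C (phiC_fam p i z))

theorem phiC_prod_T (p : ℕ) [NeZero p] (z : ℍ) :
    phiC_prod p (ModularGroup.T • z) = phiC_prod p z := by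
  unfold phiC_prod
  simp only [phiC_fam_T]
  exact Equiv.prod_comp (Equiv.optionCongr (Equiv.addRight (1 : ZMod p)))
    (fun i => X - C (phiC_fam p i z))

theorem phiC_prod_S (p : ℕ) [Fact p.Prime] [NeZero p] (z : ℍ) :
    phiC_prod p (ModularGroup.S • z) = phiC_prod p z := by
  unfold phiC_prod
  simp only [phiC_fam_S]
  exact Equiv.prod_comp (phiC_sigmaS_invol p).toPerm (fun i => X - C (phiC_fam p i z))

theorem phiC_prod_smul (p : ℕ) [Fact p.Prime] [NeZero p] (γ : SL(2, ℤ)) (z : ℍ) :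
    phiC_prod p (γ • z) = phiC_prod p z := by
  have hγ : γ ∈ Subgroup.closure ({ModularGroup.S, ModularGroup.T} : Set SL(2, ℤ)) := by
    rw [SpecialLinearGroup.SL2Z_generators]; trivial
  induction hγ using Subgroup.closure_induction generalizing z with
  | mem x hx =>
    rcases hx with rfl | rfl
    · exact phiC_prod_S p z
    · exact phiC_prod_T p z
  | one => rw [one_smul]
  | mul x y _ _ hx hy => rw [mul_smul, hx, hy]
  | inv x _ hx =>
    have := hx (x⁻¹ • z)
    rw [smul_inv_smul] at this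
    exact this.symm

/-! ### holomorphy and growth of the family -/

theorem phiC_heckeMatrix_eq_upper {p : ℕ} (hp : 0 < p) (n : ℕ) :
    heckeMatrix p n = upperTriangularGL 1 n p
      (mul_pos one_pos (Nat.cast_pos.mpr hp)).ne' := by
  simp [heckeMatrix, hp.ne']

theorem phiC_fam_mdiff (p : ℕ) [NeZero p] (i : Option (ZMod p)) : MDiff (phiC_fam p i) := by
  have hp : p ≠ 0 := NeZero.ne p
  cases i with
  | none => exact jLvl_mdiff p
  | some b =>
    have e : phiC_fam p (some b) = (p : ℂ) • (jAn ∣[(0 : ℤ)] heckeMatrix p b.val) := by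
      funext z
      rw [Pi.smul_apply, slash_heckeMatrix_apply 0 hp, phiC_fam_some, smul_eq_mul, ← mul_assoc,
        mul_inv_cancel₀ (by exact_mod_cast hp : (p : ℂ) ≠ 0), one_mul]
    rw [e]
    exact (jAn_mdiff.slash 0 _).const_smul _

theorem phiC_fam_modGrowth (p : ℕ) [NeZero p] (i : Option (ZMod p)) :
    ModGrowth (phiC_fam p i) := by
  have hp : 0 < p := Nat.pos_of_ne_zero (NeZero.ne p)
  have hpR : (0 : ℝ) < p := Nat.cast_pos.mpr hp
  cases i with
  | none =>
    refine ⟨p, ?_⟩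
    have h := bdd_discriminant_pow_mul_jAn_upper (p : ℝ) 0 1 hpR one_pos p (by simp)
    rw [← heckeDiagMatrix_eq_upper p hp] at h
    exact h
  | some b =>
    refine ⟨1, ?_⟩
    have h := bdd_discriminant_pow_mul_jAn_upper 1 (b.val : ℝ) (p : ℝ) one_pos hpR 1 (by
      rw [Nat.cast_one, div_le_one hpR]
      exact_mod_cast hp)
    rw [← phiC_heckeMatrix_eq_upper hp] at h
    exact h

theorem phiC_fam_mem_GRing (p : ℕ) [NeZero p] (i : Option (ZMod p)) : phiC_fam p i ∈ GRing :=
  ⟨phiC_fam_mdiff p i, phiC_fam_modGrowth p i⟩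

/-- the coefficient functions of `∏ (X - f_i)`. -/
noncomputable def phiC_coeffFun (p : ℕ) [NeZero p] (n : ℕ) (z : ℍ) : ℂ := (phiC_prod p z).coeff n

theorem phiC_coeffFun_mem_GRing (p : ℕ) [NeZero p] (n : ℕ) : phiC_coeffFun p n ∈ GRing := by
  set Q : Polynomial GRing :=
    ∏ i : Option (ZMod p), (X - C (⟨phiC_fam p i, phiC_fam_mem_GRing p i⟩ : GRing)) with hQ
  have key : ∀ z : ℍ, phiC_prod p z
      = Q.map ((Pi.evalRingHom (fun _ : ℍ => ℂ) z).comp GRing.subtype) := by
    intro z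
    rw [hQ, Polynomial.map_prod]
    unfold phiC_prod
    refine Finset.prod_congr rfl fun i _ => ?_
    rw [Polynomial.map_sub, Polynomial.map_X, Polynomial.map_C]
    rfl
  have e : phiC_coeffFun p n = ((Q.coeff n : GRing) : ℍ → ℂ) := by
    funext z
    rw [phiC_coeffFun, key z, Polynomial.coeff_map]
    rfl
  rw [e]
  exact (Q.coeff n).2

theorem phiC_coeffFun_smul (p : ℕ) [Fact p.Prime] [NeZero p] (n : ℕ) (γ : SL(2, ℤ)) (z : ℍ) :
    phiC_coeffFun p n (γ • z) = phiC_coeffFun p n z := by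
  rw [phiC_coeffFun, phiC_prod_smul, phiC_coeffFun]

theorem phiC_coeffFun_poly (p : ℕ) [Fact p.Prime] [NeZero p] (n : ℕ) :
    ∃ P : Polynomial ℂ, ∀ z, phiC_coeffFun p n z = P.eval (jAn z) :=
  jPoly_of_invariant (phiC_coeffFun_mem_GRing p n).1 (phiC_coeffFun_mem_GRing p n).2
    (phiC_coeffFun_smul p n)

theorem phiC_prod_monic (p : ℕ) [NeZero p] (z : ℍ) : (phiC_prod p z).Monic :=
  Polynomial.monic_prod_of_monic _ _ fun i _ => Polynomial.monic_X_sub_C _

theorem phiC_prod_natDegree (p : ℕ) [NeZero p] (z : ℍ) : (phiC_prod p z).natDegree = p + 1 := by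
  unfold phiC_prod
  rw [Polynomial.natDegree_prod_of_monic _ _ fun i _ => Polynomial.monic_X_sub_C _]
  simp [ZMod.card]

/-! ### the polynomial `Φ_p` -/

section main

variable (p : ℕ) [hpp : Fact p.Prime]

theorem phiC_neZero : NeZero p := ⟨hpp.out.ne_zero⟩

/-- chosen polynomial (in `j`) for the `n`-th coefficient function. -/
noncomputable def phiC_coeffPoly (n : ℕ) : Polynomial ℂ :=
  haveI := phiC_neZero p
  (phiC_coeffFun_poly p n).choose

theorem phiC_coeffPoly_spec (n : ℕ) (z : ℍ) :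
    haveI := phiC_neZero p
    phiC_coeffFun p n z = (phiC_coeffPoly p n).eval (jAn z) :=
  haveI := phiC_neZero p
  (phiC_coeffFun_poly p n).choose_spec z

/-- the lower part of `Φ_p`. -/
noncomputable def phiC_low : Polynomial (Polynomial ℂ) :=
  ∑ n ∈ Finset.range (p + 1), C (phiC_coeffPoly p n) * X ^ n

theorem phiC_low_degree_lt : (phiC_low p).degree < ((p + 1 : ℕ) : WithBot ℕ) := by
  unfold phiC_low
  refine (Polynomial.degree_sum_le _ _).trans_lt ?_
  rw [Finset.sup_lt_iff (WithBot.bot_lt_coe _)]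
  intro n hn
  refine (Polynomial.degree_C_mul_X_pow_le _ _).trans_lt ?_
  exact_mod_cast Finset.mem_range.mp hn

/-- **the modular polynomial `Φ_p ∈ ℂ[Y][X]`** (outer variable `X`: the conjugate of `j(pz)`;
inner variable `Y = j`). -/
noncomputable def phiC : Polynomial (Polynomial ℂ) := X ^ (p + 1) + phiC_low p

theorem phiC_monic : (phiC p).Monic := Polynomial.monic_X_pow_add (phiC_low_degree_lt p)

theorem phiC_natDegree : (phiC p).natDegree = p + 1 := by
  have h : (phiC p).degree = ((p + 1 : ℕ) : WithBot ℕ) := by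
    unfold phiC
    rw [Polynomial.degree_add_eq_left_of_degree_lt]
    · exact Polynomial.degree_X_pow _
    · rw [Polynomial.degree_X_pow]; exact phiC_low_degree_lt p
  exact Polynomial.natDegree_eq_of_degree_eq_some h

/-- pointwise: `Φ_p(X, j(z)) = ∏ (X - f_i(z))`. -/
theorem phiC_map_eval' (z : ℍ) :
    haveI := phiC_neZero p
    (phiC p).map (Polynomial.evalRingHom (jAn z)) = phiC_prod p z := by
  haveI := phiC_neZero p
  have h1 := (phiC_prod_monic p z).as_sum
  rw [phiC_prod_natDegree] at h1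
  rw [h1]
  unfold phiC phiC_low
  rw [Polynomial.map_add, Polynomial.map_pow, Polynomial.map_X, Polynomial.map_sum]
  congr 1
  refine Finset.sum_congr rfl fun n _ => ?_
  rw [Polynomial.map_mul, Polynomial.map_pow, Polynomial.map_X, Polynomial.map_C,
    Polynomial.coe_evalRingHom, ← phiC_coeffPoly_spec p n z]
  rfl

/-- **pointwise factorisation**: `Φ_p(X, j(z)) = (X - j(pz)) ∏_{b<p} (X - j((z+b)/p))`. -/
theorem phiC_map_eval (z : ℍ) :
    (phiC p).map (Polynomial.evalRingHom (jAn z))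
      = (X - C (jAn (heckeDiagMatrix p • z)))
        * ∏ b ∈ Finset.range p, (X - C (jAn (heckeMatrix p b • z))) := by
  haveI := phiC_neZero p
  rw [phiC_map_eval']
  unfold phiC_prod
  rw [Fintype.prod_option]
  congr 1
  have hp : p ≠ 0 := hpp.out.ne_zero
  obtain ⟨n, rfl⟩ := Nat.exists_eq_succ_of_ne_zero hp
  exact Fin.prod_univ_eq_prod_range (fun b => X - C (jAn (heckeMatrix (n + 1) b • z))) (n + 1)

theorem phiC_exists : ∃ Φ : Polynomial (Polynomial ℂ), Φ.Monic ∧ Φ.natDegree = p + 1 ∧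
    ∀ z : ℍ, Φ.map (Polynomial.evalRingHom (jAn z))
      = (X - C (jAn (heckeDiagMatrix p • z)))
        * ∏ b ∈ Finset.range p, (X - C (jAn (heckeMatrix p b • z))) :=
  ⟨phiC p, phiC_monic p, phiC_natDegree p, phiC_map_eval p⟩

end main

end Fermat.Agent.S28Lib
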