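/-
S28, chunk A3 applied to `Φ_p` (helper1): every root `y ≠ 0` of `Φ_p(0, Y)` has multiplicity
divisible by `3`, every root `y ≠ 1728` of `Φ_p(1728, Y)` has even multiplicity.
(`OrdMult` by helper3 applied to the explicit family of `PhiC`.)
-/
import Fermat.Agent.Lib.S28.PhiC
import Fermat.Agent.Lib.S28.OrdMult
import Fermat.Agent.Lib.S24.HolBase

set_option autoImplicit false

namespace Fermat.Agent.S28Lib

open UpperHalfPlane ModularForm CongruenceSubgroup MatrixGroups Filter Matrix.SpecialLinearGroup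
open Polynomial
open scoped Manifold Topology Real
open Fermat.Agent.LibS23 Fermat.Agent.S20Lib Fermat.Agent.S24Lib

/-- the point maps `z ↦ pz`, `z ↦ (z+b)/p` of the family. -/
noncomputable def phiC_pt (p : ℕ) : Option (ZMod p) → ℍ → ℍ
  | none => fun z => heckeDiagMatrix p • z
  | some b => fun z => heckeMatrix p b.val • z

theorem phiC_fam_eq (p : ℕ) (i : Option (ZMod p)) (z : ℍ) :
    phiC_fam p i z = jAn (phiC_pt p i z) := by
  cases i <;> rfl

theorem phiC_pt_mdiff (p : ℕ) (i : Option (ZMod p)) : MDiff (phiC_pt p i) := by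
  cases i with
  | none => exact UpperHalfPlane.mdifferentiable_smul (det_heckeDiagMatrix_pos p)
  | some b => exact UpperHalfPlane.mdifferentiable_smul (det_heckeMatrix_pos p _)

/-- every point is in the image of every point map. -/
theorem phiC_pt_surj (p : ℕ) (i : Option (ZMod p)) (z : ℍ) : ∃ w : ℍ, phiC_pt p i w = z := by
  cases i with
  | none => exact ⟨(heckeDiagMatrix p)⁻¹ • z, smul_inv_smul _ _⟩
  | some b => exact ⟨(heckeMatrix p b.val)⁻¹ • z, smul_inv_smul _ _⟩

section main

variable (p : ℕ) [hpp : Fact p.Prime]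

theorem phiC_eval_zero_eval (w : ℍ) :
    ((phiC p).eval 0).eval (jAn w)
      = (-1) ^ (p + 1) * ∏ i ∈ (Finset.univ : Finset (Option (ZMod p))), jAn (phiC_pt p i w) := by
  haveI := phiC_neZero p
  have h1 : ((phiC p).eval 0).eval (jAn w)
      = ((phiC p).map (Polynomial.evalRingHom (jAn w))).eval 0 := by
    rw [Polynomial.eval_zero_map]; rfl
  rw [h1, phiC_map_eval']
  unfold phiC_prod
  rw [Polynomial.eval_prod]
  simp only [Polynomial.eval_sub, Polynomial.eval_X, Polynomial.eval_C, zero_sub, phiC_fam_eq]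
  rw [Finset.prod_neg]
  simp [ZMod.card]

theorem phiC_eval_1728_eval (w : ℍ) :
    ((phiC p).eval (C 1728)).eval (jAn w)
      = (-1) ^ (p + 1)
        * ∏ i ∈ (Finset.univ : Finset (Option (ZMod p))), (jAn (phiC_pt p i w) - 1728) := by
  haveI := phiC_neZero p
  have h1 : ((phiC p).eval (C 1728)).eval (jAn w)
      = ((phiC p).map (Polynomial.evalRingHom (jAn w))).eval 1728 := by
    rw [Polynomial.eval_map]
    have h2 := Polynomial.eval₂_at_apply (p := phiC p) (Polynomial.evalRingHom (jAn w))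
      (C 1728 : Polynomial ℂ)
    rw [Polynomial.coe_evalRingHom, Polynomial.eval_C] at h2
    exact h2.symm
  rw [h1, phiC_map_eval']
  unfold phiC_prod
  rw [Polynomial.eval_prod]
  simp only [Polynomial.eval_sub, Polynomial.eval_X, Polynomial.eval_C, phiC_fam_eq]
  have : ∀ i : Option (ZMod p), (1728 : ℂ) - jAn (phiC_pt p i w)
      = -(jAn (phiC_pt p i w) - 1728) := fun i => by ring
  rw [Finset.prod_congr rfl fun i _ => this i, Finset.prod_neg]
  simp [ZMod.card]

theorem phiC_eval_zero_ne_zero : (phiC p).eval 0 ≠ 0 := by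
  haveI := phiC_neZero p
  intro h0
  have hz : ∀ w : ℍ, ∏ i : Option (ZMod p), jAn (phiC_pt p i w) = 0 := by
    intro w
    have h := phiC_eval_zero_eval p w
    rw [h0, Polynomial.eval_zero] at h
    rcases mul_eq_zero.mp h.symm with h | h
    · exact absurd h (pow_ne_zero _ (by norm_num))
    · exact h
  have hH : ∏ i : Option (ZMod p),
      holMk (fun w => jAn (phiC_pt p i w)) (jAn_mdiff.comp (phiC_pt_mdiff p i)) = 0 := by
    apply Hol.ext
    intro w
    have : ((∏ i : Option (ZMod p),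
        holMk (fun w => jAn (phiC_pt p i w)) (jAn_mdiff.comp (phiC_pt_mdiff p i)) : Hol) : ℍ → ℂ) w
        = ∏ i : Option (ZMod p), jAn (phiC_pt p i w) := by
      rw [← Subalgebra.coe_val, map_prod, Finset.prod_apply]
      rfl
    rw [this, hz w]
    rfl
  obtain ⟨i, -, hi⟩ := Finset.prod_eq_zero_iff.mp hH
  obtain ⟨z₀, hz₀⟩ := jAn_surjective 1
  obtain ⟨w, hw⟩ := phiC_pt_surj p i z₀
  have := congrArg (fun f : Hol => (f : ℍ → ℂ) w) hi
  simp only [holMk] at this
  rw [hw, hz₀] at this
  exact one_ne_zero this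

theorem phiC_eval_1728_ne_zero : (phiC p).eval (C 1728) ≠ 0 := by
  haveI := phiC_neZero p
  intro h0
  have hz : ∀ w : ℍ, ∏ i : Option (ZMod p), (jAn (phiC_pt p i w) - 1728) = 0 := by
    intro w
    have h := phiC_eval_1728_eval p w
    rw [h0, Polynomial.eval_zero] at h
    rcases mul_eq_zero.mp h.symm with h | h
    · exact absurd h (pow_ne_zero _ (by norm_num))
    · exact h
  have hmd : ∀ i : Option (ZMod p), MDiff (fun w => jAn (phiC_pt p i w) - 1728) := fun i =>
    (jAn_mdiff.comp (phiC_pt_mdiff p i)).sub mdifferentiable_const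
  have hH : ∏ i : Option (ZMod p),
      holMk (fun w => jAn (phiC_pt p i w) - 1728) (hmd i) = 0 := by
    apply Hol.ext
    intro w
    have : ((∏ i : Option (ZMod p),
        holMk (fun w => jAn (phiC_pt p i w) - 1728) (hmd i) : Hol) : ℍ → ℂ) w
        = ∏ i : Option (ZMod p), (jAn (phiC_pt p i w) - 1728) := by
      rw [← Subalgebra.coe_val, map_prod, Finset.prod_apply]
      rfl
    rw [this, hz w]
    rfl
  obtain ⟨i, -, hi⟩ := Finset.prod_eq_zero_iff.mp hH
  obtain ⟨z₀, hz₀⟩ := jAn_surjective 0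
  obtain ⟨w, hw⟩ := phiC_pt_surj p i z₀
  have := congrArg (fun f : Hol => (f : ℍ → ℂ) w) hi
  simp only [holMk] at this
  rw [hw, hz₀] at this
  norm_num at this

/-- **(M) at `0`**: every root `y ≠ 0` of `Φ_p(0, Y)` has multiplicity divisible by `3`. -/
theorem phiC_mult_zero (y : ℂ) (hy : y ≠ 0) : 3 ∣ ((phiC p).eval 0).rootMultiplicity y :=
  om_three_dvd Finset.univ (phiC_pt p) _ (phiC_eval_zero_ne_zero p)
    (fun i _ => phiC_pt_mdiff p i) ((-1) ^ (p + 1)) (pow_ne_zero _ (by norm_num))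
    (phiC_eval_zero_eval p) y hy

/-- **(M) at `1728`**: every root `y ≠ 1728` of `Φ_p(1728, Y)` has even multiplicity. -/
theorem phiC_mult_1728 (y : ℂ) (hy : y ≠ 1728) :
    2 ∣ ((phiC p).eval (C 1728)).rootMultiplicity y :=
  om_two_dvd Finset.univ (phiC_pt p) _ (phiC_eval_1728_ne_zero p)
    (fun i _ => phiC_pt_mdiff p i) ((-1) ^ (p + 1)) (pow_ne_zero _ (by norm_num))
    (phiC_eval_1728_eval p) y hy

end main

end Fermat.Agent.S28Lib
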