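import Fermat.Agent.Lib.S28.PhiC
import Fermat.Agent.Lib.S24.JAnSurj

/-!
# S28, chunk A4 (ℂ side): half of the symmetry of the modular polynomial

For the modular polynomial `phiC p ∈ ℂ[Y][X]` of `Lib/S28/PhiC.lean`:
`pm_swap`: `Φ_p(x, y) = 0 → Φ_p(y, x) = 0`.  Consequently every complex root of `Φ_p(c, Y)` is a
root of the monic polynomial `Φ_p(X, c)`.
-/

set_option autoImplicit false

namespace Fermat.Agent.S28Lib

open UpperHalfPlane ModularForm Polynomial
open scoped Manifold Topology
open Fermat.Agent.S24Lib Fermat.Agent.S20Lib Fermat.Agent.LibS23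

section

variable (p : ℕ) [hpp : Fact p.Prime]

/-- **half of the symmetry of `Φ_p`**: `Φ_p(x, y) = 0 → Φ_p(y, x) = 0`. -/
theorem pm_swap (x y : ℂ) (h : ((phiC p).map (evalRingHom y)).eval x = 0) :
    ((phiC p).map (evalRingHom x)).eval y = 0 := by
  have hp : p ≠ 0 := hpp.out.ne_zero
  have hpC : (p : ℂ) ≠ 0 := by exact_mod_cast hp
  obtain ⟨w, rfl⟩ := jAn_surjective y
  rw [phiC_map_eval, eval_mul, eval_prod] at h
  simp only [eval_sub, eval_X, eval_C, mul_eq_zero, sub_eq_zero, Finset.prod_eq_zero_iff,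
    Finset.mem_range] at h
  rcases h with h | ⟨b, hb, h⟩
  · -- `x = j(p w)`: the conjugate `b = 0` of `p w` is `w`
    rw [h, phiC_map_eval, eval_mul, eval_prod]
    refine mul_eq_zero_of_right _ (Finset.prod_eq_zero (i := 0)
      (Finset.mem_range.mpr (Nat.pos_of_ne_zero hp)) ?_)
    have e : heckeMatrix p 0 • (heckeDiagMatrix p • w) = w := by
      apply UpperHalfPlane.ext
      rw [coe_heckeMatrix_smul hp, coe_heckeDiagMatrix_smul hp]
      field_simp
      simp
    simp [e]
  · -- `x = j((w + b)/p)`: `p ((w + b)/p) = w + b`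
    rw [h, phiC_map_eval, eval_mul]
    refine mul_eq_zero_of_left ?_ _
    have e : heckeDiagMatrix p • (heckeMatrix p b • w) = (ModularGroup.T ^ (b : ℤ)) • w := by
      apply UpperHalfPlane.ext
      rw [coe_heckeDiagMatrix_smul hp, coe_heckeMatrix_smul hp, ModularGroup.coe_T_zpow_smul_eq]
      field_simp
      simp
    rw [eval_sub, eval_X, eval_C, e, jAn_smul, sub_self]

end

end Fermat.Agent.S28Lib
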