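import Mathlib

/-!
# S28, chunk A4 (part 1): the residue field `k = 𝓞/𝔪` of the ring of all algebraic integers

`𝓞 = integralClosure ℤ ℂ`.  For a prime `ℓ` there is a maximal ideal `𝔪 ∋ ℓ`; the quotient
`𝓞 ⧸ 𝔪` is an algebraically closed field of characteristic `ℓ`.  Primitive `p`-th roots of
unity (`p ≠ ℓ` prime) stay primitive, and multiplicity statements for the complex roots of a
polynomial over `𝓞` (whose complex roots are integral) pass to the residue field.

Everything here is Mathlib-only.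
-/

set_option autoImplicit false

namespace Fermat.Agent.S28Lib

open Polynomial

/-! ### generalities on `R[Y][X]` -/

/-- `Φ(a, y)` computed in the two possible orders. -/
theorem rf_eval_eval {R : Type*} [CommRing R] (Φ : R[X][X]) (a y : R) :
    (Φ.eval (C a)).eval y = (Φ.map (evalRingHom y)).eval a := by
  rw [eval_map, ← coe_evalRingHom y, ← eval₂_id (p := Φ), hom_eval₂]
  simp

/-- base change of `Φ(a, Y)`. -/
theorem rf_eval_C_map {R S : Type*} [CommRing R] [CommRing S] (f : R →+* S) (Φ : R[X][X])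
    (a : R) : (Φ.eval (C a)).map f = (Φ.map (mapRingHom f)).eval (C (f a)) := by
  rw [eval_map, ← coe_mapRingHom f, ← eval₂_id (p := Φ), hom_eval₂]
  simp

/-- base change of `Φ(X, y)`. -/
theorem rf_map_eval_map {R S : Type*} [CommRing R] [CommRing S] (f : R →+* S) (Φ : R[X][X])
    (y : R) : (Φ.map (evalRingHom y)).map f
      = (Φ.map (mapRingHom f)).map (evalRingHom (f y)) := by
  rw [map_map, map_map]
  congr 1
  refine Polynomial.ringHom_ext (fun a => ?_) ?_ <;> simp

/-! ### the residue field -/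

/-- there is a maximal ideal of the ring of algebraic integers containing `ℓ`. -/
theorem rf_exists_maximal (ℓ : ℕ) [Fact ℓ.Prime] :
    ∃ 𝔪 : Ideal (integralClosure ℤ ℂ), 𝔪.IsMaximal ∧ ((ℓ : ℕ) : integralClosure ℤ ℂ) ∈ 𝔪 := by
  have := Int.ideal_span_isMaximal_of_prime ℓ
  have hker : RingHom.ker (algebraMap ℤ (integralClosure ℤ ℂ)) ≤ Ideal.span {(ℓ : ℤ)} := by
    intro x hx
    rw [RingHom.mem_ker] at hx
    have : x = 0 := by
      have h1 : (algebraMap ℤ ℂ) x = 0 := by
        rw [IsScalarTower.algebraMap_apply ℤ (integralClosure ℤ ℂ) ℂ, hx, map_zero]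
      simpa using h1
    rw [this]
    exact Ideal.zero_mem _
  obtain ⟨Q, hQ, hQc⟩ := Ideal.exists_ideal_over_maximal_of_isIntegral
    (S := integralClosure ℤ ℂ) (Ideal.span {(ℓ : ℤ)}) hker
  refine ⟨Q, hQ, ?_⟩
  have h1 : (ℓ : ℤ) ∈ Q.comap (algebraMap ℤ (integralClosure ℤ ℂ)) := by
    rw [hQc]
    exact Ideal.subset_span rfl
  rw [Ideal.mem_comap] at h1
  simpa using h1

/-- the residue field has characteristic `ℓ`. -/
theorem rf_charP (ℓ : ℕ) [Fact ℓ.Prime] {A : Type*} [CommRing A] (𝔪 : Ideal A) [𝔪.IsMaximal]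
    (h : ((ℓ : ℕ) : A) ∈ 𝔪) : CharP (A ⧸ 𝔪) ℓ := by
  letI := Ideal.Quotient.field 𝔪
  rw [CharP.charP_iff_prime_eq_zero (Fact.out : ℓ.Prime)]
  have : ((ℓ : ℕ) : A ⧸ 𝔪) = Ideal.Quotient.mk 𝔪 ((ℓ : ℕ) : A) := by simp
  rw [this, Ideal.Quotient.eq_zero_iff_mem]
  exact h

/-- a complex root of a monic polynomial with algebraic-integer coefficients is an algebraic
integer. -/
theorem rf_isIntegral_of_root (F : (integralClosure ℤ ℂ)[X]) (hF : F.Monic) (x : ℂ)
    (hx : (F.map (algebraMap (integralClosure ℤ ℂ) ℂ)).eval x = 0) : IsIntegral ℤ x := by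
  have h1 : IsIntegral (integralClosure ℤ ℂ) x := ⟨F, hF, by rwa [eval_map] at hx⟩
  exact isIntegral_trans x h1

/-- the residue fields of the ring of all algebraic integers are algebraically closed. -/
theorem rf_isAlgClosed (𝔪 : Ideal (integralClosure ℤ ℂ)) [𝔪.IsMaximal] :
    letI := Ideal.Quotient.field 𝔪
    IsAlgClosed (integralClosure ℤ ℂ ⧸ 𝔪) := by
  letI := Ideal.Quotient.field 𝔪
  apply IsAlgClosed.of_exists_root
  intro f hf hirr
  have hlift : f ∈ Polynomial.lifts (Ideal.Quotient.mk 𝔪) := by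
    rw [Polynomial.mem_lifts]
    exact Polynomial.map_surjective _ Ideal.Quotient.mk_surjective f
  obtain ⟨F, hFf, hFdeg, hFm⟩ := Polynomial.lifts_and_natDegree_eq_and_monic hlift hf
  have hdeg : (F.map (algebraMap (integralClosure ℤ ℂ) ℂ)).degree ≠ 0 := by
    apply Polynomial.degree_ne_of_natDegree_ne
    rw [hFm.natDegree_map, hFdeg]
    exact hirr.natDegree_pos.ne'
  obtain ⟨x, hx⟩ := IsAlgClosed.exists_root (F.map (algebraMap (integralClosure ℤ ℂ) ℂ)) hdeg
  have hxi : IsIntegral ℤ x := rf_isIntegral_of_root F hFm x hx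
  refine ⟨Ideal.Quotient.mk 𝔪 ⟨x, hxi⟩, ?_⟩
  rw [← hFf, eval_map, eval₂_at_apply]
  have h0 : F.eval (⟨x, hxi⟩ : integralClosure ℤ ℂ) = 0 := by
    apply Subtype.ext
    have h1 : (algebraMap (integralClosure ℤ ℂ) ℂ) (F.eval (⟨x, hxi⟩ : integralClosure ℤ ℂ))
        = (F.map (algebraMap (integralClosure ℤ ℂ) ℂ)).eval x := by
      rw [eval_map, ← eval₂_at_apply]
      rfl
    rw [hx.eq_zero] at h1 
    exact h1
  rw [h0, map_zero]

/-! ### roots of unity -/

/-- a primitive `p`-th root of unity (`p` prime) stays primitive under a ring homomorphism to a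
domain in which `p ≠ 0`. -/
theorem rf_isPrimitiveRoot_map {A k : Type*} [CommRing A] [IsDomain A] [CommRing k] [IsDomain k]
    (π : A →+* k) (p : ℕ) (hp : p.Prime) (ζ : A) (hζ : IsPrimitiveRoot ζ p)
    (hpk : ((p : ℕ) : k) ≠ 0) : IsPrimitiveRoot (π ζ) p := by
  have h1 : (π ζ) ^ p = 1 := by rw [← map_pow, hζ.pow_eq_one, map_one]
  have h2 : π ζ ≠ 1 := by
    intro h
    obtain ⟨n, rfl⟩ := Nat.exists_eq_succ_of_ne_zero hp.ne_zero
    have h3 := hζ.prod_one_sub_pow_eq_order
    have h4 := congrArg π h3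
    rw [map_prod] at h4
    have hn : 0 < n := by
      have := hp.one_lt
      omega
    have h5 : ∏ i ∈ Finset.range n, π (1 - ζ ^ (i + 1)) = 0 := by
      apply Finset.prod_eq_zero (i := 0)
      · simpa using hn
      · simp [h]
    rw [h5] at h4
    apply hpk
    rw [h4]
    simp
  haveI : Fact p.Prime := ⟨hp⟩
  have h3 := orderOf_eq_prime h1 h2
  rw [← h3]
  exact IsPrimitiveRoot.orderOf (π ζ)

/-! ### transfer of root multiplicities -/

/-- root multiplicities of the image of a split polynomial. -/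
theorem rf_mult_transfer {A : Type*} [CommRing A] {k : Type*} [Field k] (π : A →+* k)
    (u : A) (S : Multiset A) (n : ℕ) (a : A) [DecidableEq A]
    (hS : ∀ s ∈ S, s ≠ a → n ∣ S.count s) (z : k) (hz : z ≠ π a) :
    n ∣ ((C u * (S.map fun s => X - C s).prod).map π).rootMultiplicity z := by
  classical
  by_cases hu : π u = 0
  · have : (C u * (S.map fun s => X - C s).prod).map π = 0 := by
      rw [Polynomial.map_mul, Polynomial.map_C, hu, C_0, zero_mul]
    rw [this, rootMultiplicity_zero]
    exact dvd_zero n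
  · have e : (C u * (S.map fun s => X - C s).prod).map π
        = C (π u) * ((S.map π).map fun t => X - C t).prod := by
      rw [Polynomial.map_mul, Polynomial.map_C, Polynomial.map_multiset_prod, Multiset.map_map,
        Multiset.map_map]
      congr 2
      refine Multiset.map_congr rfl fun s _ => ?_
      simp
    rw [e, ← count_roots, roots_C_mul _ hu, roots_multiset_prod_X_sub_C, Multiset.count_map,
      ← Multiset.toFinset_sum_count_eq]
    refine Finset.dvd_sum fun t ht => ?_
    rw [Multiset.mem_toFinset, Multiset.mem_filter] at ht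
    rw [Multiset.count_filter_of_pos (p := fun a => z = π a) ht.2]
    refine hS t ht.1 ?_
    rintro rfl
    exact hz ht.2

/-- a polynomial over the algebraic integers all of whose complex roots are algebraic integers
splits over the algebraic integers. -/
theorem rf_factor (Q : (integralClosure ℤ ℂ)[X])
    (hroots : ∀ y : ℂ, (Q.map (algebraMap (integralClosure ℤ ℂ) ℂ)).eval y = 0 → IsIntegral ℤ y) :
    ∃ S : Multiset (integralClosure ℤ ℂ),
      Q = C Q.leadingCoeff * (S.map fun s => X - C s).prod ∧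
      ∀ s : integralClosure ℤ ℂ, S.count s
        = (Q.map (algebraMap (integralClosure ℤ ℂ) ℂ)).rootMultiplicity (s : ℂ) := by
  classical
  set f := algebraMap (integralClosure ℤ ℂ) ℂ with hf
  have hinj : Function.Injective f := Subtype.coe_injective
  by_cases hQ : Q = 0
  · refine ⟨0, by simp [hQ], fun s => by simp [hQ]⟩
  have hQc : Q.map f ≠ 0 := (Polynomial.map_ne_zero_iff hinj).mpr hQ
  have hmem : ∀ y ∈ (Q.map f).roots, y ∈ integralClosure ℤ ℂ := fun y hy =>
    hroots y ((Polynomial.mem_roots hQc).mp hy)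
  set S : Multiset (integralClosure ℤ ℂ) :=
    (Q.map f).roots.pmap (fun y hy => (⟨y, hy⟩ : integralClosure ℤ ℂ)) hmem with hSdef
  have hSmap : S.map f = (Q.map f).roots := by
    rw [hSdef, Multiset.map_pmap]
    have : ∀ (y : ℂ) (hy : y ∈ integralClosure ℤ ℂ), f (⟨y, hy⟩ : integralClosure ℤ ℂ) = y :=
      fun y hy => rfl
    simp only [this]
    rw [Multiset.pmap_eq_map, Multiset.map_id']
  refine ⟨S, ?_, fun s => ?_⟩
  · apply Polynomial.map_injective f hinj
    have h1 := (IsAlgClosed.splits (Q.map f)).eq_prod_roots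
    rw [Polynomial.map_mul, Polynomial.map_C, Polynomial.map_multiset_prod, Multiset.map_map]
    rw [Polynomial.leadingCoeff_map_of_injective hinj] at h1
    conv_lhs => rw [h1]
    rw [← hSmap, Multiset.map_map]
    congr 2
    refine Multiset.map_congr rfl fun s _ => ?_
    simp
  · rw [← count_roots, ← hSmap]
    exact (Multiset.count_map_eq_count' f S hinj s).symm

/-- **transfer of multiplicities**: if every complex root `y ≠ a` of `Q` has multiplicity
divisible by `n` (and all complex roots of `Q` are algebraic integers), then every root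
`z ≠ π a` of the image of `Q` under `π : 𝓞 →+* k` has multiplicity divisible by `n`. -/
theorem rf_mult_of_complex (Q : (integralClosure ℤ ℂ)[X])
    (hroots : ∀ y : ℂ, (Q.map (algebraMap (integralClosure ℤ ℂ) ℂ)).eval y = 0 → IsIntegral ℤ y)
    (a : integralClosure ℤ ℂ) (n : ℕ)
    (hM : ∀ y : ℂ, y ≠ (a : ℂ) →
      n ∣ (Q.map (algebraMap (integralClosure ℤ ℂ) ℂ)).rootMultiplicity y)
    {k : Type*} [Field k] (π : integralClosure ℤ ℂ →+* k) (z : k) (hz : z ≠ π a) :
    n ∣ (Q.map π).rootMultiplicity z := by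
  classical
  obtain ⟨S, hS, hcount⟩ := rf_factor Q hroots
  rw [hS]
  refine rf_mult_transfer π _ S n a (fun s _ hsa => ?_) z hz
  rw [hcount]
  exact hM _ fun h => hsa (Subtype.ext h)

end Fermat.Agent.S28Lib
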