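import Fermat.Agent.Lib.S28.Base
import Fermat.Agent.Lib.S28.PhiMult
import Fermat.Agent.Lib.S28.PhiSwap
import Fermat.Agent.Lib.S28.ResField

/-!
# S28, chunk A4: the modular polynomials over the residue field `k = 𝓞/𝔪`

`𝓞 = integralClosure ℤ ℂ`, `𝔪` a maximal ideal containing `ℓ`.  Given the modular polynomial
`Φ_p` with coefficients in `𝓞` and its root factorisation in `𝓞((q))[X]` (chunk A2), we reduce
modulo `𝔪` and obtain `PhiData (𝓞 ⧸ 𝔪) p` for every prime `p ≠ ℓ`
(`a4_phiData`); the multiplicity facts come from `phiC_mult_zero`, `phiC_mult_1728` over `ℂ`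
through `rf_mult_of_complex`, the integrality of the complex roots from `pm_swap`.
-/

set_option autoImplicit false

namespace Fermat.Agent.S28Lib

open HahnSeries ModularCurve Polynomial

noncomputable section

/-- `coeffMap` commutes with the evaluation of the inner variable. -/
theorem a4_coeffMap_comp_evY {R S : Type*} [CommRing R] [CommRing S] (φ : R →+* S)
    (y : LaurentSeries R) :
    (coeffMap φ).comp (evY y) = (evY (coeffMap φ y)).comp (Polynomial.mapRingHom φ) := by
  refine Polynomial.ringHom_ext (fun a => ?_) ?_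
  · simp only [RingHom.comp_apply, evY_C, algebraMap_eq_C, Polynomial.coe_mapRingHom,
      Polynomial.map_C]
    rw [HahnSeries.C_apply, coeffMap_single, HahnSeries.C_apply]
  · simp

/-- the hypothesis delivered by chunk A2 for the prime `p`. -/
def a4_Hyp (p : ℕ) [Fact p.Prime] : Prop :=
  ∃ (Φo : Polynomial (Polynomial ↥(integralClosure ℤ ℂ))) (ζ : (↥(integralClosure ℤ ℂ))ˣ),
    Φo.map (Polynomial.mapRingHom (algebraMap ↥(integralClosure ℤ ℂ) ℂ)) = phiC p ∧
    IsPrimitiveRoot ζ p ∧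
    Φo.map (evY (Vq ↥(integralClosure ℤ ℂ) p (jqModC ↥(integralClosure ℤ ℂ)))) =
      (X - Polynomial.C (Vq ↥(integralClosure ℤ ℂ) (p * p) (jqModC ↥(integralClosure ℤ ℂ)))) *
        ∏ b ∈ Finset.range p,
          (X - Polynomial.C (tw (ζ ^ b) (jqModC ↥(integralClosure ℤ ℂ))))

section transfer

variable (p : ℕ) [hpp : Fact p.Prime]
  (Φo : Polynomial (Polynomial ↥(integralClosure ℤ ℂ)))
  (hmap : Φo.map (Polynomial.mapRingHom (algebraMap ↥(integralClosure ℤ ℂ) ℂ)) = phiC p)

include hmap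

theorem a4_monic : Φo.Monic := by
  have hinj : Function.Injective
      (Polynomial.mapRingHom (algebraMap ↥(integralClosure ℤ ℂ) ℂ)) := by
    rw [Polynomial.coe_mapRingHom]
    exact Polynomial.map_injective _ Subtype.coe_injective
  apply Polynomial.monic_of_injective hinj
  rw [hmap]
  exact phiC_monic p

theorem a4_natDegree : Φo.natDegree = p + 1 := by
  have hinj : Function.Injective
      (Polynomial.mapRingHom (algebraMap ↥(integralClosure ℤ ℂ) ℂ)) := by
    rw [Polynomial.coe_mapRingHom]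
    exact Polynomial.map_injective _ Subtype.coe_injective
  rw [← Polynomial.natDegree_map_eq_of_injective hinj, hmap]
  exact phiC_natDegree p

/-- the complex roots of `Φ_p(c, Y)`, `c ∈ 𝓞`, are algebraic integers. -/
theorem a4_roots_integral (c : ↥(integralClosure ℤ ℂ)) (y : ℂ)
    (hy : ((Φo.eval (Polynomial.C c)).map (algebraMap ↥(integralClosure ℤ ℂ) ℂ)).eval y = 0) :
    IsIntegral ℤ y := by
  rw [rf_eval_C_map, hmap, rf_eval_eval] at hy
  have h2 := pm_swap p _ _ hy
  have hm : (Φo.map (Polynomial.evalRingHom c)).Monic := (a4_monic p Φo hmap).map _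
  refine rf_isIntegral_of_root _ hm y ?_
  rw [rf_map_eval_map, hmap]
  exact h2

/-- the multiplicity facts over any residue field of `𝓞`. -/
theorem a4_mult0 {k : Type*} [Field k] (π : ↥(integralClosure ℤ ℂ) →+* k) (z : k) (hz : z ≠ 0) :
    3 ∣ ((Φo.map (Polynomial.mapRingHom π)).eval 0).rootMultiplicity z := by
  have e : (Φo.map (Polynomial.mapRingHom π)).eval 0 = (Φo.eval (Polynomial.C 0)).map π := by
    rw [rf_eval_C_map, map_zero, Polynomial.C_0]
  rw [e]
  refine rf_mult_of_complex _ (a4_roots_integral p Φo hmap 0) 0 3 (fun y hy => ?_) π z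
    (by rwa [map_zero])
  rw [rf_eval_C_map, hmap, map_zero, Polynomial.C_0]
  exact phiC_mult_zero p y (by simpa using hy)

theorem a4_mult1728 {k : Type*} [Field k] (π : ↥(integralClosure ℤ ℂ) →+* k) (z : k)
    (hz : z ≠ 1728) :
    2 ∣ ((Φo.map (Polynomial.mapRingHom π)).eval (Polynomial.C 1728)).rootMultiplicity z := by
  have h1 : π 1728 = 1728 := map_ofNat π 1728
  have h2 : ((1728 : ↥(integralClosure ℤ ℂ)) : ℂ) = 1728 :=
    map_ofNat (algebraMap ↥(integralClosure ℤ ℂ) ℂ) 1728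
  have e : (Φo.map (Polynomial.mapRingHom π)).eval (Polynomial.C 1728)
      = (Φo.eval (Polynomial.C 1728)).map π := by
    rw [rf_eval_C_map, h1]
  rw [e]
  refine rf_mult_of_complex _ (a4_roots_integral p Φo hmap 1728) 1728 2 (fun y hy => ?_) π z
    (by rwa [h1])
  have e2 : (Φo.eval (Polynomial.C 1728)).map (algebraMap ↥(integralClosure ℤ ℂ) ℂ)
      = (phiC p).eval (Polynomial.C 1728) := by
    rw [rf_eval_C_map, hmap]
    congr 2
  rw [e2]
  exact phiC_mult_1728 p y (by rwa [h2] at hy)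

end transfer

/-- reduction of the root factorisation. -/
theorem a4_roots {R S : Type*} [CommRing R] [CommRing S] (φ : R →+* S) (p : ℕ)
    (Φo : Polynomial (Polynomial R)) (ζ : Rˣ)
    (hR : Φo.map (evY (Vq R p (jqModC R))) =
      (X - Polynomial.C (Vq R (p * p) (jqModC R))) *
        ∏ b ∈ Finset.range p, (X - Polynomial.C (tw (ζ ^ b) (jqModC R)))) :
    (Φo.map (Polynomial.mapRingHom φ)).map (evY (Vq S p (jqModC S))) =
      (X - Polynomial.C (Vq S (p * p) (jqModC S))) *
        ∏ b ∈ Finset.range p,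
          (X - Polynomial.C (tw ((Units.map (φ : R →* S) ζ) ^ b) (jqModC S))) := by
  have h := congrArg (Polynomial.map (coeffMap φ)) hR
  rw [Polynomial.map_map, a4_coeffMap_comp_evY, ← Polynomial.map_map, coeffMap_Vq,
    coeffMap_jqModC] at h
  rw [h, Polynomial.map_mul, Polynomial.map_sub, Polynomial.map_X, Polynomial.map_C,
    Polynomial.map_prod, coeffMap_Vq, coeffMap_jqModC]
  congr 1
  refine Finset.prod_congr rfl fun b _ => ?_
  rw [Polynomial.map_sub, Polynomial.map_X, Polynomial.map_C, coeffMap_tw, coeffMap_jqModC,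
    map_pow]

/-- **A4**: `PhiData` over a field `k` receiving the ring of algebraic integers, for a prime `p`
invertible in `k`. -/
theorem a4_phiData {k : Type} [Field k] (π : ↥(integralClosure ℤ ℂ) →+* k) (p : ℕ)
    [Fact p.Prime] (hpk : ((p : ℕ) : k) ≠ 0) (hA2 : a4_Hyp p) : Nonempty (PhiData k p) := by
  obtain ⟨Φo, ζ, hmap, hprim, hR⟩ := hA2
  have hp : p.Prime := Fact.out
  have hmonic := a4_monic p Φo hmap
  have hprim' : IsPrimitiveRoot (Units.map (π : ↥(integralClosure ℤ ℂ) →* k) ζ) p := by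
    rw [← IsPrimitiveRoot.coe_units_iff]
    exact rf_isPrimitiveRoot_map π p hp (ζ : ↥(integralClosure ℤ ℂ))
      (IsPrimitiveRoot.coe_units_iff.mpr hprim) hpk
  exact ⟨{
    Φ := Φo.map (Polynomial.mapRingHom π)
    monic := hmonic.map _
    natDegree_eq := by rw [hmonic.natDegree_map, a4_natDegree p Φo hmap]
    ζ := Units.map (π : ↥(integralClosure ℤ ℂ) →* k) ζ
    prim := hprim'
    roots := a4_roots π p Φo ζ hR
    mult0 := a4_mult0 p Φo hmap π
    mult1728 := a4_mult1728 p Φo hmap π }⟩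

/-- **A4, final form** (parametrised by the output of chunk A2). -/
theorem a4_exists_field_phiData (hA2 : ∀ (p : ℕ) [Fact p.Prime], a4_Hyp p) (ℓ : ℕ)
    [Fact ℓ.Prime] :
    ∃ (k : Type) (_ : Field k) (_ : CharP k ℓ) (_ : IsAlgClosed k),
      ∀ p : ℕ, p.Prime → p ≠ ℓ → Nonempty (PhiData k p) := by
  obtain ⟨𝔪, h𝔪, hℓ⟩ := rf_exists_maximal ℓ
  letI : Field (↥(integralClosure ℤ ℂ) ⧸ 𝔪) := Ideal.Quotient.field 𝔪
  have hchar : CharP (↥(integralClosure ℤ ℂ) ⧸ 𝔪) ℓ := rf_charP ℓ 𝔪 hℓ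
  refine ⟨↥(integralClosure ℤ ℂ) ⧸ 𝔪, Ideal.Quotient.field 𝔪, hchar, rf_isAlgClosed 𝔪, ?_⟩
  intro p hp hpl
  haveI : Fact p.Prime := ⟨hp⟩
  refine a4_phiData (Ideal.Quotient.mk 𝔪) p ?_ (hA2 p)
  intro h0
  have hdvd := (CharP.cast_eq_zero_iff (↥(integralClosure ℤ ℂ) ⧸ 𝔪) ℓ p).mp h0
  exact hpl ((Nat.prime_dvd_prime_iff_eq (Fact.out : ℓ.Prime) hp).mp hdvd).symm

end

end Fermat.Agent.S28Lib
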