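/-
S28, chunk A2/A4 bridge (helper5): reduction of the integral modular polynomial along any ring
hom `φ : 𝓞 → k` into a field in which `p ≠ 0`: everything of `PhiData k p` except the two
multiplicity facts.
-/
import Fermat.Agent.Lib.S28.QXInt

set_option autoImplicit false

namespace Fermat.Agent.S28Lib

open ModularCurve Polynomial

/-- a primitive `p`-th root of unity (`p` prime) stays primitive under a ring hom into a domain
in which `p ≠ 0`. -/
theorem qx28_isPrimitiveRoot_map {R S : Type*} [CommRing R] [IsDomain R] [CommRing S] [IsDomain S]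
    (f : R →+* S) {p : ℕ} (hp : p.Prime) {ζ : R} (hζ : IsPrimitiveRoot ζ p) (hpS : (p : S) ≠ 0) :
    IsPrimitiveRoot (f ζ) p := by
  have : Fact p.Prime := ⟨hp⟩
  have h1 : f ζ ^ p = 1 := by rw [← map_pow, hζ.pow_eq_one, map_one]
  have h2 : f ζ ≠ 1 := by
    intro h
    have hs := congrArg f (hζ.geom_sum_eq_zero hp.one_lt)
    rw [map_sum, map_zero] at hs
    simp only [map_pow, h, one_pow, Finset.sum_const, Finset.card_range, nsmul_eq_mul,
      mul_one] at hs
    exact hpS hs
  have h3 := IsPrimitiveRoot.orderOf (f ζ)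
  rwa [orderOf_eq_prime h1 h2] at h3

set_option quotPrecheck false in
local notation "𝓞" => ↥(integralClosure ℤ ℂ)

/-- **reduction of (R)**: for a ring hom `φ : 𝓞 → k` into a field with `p ≠ 0`, the reduced
polynomial `Φ̄ = Φo.map φ` is monic of degree `p + 1` in `X` and
`Φ̄(X, J(q^p)) = (X - J(q^(p²))) ∏_{b<p} (X - J(ζ̄^b q))` in `k((q))[X]`, `ζ̄` a primitive `p`-th
root of unity of `k`. -/
theorem qx28_red (p : ℕ) [Fact p.Prime] {k : Type} [Field k] (φ : 𝓞 →+* k)
    (hpk : (p : k) ≠ 0) :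
    ∃ (Φo : Polynomial (Polynomial 𝓞)) (ζ : kˣ),
      Φo.map (Polynomial.mapRingHom (algebraMap 𝓞 ℂ)) = phiC p ∧
      (Φo.map (Polynomial.mapRingHom φ)).Monic ∧
      (Φo.map (Polynomial.mapRingHom φ)).natDegree = p + 1 ∧
      IsPrimitiveRoot ζ p ∧
      (Φo.map (Polynomial.mapRingHom φ)).map (evY (Vq k p (jqModC k))) =
        (X - C (Vq k (p * p) (jqModC k))) *
          ∏ b ∈ Finset.range p, (X - C (tw (ζ ^ b) (jqModC k))) ∧
      ∀ c : 𝓞, IsUnit (Φo.eval (C c)).leadingCoeff ∧ (Φo.eval (C c)).natDegree = p + 1 := by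
  obtain ⟨Φo, ζ, hmap, hmonic, hdeg, hprim, hroots, hunit⟩ := qx28_main p
  refine ⟨Φo, Units.map (φ : 𝓞 →* k) ζ, hmap, hmonic.map _, ?_, ?_, ?_, hunit⟩
  · rw [hmonic.natDegree_map, hdeg]
  · rw [← IsPrimitiveRoot.coe_units_iff, Units.coe_map]
    exact qx28_isPrimitiveRoot_map φ Fact.out (IsPrimitiveRoot.coe_units_iff.mpr hprim) hpk
  · have h := congrArg (Polynomial.map (coeffMap φ)) hroots
    rw [Polynomial.map_map, qx28_coeffMap_evY, ← Polynomial.map_map, coeffMap_Vq,
      coeffMap_jqModC] at h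
    rw [h, Polynomial.map_mul, Polynomial.map_sub, Polynomial.map_X, Polynomial.map_C,
      coeffMap_Vq, coeffMap_jqModC, Polynomial.map_prod]
    congr 1
    refine Finset.prod_congr rfl fun b _ => ?_
    rw [Polynomial.map_sub, Polynomial.map_X, Polynomial.map_C, coeffMap_tw, coeffMap_jqModC,
      map_pow]

end Fermat.Agent.S28Lib
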